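/-
S16 / chapter A, brick (A1): for every `k ≥ 1` there is a Hecke polynomial `P_k ∈ ℤ[X_ℓ]` whose
Eisenstein value is `σ'(k)` (sum of the divisors of `k` prime to `p`) and whose image in the Hecke
algebra of level `p` satisfies `a_1(P_k f) = a_k(f)` for every cusp form `f`.
-/
import Mathlib
import Fermat.Prelude.Def_CuspForm_HeckeEvalForms
import Fermat.Prelude.Def_CuspForm_HeckeLocal
import Fermat.Agent.S49.H25QCoeff

set_option autoImplicit false

namespace Fermat.Agent.S16.A1Tk4

open CuspForm ModularCurve ModularFormClass CongruenceSubgroup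

/-- `σ'(k)`: the sum of the divisors of `k` that are prime to `p`. -/
def sigmaP (p k : ℕ) : ℤ := ∑ d ∈ k.divisors.filter (fun d => ¬ p ∣ d), (d : ℤ)

section arith

variable {p : ℕ}

theorem sigmaP_one (hp : p.Prime) : sigmaP p 1 = 1 := by
  have : ¬ p ∣ 1 := hp.one_lt.ne' ∘ Nat.dvd_one.mp
  rw [sigmaP, Nat.divisors_one, Finset.filter_singleton, if_pos this, Finset.sum_singleton]
  rfl

/-- `σ'(k p) = σ'(k)`. -/
theorem sigmaP_mul_self (hp : p.Prime) {k : ℕ} (hk : k ≠ 0) : sigmaP p (k * p) = sigmaP p k := by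
  unfold sigmaP
  congr 1
  ext d
  simp only [Finset.mem_filter, Nat.mem_divisors]
  constructor
  · rintro ⟨⟨hd, -⟩, hpd⟩
    have hcop : Nat.Coprime d p := (Nat.Coprime.symm ((Nat.Prime.coprime_iff_not_dvd hp).mpr hpd))
    exact ⟨⟨hcop.dvd_of_dvd_mul_right hd, hk⟩, hpd⟩
  · rintro ⟨⟨hd, -⟩, hpd⟩
    exact ⟨⟨hd.mul_right p, mul_ne_zero hk hp.ne_zero⟩, hpd⟩

/-- `σ'(k l) + [l ∣ k] l σ'(k / l) = (1 + l) σ'(k)` for a prime `l ≠ p`. -/
theorem sigmaP_mul_prime (hp : p.Prime) {l : ℕ} (hl : l.Prime) (hlp : l ≠ p) {k : ℕ}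
    (hk : k ≠ 0) :
    sigmaP p (k * l) + (if l ∣ k then (l : ℤ) * sigmaP p (k / l) else 0)
      = (1 + (l : ℤ)) * sigmaP p k := by
  classical
  set g : ℕ → ℤ := fun d => if p ∣ d then 0 else (d : ℤ) with hg
  have hS : ∀ n : ℕ, sigmaP p n = ∑ d ∈ n.divisors, g d := by
    intro n
    rw [sigmaP, Finset.sum_filter]
    refine Finset.sum_congr rfl fun d _ => ?_
    simp only [hg]
    split_ifs <;> simp_all
  have hgl : ∀ d : ℕ, g (l * d) = (l : ℤ) * g d := by
    intro d
    simp only [hg]
    have : p ∣ l * d ↔ p ∣ d := by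
      rw [hp.dvd_mul]
      constructor
      · rintro (h | h)
        · exact absurd ((Nat.prime_dvd_prime_iff_eq hp hl).mp h).symm hlp
        · exact h
      · exact Or.inr
    by_cases hpd : p ∣ d
    · rw [if_pos (this.mpr hpd), if_pos hpd, mul_zero]
    · rw [if_neg (fun h => hpd (this.mp h)), if_neg hpd]
      push_cast; ring
  -- the set `A` of divisors `d` of `k` with `l d ∣ k`
  set A : Finset ℕ := k.divisors.filter (fun d => l * d ∣ k) with hA
  have hsplit : (k * l).divisors = k.divisors ∪ (k.divisors \ A).image (fun d => l * d) := by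
    ext d
    simp only [Finset.mem_union, Finset.mem_image, Finset.mem_sdiff, Nat.mem_divisors, hA,
      Finset.mem_filter, not_and]
    constructor
    · rintro ⟨hd, -⟩
      by_cases hdk : d ∣ k
      · exact Or.inl ⟨hdk, hk⟩
      · right
        have hld : l ∣ d := by
          by_contra hld
          have hcop : Nat.Coprime d l := (Nat.Coprime.symm ((Nat.Prime.coprime_iff_not_dvd hl).mpr hld))
          exact hdk (hcop.dvd_of_dvd_mul_right hd)
        obtain ⟨d', rfl⟩ := hld
        have hd'k : d' ∣ k := by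
          rw [mul_comm k l] at hd
          exact (Nat.mul_dvd_mul_iff_left hl.pos).mp hd
        exact ⟨d', ⟨⟨hd'k, hk⟩, fun _ => hdk⟩, rfl⟩
    · rintro (⟨hd, -⟩ | ⟨d', ⟨⟨hd', -⟩, -⟩, rfl⟩)
      · exact ⟨hd.mul_right l, mul_ne_zero hk hl.ne_zero⟩
      · rw [mul_comm k l]
        exact ⟨Nat.mul_dvd_mul_left l hd', mul_ne_zero hl.ne_zero hk⟩
  have hdisj : Disjoint k.divisors ((k.divisors \ A).image (fun d => l * d)) := by
    rw [Finset.disjoint_left]
    intro d hd hd2
    simp only [Finset.mem_image, Finset.mem_sdiff, Nat.mem_divisors, hA,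
      Finset.mem_filter, not_and] at hd hd2
    obtain ⟨d', ⟨⟨hd', -⟩, hnd⟩, rfl⟩ := hd2
    exact hnd ⟨hd', hk⟩ hd.1
  have hinj : Set.InjOn (fun d => l * d) (k.divisors \ A : Finset ℕ) :=
    fun a _ b _ hab => Nat.eq_of_mul_eq_mul_left hl.pos hab
  have hAsum : ∑ d ∈ A, g d = if l ∣ k then sigmaP p (k / l) else 0 := by
    split_ifs with hlk
    · rw [hS]
      refine Finset.sum_congr ?_ fun _ _ => rfl
      ext d
      simp only [hA, Finset.mem_filter, Nat.mem_divisors]
      constructor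
      · rintro ⟨⟨-, -⟩, hldk⟩
        refine ⟨(Nat.dvd_div_iff_mul_dvd hlk).mpr hldk, ?_⟩
        exact (Nat.div_pos (Nat.le_of_dvd (Nat.pos_of_ne_zero hk) hlk) hl.pos).ne'
      · rintro ⟨hd, -⟩
        have := (Nat.dvd_div_iff_mul_dvd hlk).mp hd
        exact ⟨⟨(Dvd.intro_left l rfl).trans this, hk⟩, this⟩
    · have : A = ∅ := by
        rw [hA, Finset.filter_eq_empty_iff]
        intro d _ hld
        exact hlk ((Dvd.intro d rfl).trans hld)
      rw [this, Finset.sum_empty]
  have hAsub : A ⊆ k.divisors := Finset.filter_subset _ _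
  have h1 : ∑ d ∈ k.divisors \ A, g d = sigmaP p k - ∑ d ∈ A, g d := by
    rw [hS, ← Finset.sum_sdiff hAsub]; ring
  rw [hS (k * l), hsplit, Finset.sum_union hdisj, Finset.sum_image hinj]
  simp only [hgl]
  rw [← Finset.mul_sum, h1, hAsum, ← hS]
  split_ifs <;> ring

end arith

section hecke

variable (p : ℕ) [Fact p.Prime]

/-- The operator on cusp forms attached to a Hecke polynomial. -/
noncomputable def opOf (P : HeckeAlg) : Module.End ℂ (CuspForm (Gamma0 p) 2) :=
  ((heckeEvalForms p 2 P : heckeAlgebra p 2 ∅) : Module.End ℂ (CuspForm (Gamma0 p) 2))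

theorem opOf_one : opOf p 1 = 1 := by
  simp [opOf]

theorem opOf_mul (P Q : HeckeAlg) : opOf p (P * Q) = opOf p P * opOf p Q := by
  simp [opOf]

theorem opOf_sub (P Q : HeckeAlg) : opOf p (P - Q) = opOf p P - opOf p Q := by
  simp [opOf]

theorem opOf_C_mul (c : ℤ) (P : HeckeAlg) : opOf p (MvPolynomial.C c * P) = c • opOf p P := by
  rw [opOf_mul]
  have : opOf p (MvPolynomial.C c) = c • (1 : Module.End ℂ (CuspForm (Gamma0 p) 2)) := by
    rw [opOf, heckeEvalForms_C]
    simp
  rw [this, smul_mul_assoc, one_mul]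

theorem opOf_X_of_not_dvd {l : Nat.Primes} (h : ¬ (l : ℕ) ∣ p) :
    opOf p (MvPolynomial.X l) = heckeTLin 2 l.2 h := by
  have := heckeEvalForms_heckeGen_of_not_dvd (N := p) (k := 2) h
  rw [heckeGen] at this
  rw [opOf, this, heckeAlgebra.coe_T]

theorem opOf_X_of_dvd {l : Nat.Primes} (h : (l : ℕ) ∣ p) :
    opOf p (MvPolynomial.X l) = heckeULin 2 h := by
  have := heckeEvalForms_heckeGen_of_dvd (N := p) (k := 2) h
  rw [heckeGen] at this
  rw [opOf, this, heckeAlgebra.coe_U]

open Fermat.Agent.S49.H25 in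
/-- **(A1)**. -/
theorem exists_heckePoly (k : ℕ) (hk : 1 ≤ k) :
    ∃ P : HeckeAlg, MvPolynomial.aeval (eisensteinSystem p) P = sigmaP p k ∧
      ∀ f : CuspForm (Gamma0 p) 2, qCoeff (opOf p P f) 1 = qCoeff f k := by
  have hp : p.Prime := Fact.out
  induction k using Nat.strong_induction_on with
  | _ k ih =>
    rcases Nat.eq_or_lt_of_le hk with h1 | h1
    · subst h1
      refine ⟨1, by rw [map_one, sigmaP_one hp], fun f => ?_⟩
      rw [opOf_one]; rfl
    · -- `k = k' * l`, `l` the least prime factor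
      have hl : (Nat.minFac k).Prime := Nat.minFac_prime (by omega)
      set l := Nat.minFac k with hldef
      obtain ⟨k', hk'⟩ : l ∣ k := Nat.minFac_dvd k
      have hk'pos : 1 ≤ k' := by
        rcases Nat.eq_zero_or_pos k' with h0 | h0
        · rw [h0, mul_zero] at hk'; omega
        · exact h0
      have hk'lt : k' < k := by
        rw [hk']
        calc k' = 1 * k' := (one_mul _).symm
          _ < l * k' := Nat.mul_lt_mul_of_pos_right hl.one_lt hk'pos
      have hkk : k = k' * l := by rw [hk', mul_comm]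
      obtain ⟨P', hP'e, hP'c⟩ := ih k' hk'lt hk'pos
      let L : Nat.Primes := ⟨l, hl⟩
      by_cases hlp : l ∣ p
      · -- `l = p`
        have hlp' : l = p := (Nat.prime_dvd_prime_iff_eq hl hp).mp hlp
        refine ⟨P' * MvPolynomial.X L, ?_, fun f => ?_⟩
        · rw [map_mul, hP'e, MvPolynomial.aeval_X,
            eisensteinSystem_of_dvd (N := p) (ℓ := L) hlp, mul_one, hkk, hlp',
            sigmaP_mul_self hp (by omega)]
        · rw [opOf_mul, Module.End.mul_apply, hP'c, opOf_X_of_dvd p (l := L) hlp,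
            qCoeff_heckeULin hl hlp, hkk]
      · have hlp' : l ≠ p := fun h => hlp (h ▸ dvd_rfl)
        have hrec := sigmaP_mul_prime hp hl hlp' (k := k') (by omega)
        by_cases hlk' : l ∣ k'
        · -- `P = P' X_l - l P''`
          have hk''pos : 1 ≤ k' / l :=
            Nat.div_pos (Nat.le_of_dvd hk'pos hlk') hl.pos
          have hk''lt : k' / l < k := lt_of_le_of_lt (Nat.div_le_self _ _) hk'lt
          obtain ⟨P'', hP''e, hP''c⟩ := ih (k' / l) hk''lt hk''pos
          refine ⟨P' * MvPolynomial.X L - MvPolynomial.C (l : ℤ) * P'', ?_, fun f => ?_⟩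
          · rw [map_sub, map_mul, map_mul, hP'e, hP''e, MvPolynomial.aeval_X,
              MvPolynomial.aeval_C, eisensteinSystem_of_not_dvd (N := p) (ℓ := L) hlp, hkk]
            rw [if_pos hlk'] at hrec
            simp only [algebraMap_int_eq, eq_intCast, Int.cast_natCast]
            linarith
          · rw [opOf_sub, LinearMap.sub_apply, qCoeff_sub, opOf_mul, Module.End.mul_apply, hP'c,
              opOf_X_of_not_dvd p (l := L) hlp, qCoeff_heckeTLin hl hlp, if_pos hlk',
              opOf_C_mul, LinearMap.smul_apply, qCoeff_zsmul, hP''c, hkk]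
            push_cast; ring
        · refine ⟨P' * MvPolynomial.X L, ?_, fun f => ?_⟩
          · rw [map_mul, hP'e, MvPolynomial.aeval_X,
              eisensteinSystem_of_not_dvd (N := p) (ℓ := L) hlp, hkk]
            rw [if_neg hlk'] at hrec
            linarith
          · rw [opOf_mul, Module.End.mul_apply, hP'c,
              opOf_X_of_not_dvd p (l := L) hlp, qCoeff_heckeTLin hl hlp, if_neg hlk', add_zero, hkk]

/-- The map of the statement of S16. -/
noncomputable def psiHom : HeckeAlg →+* ↥(heckeLatticeAlgebra p ∅) :=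
  (latticeRestrictHom p ∅).toRingHom.comp (heckeEvalForms p 2)

theorem coe_psiHom_apply (P : HeckeAlg) (f : ↥(intLattice p 2)) :
    ((((psiHom p P : ↥(heckeLatticeAlgebra p ∅)) : Module.End ℤ ↥(intLattice p 2)) f :
        ↥(intLattice p 2)) : CuspForm (Gamma0 p) 2) = opOf p P (f : CuspForm (Gamma0 p) 2) :=
  rfl

/-- **(A1)** on the lattice, in Prelude terms. -/
theorem exists_heckePoly_lattice (k : ℕ) (hk : 1 ≤ k) :
    ∃ P : HeckeAlg, MvPolynomial.aeval (eisensteinSystem p) P = sigmaP p k ∧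
      ∀ f : ↥(intLattice p 2),
        qCoeff ((((((latticeRestrictHom p ∅).toRingHom.comp (heckeEvalForms p 2) P :
          ↥(heckeLatticeAlgebra p ∅)) : Module.End ℤ ↥(intLattice p 2)) f :
            ↥(intLattice p 2)) : CuspForm (Gamma0 p) 2)) 1 = qCoeff (f : CuspForm (Gamma0 p) 2) k := by
  obtain ⟨P, hP, hc⟩ := exists_heckePoly p k hk
  exact ⟨P, hP, fun f => hc f⟩

end hecke

end Fermat.Agent.S16.A1Tk4
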