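import Mathlib

set_option autoImplicit false

/-!
# S16, chapter A (A3), abstract form: the perfect pairing `T × S → ℤ` (helper29)

`S` a finite free `ℤ`-module, `T` a commutative subalgebra of `End_ℤ S`, `a1 : S →ₗ[ℤ] ℤ` with
* (nondegenerate) `(∀ t ∈ T, a1 (t s) = 0) → s = 0`,
* (saturated) if `N ∣ a1 (t s)` for all `t ∈ T` then `s ∈ N • S`.
Then every `ℤ`-linear `lam : T → ℤ` is `t ↦ a1 (t s)` for a (unique) `s`.
-/

namespace Fermat.Agent.S16.PerfectPairing29

open Module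

variable {S : Type*} [AddCommGroup S]
variable (T : Subalgebra ℤ (Module.End ℤ S)) (a1 : S →ₗ[ℤ] ℤ)

/-- `s ↦ (t ↦ a1 (t s))`. -/
def toDual : S →ₗ[ℤ] (T →ₗ[ℤ] ℤ) where
  toFun s :=
    { toFun := fun t => a1 ((t : Module.End ℤ S) s)
      map_add' := fun t t' => by simp
      map_smul' := fun c t => by simp }
  map_add' s s' := by ext t; simp
  map_smul' c s := by ext t; simp

@[simp] theorem toDual_apply (s : S) (t : T) :
    toDual T a1 s t = a1 ((t : Module.End ℤ S) s) := rfl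

/-- `t ↦ (s ↦ a1 (t s))`. -/
def ofAlg : T →ₗ[ℤ] (S →ₗ[ℤ] ℤ) where
  toFun t := a1.comp (t : Module.End ℤ S)
  map_add' t t' := by ext s; simp
  map_smul' c t := by ext s; simp

@[simp] theorem ofAlg_apply (s : S) (t : T) :
    ofAlg T a1 t s = a1 ((t : Module.End ℤ S) s) := rfl

variable {T a1}

theorem toDual_injective (hnd : ∀ s : S, (∀ t : T, a1 ((t : Module.End ℤ S) s) = 0) → s = 0) :
    Function.Injective (toDual T a1) := by
  rw [injective_iff_map_eq_zero]
  intro s hs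
  exact hnd s fun t => by simpa using LinearMap.congr_fun hs t

theorem ofAlg_injective (hcomm : ∀ t t' : T, (t : Module.End ℤ S) * t' = t' * t)
    (hnd : ∀ s : S, (∀ t : T, a1 ((t : Module.End ℤ S) s) = 0) → s = 0) :
    Function.Injective (ofAlg T a1) := by
  rw [injective_iff_map_eq_zero]
  intro t ht
  apply Subtype.ext
  ext s
  simp only [ZeroMemClass.coe_zero, LinearMap.zero_apply]
  apply hnd
  intro t'
  have h1 : (t' : Module.End ℤ S) ((t : Module.End ℤ S) s)
      = (t : Module.End ℤ S) ((t' : Module.End ℤ S) s) := by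
    have := congrArg (fun f : Module.End ℤ S => f s) (hcomm t' t)
    simpa using this
  rw [h1]
  simpa using LinearMap.congr_fun ht ((t' : Module.End ℤ S) s)

theorem finrank_eq [Module.Free ℤ S] [Module.Finite ℤ S] [Module.Free ℤ T] [Module.Finite ℤ T]
    (hcomm : ∀ t t' : T, (t : Module.End ℤ S) * t' = t' * t)
    (hnd : ∀ s : S, (∀ t : T, a1 ((t : Module.End ℤ S) s) = 0) → s = 0) :
    finrank ℤ S = finrank ℤ T := by
  have h1 : finrank ℤ S ≤ finrank ℤ (T →ₗ[ℤ] ℤ) :=
    LinearMap.finrank_le_finrank_of_injective (toDual_injective hnd)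
  have h2 : finrank ℤ T ≤ finrank ℤ (S →ₗ[ℤ] ℤ) :=
    LinearMap.finrank_le_finrank_of_injective (ofAlg_injective hcomm hnd)
  rw [Module.finrank_linearMap_self] at h1 h2
  omega

/-- Main statement: surjectivity of `S → Hom(T, ℤ)`. -/
theorem exists_rep [Module.Free ℤ S] [Module.Finite ℤ S] [Module.Free ℤ T] [Module.Finite ℤ T]
    (hcomm : ∀ t t' : T, (t : Module.End ℤ S) * t' = t' * t)
    (hnd : ∀ s : S, (∀ t : T, a1 ((t : Module.End ℤ S) s) = 0) → s = 0)
    (hsat : ∀ (s : S) (N : ℕ), 0 < N → (∀ t : T, (N : ℤ) ∣ a1 ((t : Module.End ℤ S) s)) →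
      ∃ s' : S, s = N • s')
    (lam : T →ₗ[ℤ] ℤ) : ∃ s : S, ∀ t : T, a1 ((t : Module.End ℤ S) s) = lam t := by
  set R : Submodule ℤ (T →ₗ[ℤ] ℤ) := LinearMap.range (toDual T a1) with hR
  have hrank : finrank ℤ R = finrank ℤ (T →ₗ[ℤ] ℤ) := by
    rw [hR, LinearMap.finrank_range_of_inj (toDual_injective hnd),
      Module.finrank_linearMap_self, finrank_eq hcomm hnd]
  have hfin : Finite ((T →ₗ[ℤ] ℤ) ⧸ R) := Submodule.finiteQuotientOfFreeOfRankEq R hrank
  have hfin' : Finite ((T →ₗ[ℤ] ℤ) ⧸ R.toAddSubgroup) := hfin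
  set N : ℕ := R.toAddSubgroup.index with hN
  have hNpos : 0 < N := Nat.pos_of_ne_zero AddSubgroup.index_ne_zero_of_finite
  have hmem : N • lam ∈ R := AddSubgroup.nsmul_index_mem R.toAddSubgroup lam
  obtain ⟨s0, hs0⟩ := hmem
  have hdiv : ∀ t : T, (N : ℤ) ∣ a1 ((t : Module.End ℤ S) s0) := by
    intro t
    have := LinearMap.congr_fun hs0 t
    rw [toDual_apply] at this
    rw [this]
    simp
  obtain ⟨s', rfl⟩ := hsat s0 N hNpos hdiv
  refine ⟨s', fun t => ?_⟩
  have := LinearMap.congr_fun hs0 t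
  rw [toDual_apply] at this
  simp only [map_nsmul, LinearMap.smul_apply, nsmul_eq_mul] at this
  have hN0 : (N : ℤ) ≠ 0 := by exact_mod_cast hNpos.ne'
  exact mul_left_cancel₀ hN0 this

end Fermat.Agent.S16.PerfectPairing29
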