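import Mathlib
import Fermat.Prelude.Def_CuspForm_HeckeLocal
import Fermat.Prelude.Thm_CongruenceSubgroup_one_mem_strictPeriods_Gamma0
import Fermat.Agent.S16.PerfectPairing29

set_option autoImplicit false

/-!
# S16, chapter A, brick (A3): `S(ℤ) → Hom_ℤ(T, ℤ)` is onto (helper29)

`L := intLattice N 2` (cusp forms of weight 2 on `Γ₀(N)` with integral `q`-expansion),
`T := heckeLatticeAlgebra N S ⊂ End_ℤ L`.

Hypothesis (A1-shape): for every `k ≥ 1` there is `t_k ∈ T` with `a_1(t_k f) = a_k(f)` for all `f ∈ L`.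

Conclusion (A3): every `ℤ`-linear `lam : T → ℤ` is `t ↦ a_1(t f)` for some `f ∈ L`.

Proof: `PerfectPairing29.exists_rep` with `a1 := ` first `q`-coefficient; nondegeneracy is the
`q`-expansion principle, saturation is `f / n ∈ L` when `n` divides every coefficient.
-/

namespace Fermat.Agent.S16.A3_29

open CuspForm CongruenceSubgroup ModularFormClass

variable {N : ℕ}

/-! ### `q`-coefficients of cusp forms of weight two on `Γ₀(N)` -/

theorem qCoeff_add (f g : CuspForm (Gamma0 N) 2) (n : ℕ) :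
    qCoeff (⇑(f + g)) n = qCoeff f n + qCoeff g n := by
  unfold ModularFormClass.qCoeff
  rw [FunLike.coe_add, ModularForm.qExpansion_add one_pos (one_mem_strictPeriods_Gamma0 N) f g]
  simp

theorem qCoeff_smul (c : ℂ) (f : CuspForm (Gamma0 N) 2) (n : ℕ) :
    qCoeff (⇑(c • f)) n = c * qCoeff f n := by
  unfold ModularFormClass.qCoeff
  rw [FunLike.coe_smul, ModularForm.qExpansion_smul one_pos (one_mem_strictPeriods_Gamma0 N) c f]
  simp

theorem qCoeff_zsmul (c : ℤ) (f : CuspForm (Gamma0 N) 2) (n : ℕ) :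
    qCoeff (⇑(c • f)) n = c * qCoeff f n := by
  rw [← qCoeff_smul, Int.cast_smul_eq_zsmul]

theorem qCoeff_cusp_zero (f : CuspForm (Gamma0 N) 2) : qCoeff f 0 = 0 :=
  CuspFormClass.qExpansion_coeff_zero f one_pos (one_mem_strictPeriods_Gamma0 N)

theorem eq_zero_of_qCoeff (f : CuspForm (Gamma0 N) 2) (h : ∀ n, qCoeff f n = 0) : f = 0 := by
  have hper := SlashInvariantFormClass.periodic_comp_ofComplex f (one_mem_strictPeriods_Gamma0 N)
  have hq0 : UpperHalfPlane.qExpansion 1 f = 0 := by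
    ext n
    simpa [ModularFormClass.qCoeff] using h n
  have hz : (f : UpperHalfPlane → ℂ) = 0 := by
    have : Fact (IsCusp OnePoint.infty
        (Subgroup.map (Matrix.SpecialLinearGroup.mapGL ℝ) (Gamma0 N))) :=
      ⟨Subgroup.isCusp_of_mem_strictPeriods one_pos (one_mem_strictPeriods_Gamma0 N)⟩
    exact (UpperHalfPlane.qExpansion_eq_zero_iff one_pos hper (ModularFormClass.holo f)
      (ModularFormClass.bdd_at_infty f)).mp hq0
  exact DFunLike.coe_injective hz

/-- Elements of the integral lattice have integral `q`-coefficients. -/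
theorem intCoeff_of_mem {f : CuspForm (Gamma0 N) 2} (hf : f ∈ intLattice N 2) :
    ∀ n : ℕ, ∃ m : ℤ, qCoeff f n = (m : ℂ) := by
  unfold CuspForm.intLattice at hf
  induction hf using Submodule.span_induction with
  | mem x hx => exact hx
  | zero =>
    intro n
    refine ⟨0, ?_⟩
    have h := qCoeff_smul (0 : ℂ) (0 : CuspForm (Gamma0 N) 2) n
    rw [zero_smul, zero_mul] at h
    rw [h]; simp
  | add x y _ _ hx hy =>
    intro n
    obtain ⟨a, ha⟩ := hx n
    obtain ⟨b, hb⟩ := hy n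
    exact ⟨a + b, by rw [qCoeff_add, ha, hb]; push_cast; ring⟩
  | smul c x _ hx =>
    intro n
    obtain ⟨a, ha⟩ := hx n
    exact ⟨c * a, by rw [qCoeff_zsmul, ha]; push_cast; ring⟩

theorem mem_of_intCoeff {f : CuspForm (Gamma0 N) 2}
    (hf : ∀ n : ℕ, ∃ m : ℤ, qCoeff f n = (m : ℂ)) : f ∈ intLattice N 2 :=
  Submodule.subset_span hf

/-! ### The integer-valued coefficient functionals on the lattice -/

/-- The `k`-th `q`-coefficient of a lattice element, as an integer (plain function). -/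
noncomputable def coeffZfun (k : ℕ) (f : ↥(intLattice N 2)) : ℤ :=
  Classical.choose (intCoeff_of_mem f.2 k)

theorem coeffZfun_spec (k : ℕ) (f : ↥(intLattice N 2)) :
    ((coeffZfun k f : ℤ) : ℂ) = qCoeff (⇑(f : CuspForm (Gamma0 N) 2)) k :=
  (Classical.choose_spec (intCoeff_of_mem f.2 k)).symm

/-- The `k`-th `q`-coefficient of a lattice element, as a `ℤ`-linear functional. -/
noncomputable def coeffZ (k : ℕ) : ↥(intLattice N 2) →ₗ[ℤ] ℤ where
  toFun f := coeffZfun k f
  map_add' f g := by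
    apply Int.cast_injective (α := ℂ)
    rw [Int.cast_add, coeffZfun_spec, coeffZfun_spec, coeffZfun_spec, Submodule.coe_add,
      qCoeff_add]
  map_smul' c f := by
    apply Int.cast_injective (α := ℂ)
    rw [RingHom.id_apply, smul_eq_mul, Int.cast_mul, coeffZfun_spec, coeffZfun_spec,
      Submodule.coe_smul, qCoeff_zsmul]

theorem coeffZ_spec (k : ℕ) (f : ↥(intLattice N 2)) :
    ((coeffZ k f : ℤ) : ℂ) = qCoeff (⇑(f : CuspForm (Gamma0 N) 2)) k :=
  coeffZfun_spec k f

/-! ### Main theorem -/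

variable (N) in
/-- **(A3)**. If every coefficient functional `a_k` (`k ≥ 1`) is of the form `f ↦ a_1(t_k f)` with
`t_k ∈ T`, then `L → Hom_ℤ(T, ℤ)`, `f ↦ (t ↦ a_1(t f))`, is onto. -/
theorem exists_form_of_linear [NeZero N] (S : Set ℕ)
    (hA1 : ∀ k : ℕ, 1 ≤ k → ∃ t : ↥(heckeLatticeAlgebra N S), ∀ f : ↥(intLattice N 2),
      qCoeff (⇑(((t : Module.End ℤ ↥(intLattice N 2)) f : ↥(intLattice N 2)) :
          CuspForm (Gamma0 N) 2)) 1
        = qCoeff (⇑(f : CuspForm (Gamma0 N) 2)) k)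
    (lam : ↥(heckeLatticeAlgebra N S) →ₗ[ℤ] ℤ) :
    ∃ f : ↥(intLattice N 2), ∀ t : ↥(heckeLatticeAlgebra N S),
      qCoeff (⇑(((t : Module.End ℤ ↥(intLattice N 2)) f : ↥(intLattice N 2)) :
          CuspForm (Gamma0 N) 2)) 1
        = ((lam t : ℤ) : ℂ) := by
  have := intLattice.moduleFinite N
  have := intLattice.moduleFree N
  -- the integral version of (A1)
  have hA1Z : ∀ k : ℕ, 1 ≤ k → ∃ t : ↥(heckeLatticeAlgebra N S), ∀ f : ↥(intLattice N 2),
      coeffZ 1 ((t : Module.End ℤ ↥(intLattice N 2)) f) = coeffZ k f := by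
    intro k hk
    obtain ⟨t, ht⟩ := hA1 k hk
    refine ⟨t, fun f => ?_⟩
    have : ((coeffZ 1 ((t : Module.End ℤ ↥(intLattice N 2)) f) : ℤ) : ℂ) = ((coeffZ k f : ℤ) : ℂ) := by
      rw [coeffZ_spec, coeffZ_spec, ht f]
    exact_mod_cast this
  have hcomm : ∀ t t' : ↥(heckeLatticeAlgebra N S),
      (t : Module.End ℤ ↥(intLattice N 2)) * t' = t' * t := by
    intro t t'
    have := congrArg Subtype.val (mul_comm t t')
    simpa using this
  have hnd : ∀ s : ↥(intLattice N 2),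
      (∀ t : ↥(heckeLatticeAlgebra N S), coeffZ 1 ((t : Module.End ℤ ↥(intLattice N 2)) s) = 0) →
        s = 0 := by
    intro s hs
    apply Subtype.ext
    rw [Submodule.coe_zero]
    apply eq_zero_of_qCoeff
    intro n
    rcases Nat.eq_zero_or_pos n with rfl | hn
    · exact qCoeff_cusp_zero _
    · obtain ⟨t, ht⟩ := hA1Z n hn
      rw [← coeffZ_spec, ← ht s, hs t]; simp
  have hsat : ∀ (s : ↥(intLattice N 2)) (n : ℕ), 0 < n →
      (∀ t : ↥(heckeLatticeAlgebra N S),
        (n : ℤ) ∣ coeffZ 1 ((t : Module.End ℤ ↥(intLattice N 2)) s)) →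
      ∃ s' : ↥(intLattice N 2), s = n • s' := by
    intro s n hn hdiv
    have hn0 : (n : ℂ) ≠ 0 := by exact_mod_cast hn.ne'
    have hcoef : ∀ k : ℕ, ∃ m : ℤ,
        qCoeff (⇑(((n : ℂ)⁻¹) • (s : CuspForm (Gamma0 N) 2))) k = (m : ℂ) := by
      intro k
      rcases Nat.eq_zero_or_pos k with rfl | hk
      · exact ⟨0, by rw [qCoeff_cusp_zero]; simp⟩
      · obtain ⟨t, ht⟩ := hA1Z k hk
        obtain ⟨m, hm⟩ := hdiv t
        refine ⟨m, ?_⟩
        rw [qCoeff_smul, ← coeffZ_spec, ← ht s, hm]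
        push_cast
        field_simp
    refine ⟨⟨((n : ℂ)⁻¹) • (s : CuspForm (Gamma0 N) 2), mem_of_intCoeff hcoef⟩, ?_⟩
    apply Subtype.ext
    rw [AddSubmonoidClass.coe_nsmul, ← Nat.cast_smul_eq_nsmul ℂ, smul_smul, mul_inv_cancel₀ hn0,
      one_smul]
  obtain ⟨f, hf⟩ := PerfectPairing29.exists_rep (T := heckeLatticeAlgebra N S) (a1 := coeffZ 1)
    hcomm hnd hsat lam
  refine ⟨f, fun t => ?_⟩
  rw [← coeffZ_spec, hf t]

end Fermat.Agent.S16.A3_29
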