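/-
S16 (Mazur: `#(𝕋/I) = (p-1)/gcd(p-1,12)`), chapter A-top, helper12 (integrator).

Pure algebra: the literal frozen statement from four contracts
(`LBStatement`, `UBfStatement`, `A1Statement`, `A3Statement`), following `S16_PROOF11.md` §1.
-/
import Fermat.Statements.S16

set_option autoImplicit false

noncomputable section

open ModularCurve CuspForm

namespace Fermat.Agent.S16.Top12

/-! ### Abstract algebra -/

section Abstract

variable {R T : Type*} [CommRing R] [CommRing T]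

/-- If `ψ : R → T` is onto, `ev : R → ℤ`, every element of `ker ψ` has `ev`-value divisible by `n`
and some element of `ker ψ` has `ev`-value `n`, then `T ⧸ ψ(ker ev) ≃ ℤ/n`. -/
theorem card_quotient_map_ker (ψ : R →+* T) (hψ : Function.Surjective ψ) (ev : R →+* ℤ)
    (n : ℕ)
    (hLB : ∀ P : R, ψ P = 0 → (n : ℤ) ∣ ev P)
    (hUB : ∃ P : R, ψ P = 0 ∧ ev P = n) :
    Nat.card (T ⧸ Ideal.map ψ (RingHom.ker ev)) = n := by
  classical
  -- g : R → ZMod n
  let g : R →+* ZMod n := (Int.castRingHom (ZMod n)).comp ev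
  have hker : RingHom.ker ψ ≤ RingHom.ker g := by
    intro P hP
    rw [RingHom.mem_ker] at hP ⊢
    show ((ev P : ℤ) : ZMod n) = 0
    exact (ZMod.intCast_zmod_eq_zero_iff_dvd _ _).mpr (hLB P hP)
  let gbar : T →+* ZMod n := RingHom.liftOfSurjective ψ hψ ⟨g, hker⟩
  have hgbar : ∀ P : R, gbar (ψ P) = g P := fun P =>
    RingHom.liftOfRightInverse_comp_apply ψ _ (Function.rightInverse_surjInv hψ) ⟨g, hker⟩ P
  have hevsurj : Function.Surjective ev := fun k => ⟨(k : R), by simp⟩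
  have hgsurj : Function.Surjective gbar := by
    intro z
    obtain ⟨k, rfl⟩ := ZMod.intCast_surjective z
    obtain ⟨P, rfl⟩ := hevsurj k
    exact ⟨ψ P, hgbar P⟩
  have hkerbar : RingHom.ker gbar = Ideal.map ψ (RingHom.ker ev) := by
    apply le_antisymm
    · intro t ht
      obtain ⟨P, rfl⟩ := hψ t
      rw [RingHom.mem_ker, hgbar] at ht
      have hdvd : (n : ℤ) ∣ ev P := (ZMod.intCast_zmod_eq_zero_iff_dvd _ _).mp ht
      obtain ⟨k, hk⟩ := hdvd
      obtain ⟨P0, hP0, hev0⟩ := hUB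
      have hmem : P - (k : R) * P0 ∈ RingHom.ker ev := by
        rw [RingHom.mem_ker, map_sub, map_mul, hev0, hk]
        simp [mul_comm]
      have : ψ P = ψ (P - (k : R) * P0) := by
        rw [map_sub, map_mul, hP0, mul_zero, sub_zero]
      rw [this]
      exact Ideal.mem_map_of_mem ψ hmem
    · rw [Ideal.map_le_iff_le_comap]
      intro P hP
      rw [Ideal.mem_comap, RingHom.mem_ker, hgbar]
      rw [RingHom.mem_ker] at hP
      show ((ev P : ℤ) : ZMod n) = 0
      rw [hP]; simp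
  have e : (T ⧸ Ideal.map ψ (RingHom.ker ev)) ≃+* ZMod n :=
    (Ideal.quotEquivOfEq hkerbar.symm).trans (RingHom.quotientKerEquivOfSurjective hgsurj)
  rw [Nat.card_congr e.toEquiv, Nat.card_zmod]

/-- From "every `m₁ ≥ 1` dividing all `ev`-values of `ker ψ` divides `n`" and the lower bound,
some element of `ker ψ` has `ev`-value exactly `n`. -/
theorem exists_ev_eq (ψ : R →+* T) (ev : R →+* ℤ) (n : ℕ) (hn : 1 ≤ n)
    (hLB : ∀ P : R, ψ P = 0 → (n : ℤ) ∣ ev P)
    (hdiv : ∀ m₁ : ℕ, 1 ≤ m₁ → (∀ P : R, ψ P = 0 → (m₁ : ℤ) ∣ ev P) → m₁ ∣ n) :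
    ∃ P : R, ψ P = 0 ∧ ev P = n := by
  classical
  by_cases hD : ∃ d : ℕ, 1 ≤ d ∧ ∃ P : R, ψ P = 0 ∧ ev P = d
  · -- minimal positive value
    let d := Nat.find hD
    obtain ⟨hd1, P0, hP0, hev0⟩ := Nat.find_spec hD
    have hmin : ∀ d' : ℕ, d' < d → ¬ (1 ≤ d' ∧ ∃ P : R, ψ P = 0 ∧ ev P = d') :=
      fun d' h => Nat.find_min hD h
    have hdvd : ∀ P : R, ψ P = 0 → (d : ℤ) ∣ ev P := by
      intro P hP
      have hdpos : (0 : ℤ) < (d : ℤ) := by exact_mod_cast hd1
      set r := ev P % (d : ℤ) with hr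
      have hr0 : 0 ≤ r := Int.emod_nonneg _ hdpos.ne'
      have hrd : r < d := Int.emod_lt_of_pos _ hdpos
      have hPr : ψ (P - ((ev P / (d : ℤ) : ℤ) : R) * P0) = 0 := by
        rw [map_sub, map_mul, hP, hP0, mul_zero, sub_zero]
      have hevr : ev (P - ((ev P / (d : ℤ) : ℤ) : R) * P0) = r := by
        rw [map_sub, map_mul, hev0, map_intCast, hr, Int.emod_def]
        show ev P - ev P / ↑(Nat.find hD) * ↑(Nat.find hD) = ev P - ↑(Nat.find hD) * (ev P / ↑(Nat.find hD))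
        ring
      by_contra hnd
      have hrne : r ≠ 0 := fun h => hnd (Int.dvd_of_emod_eq_zero h)
      have hrpos : 0 < r := lt_of_le_of_ne hr0 (Ne.symm hrne)
      refine hmin r.toNat ?_ ⟨?_, _, hPr, ?_⟩
      · have : (r.toNat : ℤ) < (d : ℤ) := by rw [Int.toNat_of_nonneg hr0]; exact hrd
        exact_mod_cast this
      · have : (1 : ℤ) ≤ (r.toNat : ℤ) := by rw [Int.toNat_of_nonneg hr0]; omega
        exact_mod_cast this
      · rw [hevr, Int.toNat_of_nonneg hr0]
    have h1 : d ∣ n := hdiv d hd1 hdvd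
    have h2 : (n : ℤ) ∣ (d : ℤ) := by rw [← hev0]; exact hLB P0 hP0
    have h2' : n ∣ d := by exact_mod_cast h2
    have hdn : d = n := Nat.dvd_antisymm h1 h2'
    exact ⟨P0, hP0, by rw [hev0]; exact_mod_cast hdn⟩
  · -- all values vanish: contradiction with `hdiv (2n)`
    exfalso
    have hzero : ∀ P : R, ψ P = 0 → ev P = 0 := by
      intro P hP
      by_contra hne
      rcases lt_or_gt_of_ne hne with hlt | hgt
      · refine hD ⟨(-ev P).toNat, ?_, -P, by rw [map_neg, hP, neg_zero], ?_⟩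
        · have : (1 : ℤ) ≤ ((-ev P).toNat : ℤ) := by
            rw [Int.toNat_of_nonneg (by omega)]; omega
          exact_mod_cast this
        · rw [map_neg, Int.toNat_of_nonneg (by omega)]
      · refine hD ⟨(ev P).toNat, ?_, P, hP, ?_⟩
        · have : (1 : ℤ) ≤ ((ev P).toNat : ℤ) := by
            rw [Int.toNat_of_nonneg (by omega)]; omega
          exact_mod_cast this
        · rw [Int.toNat_of_nonneg (by omega)]
    have h := hdiv (2 * n) (by omega) (fun P hP => by rw [hzero P hP]; exact dvd_zero _)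
    have := Nat.le_of_dvd (by omega) h
    omega

end Abstract

/-! ### The concrete objects of the frozen statement -/

section Concrete

variable (p : ℕ) [Fact p.Prime]

/-- The Hecke algebra of the statement. -/
abbrev TT : Type := ↥(heckeLatticeAlgebra p ∅)

/-- The lattice `S(ℤ)` of the statement. -/
abbrev LL : Type := ↥(intLattice p 2)

/-- The ring hom `ℤ[X_ℓ] → 𝕋` of the statement. -/
def psi : HeckeAlg →+* TT p :=
  (latticeRestrictHom p ∅).toRingHom.comp (heckeEvalForms p 2)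

/-- The Eisenstein character `X_ℓ ↦ eis(ℓ)`. -/
def ev : HeckeAlg →+* ℤ :=
  (MvPolynomial.aeval (R := ℤ) (eisensteinSystem p)).toRingHom

omit [Fact p.Prime] in
theorem ker_ev : RingHom.ker (ev p) = eisensteinIdeal p := rfl

/-- `σ'(k)`: the sum of the divisors of `k` prime to `p`. -/
def sigmaPrime (k : ℕ) : ℤ := ∑ d ∈ k.divisors.filter (fun d => ¬ p ∣ d), (d : ℤ)

/-- the `k`-th `q`-coefficient of an element of the lattice. -/
def aCoeff (f : LL p) (k : ℕ) : ℂ :=
  ModularFormClass.qCoeff ((f : LL p) : CuspForm (CongruenceSubgroup.Gamma0 p) 2) k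

/-- the action of `𝕋` on the lattice. -/
def act (t : TT p) (f : LL p) : LL p := (t : Module.End ℤ (LL p)) f

/-- **(LB')** lower bound contract (chapter B). -/
def LBStatement : Prop :=
  ∀ P : HeckeAlg, psi p P = 0 → (eisensteinNumerator p : ℤ) ∣ ev p P

/-- **(UBf)** upper bound contract, in terms of forms (chapters L1, FF, INT, N + §2 case check). -/
def UBfStatement : Prop :=
  ∀ m : ℕ, 1 ≤ m → ∀ f : LL p,
    (∀ k : ℕ, 1 ≤ k → ∃ a : ℤ, aCoeff p f k = (a : ℂ) ∧ (m : ℤ) ∣ a - sigmaPrime p k) →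
    m ∣ eisensteinNumerator p

/-- **(A1)** the operators `T_k`: polynomials `P_k` with `ev P_k = σ'(k)` and
`a_1(ψ(P_k) f) = a_k(f)`. -/
def A1Statement : Prop :=
  ∀ k : ℕ, 1 ≤ k → ∃ P : HeckeAlg, ev p P = sigmaPrime p k ∧
    ∀ f : LL p, aCoeff p (act p (psi p P) f) 1 = aCoeff p f k

/-- **(A3)** surjectivity of `S(ℤ) → Hom(𝕋, ℤ)`. -/
def A3Statement : Prop :=
  ∀ lam : TT p →ₗ[ℤ] ℤ, ∃ f : LL p, ∀ t : TT p, aCoeff p (act p t f) 1 = ((lam t : ℤ) : ℂ)

/-! ### `ψ` is onto -/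

theorem heckeEvalForms_surjective :
    Function.Surjective (heckeEvalForms p 2) := by
  rintro ⟨x, hx⟩
  have key : ∀ y ∈ heckeAlgebra p 2 (∅ : Set ℕ), ∃ P : HeckeAlg,
      ((heckeEvalForms p 2 P : heckeAlgebra p 2 ∅) :
        Module.End ℂ (CuspForm (CongruenceSubgroup.Gamma0 p) 2)) = y := by
    intro y hy
    refine Algebra.adjoin_induction (p := fun y _ => ∃ P : HeckeAlg,
      ((heckeEvalForms p 2 P : heckeAlgebra p 2 ∅) :
        Module.End ℂ (CuspForm (CongruenceSubgroup.Gamma0 p) 2)) = y) ?_ ?_ ?_ ?_ hy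
    · rintro y (⟨ℓ, hℓ, hℓN, hℓS, rfl⟩ | ⟨q, hqN, hq, hqS, rfl⟩)
      · refine ⟨heckeGen ⟨ℓ, hℓ⟩, ?_⟩
        rw [heckeEvalForms_heckeGen_of_not_dvd (N := p) (k := 2) (ℓ := ⟨ℓ, hℓ⟩) hℓN]
        rfl
      · refine ⟨heckeGen ⟨q, hq⟩, ?_⟩
        rw [heckeEvalForms_heckeGen_of_dvd (N := p) (k := 2) (q := ⟨q, hq⟩) hqN]
        rfl
    · intro r
      exact ⟨MvPolynomial.C r, by rw [heckeEvalForms_C]; rfl⟩
    · rintro a b _ _ ⟨P, rfl⟩ ⟨Q, rfl⟩
      exact ⟨P + Q, by rw [map_add]; rfl⟩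
    · rintro a b _ _ ⟨P, rfl⟩ ⟨Q, rfl⟩
      exact ⟨P * Q, by rw [map_mul]; rfl⟩
  obtain ⟨P, hP⟩ := key x hx
  exact ⟨P, Subtype.ext hP⟩

theorem psi_surjective : Function.Surjective (psi p) := by
  intro t
  obtain ⟨s, rfl⟩ := latticeRestrictHom_surjective p ∅ t
  obtain ⟨P, rfl⟩ := heckeEvalForms_surjective p s
  exact ⟨P, rfl⟩

theorem one_le_eisensteinNumerator : 1 ≤ eisensteinNumerator p := by
  have hp : 2 ≤ p := (Fact.out : p.Prime).two_le
  unfold eisensteinNumerator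
  have hpos : 0 < p - 1 := by omega
  have hg : Nat.gcd (p - 1) 12 ∣ p - 1 := Nat.gcd_dvd_left _ _
  exact Nat.div_pos (Nat.le_of_dvd hpos hg) (Nat.gcd_pos_of_pos_left _ hpos)

/-! ### (A5): every `m₁` dividing `ev (ker ψ)` divides `n` -/

theorem dvd_of_dvd_ev_ker (hUBf : UBfStatement p) (hA1 : A1Statement p) (hA3 : A3Statement p)
    (m₁ : ℕ) (hm₁ : 1 ≤ m₁) (h : ∀ P : HeckeAlg, psi p P = 0 → (m₁ : ℤ) ∣ ev p P) :
    m₁ ∣ eisensteinNumerator p := by
  classical
  have : NeZero m₁ := ⟨by omega⟩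
  -- the character χ : 𝕋 → ℤ/m₁
  let g : HeckeAlg →+* ZMod m₁ := (Int.castRingHom (ZMod m₁)).comp (ev p)
  have hker : RingHom.ker (psi p) ≤ RingHom.ker g := by
    intro P hP
    rw [RingHom.mem_ker] at hP ⊢
    show ((ev p P : ℤ) : ZMod m₁) = 0
    exact (ZMod.intCast_zmod_eq_zero_iff_dvd _ _).mpr (h P hP)
  let χ : TT p →+* ZMod m₁ := RingHom.liftOfSurjective (psi p) (psi_surjective p) ⟨g, hker⟩
  have hχ : ∀ P : HeckeAlg, χ (psi p P) = ((ev p P : ℤ) : ZMod m₁) := fun P =>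
    RingHom.liftOfRightInverse_comp_apply (psi p) _
      (Function.rightInverse_surjInv (psi_surjective p)) ⟨g, hker⟩ P
  -- a ℤ-linear lift
  let b := Module.Free.chooseBasis ℤ (TT p)
  let lam : TT p →ₗ[ℤ] ℤ := b.constr ℤ (fun i => ((χ (b i)).cast : ℤ))
  have hlam : ∀ t : TT p, ((lam t : ℤ) : ZMod m₁) = χ t := by
    have : ((Int.castAddHom (ZMod m₁)).toIntLinearMap).comp lam =
        χ.toAddMonoidHom.toIntLinearMap := by
      refine b.ext fun i => ?_
      simp only [LinearMap.comp_apply, AddMonoidHom.coe_toIntLinearMap, Int.coe_castAddHom,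
        RingHom.toAddMonoidHom_eq_coe, AddMonoidHom.coe_coe]
      rw [Module.Basis.constr_basis]
      exact ZMod.intCast_cast _ |>.trans (ZMod.cast_id _ _)
    intro t
    exact LinearMap.congr_fun this t
  obtain ⟨f, hf⟩ := hA3 lam
  refine hUBf m₁ hm₁ f fun k hk => ?_
  obtain ⟨P, hevP, hP⟩ := hA1 k hk
  refine ⟨lam (psi p P), ?_, ?_⟩
  · rw [← hP f, hf]
  · rw [← ZMod.intCast_zmod_eq_zero_iff_dvd, Int.cast_sub, hlam, hχ, hevP, sub_self]

/-- **The literal frozen statement from the four contracts.** -/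
theorem result_of_contracts (hLB : LBStatement p) (hUBf : UBfStatement p)
    (hA1 : A1Statement p) (hA3 : A3Statement p) :
    Nat.card (↥(heckeLatticeAlgebra p ∅) ⧸
        Ideal.map ((latticeRestrictHom p ∅).toRingHom.comp (heckeEvalForms p 2))
          (eisensteinIdeal p)) =
      eisensteinNumerator p := by
  have hUB := exists_ev_eq (psi p) (ev p) (eisensteinNumerator p) (one_le_eisensteinNumerator p)
    hLB (fun m₁ hm₁ h => dvd_of_dvd_ev_ker p hUBf hA1 hA3 m₁ hm₁ h)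
  exact card_quotient_map_ker (psi p) (psi_surjective p) (ev p) (eisensteinNumerator p) hLB hUB

end Concrete

end Fermat.Agent.S16.Top12

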