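/-
S16, helper12: the contracts `Top12.A1Statement p` (from helper4's `A1Tk4`) and
`Top12.A3Statement p` (from helper29's `A3_29`), in the literal shapes consumed by
`Inputs12.result_of_exports`.
-/
import Fermat.Agent.S16.Top12
import Fermat.Agent.S16.A1Tk4
import Fermat.Agent.S16.A3_29

set_option autoImplicit false

noncomputable section

open ModularCurve CuspForm

namespace Fermat.Agent.S16.Adapters12

open Fermat.Agent.S16

variable (p : ℕ) [hp : Fact p.Prime]

/-- **(A1)**, from `A1Tk4.exists_heckePoly_lattice`. -/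
theorem a1Statement : Top12.A1Statement p :=
  fun k hk => let ⟨P, h1, h2⟩ := A1Tk4.exists_heckePoly_lattice p k hk; ⟨P, h1, h2⟩

/-- **(A3)**, from `A3_29.exists_form_of_linear` and (A1). -/
theorem a3Statement : Top12.A3Statement p :=
  haveI : NeZero p := ⟨hp.out.ne_zero⟩
  fun lam => A3_29.exists_form_of_linear p ∅
    (fun k hk => let ⟨P, _, hP⟩ := a1Statement p k hk; ⟨Top12.psi p P, hP⟩) lam

end Fermat.Agent.S16.Adapters12
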