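/-
S16, upper bound, chapter U6 INTERFACE (helper14): the formal (pure `q`-series) packages against
which the six case analyses of `S16_UB_ELEM14.md` are proved, and the literal targets.

Everything is normalised over `ℤ`: in the application `G = 24 (E - f)` (`f ∈ S(ℤ)`), so
`G = (p - 1) + ∑_{k ≥ 1} 24 (σ'(k) - a_k(f)) q^k ∈ M_2(Γ0(p))` has INTEGER coefficients, `c = p - 1`,
`G' = U_p G`.  (The `F = G / c` of the note is never formed.)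

* `Up p` : `a_k ↦ a_{p k}`; `V_p` is Mathlib's `PowerSeries.expand p hp`; the twist by `ζ^j` is
  `PowerSeries.rescale (ζ ^ j)`.
* `Pkg p` : the output of chapter U2 ((W) + (I4)).
* `LocalData ℓ` : the pair `(R, 𝔪)` of chapter U4; `SturmProp K n` : the conclusion of (ST) for a series.
* `Target_*` : the statements to be proved (chapter U6 for the formal ones, U2/U3/U4 for the exports).
-/
import Mathlib

set_option autoImplicit false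

open PowerSeries

namespace Fermat.Agent.S16.Formal14

noncomputable section

/-! ### operators and constants on power series -/

/-- `U_p` on power series: `a_k ↦ a_{p k}`. -/
def Up {A : Type*} [Semiring A] (p : ℕ) (f : A⟦X⟧) : A⟦X⟧ :=
  PowerSeries.mk fun k => coeff (p * k) f

@[simp] theorem coeff_Up {A : Type*} [Semiring A] (p k : ℕ) (f : A⟦X⟧) :
    coeff k (Up p f) = coeff (p * k) f := by
  simp [Up]

/-- `s_r = ∑ σ_r(m) q^m` (`σ_r 0 = 0`). -/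
def sig {A : Type*} [Semiring A] (r : ℕ) : A⟦X⟧ :=
  PowerSeries.mk fun m => ((ArithmeticFunction.sigma r m : ℕ) : A)

/-- the `q`-expansion of `E4 = 1 + 240 s_3`. -/
def E4s (A : Type*) [CommRing A] : A⟦X⟧ := 1 + C (240 : A) * sig 3

/-- the `q`-expansion of `E6 = 1 - 504 s_5`. -/
def E6s (A : Type*) [CommRing A] : A⟦X⟧ := 1 - C (504 : A) * sig 5

/-- `σ^{(3)}(m) = ∑_{d ∣ m, 3 ∤ d} d`. -/
def sigma3' (m : ℕ) : ℕ := ∑ d ∈ m.divisors.filter (fun d => ¬ 3 ∣ d), d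

/-- `φ_3 = ∑ σ^{(3)}(m) q^m`. -/
def phi3 {A : Type*} [Semiring A] : A⟦X⟧ := PowerSeries.mk fun m => ((sigma3' m : ℕ) : A)

/-- the `q`-expansion of `G_3 = (3 E2(3z) - E2(z)) / 2 = 1 + 12 φ_3`. -/
def G3s (A : Type*) [CommRing A] : A⟦X⟧ := 1 + C (12 : A) * phi3

/-- integer series as complex series. -/
abbrev toC (f : ℤ⟦X⟧) : ℂ⟦X⟧ := PowerSeries.map (Int.castRingHom ℂ) f

/-! ### the trace package (output of U2) -/

/-- The formal package of a form `G ∈ M_2(Γ0(p))` with integer `q`-expansion: `G' = U_p G`,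
`U_p G' = G` (from (W)), and the two trace identities (I4), (I4'). -/
structure Pkg (p : ℕ) where
  /-- the constant term -/
  c : ℤ
  /-- the `q`-expansion of `G` -/
  G : ℤ⟦X⟧
  /-- the `q`-expansion of `G' = U_p G` -/
  G' : ℤ⟦X⟧
  constG : constantCoeff G = c
  constG' : constantCoeff G' = c
  Up_G : Up p G = G'
  Up_G' : Up p G' = G
  I4 : C (p : ℤ) * G ^ 2 + Up p (G' ^ 2) = C (((p : ℤ) + 1) * c ^ 2) * E4s ℤ
  I4' : C (p : ℤ) * G' ^ 2 + Up p (G ^ 2) = C (((p : ℤ) + 1) * c ^ 2) * E4s ℤ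

/-- the hypothesis "`G ≡ c mod ℓ^a`": all higher coefficients are divisible by `ℓ^a`. -/
def Pkg.Cong {p : ℕ} (P : Pkg p) (ℓ a : ℕ) : Prop :=
  ∀ k, 1 ≤ k → ((ℓ : ℤ) ^ a) ∣ coeff k P.G

/-! ### (R, 𝔪) and Sturm (outputs of U4) -/

/-- the pair `(R, 𝔪)`: a subring of `ℂ` containing `ℤ_(ℓ)` and all roots of unity, with a maximal
ideal containing `ℓ`. -/
structure LocalData (ℓ : ℕ) where
  R : Subring ℂ
  m : Ideal R
  isMaximal : m.IsMaximal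
  int_mem : ∀ a : ℤ, (a : ℂ) ∈ R
  inv_mem : ∀ a : ℤ, ¬ (ℓ : ℤ) ∣ a → ((a : ℂ))⁻¹ ∈ R
  root_mem : ∀ (z : ℂ) (n : ℕ), 1 ≤ n → z ^ n = 1 → z ∈ R
  ell_mem : ∃ r : R, r ∈ m ∧ (r : ℂ) = (ℓ : ℂ)

/-- membership of a complex number in the ideal `𝔪 ⊂ R ⊂ ℂ`. -/
def LocalData.InM {ℓ : ℕ} (L : LocalData ℓ) (x : ℂ) : Prop := ∃ r : L.R, r ∈ L.m ∧ (r : ℂ) = x

/-- the conclusion of (ST) for a series: for every subring `R ⊂ ℂ` and ideal `𝔪 ⊂ R`, if all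
coefficients lie in `R` and those of index `≤ K / 12` lie in `𝔪`, then all lie in `𝔪`. -/
def SturmProp (K : ℕ) (n : ℂ⟦X⟧) : Prop :=
  ∀ (R : Subring ℂ) (m : Ideal R), (∀ k, coeff k n ∈ R) →
    (∀ k, 12 * k ≤ K → ∃ r : R, r ∈ m ∧ (r : ℂ) = coeff k n) →
    ∀ k, ∃ r : R, r ∈ m ∧ (r : ℂ) = coeff k n

/-! ### TARGETS of U6, first group: consequences of (I4) alone -/

/-- (N_p): `p ≥ 7`, there is no `G ≡ c mod p`, `p ∤ c`. -/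
def Target_Np : Prop :=
  ∀ (p : ℕ), p.Prime → 7 ≤ p → ∀ P : Pkg p, ¬ (p : ℤ) ∣ P.c → P.Cong p 1 → False

/-- (N_l), first case (also (N_3b)): `ℓ ≥ 3` odd, `ℓ ≠ p`, `ℓ ∤ p + 1`, `c = ℓ^v u`, `ℓ ∤ u`,
`G ≡ c mod ℓ^(v+1)`. -/
def Target_Nl_A : Prop :=
  ∀ (p ℓ : ℕ), p.Prime → ℓ.Prime → 3 ≤ ℓ → ℓ ≠ p → ¬ ℓ ∣ p + 1 →
    ∀ (P : Pkg p) (v : ℕ) (u : ℤ), P.c = (ℓ : ℤ) ^ v * u → ¬ (ℓ : ℤ) ∣ u → P.Cong ℓ (v + 1) → False

/-- (N_3a), case `3 ∥ p + 1`: `G ≡ c mod 3^(v+2)`. -/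
def Target_N3a_one : Prop :=
  ∀ (p : ℕ), p.Prime → 3 ∣ p + 1 → ¬ 9 ∣ p + 1 →
    ∀ (P : Pkg p) (v : ℕ) (u : ℤ), P.c = 3 ^ v * u → ¬ (3 : ℤ) ∣ u → P.Cong 3 (v + 2) → False

/-- (N_2b): `p ≡ 1 mod 4`, `G ≡ c mod 2^(v+2)`. -/
def Target_N2b : Prop :=
  ∀ (p : ℕ), p.Prime → p % 4 = 1 →
    ∀ (P : Pkg p) (v : ℕ) (u : ℤ), P.c = 2 ^ v * u → ¬ (2 : ℤ) ∣ u → P.Cong 2 (v + 2) → False

/-! ### TARGETS of U6, second group: norm cases.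
`ζ` a primitive `p`-th root of unity, `β = -1/p`.  The conjugates of `h` evaluated at `p z`:
`C_∞ = V_p h`, `C_j = h♯(ζ^j q)`; `n` = the `q`-expansion of the norm, a level-one form of weight `K`,
so `SturmProp K n`, and `V_p n = C_∞ ∏_j C_j`. -/

/-- (N_l), `ℓ ≥ 7`, `ℓ ∣ p + 1`: `h = G² - c² E4`, `h♯ = β² G'² - c² V_p E4`.
(In the application `c = p - 1` is prime to `ℓ` because `ℓ ∣ p + 1` is odd: `v = 0`.) -/
def Target_Nl_B7 : Prop :=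
  ∀ (p ℓ : ℕ) (hp : p.Prime), ℓ.Prime → 7 ≤ ℓ → ℓ ∣ p + 1 → LocalData ℓ →
    ∀ (P : Pkg p), ¬ (ℓ : ℤ) ∣ P.c → P.Cong ℓ 1 →
    ∀ (ζ : ℂ), IsPrimitiveRoot ζ p → ∀ n : ℂ⟦X⟧, SturmProp (4 * (p + 1)) n →
      expand p hp.ne_zero n =
        expand p hp.ne_zero (toC (P.G ^ 2 - C (P.c ^ 2) * E4s ℤ)) *
          ∏ j ∈ Finset.range p,
            (C (((p : ℂ))⁻¹ ^ 2) * (rescale (ζ ^ j) (toC P.G')) ^ 2
              - C ((P.c : ℂ) ^ 2) * expand p hp.ne_zero (E4s ℂ)) →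
      False

/-- (N_l), `ℓ = 5 ∣ p + 1`: `h = G³ - c³ E6`, `h♯ = β³ G'³ - c³ V_p E6`. -/
def Target_Nl_B5 : Prop :=
  ∀ (p : ℕ) (hp : p.Prime), 5 ∣ p + 1 → LocalData 5 →
    ∀ (P : Pkg p), ¬ (5 : ℤ) ∣ P.c → P.Cong 5 1 →
    ∀ (ζ : ℂ), IsPrimitiveRoot ζ p → ∀ n : ℂ⟦X⟧, SturmProp (6 * (p + 1)) n →
      expand p hp.ne_zero n =
        expand p hp.ne_zero (toC (P.G ^ 3 - C (P.c ^ 3) * E6s ℤ)) *
          ∏ j ∈ Finset.range p,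
            (C ((-((p : ℂ))⁻¹) ^ 3) * (rescale (ζ ^ j) (toC P.G')) ^ 3
              - C ((P.c : ℂ) ^ 3) * expand p hp.ne_zero (E6s ℂ)) →
      False

/-- (N_3a), case `9 ∣ p + 1`: `h = (G E4 - c E6)/3`, `h♯ = (β G' V_p E4 - c V_p E6)/3`,
`G ≡ c mod 3^(v+2)`. -/
def Target_N3a_nine : Prop :=
  ∀ (p : ℕ) (hp : p.Prime), 9 ∣ p + 1 → LocalData 3 →
    ∀ (P : Pkg p), ¬ (3 : ℤ) ∣ P.c → P.Cong 3 2 →
    ∀ (ζ : ℂ), IsPrimitiveRoot ζ p → ∀ n : ℂ⟦X⟧, SturmProp (6 * (p + 1)) n →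
      expand p hp.ne_zero n =
        (C ((3 : ℂ))⁻¹ * expand p hp.ne_zero (toC (P.G * E4s ℤ - C P.c * E6s ℤ))) *
          ∏ j ∈ Finset.range p,
            (C ((3 : ℂ))⁻¹ * (C (-((p : ℂ))⁻¹) * rescale (ζ ^ j) (toC P.G') *
                expand p hp.ne_zero (E4s ℂ) - C (P.c : ℂ) * expand p hp.ne_zero (E6s ℂ))) →
      False

/-- (N_2a): `p ≡ 3 mod 4`, `p ≠ 3`, `c = 2u`, `u` odd (`c = p - 1`), `G ≡ c mod 2^4`
(i.e. `F = G/c ≡ 1 mod 8`); the double family `(G|γ - c G_3|δ)/8 = u (F|γ - G_3|δ)/4`, `γ ∈ Γ0(p)\SL2(ℤ)`, `δ ∈ Γ0(3)\SL2(ℤ)`, evaluated at `3 p z`;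
`ζ`, `ω` primitive `p`-th and cube roots of unity, `β = -1/p`, `β_3 = -1/3`. -/
def Target_N2a : Prop :=
  ∀ (p : ℕ) (hp : p.Prime), p % 4 = 3 → p ≠ 3 → LocalData 2 →
    ∀ (P : Pkg p) (u : ℤ), P.c = 2 * u → ¬ (2 : ℤ) ∣ u → P.Cong 2 4 →
    ∀ (ζ ω : ℂ), IsPrimitiveRoot ζ p → IsPrimitiveRoot ω 3 →
    ∀ n : ℂ⟦X⟧, SturmProp (8 * (p + 1)) n →
      (let h3 : (3 : ℕ) ≠ 0 := by norm_num
       let h3p : 3 * p ≠ 0 := Nat.mul_ne_zero h3 hp.ne_zero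
       let Ainf : ℂ⟦X⟧ := expand (3 * p) h3p (toC P.G)
       let A : ℕ → ℂ⟦X⟧ := fun j =>
         C (-((p : ℂ))⁻¹) * expand 3 h3 (rescale (ζ ^ j) (toC P.G'))
       let Binf : ℂ⟦X⟧ := C (P.c : ℂ) * expand (3 * p) h3p (G3s ℂ)
       let B : ℕ → ℂ⟦X⟧ := fun i =>
         C ((P.c : ℂ) * (-((3 : ℂ))⁻¹)) * expand p hp.ne_zero (rescale (ω ^ i) (G3s ℂ))
       expand (3 * p) h3p n =
         (C ((8 : ℂ))⁻¹ * (Ainf - Binf)) *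
         (∏ j ∈ Finset.range p, C ((8 : ℂ))⁻¹ * (A j - Binf)) *
         (∏ i ∈ Finset.range 3, C ((8 : ℂ))⁻¹ * (Ainf - B i)) *
         (∏ j ∈ Finset.range p, ∏ i ∈ Finset.range 3, C ((8 : ℂ))⁻¹ * (A j - B i))) →
      False

/-! ### TARGET of U4 -/

/-- existence of `(R, 𝔪)`. -/
def Target_LocalData : Prop := ∀ ℓ : ℕ, ℓ.Prime → Nonempty (LocalData ℓ)

end

end Fermat.Agent.S16.Formal14
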