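/-
Program M (S16), upper bound, tool `(R, 𝔪)` of `S16_UB_ELEM14.md` (helper20).  Mathlib only.

For a prime `l`:
* `Rl l : Subring ℂ` — the complex numbers integral over `ℤ_(l)`, in the concrete form
  `x ∈ Rl l ↔ ∃ m : ℕ, ¬ l ∣ m ∧ IsIntegral ℤ ((m : ℂ) * x)`;
* integers, `l`-integral rationals, algebraic integers (roots of unity) are in `Rl l`;
  a rational is in `Rl l` iff `l` does not divide its denominator;
* `l` is not a unit of `Rl l`; hence there is a maximal ideal `𝔪 ∋ l` (`exists_maximal`);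
* for such `𝔪`: an `l`-integral rational `a / b` lies in `𝔪` iff `l ∣ a` (`intCast_mem_iff`,
  `ratCast_mem_iff`); units of `Rl l` (roots of unity) are not in `𝔪`;
* `ordM 𝔪 f` — the order of a power series over `Rl l` modulo `𝔪`, additive on products
  (`ordM_mul`), `ordM_le_of_coeff_not_mem`, `coeff_mem_of_lt_ordM`, …
-/
import Mathlib

set_option autoImplicit false

namespace Fermat.Agent.S16.IntClosure20

open Polynomial

variable (l : ℕ) [hl : Fact l.Prime]

/-- the complex numbers integral over `ℤ_(l)`: some prime-to-`l` multiple is an algebraic integer. -/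
def Rl : Subring ℂ where
  carrier := {x | ∃ m : ℕ, ¬ l ∣ m ∧ IsIntegral ℤ ((m : ℂ) * x)}
  mul_mem' := by
    rintro x y ⟨m, hm, hx⟩ ⟨n, hn, hy⟩
    refine ⟨m * n, fun h => ?_, ?_⟩
    · rcases (Nat.Prime.dvd_mul hl.out).1 h with h | h
      · exact hm h
      · exact hn h
    · have : ((m * n : ℕ) : ℂ) * (x * y) = ((m : ℂ) * x) * ((n : ℂ) * y) := by
        push_cast; ring
      rw [this]
      exact hx.mul hy
  one_mem' := ⟨1, fun h => hl.out.one_lt.ne' (Nat.dvd_one.1 h), by simpa using isIntegral_one⟩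
  add_mem' := by
    rintro x y ⟨m, hm, hx⟩ ⟨n, hn, hy⟩
    refine ⟨m * n, fun h => ?_, ?_⟩
    · rcases (Nat.Prime.dvd_mul hl.out).1 h with h | h
      · exact hm h
      · exact hn h
    · have : ((m * n : ℕ) : ℂ) * (x + y) = (n : ℂ) * ((m : ℂ) * x) + (m : ℂ) * ((n : ℂ) * y) := by
        push_cast; ring
      rw [this]
      have hn' : IsIntegral ℤ ((n : ℂ)) := by
        simpa using isIntegral_algebraMap (R := ℤ) (A := ℂ) (x := (n : ℤ))
      have hm' : IsIntegral ℤ ((m : ℂ)) := by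
        simpa using isIntegral_algebraMap (R := ℤ) (A := ℂ) (x := (m : ℤ))
      exact (hn'.mul hx).add (hm'.mul hy)
  zero_mem' := ⟨1, fun h => hl.out.one_lt.ne' (Nat.dvd_one.1 h), by simpa using isIntegral_zero⟩
  neg_mem' := by
    rintro x ⟨m, hm, hx⟩
    exact ⟨m, hm, by rw [mul_neg]; exact hx.neg⟩

variable {l}

theorem mem_Rl {x : ℂ} : x ∈ Rl l ↔ ∃ m : ℕ, ¬ l ∣ m ∧ IsIntegral ℤ ((m : ℂ) * x) := Iff.rfl

/-- algebraic integers are in `Rl l` -/
theorem mem_of_isIntegral {x : ℂ} (hx : IsIntegral ℤ x) : x ∈ Rl l :=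
  ⟨1, fun h => hl.out.one_lt.ne' (Nat.dvd_one.1 h), by simpa using hx⟩

theorem intCast_mem_Rl (a : ℤ) : (a : ℂ) ∈ Rl l :=
  mem_of_isIntegral (by simpa using isIntegral_algebraMap (R := ℤ) (A := ℂ) (x := a))

/-- roots of unity are in `Rl l` -/
theorem mem_of_pow_eq_one {ζ : ℂ} {n : ℕ} (hn : 0 < n) (h : ζ ^ n = 1) : ζ ∈ Rl l :=
  mem_of_isIntegral (IsIntegral.of_pow hn (by rw [h]; exact isIntegral_one))

/-- an `l`-integral rational is in `Rl l` -/
theorem div_mem {a : ℤ} {b : ℕ} (hb : ¬ l ∣ b) : ((a : ℂ) / (b : ℂ)) ∈ Rl l := by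
  refine ⟨b, hb, ?_⟩
  have hb0 : (b : ℂ) ≠ 0 := by
    intro h
    have : b = 0 := by exact_mod_cast h
    exact hb (this ▸ dvd_zero l)
  rw [mul_div_cancel₀ _ hb0]
  exact isIntegral_algebraMap (R := ℤ) (A := ℂ) (x := a)

/-- a rational number in `Rl l` has denominator prime to `l`. -/
theorem not_dvd_den_of_mem {x : ℚ} (hx : (x : ℂ) ∈ Rl l) : ¬ l ∣ x.den := by
  obtain ⟨m, hm, hint⟩ := hx
  have h1 : IsIntegral ℤ ((m : ℚ) * x) := by
    have : ((m : ℂ) * (x : ℂ)) = algebraMap ℚ ℂ ((m : ℚ) * x) := by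
      simp
    rw [this] at hint
    exact (isIntegral_algebraMap_iff (algebraMap ℚ ℂ).injective).1 hint
  obtain ⟨k, hk⟩ := IsIntegrallyClosed.isIntegral_iff.1 h1
  -- `m * x = k`, so `x.den ∣ m`
  intro hden
  apply hm
  have h2 : (m : ℚ) * x = k := by simpa using hk.symm
  have h3 : x = (k : ℚ) / (m : ℚ) := by
    have hm0 : (m : ℚ) ≠ 0 := by
      intro h
      have : m = 0 := by exact_mod_cast h
      exact hm (this ▸ dvd_zero l)
    field_simp
    linarith [h2]
  have h4 : (x.den : ℤ) ∣ (m : ℤ) := by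
    have := Rat.den_dvd k (m : ℤ)
    rw [h3]
    simpa [Rat.divInt_eq_div] using this
  exact Int.natCast_dvd_natCast.1 ((Int.natCast_dvd_natCast.2 hden).trans h4)

variable (l) in
/-- `l` is not a unit of `Rl l`. -/
theorem not_isUnit_l : ¬ IsUnit ((l : ℕ) : Rl l) := by
  intro h
  obtain ⟨y, hy⟩ := h.exists_right_inv
  have hl0 : (l : ℂ) ≠ 0 := by exact_mod_cast hl.out.ne_zero
  have h1 : (y : ℂ) = ((1 / l : ℚ) : ℂ) := by
    have := congrArg (Subtype.val) hy
    simp only [Subring.coe_mul, Subring.coe_natCast, Subring.coe_one] at this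
    push_cast
    field_simp
    linear_combination this
  have h2 : (((1 / l : ℚ)) : ℂ) ∈ Rl l := h1 ▸ y.2
  have h3 := not_dvd_den_of_mem h2
  apply h3
  have : ((1 : ℚ) / l).den = l := by
    rw [one_div, Rat.inv_natCast_den]
    simp [hl.out.ne_zero]
  rw [this]

variable (l) in
/-- there is a maximal ideal of `Rl l` containing `l`. -/
theorem exists_maximal : ∃ 𝔪 : Ideal (Rl l), 𝔪.IsMaximal ∧ ((l : ℕ) : Rl l) ∈ 𝔪 := by
  have hne : Ideal.span {((l : ℕ) : Rl l)} ≠ ⊤ := by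
    rw [Ne, Ideal.span_singleton_eq_top]
    exact not_isUnit_l l
  obtain ⟨𝔪, h𝔪, hle⟩ := Ideal.exists_le_maximal _ hne
  exact ⟨𝔪, h𝔪, hle (Ideal.subset_span rfl)⟩

section Max

variable {𝔪 : Ideal (Rl l)} (h𝔪 : 𝔪.IsMaximal) (hl𝔪 : ((l : ℕ) : Rl l) ∈ 𝔪)

include h𝔪 hl𝔪

/-- an integer lies in `𝔪` iff it is divisible by `l`. -/
theorem intCast_mem_iff (a : ℤ) : ((a : ℤ) : Rl l) ∈ 𝔪 ↔ (l : ℤ) ∣ a := by
  constructor
  · intro ha
    by_contra hdvd
    have hcop : IsCoprime (l : ℤ) a := by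
      rw [Int.isCoprime_iff_gcd_eq_one]
      have := (Nat.Prime.coprime_iff_not_dvd hl.out).2
        (fun h => hdvd (by
          have : (l : ℤ) ∣ (a.natAbs : ℤ) := Int.natCast_dvd_natCast.2 h
          exact (Int.dvd_natAbs).1 this))
      simpa [Int.gcd] using this
    obtain ⟨u, v, huv⟩ := hcop
    have h1 : ((1 : ℤ) : Rl l) ∈ 𝔪 := by
      rw [← huv]
      push_cast
      exact 𝔪.add_mem (𝔪.mul_mem_left _ (by simpa using hl𝔪)) (𝔪.mul_mem_left _ ha)
    exact h𝔪.ne_top ((Ideal.eq_top_iff_one _).2 (by simpa using h1))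
  · rintro ⟨c, rfl⟩
    push_cast
    exact 𝔪.mul_mem_right _ (by simpa using hl𝔪)

omit hl𝔪 in
/-- units of `Rl l` are not in `𝔪`. -/
theorem not_mem_of_isUnit {x : Rl l} (hx : IsUnit x) : x ∉ 𝔪 := fun h =>
  h𝔪.ne_top (Ideal.eq_top_of_isUnit_mem _ h hx)

omit hl𝔪 in
/-- a root of unity (as an element of `Rl l`) is not in `𝔪`. -/
theorem not_mem_of_pow_eq_one {x : Rl l} {n : ℕ} (hn : 0 < n) (h : x ^ n = 1) : x ∉ 𝔪 :=
  not_mem_of_isUnit h𝔪 (IsUnit.of_pow_eq_one h hn.ne')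

/-- an `l`-integral rational `a / b` lies in `𝔪` iff `l ∣ a`. -/
theorem div_mem_iff {a : ℤ} {b : ℕ} (hb : ¬ l ∣ b) :
    (⟨(a : ℂ) / (b : ℂ), div_mem hb⟩ : Rl l) ∈ 𝔪 ↔ (l : ℤ) ∣ a := by
  have hb0 : (b : ℂ) ≠ 0 := by
    intro h
    have : b = 0 := by exact_mod_cast h
    exact hb (this ▸ dvd_zero l)
  have hbm : ((b : ℤ) : Rl l) ∉ 𝔪 := by
    rw [intCast_mem_iff h𝔪 hl𝔪]
    exact fun h => hb (Int.natCast_dvd_natCast.1 h)
  have hmul : ((b : ℤ) : Rl l) * (⟨(a : ℂ) / (b : ℂ), div_mem hb⟩ : Rl l) = ((a : ℤ) : Rl l) := by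
    apply Subtype.ext
    simp only [Subring.coe_mul, Subring.coe_intCast]
    push_cast
    rw [mul_div_cancel₀ _ hb0]
  rw [← intCast_mem_iff h𝔪 hl𝔪, ← hmul]
  constructor
  · intro h; exact 𝔪.mul_mem_left _ h
  · intro h
    rcases (h𝔪.isPrime.mem_or_mem h) with h | h
    · exact (hbm h).elim
    · exact h

end Max

/-! ### order modulo `𝔪` -/

section Ord

variable (𝔪 : Ideal (Rl l))

/-- the order of a power series over `Rl l` modulo `𝔪`. -/
noncomputable def ordM (f : PowerSeries (Rl l)) : ℕ∞ :=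
  (PowerSeries.map (Ideal.Quotient.mk 𝔪) f).order

variable {𝔪}

theorem ordM_mul [h𝔪 : 𝔪.IsMaximal] (f g : PowerSeries (Rl l)) :
    ordM 𝔪 (f * g) = ordM 𝔪 f + ordM 𝔪 g := by
  have : IsDomain (Rl l ⧸ 𝔪) := (Ideal.Quotient.isDomain_iff_prime 𝔪).2 h𝔪.isPrime
  unfold ordM
  rw [map_mul, PowerSeries.order_mul]

theorem ordM_prod [h𝔪 : 𝔪.IsMaximal] {ι : Type*} (s : Finset ι) (f : ι → PowerSeries (Rl l)) :
    ordM 𝔪 (∏ i ∈ s, f i) = ∑ i ∈ s, ordM 𝔪 (f i) := by
  classical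
  induction s using Finset.induction_on with
  | empty =>
    have : Nontrivial (Rl l ⧸ 𝔪) := Ideal.Quotient.nontrivial_iff.2 h𝔪.ne_top
    simp [ordM]
  | insert a s ha ih => rw [Finset.prod_insert ha, Finset.sum_insert ha, ordM_mul, ih]

/-- coefficients below the order are in `𝔪`. -/
theorem coeff_mem_of_lt_ordM {f : PowerSeries (Rl l)} {k : ℕ} (hk : (k : ℕ∞) < ordM 𝔪 f) :
    PowerSeries.coeff k f ∈ 𝔪 := by
  have := PowerSeries.coeff_of_lt_order k hk
  rwa [PowerSeries.coeff_map, Ideal.Quotient.eq_zero_iff_mem] at this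

/-- a coefficient outside `𝔪` bounds the order. -/
theorem ordM_le_of_coeff_not_mem {f : PowerSeries (Rl l)} {k : ℕ}
    (hk : PowerSeries.coeff k f ∉ 𝔪) : ordM 𝔪 f ≤ k := by
  by_contra h
  exact hk (coeff_mem_of_lt_ordM (not_le.1 h))

/-- the order is `k` if the coefficients below `k` are in `𝔪` and the `k`-th one is not. -/
theorem ordM_eq {f : PowerSeries (Rl l)} {k : ℕ} (h1 : ∀ i < k, PowerSeries.coeff i f ∈ 𝔪)
    (h2 : PowerSeries.coeff k f ∉ 𝔪) : ordM 𝔪 f = k := by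
  apply le_antisymm (ordM_le_of_coeff_not_mem h2)
  unfold ordM
  refine PowerSeries.nat_le_order _ k (fun i hi => ?_)
  rw [PowerSeries.coeff_map, Ideal.Quotient.eq_zero_iff_mem]
  exact h1 i hi

/-- all coefficients in `𝔪` iff the order is `⊤`. -/
theorem ordM_eq_top_iff {f : PowerSeries (Rl l)} :
    ordM 𝔪 f = ⊤ ↔ ∀ k, PowerSeries.coeff k f ∈ 𝔪 := by
  unfold ordM
  rw [PowerSeries.order_eq_top]
  constructor
  · intro h k
    have := congrArg (PowerSeries.coeff k) h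
    rwa [PowerSeries.coeff_map, map_zero, Ideal.Quotient.eq_zero_iff_mem] at this
  · intro h
    ext k
    rw [PowerSeries.coeff_map, map_zero, Ideal.Quotient.eq_zero_iff_mem]
    exact h k

end Ord


/-! ### Part 2: the general `ℂ`-level layer (`S : Subring ℂ`, `I : Ideal S`) -/

section General

variable (S : Subring ℂ)

/-- the power series over `ℂ` all of whose coefficients lie in `S`. -/
noncomputable def intSeries : Subring (PowerSeries ℂ) := (PowerSeries.map S.subtype).range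

variable {S}

theorem mem_intSeries {f : PowerSeries ℂ} :
    f ∈ intSeries S ↔ ∀ k, PowerSeries.coeff k f ∈ S := by
  constructor
  · rintro ⟨g, rfl⟩ k
    rw [PowerSeries.coeff_map]
    exact (PowerSeries.coeff k g).2
  · intro h
    refine ⟨PowerSeries.mk fun k => ⟨_, h k⟩, ?_⟩
    ext k
    simp [PowerSeries.coeff_map]

theorem map_mem_intSeries (g : PowerSeries S) : PowerSeries.map S.subtype g ∈ intSeries S :=
  ⟨g, rfl⟩

theorem C_mem_intSeries {c : ℂ} (hc : c ∈ S) : PowerSeries.C c ∈ intSeries S := by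
  rw [mem_intSeries]
  intro k
  rw [PowerSeries.coeff_C]
  split_ifs
  · exact hc
  · exact S.zero_mem

theorem smul_mem_intSeries {c : ℂ} (hc : c ∈ S) {f : PowerSeries ℂ} (hf : f ∈ intSeries S) :
    c • f ∈ intSeries S := by
  rw [mem_intSeries] at hf ⊢
  intro k
  rw [PowerSeries.coeff_smul]
  exact S.mul_mem hc (hf k)

theorem expand_mem_intSeries {N : ℕ} (hN : N ≠ 0) {f : PowerSeries ℂ} (hf : f ∈ intSeries S) :
    PowerSeries.expand N hN f ∈ intSeries S := by
  rw [mem_intSeries] at hf ⊢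
  intro k
  rw [PowerSeries.coeff_expand]
  split_ifs
  · exact hf _
  · exact S.zero_mem

theorem rescale_mem_intSeries {a : ℂ} (ha : a ∈ S) {f : PowerSeries ℂ} (hf : f ∈ intSeries S) :
    PowerSeries.rescale a f ∈ intSeries S := by
  rw [mem_intSeries] at hf ⊢
  intro k
  rw [PowerSeries.coeff_rescale]
  exact S.mul_mem (S.pow_mem ha k) (hf k)

variable (S) in
/-- the (junk-total) lift of a complex power series to a power series over `S`:
coefficients outside `S` are replaced by `0`. -/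
noncomputable def toS (f : PowerSeries ℂ) : PowerSeries S := by
  classical
  exact PowerSeries.mk fun k => if h : PowerSeries.coeff k f ∈ S then ⟨_, h⟩ else 0

theorem coeff_toS {f : PowerSeries ℂ} {k : ℕ} (h : PowerSeries.coeff k f ∈ S) :
    PowerSeries.coeff k (toS S f) = ⟨_, h⟩ := by
  simp [toS, h]

theorem toS_map (g : PowerSeries S) : toS S (PowerSeries.map S.subtype g) = g := by
  ext k
  simp [toS, PowerSeries.coeff_map]

theorem map_toS {f : PowerSeries ℂ} (hf : f ∈ intSeries S) :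
    PowerSeries.map S.subtype (toS S f) = f := by
  obtain ⟨g, rfl⟩ := hf
  rw [toS_map]

theorem toS_mul {f g : PowerSeries ℂ} (hf : f ∈ intSeries S) (hg : g ∈ intSeries S) :
    toS S (f * g) = toS S f * toS S g := by
  obtain ⟨f', rfl⟩ := hf
  obtain ⟨g', rfl⟩ := hg
  rw [← map_mul, toS_map, toS_map, toS_map]

theorem toS_add {f g : PowerSeries ℂ} (hf : f ∈ intSeries S) (hg : g ∈ intSeries S) :
    toS S (f + g) = toS S f + toS S g := by
  obtain ⟨f', rfl⟩ := hf
  obtain ⟨g', rfl⟩ := hg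
  rw [← map_add, toS_map, toS_map, toS_map]

theorem toS_one : toS S (1 : PowerSeries ℂ) = 1 := by
  have := toS_map (S := S) 1
  rwa [map_one] at this

theorem toS_zero : toS S (0 : PowerSeries ℂ) = 0 := by
  have := toS_map (S := S) 0
  rwa [map_zero] at this

theorem toS_prod {ι : Type*} (s : Finset ι) {f : ι → PowerSeries ℂ}
    (hf : ∀ i ∈ s, f i ∈ intSeries S) : toS S (∏ i ∈ s, f i) = ∏ i ∈ s, toS S (f i) := by
  classical
  induction s using Finset.induction_on with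
  | empty => simp [toS_one]
  | insert a s ha ih =>
    rw [Finset.prod_insert ha, Finset.prod_insert ha,
      toS_mul (hf a (Finset.mem_insert_self a s))
        ((intSeries S).prod_mem fun i hi => hf i (Finset.mem_insert_of_mem hi)),
      ih fun i hi => hf i (Finset.mem_insert_of_mem hi)]

theorem toS_expand {N : ℕ} (hN : N ≠ 0) {f : PowerSeries ℂ} (hf : f ∈ intSeries S) :
    toS S (PowerSeries.expand N hN f) = PowerSeries.expand N hN (toS S f) := by
  obtain ⟨f', rfl⟩ := hf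
  rw [← PowerSeries.map_expand, toS_map, toS_map]

/-- the ideal `I` of `S ⊆ ℂ`, as an additive subgroup of `ℂ`. -/
def idealC (I : Ideal S) : AddSubgroup ℂ :=
  I.toAddSubgroup.map S.subtype.toAddMonoidHom

variable {I : Ideal S}

theorem mem_idealC {x : ℂ} : x ∈ idealC I ↔ ∃ h : x ∈ S, (⟨x, h⟩ : S) ∈ I := by
  constructor
  · rintro ⟨y, hy, rfl⟩
    exact ⟨y.2, hy⟩
  · rintro ⟨h, hx⟩
    exact ⟨⟨x, h⟩, hx, rfl⟩

theorem coe_mem_idealC {x : S} : (x : ℂ) ∈ idealC I ↔ x ∈ I := by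
  rw [mem_idealC]
  constructor
  · rintro ⟨_, h⟩; exact h
  · intro h; exact ⟨x.2, h⟩

theorem mem_of_mem_idealC {x : ℂ} (hx : x ∈ idealC I) : x ∈ S := by
  obtain ⟨h, _⟩ := mem_idealC.1 hx
  exact h

theorem mul_mem_idealC {x y : ℂ} (hx : x ∈ S) (hy : y ∈ idealC I) : x * y ∈ idealC I := by
  obtain ⟨h, hy'⟩ := mem_idealC.1 hy
  exact mem_idealC.2 ⟨S.mul_mem hx h, I.mul_mem_left ⟨x, hx⟩ hy'⟩

theorem mul_mem_idealC' {x y : ℂ} (hx : x ∈ idealC I) (hy : y ∈ S) : x * y ∈ idealC I := by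
  rw [mul_comm]; exact mul_mem_idealC hy hx

theorem mul_mem_idealC_iff [hI : I.IsPrime] {x y : ℂ} (hx : x ∈ S) (hy : y ∈ S) :
    x * y ∈ idealC I ↔ x ∈ idealC I ∨ y ∈ idealC I := by
  constructor
  · intro h
    obtain ⟨_, h'⟩ := mem_idealC.1 h
    rcases hI.mem_or_mem (x := ⟨x, hx⟩) (y := ⟨y, hy⟩) h' with h1 | h1
    · exact Or.inl (mem_idealC.2 ⟨hx, h1⟩)
    · exact Or.inr (mem_idealC.2 ⟨hy, h1⟩)
  · rintro (h | h)
    · exact mul_mem_idealC' h hy
    · exact mul_mem_idealC hx h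

theorem one_not_mem_idealC (hI : I ≠ ⊤) : (1 : ℂ) ∉ idealC I := by
  intro h
  obtain ⟨_, h'⟩ := mem_idealC.1 h
  exact hI ((Ideal.eq_top_iff_one _).2 h')

/-- if `x y = 1` with `x, y ∈ S` then `x ∉ I` (for a proper ideal `I`). -/
theorem not_mem_idealC_of_mul_eq_one (hI : I ≠ ⊤) {x y : ℂ} (hy : y ∈ S)
    (hxy : x * y = 1) : x ∉ idealC I := fun h =>
  one_not_mem_idealC hI (hxy ▸ mul_mem_idealC' h hy)

/-- a root of unity is not in a proper ideal -/
theorem not_mem_idealC_of_pow_eq_one (hI : I ≠ ⊤) {x : ℂ} {n : ℕ} (hn : 0 < n)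
    (hx : x ∈ S) (h : x ^ n = 1) : x ∉ idealC I := by
  apply not_mem_idealC_of_mul_eq_one hI (S.pow_mem hx (n - 1))
  rw [← pow_succ', Nat.sub_add_cancel hn, h]

variable (I) in
/-- the order modulo `I` of a complex power series (meaningful when the coefficients are in
`S`). -/
noncomputable def ordC (f : PowerSeries ℂ) : ℕ∞ :=
  (PowerSeries.map (Ideal.Quotient.mk I) (toS S f)).order

theorem ordC_mul [hI : I.IsPrime] {f g : PowerSeries ℂ} (hf : f ∈ intSeries S)
    (hg : g ∈ intSeries S) : ordC I (f * g) = ordC I f + ordC I g := by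
  have : IsDomain (S ⧸ I) := (Ideal.Quotient.isDomain_iff_prime I).2 hI
  unfold ordC
  rw [toS_mul hf hg, map_mul, PowerSeries.order_mul]

theorem ordC_one (hI : I ≠ ⊤) : ordC I (1 : PowerSeries ℂ) = 0 := by
  have : Nontrivial (S ⧸ I) := Ideal.Quotient.nontrivial_iff.2 hI
  unfold ordC
  rw [toS_one, map_one, PowerSeries.order_one]

theorem ordC_prod [hI : I.IsPrime] {ι : Type*} (s : Finset ι) {f : ι → PowerSeries ℂ}
    (hf : ∀ i ∈ s, f i ∈ intSeries S) :
    ordC I (∏ i ∈ s, f i) = ∑ i ∈ s, ordC I (f i) := by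
  classical
  induction s using Finset.induction_on with
  | empty => simpa using ordC_one hI.ne_top
  | insert a s ha ih =>
    rw [Finset.prod_insert ha, Finset.sum_insert ha,
      ordC_mul (hf a (Finset.mem_insert_self a s))
        ((intSeries S).prod_mem fun i hi => hf i (Finset.mem_insert_of_mem hi)),
      ih fun i hi => hf i (Finset.mem_insert_of_mem hi)]

theorem coeff_map_toS_eq_zero_iff {f : PowerSeries ℂ} (hf : f ∈ intSeries S) (k : ℕ) :
    PowerSeries.coeff k (PowerSeries.map (Ideal.Quotient.mk I) (toS S f)) = 0 ↔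
      PowerSeries.coeff k f ∈ idealC I := by
  rw [PowerSeries.coeff_map, Ideal.Quotient.eq_zero_iff_mem, ← coe_mem_idealC,
    coeff_toS (mem_intSeries.1 hf k)]

/-- coefficients below the order are in `I`. -/
theorem coeff_mem_of_lt_ordC {f : PowerSeries ℂ} (hf : f ∈ intSeries S) {k : ℕ}
    (hk : (k : ℕ∞) < ordC I f) : PowerSeries.coeff k f ∈ idealC I :=
  (coeff_map_toS_eq_zero_iff hf k).1 (PowerSeries.coeff_of_lt_order k hk)

/-- a coefficient outside `I` bounds the order. -/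
theorem ordC_le_of_coeff_not_mem {f : PowerSeries ℂ} (hf : f ∈ intSeries S) {k : ℕ}
    (hk : PowerSeries.coeff k f ∉ idealC I) : ordC I f ≤ k := by
  by_contra h
  exact hk (coeff_mem_of_lt_ordC hf (not_le.1 h))

/-- if the coefficients below `k` are in `I`, the order is at least `k`. -/
theorem le_ordC {f : PowerSeries ℂ} (hf : f ∈ intSeries S) {k : ℕ}
    (h1 : ∀ i < k, PowerSeries.coeff i f ∈ idealC I) : (k : ℕ∞) ≤ ordC I f :=
  PowerSeries.nat_le_order _ k fun i hi => (coeff_map_toS_eq_zero_iff hf i).2 (h1 i hi)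

/-- the order is `k` if the coefficients below `k` are in `I` and the `k`-th one is not. -/
theorem ordC_eq {f : PowerSeries ℂ} (hf : f ∈ intSeries S) {k : ℕ}
    (h1 : ∀ i < k, PowerSeries.coeff i f ∈ idealC I) (h2 : PowerSeries.coeff k f ∉ idealC I) :
    ordC I f = k :=
  le_antisymm (ordC_le_of_coeff_not_mem hf h2) (le_ordC hf h1)

/-- all coefficients in `I` iff the order is `⊤`. -/
theorem ordC_eq_top_iff {f : PowerSeries ℂ} (hf : f ∈ intSeries S) :
    ordC I f = ⊤ ↔ ∀ k, PowerSeries.coeff k f ∈ idealC I := by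
  unfold ordC
  rw [PowerSeries.order_eq_top]
  constructor
  · intro h k
    rw [← coeff_map_toS_eq_zero_iff hf k, h, map_zero]
  · intro h
    ext k
    rw [map_zero]
    exact (coeff_map_toS_eq_zero_iff hf k).2 (h k)

/-- a finite order is attained: there is a coefficient outside `I` at the index `ordC`. -/
theorem exists_coeff_not_mem_of_ordC_ne_top {f : PowerSeries ℂ} (hf : f ∈ intSeries S)
    (h : ordC I f ≠ ⊤) :
    ∃ k : ℕ, ordC I f = k ∧ PowerSeries.coeff k f ∉ idealC I ∧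
      ∀ i < k, PowerSeries.coeff i f ∈ idealC I := by
  obtain ⟨k, hk⟩ := ENat.ne_top_iff_exists.1 h
  refine ⟨k, hk.symm, ?_, fun i hi => coeff_mem_of_lt_ordC hf (by rw [← hk]; exact_mod_cast hi)⟩
  intro hmem
  have h0 : PowerSeries.map (Ideal.Quotient.mk I) (toS S f) ≠ 0 := by
    intro h0
    exact h (PowerSeries.order_eq_top.2 h0)
  have := PowerSeries.coeff_order h0
  apply this
  have hk' : (PowerSeries.map (Ideal.Quotient.mk I) (toS S f)).order.toNat = k := by
    change (ordC I f).toNat = k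
    rw [← hk]; rfl
  rw [hk']
  exact (coeff_map_toS_eq_zero_iff hf k).2 hmem

/-- congruent series have the same order. -/
theorem ordC_congr {f g : PowerSeries ℂ} (hf : f ∈ intSeries S) (hg : g ∈ intSeries S)
    (h : ∀ k, PowerSeries.coeff k f - PowerSeries.coeff k g ∈ idealC I) :
    ordC I f = ordC I g := by
  unfold ordC
  congr 1
  ext k
  rw [← sub_eq_zero, ← map_sub, ← map_sub]
  have hfg : f - g ∈ intSeries S := (intSeries S).sub_mem hf hg
  have : toS S f - toS S g = toS S (f - g) := by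
    obtain ⟨f', rfl⟩ := hf
    obtain ⟨g', rfl⟩ := hg
    rw [← map_sub, toS_map, toS_map, toS_map]
  rw [this, coeff_map_toS_eq_zero_iff hfg k, map_sub]
  exact h k

/-- `ord (f(q^N)) = N · ord f`. -/
theorem ordC_expand {N : ℕ} (hN : N ≠ 0) {f : PowerSeries ℂ} (hf : f ∈ intSeries S) :
    ordC I (PowerSeries.expand N hN f) = N • ordC I f := by
  unfold ordC
  rw [toS_expand hN hf, PowerSeries.map_expand, PowerSeries.order_expand]

/-- multiplying by a constant outside the prime `I` does not change the order. -/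
theorem ordC_smul [hI : I.IsPrime] {c : ℂ} (hc : c ∈ S) (hc' : c ∉ idealC I)
    {f : PowerSeries ℂ} (hf : f ∈ intSeries S) : ordC I (c • f) = ordC I f := by
  have h1 : c • f = PowerSeries.C c * f := by
    ext k; simp
  have h2 : ordC I (PowerSeries.C c) = 0 := by
    have := ordC_eq (I := I) (C_mem_intSeries hc) (k := 0) (fun i hi => absurd hi (Nat.not_lt_zero i))
      (by simpa using hc')
    simpa using this
  rw [h1, ordC_mul (C_mem_intSeries hc) hf, h2, zero_add]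

/-- rescaling by a unit of `S` does not change the order. -/
theorem ordC_rescale {a b : ℂ} (ha : a ∈ S) (hb : b ∈ S) (hab : a * b = 1)
    {f : PowerSeries ℂ} (hf : f ∈ intSeries S) :
    ordC I (PowerSeries.rescale a f) = ordC I f := by
  have key : ∀ k, PowerSeries.coeff k (PowerSeries.rescale a f) ∈ idealC I ↔
      PowerSeries.coeff k f ∈ idealC I := by
    intro k
    rw [PowerSeries.coeff_rescale]
    constructor
    · intro h
      have := mul_mem_idealC (I := I) (S.pow_mem hb k) h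
      rwa [← mul_assoc, ← mul_pow, mul_comm b a, hab, one_pow, one_mul] at this
    · intro h
      exact mul_mem_idealC (S.pow_mem ha k) h
  have hf' := rescale_mem_intSeries ha hf
  apply le_antisymm
  · refine PowerSeries.le_order _ _ fun i hi => ?_
    rw [coeff_map_toS_eq_zero_iff hf]
    exact (key i).1 (coeff_mem_of_lt_ordC hf' hi)
  · refine PowerSeries.le_order _ _ fun i hi => ?_
    rw [coeff_map_toS_eq_zero_iff hf']
    exact (key i).2 (coeff_mem_of_lt_ordC hf hi)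

end General

/-! ### Part 3: `idealC` for `Rl l` and a maximal ideal `𝔪 ∋ l` -/

section Spec

variable {𝔪 : Ideal (Rl l)} (h𝔪 : 𝔪.IsMaximal) (hl𝔪 : ((l : ℕ) : Rl l) ∈ 𝔪)

include h𝔪 hl𝔪

theorem mem_idealC_intCast_iff (a : ℤ) : (a : ℂ) ∈ idealC 𝔪 ↔ (l : ℤ) ∣ a := by
  rw [← intCast_mem_iff h𝔪 hl𝔪 a, ← coe_mem_idealC]
  simp

theorem mem_idealC_natCast_iff (a : ℕ) : (a : ℂ) ∈ idealC 𝔪 ↔ l ∣ a := by
  have := mem_idealC_intCast_iff h𝔪 hl𝔪 (a : ℤ)
  rw [Int.natCast_dvd_natCast] at this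
  simpa using this

theorem mem_idealC_div_iff {a : ℤ} {b : ℕ} (hb : ¬ l ∣ b) :
    (a : ℂ) / (b : ℂ) ∈ idealC 𝔪 ↔ (l : ℤ) ∣ a := by
  rw [← div_mem_iff h𝔪 hl𝔪 hb, ← coe_mem_idealC]

/-- a rational with denominator prime to `l` lies in `𝔪` iff `l` divides its numerator. -/
theorem mem_idealC_ratCast_iff {x : ℚ} (hx : ¬ l ∣ x.den) :
    (x : ℂ) ∈ idealC 𝔪 ↔ (l : ℤ) ∣ x.num := by
  rw [← mem_idealC_div_iff h𝔪 hl𝔪 hx]
  conv_lhs => rw [← Rat.num_div_den x]
  push_cast
  rfl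

/-- `l · x ∈ 𝔪` for `x ∈ Rl l`. -/
theorem l_mul_mem_idealC {x : ℂ} (hx : x ∈ Rl l) : (l : ℂ) * x ∈ idealC 𝔪 := by
  rw [mul_comm]
  exact mul_mem_idealC hx ((mem_idealC_natCast_iff h𝔪 hl𝔪 l).2 dvd_rfl)

omit hl𝔪 in
/-- roots of unity are not in `𝔪`. -/
theorem root_not_mem_idealC {ζ : ℂ} {n : ℕ} (hn : 0 < n) (h : ζ ^ n = 1) : ζ ∉ idealC 𝔪 :=
  not_mem_idealC_of_pow_eq_one h𝔪.ne_top hn (mem_of_pow_eq_one hn h) h

end Spec

/-- rationals with denominator prime to `l` are in `Rl l`. -/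
theorem ratCast_mem {x : ℚ} (hx : ¬ l ∣ x.den) : (x : ℂ) ∈ Rl l := by
  have := div_mem (l := l) (a := x.num) hx
  have h2 : ((x.num : ℂ) / (x.den : ℂ)) = (x : ℂ) := by
    conv_rhs => rw [← Rat.num_div_den x]
    push_cast
    rfl
  rwa [h2] at this

theorem ratCast_mem_iff {x : ℚ} : (x : ℂ) ∈ Rl l ↔ ¬ l ∣ x.den :=
  ⟨not_dvd_den_of_mem, ratCast_mem⟩

end Fermat.Agent.S16.IntClosure20
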