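/-
Program M (S16), chapter U4 (helper20): `Target_LocalData` of `Formal14`, and the `ord_𝔪`
toolkit of `IntClosure20` specialised to an ARBITRARY `L : Formal14.LocalData ℓ` (the norm
targets of `Formal14` quantify over an arbitrary `LocalData ℓ`, so everything here is derived
from the structure fields alone).

* `target_LocalData : Formal14.Target_LocalData`;
* `inM_iff : L.InM x ↔ x ∈ idealC L.m`, `sturmProp_iff` (the `idealC` form of `SturmProp`),
  `sturmProp_ordC_le`, and (NS) `ns_bound`: `V_N n = ∏ C_i ⇒ 12 · ∑ ord C_i ≤ N · K`;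
* for `L : LocalData ℓ`, `ℓ` prime: `intCast_mem_m_iff`, `div_mem_R`, `div_mem_m_iff`,
  `ratCast_mem_R`, `ratCast_mem_m_iff`, `ell_mul_mem_m`, `root_not_mem_m`, `toC_mem_intSeries`, …
-/
import Fermat.Agent.S16.Formal14
import Fermat.Agent.S16.IntClosure20

set_option autoImplicit false

namespace Fermat.Agent.S16.LocalData20

open Fermat.Agent.S16 Fermat.Agent.S16.Formal14 Fermat.Agent.S16.IntClosure20

/-- existence of `(R, 𝔪)`: `R` = the integral closure of `ℤ_(ℓ)` in `ℂ`. -/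
theorem target_LocalData : Target_LocalData := by
  intro ℓ hℓ
  have : Fact ℓ.Prime := ⟨hℓ⟩
  obtain ⟨𝔪, h𝔪, hl⟩ := exists_maximal ℓ
  refine ⟨{ R := Rl ℓ, m := 𝔪, isMaximal := h𝔪, int_mem := intCast_mem_Rl, inv_mem := ?_,
            root_mem := fun z n hn h => mem_of_pow_eq_one hn h,
            ell_mem := ⟨((ℓ : ℕ) : Rl ℓ), hl, by simp⟩ }⟩
  intro a ha
  have hb : ¬ ℓ ∣ a.natAbs := fun h => ha (Int.natCast_dvd.2 h)
  have h1 := div_mem (l := ℓ) (a := a.sign) hb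
  have h2 : ((a.sign : ℤ) : ℂ) / ((a.natAbs : ℕ) : ℂ) = ((a : ℂ))⁻¹ := by
    have ha0 : a ≠ 0 := fun h => ha (h ▸ dvd_zero _)
    have ha0' : (a : ℂ) ≠ 0 := by exact_mod_cast ha0
    have h3 : ((a.natAbs : ℕ) : ℂ) = ((a.sign : ℤ) : ℂ) * (a : ℂ) := by
      have h4 : ((a.natAbs : ℕ) : ℤ) = a.sign * a := by
        rw [Int.natCast_natAbs, Int.sign_mul_self_eq_abs]
      rw [← Int.cast_mul, ← h4, Int.cast_natCast]
    have hs : ((a.sign : ℤ) : ℂ) ≠ 0 := by
      have : a.sign ≠ 0 := by rwa [Ne, Int.sign_eq_zero_iff_zero]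
      exact_mod_cast this
    rw [h3]
    field_simp
  rwa [h2] at h1

section Bridge

variable {ℓ : ℕ} (L : LocalData ℓ)

/-- `Formal14.LocalData.InM` is membership in `idealC L.m`. -/
theorem inM_iff {x : ℂ} : L.InM x ↔ x ∈ idealC L.m := by
  rw [mem_idealC]
  constructor
  · rintro ⟨r, hr, rfl⟩
    exact ⟨r.2, hr⟩
  · rintro ⟨h, hx⟩
    exact ⟨⟨x, h⟩, hx, rfl⟩

/-- the generic `idealC`-form of the membership clause of `SturmProp`. -/
theorem exists_iff_mem_idealC {R : Subring ℂ} {m : Ideal R} {x : ℂ} :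
    (∃ r : R, r ∈ m ∧ (r : ℂ) = x) ↔ x ∈ idealC m := by
  rw [mem_idealC]
  constructor
  · rintro ⟨r, hr, rfl⟩
    exact ⟨r.2, hr⟩
  · rintro ⟨h, hx⟩
    exact ⟨⟨x, h⟩, hx, rfl⟩

/-- `SturmProp` in the language of `intSeries` / `idealC`. -/
theorem sturmProp_iff {K : ℕ} {n : PowerSeries ℂ} :
    SturmProp K n ↔ ∀ (R : Subring ℂ) (m : Ideal R), n ∈ intSeries R →
      (∀ k, 12 * k ≤ K → PowerSeries.coeff k n ∈ idealC m) →
      ∀ k, PowerSeries.coeff k n ∈ idealC m := by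
  unfold SturmProp
  simp only [exists_iff_mem_idealC, mem_intSeries]

/-- (ST) ⇒ the order of a Sturm series with coefficients in `R` is `⊤` or `≤ K / 12`:
if some coefficient is outside `m`, then one of index `k` with `12 k ≤ K` is. -/
theorem sturmProp_exists_le {K : ℕ} {n : PowerSeries ℂ} (hn : SturmProp K n)
    {R : Subring ℂ} {m : Ideal R} (hR : n ∈ intSeries R) {k₀ : ℕ}
    (hk₀ : PowerSeries.coeff k₀ n ∉ idealC m) :
    ∃ k, 12 * k ≤ K ∧ PowerSeries.coeff k n ∉ idealC m := by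
  by_contra hcon
  push Not at hcon
  exact hk₀ (sturmProp_iff.1 hn R m hR hcon k₀)

/-- (ST) ⇒ `12 · ord ≤ K` for a Sturm series of finite order mod `m`. -/
theorem sturmProp_ordC_le {K : ℕ} {n : PowerSeries ℂ} (hn : SturmProp K n)
    {R : Subring ℂ} {m : Ideal R} (hR : n ∈ intSeries R) (hfin : ordC m n ≠ ⊤) :
    12 * ordC m n ≤ (K : ℕ∞) := by
  obtain ⟨k, hk, hk1, hk2⟩ := exists_coeff_not_mem_of_ordC_ne_top hR hfin
  obtain ⟨k', hk', hk'2⟩ := sturmProp_exists_le hn hR hk1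
  have : k ≤ k' := by
    by_contra h
    exact hk'2 (hk2 k' (not_le.1 h))
  rw [hk]
  have h2 : 12 * k ≤ K := le_trans (Nat.mul_le_mul_left 12 this) hk'
  exact_mod_cast h2

/-- (NS), the norm–Sturm bound: if `V_N n = ∏ C_i` with `n` a Sturm series of weight `K`, all
`C_i` with coefficients in `R` and of finite order modulo the prime `m`, then
`12 · ∑ ord (C_i) ≤ N · K`. -/
theorem ns_bound {K N : ℕ} (hN : N ≠ 0) {n : PowerSeries ℂ} (hn : SturmProp K n)
    {R : Subring ℂ} {m : Ideal R} [hm : m.IsPrime] {ι : Type*} (s : Finset ι)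
    (Cs : ι → PowerSeries ℂ) (hC : ∀ i ∈ s, Cs i ∈ intSeries R)
    (hprod : PowerSeries.expand N hN n = ∏ i ∈ s, Cs i)
    (hfin : ∀ i ∈ s, ordC m (Cs i) ≠ ⊤) :
    12 * ∑ i ∈ s, ordC m (Cs i) ≤ ((N * K : ℕ) : ℕ∞) := by
  have hnR : n ∈ intSeries R := by
    rw [mem_intSeries]
    intro k
    have := mem_intSeries.1 ((intSeries R).prod_mem hC) (N * k)
    rwa [← hprod, PowerSeries.coeff_expand_mul] at this
  have hord : N • ordC m n = ∑ i ∈ s, ordC m (Cs i) := by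
    rw [← ordC_expand hN hnR, hprod, ordC_prod s hC]
  have hsum : ∑ i ∈ s, ordC m (Cs i) ≠ ⊤ := by
    apply ne_of_lt
    rw [ENat.sum_lt_top]
    intro i hi
    exact lt_top_iff_ne_top.2 (hfin i hi)
  have hfin' : ordC m n ≠ ⊤ := by
    intro h
    apply hsum
    rw [← hord, h, nsmul_eq_mul]
    exact ENat.mul_top (by exact_mod_cast hN)
  have h12 := sturmProp_ordC_le hn hnR hfin'
  rw [← hord, nsmul_eq_mul]
  calc 12 * ((N : ℕ∞) * ordC m n) = (N : ℕ∞) * (12 * ordC m n) := by ring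
    _ ≤ (N : ℕ∞) * (K : ℕ∞) := by gcongr
    _ = ((N * K : ℕ) : ℕ∞) := by push_cast; rfl

end Bridge

section Arith

variable {ℓ : ℕ} (L : LocalData ℓ)

theorem m_ne_top : L.m ≠ ⊤ := L.isMaximal.ne_top

instance : L.m.IsPrime := L.isMaximal.isPrime

theorem ell_mem_m : (ℓ : ℂ) ∈ idealC L.m := by
  obtain ⟨r, hr, hrl⟩ := L.ell_mem
  rw [← hrl]
  exact coe_mem_idealC.2 hr

theorem ell_mul_mem_m {x : ℂ} (hx : x ∈ L.R) : (ℓ : ℂ) * x ∈ idealC L.m :=
  mul_mem_idealC' (ell_mem_m L) hx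

theorem ell_pow_mul_mem_m {x : ℂ} (hx : x ∈ L.R) {e : ℕ} (he : 1 ≤ e) :
    (ℓ : ℂ) ^ e * x ∈ idealC L.m := by
  obtain ⟨e', rfl⟩ : ∃ e', e = e' + 1 := ⟨e - 1, (Nat.sub_add_cancel he).symm⟩
  rw [pow_succ', mul_assoc]
  have h1 : (ℓ : ℂ) ∈ L.R := by
    have := L.int_mem (ℓ : ℤ)
    rwa [Int.cast_natCast] at this
  exact ell_mul_mem_m L (L.R.mul_mem (L.R.pow_mem h1 e') hx)

variable (hℓ : ℓ.Prime)

include hℓ

/-- an integer is in `𝔪` iff it is divisible by `ℓ`. -/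
theorem intCast_mem_m_iff (a : ℤ) : (a : ℂ) ∈ idealC L.m ↔ (ℓ : ℤ) ∣ a := by
  constructor
  · intro ha
    by_contra hdvd
    have hcop : IsCoprime (ℓ : ℤ) a := by
      rw [Int.isCoprime_iff_gcd_eq_one]
      have := (Nat.Prime.coprime_iff_not_dvd hℓ).2
        (fun h => hdvd (by
          have : (ℓ : ℤ) ∣ (a.natAbs : ℤ) := Int.natCast_dvd_natCast.2 h
          exact (Int.dvd_natAbs).1 this))
      simpa [Int.gcd] using this
    obtain ⟨u, v, huv⟩ := hcop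
    have h1 : ((1 : ℤ) : ℂ) ∈ idealC L.m := by
      rw [← huv]
      push_cast
      exact (idealC L.m).add_mem (mul_mem_idealC (L.int_mem u) (ell_mem_m L))
        (mul_mem_idealC (L.int_mem v) ha)
    exact one_not_mem_idealC (m_ne_top L) (by simpa using h1)
  · rintro ⟨c, rfl⟩
    push_cast
    exact mul_mem_idealC' (ell_mem_m L) (L.int_mem c)

theorem natCast_mem_m_iff (a : ℕ) : (a : ℂ) ∈ idealC L.m ↔ ℓ ∣ a := by
  have := intCast_mem_m_iff L hℓ (a : ℤ)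
  rw [Int.natCast_dvd_natCast] at this
  simpa using this

omit hℓ in
/-- `a / b ∈ R` for integers `a, b` with `ℓ ∤ b`. -/
theorem div_mem_R (a : ℤ) {b : ℤ} (hb : ¬ (ℓ : ℤ) ∣ b) : (a : ℂ) / (b : ℂ) ∈ L.R := by
  rw [div_eq_mul_inv]
  exact L.R.mul_mem (L.int_mem a) (L.inv_mem b hb)

/-- `a / b ∈ 𝔪 ↔ ℓ ∣ a` for integers `a, b` with `ℓ ∤ b`. -/
theorem div_mem_m_iff (a : ℤ) {b : ℤ} (hb : ¬ (ℓ : ℤ) ∣ b) :
    (a : ℂ) / (b : ℂ) ∈ idealC L.m ↔ (ℓ : ℤ) ∣ a := by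
  have hb0 : (b : ℂ) ≠ 0 := by
    intro h
    have : b = 0 := by exact_mod_cast h
    exact hb (this ▸ dvd_zero _)
  have hbm : (b : ℂ) ∉ idealC L.m := fun h => hb ((intCast_mem_m_iff L hℓ b).1 h)
  have hmul : (b : ℂ) * ((a : ℂ) / (b : ℂ)) = (a : ℂ) := mul_div_cancel₀ _ hb0
  constructor
  · intro h
    have := mul_mem_idealC (I := L.m) (L.int_mem b) h
    rwa [hmul, intCast_mem_m_iff L hℓ] at this
  · intro h
    have h1 : (b : ℂ) * ((a : ℂ) / (b : ℂ)) ∈ idealC L.m := by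
      rw [hmul]; exact (intCast_mem_m_iff L hℓ a).2 h
    rcases (mul_mem_idealC_iff (L.int_mem b) (div_mem_R L a hb)).1 h1 with h2 | h2
    · exact (hbm h2).elim
    · exact h2

omit hℓ in
/-- a rational number with denominator prime to `ℓ` is in `R`. -/
theorem ratCast_mem_R {x : ℚ} (hx : ¬ ℓ ∣ x.den) : (x : ℂ) ∈ L.R := by
  have hb : ¬ (ℓ : ℤ) ∣ (x.den : ℤ) := fun h => hx (Int.natCast_dvd_natCast.1 h)
  have := div_mem_R L x.num hb
  have h2 : ((x.num : ℂ) / ((x.den : ℤ) : ℂ)) = (x : ℂ) := by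
    conv_rhs => rw [← Rat.num_div_den x]
    push_cast
    rfl
  rwa [h2] at this

/-- a rational number with denominator prime to `ℓ` is in `𝔪` iff `ℓ` divides its numerator. -/
theorem ratCast_mem_m_iff {x : ℚ} (hx : ¬ ℓ ∣ x.den) :
    (x : ℂ) ∈ idealC L.m ↔ (ℓ : ℤ) ∣ x.num := by
  have hb : ¬ (ℓ : ℤ) ∣ (x.den : ℤ) := fun h => hx (Int.natCast_dvd_natCast.1 h)
  rw [← div_mem_m_iff L hℓ x.num hb]
  have h2 : ((x.num : ℂ) / ((x.den : ℤ) : ℂ)) = (x : ℂ) := by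
    conv_rhs => rw [← Rat.num_div_den x]
    push_cast
    rfl
  rw [h2]

omit hℓ in
/-- roots of unity are in `R` and not in `𝔪`. -/
theorem root_not_mem_m {z : ℂ} {n : ℕ} (hn : 1 ≤ n) (h : z ^ n = 1) : z ∉ idealC L.m :=
  not_mem_idealC_of_pow_eq_one (m_ne_top L) hn (L.root_mem z n hn h) h

omit hℓ in
/-- an integer series, viewed over `ℂ`, has coefficients in `R`. -/
theorem toC_mem_intSeries (f : PowerSeries ℤ) : toC f ∈ intSeries L.R := by
  rw [mem_intSeries]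
  intro k
  rw [PowerSeries.coeff_map]
  exact L.int_mem _

omit hℓ in
/-- the twist by a root of unity of a series over `R` is a series over `R`. -/
theorem rescale_root_mem_intSeries {z : ℂ} {n : ℕ} (hn : 1 ≤ n) (h : z ^ n = 1)
    {f : PowerSeries ℂ} (hf : f ∈ intSeries L.R) : PowerSeries.rescale z f ∈ intSeries L.R :=
  rescale_mem_intSeries (L.root_mem z n hn h) hf

omit hℓ in
/-- twisting by a root of unity does not change the order modulo `𝔪`. -/
theorem ordC_rescale_root {z : ℂ} {n : ℕ} (hn : 1 ≤ n) (h : z ^ n = 1)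
    {f : PowerSeries ℂ} (hf : f ∈ intSeries L.R) :
    ordC L.m (PowerSeries.rescale z f) = ordC L.m f := by
  refine ordC_rescale (L.root_mem z n hn h) (L.R.pow_mem (L.root_mem z n hn h) (n - 1)) ?_ hf
  rw [← pow_succ', Nat.sub_add_cancel hn, h]

end Arith

end Fermat.Agent.S16.LocalData20
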