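/-
S16, upper bound, chapter U6 (helper18): the `𝔪`-order calculus on `ℂ⟦X⟧` relative to a
`Formal14.LocalData ℓ = (R, 𝔪)`.

* basic closure lemmas for `L.InM` (membership in `𝔪 ⊂ R ⊂ ℂ`);
* `OrdM L f o`: all coefficients of `f` lie in `R`, those of index `< o` lie in `𝔪`, the one of
  index `o` does not;
* `OrdM.mul`, `OrdM.prod` (orders add: `R ⧸ 𝔪` is a field), `OrdM.unique`.
-/
import Mathlib
import Fermat.Agent.S16.Formal14

set_option autoImplicit false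

open PowerSeries

namespace Fermat.Agent.S16.OrdM18

open Fermat.Agent.S16.Formal14

noncomputable section

variable {ℓ : ℕ} (L : LocalData ℓ)

/-! ### membership in `R` and `𝔪` -/

theorem inM_iff {x : ℂ} : L.InM x ↔ ∃ h : x ∈ L.R, (⟨x, h⟩ : L.R) ∈ L.m := by
  constructor
  · rintro ⟨r, hr, rfl⟩
    exact ⟨r.2, hr⟩
  · rintro ⟨h, hm⟩
    exact ⟨⟨x, h⟩, hm, rfl⟩

theorem InM.mem {x : ℂ} (h : L.InM x) : x ∈ L.R := by
  obtain ⟨r, -, rfl⟩ := h
  exact r.2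

theorem inM_zero : L.InM 0 := ⟨0, L.m.zero_mem, rfl⟩

theorem InM.add {x y : ℂ} (hx : L.InM x) (hy : L.InM y) : L.InM (x + y) := by
  obtain ⟨r, hr, rfl⟩ := hx
  obtain ⟨s, hs, rfl⟩ := hy
  exact ⟨r + s, L.m.add_mem hr hs, rfl⟩

theorem InM.neg {x : ℂ} (hx : L.InM x) : L.InM (-x) := by
  obtain ⟨r, hr, rfl⟩ := hx
  exact ⟨-r, L.m.neg_mem hr, rfl⟩

theorem InM.sub {x y : ℂ} (hx : L.InM x) (hy : L.InM y) : L.InM (x - y) := by
  rw [sub_eq_add_neg]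
  exact InM.add L hx (InM.neg L hy)

theorem InM.mul_left {x y : ℂ} (hx : x ∈ L.R) (hy : L.InM y) : L.InM (x * y) := by
  obtain ⟨s, hs, rfl⟩ := hy
  exact ⟨⟨x, hx⟩ * s, L.m.mul_mem_left _ hs, rfl⟩

theorem InM.mul_right {x y : ℂ} (hx : L.InM x) (hy : y ∈ L.R) : L.InM (x * y) := by
  rw [mul_comm]
  exact InM.mul_left L hy hx

theorem inM_sum {ι : Type*} (s : Finset ι) (f : ι → ℂ) (h : ∀ i ∈ s, L.InM (f i)) :
    L.InM (∑ i ∈ s, f i) := by
  classical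
  induction s using Finset.induction_on with
  | empty => simp [inM_zero L]
  | insert a s ha ih =>
    rw [Finset.sum_insert ha]
    exact InM.add L (h a (Finset.mem_insert_self a s))
      (ih fun i hi => h i (Finset.mem_insert_of_mem hi))

theorem not_inM_one : ¬ L.InM 1 := by
  rintro ⟨r, hr, h1⟩
  have : r = 1 := Subtype.ext (by simpa using h1)
  rw [this] at hr
  exact L.isMaximal.ne_top ((Ideal.eq_top_iff_one _).2 hr)

theorem not_inM_of_mul_eq_one {x y : ℂ} (hy : y ∈ L.R) (h : x * y = 1) : ¬ L.InM x := fun hx =>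
  not_inM_one L (h ▸ InM.mul_right L hx hy)

/-- `𝔪` is prime. -/
theorem inM_or_of_mul {x y : ℂ} (hx : x ∈ L.R) (hy : y ∈ L.R) (h : L.InM (x * y)) :
    L.InM x ∨ L.InM y := by
  obtain ⟨h', hm⟩ := (inM_iff L).1 h
  have hmul : (⟨x * y, h'⟩ : L.R) = ⟨x, hx⟩ * ⟨y, hy⟩ := rfl
  rw [hmul] at hm
  rcases L.isMaximal.isPrime.mem_or_mem hm with h1 | h1
  · exact Or.inl ((inM_iff L).2 ⟨hx, h1⟩)
  · exact Or.inr ((inM_iff L).2 ⟨hy, h1⟩)

theorem not_inM_add {x y : ℂ} (hx : L.InM x) (hy : ¬ L.InM y) : ¬ L.InM (x + y) := fun h =>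
  hy (by simpa using InM.sub L h hx)

theorem not_inM_add' {x y : ℂ} (hx : ¬ L.InM x) (hy : L.InM y) : ¬ L.InM (x + y) := by
  rw [add_comm]
  exact not_inM_add L hy hx

theorem intCast_mem (a : ℤ) : (a : ℂ) ∈ L.R := L.int_mem a

theorem natCast_mem (a : ℕ) : (a : ℂ) ∈ L.R := by
  have := L.int_mem (a : ℤ)
  simp only [Int.cast_natCast] at this
  exact this

theorem inM_ell : L.InM (ℓ : ℂ) := L.ell_mem

theorem inM_int_of_dvd {a : ℤ} (h : (ℓ : ℤ) ∣ a) : L.InM (a : ℂ) := by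
  obtain ⟨b, rfl⟩ := h
  push_cast
  exact InM.mul_right L (inM_ell L) (L.int_mem b)

theorem not_inM_int {a : ℤ} (h : ¬ (ℓ : ℤ) ∣ a) : ¬ L.InM (a : ℂ) := by
  have ha : a ≠ 0 := by
    rintro rfl
    exact h (dvd_zero _)
  refine not_inM_of_mul_eq_one L (L.inv_mem a h) ?_
  exact mul_inv_cancel₀ (by exact_mod_cast ha)

theorem inv_int_mem {a : ℤ} (h : ¬ (ℓ : ℤ) ∣ a) : ((a : ℂ))⁻¹ ∈ L.R := L.inv_mem a h

theorem root_pow_mem {z : ℂ} {n : ℕ} (hn : 1 ≤ n) (hz : z ^ n = 1) (j : ℕ) : z ^ j ∈ L.R :=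
  L.root_mem (z ^ j) n hn (by rw [← pow_mul, mul_comm, pow_mul, hz, one_pow])

/-- a unit of `R` times something outside `𝔪` is outside `𝔪`. -/
theorem not_inM_mul {x y : ℂ} (hx : x ∈ L.R) (hy : y ∈ L.R) (hx' : ¬ L.InM x) (hy' : ¬ L.InM y) :
    ¬ L.InM (x * y) := fun h => (inM_or_of_mul L hx hy h).elim hx' hy'

/-! ### the `𝔪`-order -/

/-- `f ∈ R⟦X⟧` and the reduction of `f` modulo `𝔪` has order exactly `o`. -/
structure OrdM (f : ℂ⟦X⟧) (o : ℕ) : Prop where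
  mem : ∀ k, coeff k f ∈ L.R
  lt : ∀ k, k < o → L.InM (coeff k f)
  nmem : ¬ L.InM (coeff o f)

variable {L}

/-- the lift of a series with coefficients in `R` to `R⟦X⟧`. -/
def liftR (f : ℂ⟦X⟧) (h : ∀ k, coeff k f ∈ L.R) : (L.R)⟦X⟧ :=
  PowerSeries.mk fun k => ⟨coeff k f, h k⟩

theorem map_liftR (f : ℂ⟦X⟧) (h : ∀ k, coeff k f ∈ L.R) :
    PowerSeries.map L.R.subtype (liftR f h) = f := by
  ext k
  simp [liftR]

theorem map_subtype_injective :
    Function.Injective (PowerSeries.map L.R.subtype : (L.R)⟦X⟧ → ℂ⟦X⟧) := by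
  intro a b hab
  ext k
  have := congrArg (coeff k) hab
  simpa using this

/-- the reduction modulo `𝔪`. -/
def redM (f : ℂ⟦X⟧) (h : ∀ k, coeff k f ∈ L.R) : (L.R ⧸ L.m)⟦X⟧ :=
  PowerSeries.map (Ideal.Quotient.mk L.m) (liftR f h)

theorem coeff_redM_eq_zero_iff (f : ℂ⟦X⟧) (h : ∀ k, coeff k f ∈ L.R) (k : ℕ) :
    coeff k (redM f h) = 0 ↔ L.InM (coeff k f) := by
  rw [redM, coeff_map, liftR, coeff_mk, Ideal.Quotient.eq_zero_iff_mem, inM_iff]
  exact ⟨fun hm => ⟨h k, hm⟩, fun ⟨_, hm⟩ => hm⟩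

theorem ordM_iff (f : ℂ⟦X⟧) (o : ℕ) :
    OrdM L f o ↔ ∃ h : ∀ k, coeff k f ∈ L.R, (redM f h).order = o := by
  constructor
  · intro H
    refine ⟨H.mem, ?_⟩
    rw [order_eq_nat]
    refine ⟨fun h0 => H.nmem ((coeff_redM_eq_zero_iff f H.mem o).1 h0), fun i hi => ?_⟩
    exact (coeff_redM_eq_zero_iff f H.mem i).2 (H.lt i hi)
  · rintro ⟨h, ho⟩
    rw [order_eq_nat] at ho
    exact ⟨h, fun k hk => (coeff_redM_eq_zero_iff f h k).1 (ho.2 k hk),
      fun h0 => ho.1 ((coeff_redM_eq_zero_iff f h o).2 h0)⟩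

theorem mem_mul {f g : ℂ⟦X⟧} (hf : ∀ k, coeff k f ∈ L.R) (hg : ∀ k, coeff k g ∈ L.R) :
    ∀ k, coeff k (f * g) ∈ L.R := by
  intro k
  rw [coeff_mul]
  exact Subring.sum_mem _ fun x _ => Subring.mul_mem _ (hf _) (hg _)

theorem redM_mul {f g : ℂ⟦X⟧} (hf : ∀ k, coeff k f ∈ L.R) (hg : ∀ k, coeff k g ∈ L.R) :
    redM (f * g) (mem_mul hf hg) = redM f hf * redM g hg := by
  have : liftR (f * g) (mem_mul hf hg) = liftR f hf * liftR g hg := by
    apply map_subtype_injective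
    rw [map_mul, map_liftR, map_liftR, map_liftR]
  rw [redM, this, map_mul]
  rfl

instance : IsDomain (L.R ⧸ L.m) := by
  have := L.isMaximal
  exact (Ideal.Quotient.isDomain_iff_prime L.m).2 L.isMaximal.isPrime

theorem OrdM.mul {f g : ℂ⟦X⟧} {a b : ℕ} (hf : OrdM L f a) (hg : OrdM L g b) :
    OrdM L (f * g) (a + b) := by
  obtain ⟨h1, o1⟩ := (ordM_iff f a).1 hf
  obtain ⟨h2, o2⟩ := (ordM_iff g b).1 hg
  refine (ordM_iff _ _).2 ⟨mem_mul h1 h2, ?_⟩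
  rw [redM_mul h1 h2, order_mul, o1, o2]
  rfl

theorem ordM_one : OrdM L (1 : ℂ⟦X⟧) 0 := by
  refine ⟨fun k => ?_, fun k hk => absurd hk (Nat.not_lt_zero k), ?_⟩
  · rw [coeff_one]
    split_ifs
    · exact L.R.one_mem
    · exact L.R.zero_mem
  · simpa using not_inM_one L

theorem OrdM.prod {ι : Type*} (s : Finset ι) (f : ι → ℂ⟦X⟧) (o : ι → ℕ)
    (h : ∀ i ∈ s, OrdM L (f i) (o i)) : OrdM L (∏ i ∈ s, f i) (∑ i ∈ s, o i) := by
  classical
  induction s using Finset.induction_on with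
  | empty => simpa using ordM_one
  | insert a s ha ih =>
    rw [Finset.prod_insert ha, Finset.sum_insert ha]
    exact OrdM.mul (h a (Finset.mem_insert_self a s))
      (ih fun i hi => h i (Finset.mem_insert_of_mem hi))

theorem OrdM.unique {f : ℂ⟦X⟧} {a b : ℕ} (ha : OrdM L f a) (hb : OrdM L f b) : a = b := by
  rcases lt_trichotomy a b with h | h | h
  · exact absurd (hb.lt a h) ha.nmem
  · exact h
  · exact absurd (ha.lt b h) hb.nmem

/-- a criterion: `f = g + e` with `e ≡ 0 mod 𝔪` coefficientwise. -/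
theorem OrdM.of_congr {f g : ℂ⟦X⟧} {o : ℕ} (hg : OrdM L g o)
    (h : ∀ k, L.InM (coeff k f - coeff k g)) : OrdM L f o := by
  have key : ∀ k, coeff k f = (coeff k f - coeff k g) + coeff k g := fun k => by ring
  refine ⟨fun k => ?_, fun k hk => ?_, ?_⟩
  · rw [key k]
    exact L.R.add_mem (InM.mem L (h k)) (hg.mem k)
  · rw [key k]
    exact InM.add L (h k) (hg.lt k hk)
  · rw [key o]
    exact not_inM_add L (h o) hg.nmem

end

end Fermat.Agent.S16.OrdM18
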