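/-
S16, upper bound, chapter U6, case (N_2a) (helper18, serving helper24): the congruence table of
the four factor types of `Formal14.Target_N2a` modulo `𝔪 ∣ 2`.

With `c = 2u` (`u` odd), `G ≡ c mod 16`, `G' = U_p G`, `β = -1/p`, `β₃ = -1/3`, and
`Ainf = G(q^{3p})`, `A j = β G'(ζ^j q^3)`, `Binf = c G₃(q^{3p})`, `B i = c β₃ G₃(ω^i q^p)`:

* `T1` : `(Ainf - Binf)/8` has `𝔪`-order `3p`;
* `T2` : `(A j - Binf)/8` has `𝔪`-order `0` if `p ≡ 3 mod 8`, `3p` if `p ≡ 7 mod 8`;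
* `T3` : `(Ainf - B i)/8` has `𝔪`-order `0`;
* `T4` : `(A j - B i)/8` has `𝔪`-order `p` if `p ≡ 3 mod 8`, `0` if `p ≡ 7 mod 8`.
-/
import Mathlib
import Fermat.Agent.S16.Formal14
import Fermat.Agent.S16.OrdM18

set_option autoImplicit false

open PowerSeries

namespace Fermat.Agent.S16.N2aTable18

open Fermat.Agent.S16.Formal14 Fermat.Agent.S16.OrdM18

noncomputable section

/-! ### quotients of integers in `R` -/

section Quot

variable {ℓ : ℕ} (L : LocalData ℓ)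

theorem div_int_mem (a : ℤ) {b : ℤ} (hb : ¬ (ℓ : ℤ) ∣ b) : (a : ℂ) * ((b : ℂ))⁻¹ ∈ L.R :=
  L.R.mul_mem (L.int_mem a) (L.inv_mem b hb)

theorem inM_div_int {a b : ℤ} (ha : (ℓ : ℤ) ∣ a) (hb : ¬ (ℓ : ℤ) ∣ b) :
    L.InM ((a : ℂ) * ((b : ℂ))⁻¹) :=
  InM.mul_right L (inM_int_of_dvd L ha) (L.inv_mem b hb)

theorem not_inM_div_int {a b : ℤ} (ha : ¬ (ℓ : ℤ) ∣ a) (hb : ¬ (ℓ : ℤ) ∣ b) :
    ¬ L.InM ((a : ℂ) * ((b : ℂ))⁻¹) := by
  intro h
  have hb0 : (b : ℂ) ≠ 0 := by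
    have : b ≠ 0 := by
      rintro rfl
      exact hb (dvd_zero _)
    exact_mod_cast this
  have h2 := InM.mul_right L h (L.int_mem b)
  rw [mul_assoc, inv_mul_cancel₀ hb0, mul_one] at h2
  exact not_inM_int L ha h2

end Quot

/-! ### the generic combination lemma -/

section Combine

variable {ℓ : ℕ} (L : LocalData ℓ)

/-- constant term outside `𝔪`: order `0`. -/
theorem ordM_zero_of (e : ℂ) (𝒜 ℬ : ℂ⟦X⟧)
    (h0m : e * (coeff 0 𝒜 - coeff 0 ℬ) ∈ L.R)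
    (h0 : ¬ L.InM (e * (coeff 0 𝒜 - coeff 0 ℬ)))
    (hA : ∀ k, 1 ≤ k → e * coeff k 𝒜 ∈ L.R)
    (hB : ∀ k, 1 ≤ k → e * coeff k ℬ ∈ L.R) :
    OrdM L (C e * (𝒜 - ℬ)) 0 := by
  have hc : ∀ k, coeff k (C e * (𝒜 - ℬ)) = e * coeff k 𝒜 - e * coeff k ℬ := by
    intro k
    rw [coeff_C_mul, map_sub, mul_sub]
  refine ⟨fun k => ?_, fun k hk => absurd hk (Nat.not_lt_zero k), ?_⟩
  · rcases Nat.eq_zero_or_pos k with rfl | hk
    · rw [hc, ← mul_sub]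
      exact h0m
    · rw [hc]
      exact L.R.sub_mem (hA k hk) (hB k hk)
  · rw [hc, ← mul_sub]
    exact h0

/-- constant term in `𝔪`, the `𝒜`-part `≡ 0 mod 𝔪`, the `ℬ`-part of order exactly `o ≥ 1`. -/
theorem ordM_pos_of (e : ℂ) (𝒜 ℬ : ℂ⟦X⟧) (o : ℕ) (ho : 1 ≤ o)
    (h0 : L.InM (e * (coeff 0 𝒜 - coeff 0 ℬ)))
    (hA : ∀ k, 1 ≤ k → L.InM (e * coeff k 𝒜))
    (hB : ∀ k, 1 ≤ k → e * coeff k ℬ ∈ L.R)
    (hBlt : ∀ k, 1 ≤ k → k < o → L.InM (e * coeff k ℬ))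
    (hBo : ¬ L.InM (e * coeff o ℬ)) :
    OrdM L (C e * (𝒜 - ℬ)) o := by
  have hc : ∀ k, coeff k (C e * (𝒜 - ℬ)) = e * coeff k 𝒜 - e * coeff k ℬ := by
    intro k
    rw [coeff_C_mul, map_sub, mul_sub]
  refine ⟨fun k => ?_, fun k hk => ?_, ?_⟩
  · rcases Nat.eq_zero_or_pos k with rfl | hk
    · rw [hc, ← mul_sub]
      exact InM.mem L h0
    · rw [hc]
      exact L.R.sub_mem (InM.mem L (hA k hk)) (hB k hk)
  · rcases Nat.eq_zero_or_pos k with rfl | hk1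
    · rw [hc, ← mul_sub]
      exact h0
    · rw [hc]
      exact InM.sub L (hA k hk1) (hBlt k hk1 hk)
  · rw [hc, sub_eq_add_neg]
    refine not_inM_add L (hA o ho) ?_
    intro h
    exact hBo (by simpa using InM.neg L h)

end Combine

/-! ### the four series and their coefficients -/

section Series

variable {p : ℕ} (hp : p.Prime) (P : Pkg p) (ζ ω : ℂ)

/-- `G(q^{3p})`. -/
def Ainf : ℂ⟦X⟧ :=
  expand (3 * p) (Nat.mul_ne_zero (by norm_num) hp.ne_zero) (toC P.G)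

/-- `β G'(ζ^j q^3)`. -/
def A (j : ℕ) : ℂ⟦X⟧ :=
  C (-((p : ℂ))⁻¹) * expand 3 (by norm_num) (rescale (ζ ^ j) (toC P.G'))

/-- `c G₃(q^{3p})`. -/
def Binf : ℂ⟦X⟧ :=
  C (P.c : ℂ) * expand (3 * p) (Nat.mul_ne_zero (by norm_num) hp.ne_zero) (G3s ℂ)

/-- `c β₃ G₃(ω^i q^p)`. -/
def B (i : ℕ) : ℂ⟦X⟧ :=
  C ((P.c : ℂ) * (-((3 : ℂ))⁻¹)) * expand p hp.ne_zero (rescale (ω ^ i) (G3s ℂ))

theorem coeff_Ainf (k : ℕ) :
    coeff k (Ainf hp P) = if 3 * p ∣ k then ((coeff (k / (3 * p)) P.G : ℤ) : ℂ) else 0 := by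
  rw [Ainf, coeff_expand]
  split_ifs
  · rw [coeff_map]
    rfl
  · rfl

theorem coeff_A (j k : ℕ) :
    coeff k (A P ζ j) =
      -((p : ℂ))⁻¹ * (if 3 ∣ k then (ζ ^ j) ^ (k / 3) * ((coeff (k / 3) P.G' : ℤ) : ℂ) else 0) := by
  rw [A, coeff_C_mul, coeff_expand]
  split_ifs
  · rw [coeff_rescale, coeff_map]
    rfl
  · rfl

theorem coeff_G3s (m : ℕ) :
    coeff m (G3s ℂ) = (if m = 0 then 1 else 0) + 12 * ((sigma3' m : ℕ) : ℂ) := by
  rw [G3s, map_add, coeff_one, coeff_C_mul, phi3, coeff_mk]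

theorem coeff_Binf (k : ℕ) :
    coeff k (Binf hp P) =
      (P.c : ℂ) * (if 3 * p ∣ k then coeff (k / (3 * p)) (G3s ℂ) else 0) := by
  rw [Binf, coeff_C_mul, coeff_expand]

theorem coeff_B (i k : ℕ) :
    coeff k (B hp P ω i) = ((P.c : ℂ) * (-((3 : ℂ))⁻¹)) *
      (if p ∣ k then (ω ^ i) ^ (k / p) * coeff (k / p) (G3s ℂ) else 0) := by
  rw [B, coeff_C_mul, coeff_expand]
  split_ifs
  · rw [coeff_rescale]
  · rfl

theorem sigma3'_zero : sigma3' 0 = 0 := by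
  simp [sigma3']

theorem sigma3'_one : sigma3' 1 = 1 := by
  decide

end Series

/-! ### side facts -/

section Side

variable {p : ℕ} (hp : p.Prime) (L : LocalData 2) (P : Pkg p) (u : ℤ) (ζ ω : ℂ)

theorem two_inM : L.InM (2 : ℂ) := by
  have := inM_ell L
  simpa using this

theorem coeff_G_of_pos (hcong : P.Cong 2 4) {m : ℕ} (hm : 1 ≤ m) :
    ∃ t : ℤ, coeff m P.G = 16 * t := by
  obtain ⟨t, ht⟩ := hcong m hm
  exact ⟨t, by rw [ht]; norm_num⟩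

theorem coeff_G'_of_pos (hp' : p.Prime) (hcong : P.Cong 2 4) {m : ℕ} (hm : 1 ≤ m) :
    ∃ t : ℤ, coeff m P.G' = 16 * t := by
  have h1 : coeff m P.G' = coeff (p * m) P.G := by
    rw [← P.Up_G, coeff_Up]
  rw [h1]
  exact coeff_G_of_pos P hcong (Nat.one_le_iff_ne_zero.2
    (Nat.mul_ne_zero hp'.ne_zero (Nat.one_le_iff_ne_zero.1 hm)))

theorem Ainf_zero : coeff 0 (Ainf hp P) = (P.c : ℂ) := by
  rw [coeff_Ainf, if_pos (dvd_zero _), Nat.zero_div, coeff_zero_eq_constantCoeff_apply, P.constG]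

theorem Ainf_pos (hcong : P.Cong 2 4) {k : ℕ} (hk : 1 ≤ k) :
    L.InM ((8 : ℂ)⁻¹ * coeff k (Ainf hp P)) := by
  rw [coeff_Ainf]
  split_ifs with h
  · have hm : 1 ≤ k / (3 * p) := by
      obtain ⟨m, rfl⟩ := h
      have h3p : 0 < 3 * p := Nat.mul_pos (by norm_num) hp.pos
      rw [Nat.mul_div_cancel_left _ h3p]
      rcases Nat.eq_zero_or_pos m with rfl | hm
      · simp at hk
      · exact hm
    obtain ⟨t, ht⟩ := coeff_G_of_pos P hcong hm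
    rw [ht]
    have : (8 : ℂ)⁻¹ * ((16 * t : ℤ) : ℂ) = (t : ℂ) * 2 := by
      push_cast
      ring
    rw [this]
    exact InM.mul_left L (L.int_mem t) (two_inM L)
  · rw [mul_zero]
    exact inM_zero L

theorem A_zero (j : ℕ) : coeff 0 (A P ζ j) = -((p : ℂ))⁻¹ * (P.c : ℂ) := by
  rw [coeff_A, if_pos (dvd_zero _), Nat.zero_div, pow_zero, one_mul,
    coeff_zero_eq_constantCoeff_apply, P.constG']

theorem p_odd (hp' : p.Prime) (hp2 : p ≠ 2) : ¬ ((2 : ℕ) : ℤ) ∣ (p : ℤ) := by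
  intro h
  have h2 : (2 : ℕ) ∣ p := by exact_mod_cast h
  exact hp2 ((Nat.prime_dvd_prime_iff_eq Nat.prime_two hp').1 h2).symm

theorem A_pos (hp' : p.Prime) (hp2 : p ≠ 2) (hζ : ζ ^ p = 1) (hcong : P.Cong 2 4) (j : ℕ) {k : ℕ}
    (hk : 1 ≤ k) :
    L.InM ((8 : ℂ)⁻¹ * coeff k (A P ζ j)) := by
  rw [coeff_A]
  split_ifs with h
  · have hm : 1 ≤ k / 3 := by
      obtain ⟨m, rfl⟩ := h
      rw [Nat.mul_div_cancel_left _ (by norm_num : 0 < 3)]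
      rcases Nat.eq_zero_or_pos m with rfl | hm
      · simp at hk
      · exact hm
    obtain ⟨t, ht⟩ := coeff_G'_of_pos P hp' hcong hm
    rw [ht]
    have : (8 : ℂ)⁻¹ * (-((p : ℂ))⁻¹ * ((ζ ^ j) ^ (k / 3) * ((16 * t : ℤ) : ℂ))) =
        (-((p : ℂ))⁻¹ * ((ζ ^ j) ^ (k / 3) * (t : ℂ))) * 2 := by
      push_cast
      ring
    rw [this]
    refine InM.mul_left L ?_ (two_inM L)
    refine L.R.mul_mem (L.R.neg_mem ?_) (L.R.mul_mem ?_ (L.int_mem t))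
    · have := L.inv_mem (p : ℤ) (p_odd hp' hp2)
      simpa using this
    · rw [← pow_mul]
      exact root_pow_mem L hp'.one_lt.le hζ _
  · rw [mul_zero, mul_zero]
    exact inM_zero L

theorem Binf_zero : coeff 0 (Binf hp P) = (P.c : ℂ) := by
  rw [coeff_Binf, if_pos (dvd_zero _), Nat.zero_div, coeff_G3s, if_pos rfl, sigma3'_zero]
  simp

/-- the value `8⁻¹ * coeff k Binf` for `k ≥ 1`. -/
theorem Binf_val (hc : P.c = 2 * u) {k : ℕ} (hk : 1 ≤ k) :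
    (8 : ℂ)⁻¹ * coeff k (Binf hp P) =
      if 3 * p ∣ k then ((3 * u * (sigma3' (k / (3 * p)) : ℤ) : ℤ) : ℂ) else 0 := by
  rw [coeff_Binf]
  split_ifs with h
  · have hm : k / (3 * p) ≠ 0 := by
      obtain ⟨m, rfl⟩ := h
      have h3p : 0 < 3 * p := Nat.mul_pos (by norm_num) hp.pos
      rw [Nat.mul_div_cancel_left _ h3p]
      rintro rfl
      simp at hk
    rw [coeff_G3s, if_neg hm, hc]
    push_cast
    ring
  · rw [mul_zero, mul_zero]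

theorem Binf_mem (hc : P.c = 2 * u) {k : ℕ} (hk : 1 ≤ k) :
    (8 : ℂ)⁻¹ * coeff k (Binf hp P) ∈ L.R := by
  rw [Binf_val hp P u hc hk]
  split_ifs
  · exact L.int_mem _
  · exact L.R.zero_mem

theorem Binf_lt (hc : P.c = 2 * u) {k : ℕ} (hk : 1 ≤ k) (hlt : k < 3 * p) :
    L.InM ((8 : ℂ)⁻¹ * coeff k (Binf hp P)) := by
  rw [Binf_val hp P u hc hk, if_neg]
  · exact inM_zero L
  · intro h
    exact absurd (Nat.le_of_dvd hk h) (not_le.2 hlt)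

theorem Binf_at (hc : P.c = 2 * u) (hu : ¬ (2 : ℤ) ∣ u) :
    ¬ L.InM ((8 : ℂ)⁻¹ * coeff (3 * p) (Binf hp P)) := by
  have h3p : 0 < 3 * p := Nat.mul_pos (by norm_num) hp.pos
  rw [Binf_val hp P u hc h3p, if_pos dvd_rfl, Nat.div_self h3p, sigma3'_one]
  refine not_inM_int L ?_
  intro h
  apply hu
  have h2 : (2 : ℤ) ∣ 3 * u := by simpa using h
  exact (Int.isCoprime_iff_gcd_eq_one.2 (by norm_num : Int.gcd 2 3 = 1)).dvd_of_dvd_mul_left h2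

theorem B_zero (i : ℕ) : coeff 0 (B hp P ω i) = (P.c : ℂ) * (-((3 : ℂ))⁻¹) := by
  rw [coeff_B, if_pos (dvd_zero _), Nat.zero_div, pow_zero, one_mul, coeff_G3s, if_pos rfl,
    sigma3'_zero]
  simp

/-- the value `8⁻¹ * coeff k (B i)` for `k ≥ 1`. -/
theorem B_val (hc : P.c = 2 * u) (i : ℕ) {k : ℕ} (hk : 1 ≤ k) :
    (8 : ℂ)⁻¹ * coeff k (B hp P ω i) =
      if p ∣ k then -((u * (sigma3' (k / p) : ℤ) : ℤ) : ℂ) * (ω ^ i) ^ (k / p) else 0 := by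
  rw [coeff_B]
  split_ifs with h
  · have hm : k / p ≠ 0 := by
      obtain ⟨m, rfl⟩ := h
      rw [Nat.mul_div_cancel_left _ hp.pos]
      rintro rfl
      simp at hk
    rw [coeff_G3s, if_neg hm, hc]
    push_cast
    ring
  · rw [mul_zero, mul_zero]

theorem B_mem (hc : P.c = 2 * u) (hω : ω ^ 3 = 1) (i : ℕ) {k : ℕ} (hk : 1 ≤ k) :
    (8 : ℂ)⁻¹ * coeff k (B hp P ω i) ∈ L.R := by
  rw [B_val hp P u ω hc i hk]
  split_ifs
  · refine L.R.mul_mem (L.R.neg_mem (L.int_mem _)) ?_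
    rw [← pow_mul]
    exact root_pow_mem L (by norm_num) hω _
  · exact L.R.zero_mem

theorem B_lt (hc : P.c = 2 * u) (i : ℕ) {k : ℕ} (hk : 1 ≤ k) (hlt : k < p) :
    L.InM ((8 : ℂ)⁻¹ * coeff k (B hp P ω i)) := by
  rw [B_val hp P u ω hc i hk, if_neg]
  · exact inM_zero L
  · intro h
    exact absurd (Nat.le_of_dvd hk h) (not_le.2 hlt)

theorem B_at (hc : P.c = 2 * u) (hu : ¬ (2 : ℤ) ∣ u) (hω : ω ^ 3 = 1) (i : ℕ) :
    ¬ L.InM ((8 : ℂ)⁻¹ * coeff p (B hp P ω i)) := by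
  rw [B_val hp P u ω hc i hp.pos, if_pos dvd_rfl, Nat.div_self hp.pos, sigma3'_one, pow_one]
  have h1 : ¬ L.InM (-((u * ((1 : ℕ) : ℤ) : ℤ) : ℂ)) := by
    have : -((u * ((1 : ℕ) : ℤ) : ℤ) : ℂ) = ((-u : ℤ) : ℂ) := by push_cast; ring
    rw [this]
    exact not_inM_int L (by simpa using hu)
  have h2 : ¬ L.InM (ω ^ i) := by
    refine not_inM_of_mul_eq_one L (root_pow_mem L (by norm_num) hω (2 * i)) ?_
    rw [← pow_add, show i + 2 * i = 3 * i by ring, pow_mul, hω, one_pow]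
  exact not_inM_mul L (L.R.neg_mem (L.int_mem _)) (root_pow_mem L (by norm_num) hω i) h1 h2

end Side

/-! ### the table -/

section Table

variable {p : ℕ} (hp : p.Prime) (L : LocalData 2) (P : Pkg p) (u : ℤ) (ζ ω : ℂ)

theorem odd_mul {a b : ℤ} (ha : ¬ (2 : ℤ) ∣ a) (hb : ¬ (2 : ℤ) ∣ b) : ¬ (2 : ℤ) ∣ a * b := by
  intro h
  rcases Int.prime_two.dvd_or_dvd h with h | h
  · exact ha h
  · exact hb h

theorem not_two_dvd_three : ¬ (2 : ℤ) ∣ 3 := by decide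

theorem pC_ne_zero (hp' : p.Prime) : (p : ℂ) ≠ 0 := by
  exact_mod_cast hp'.ne_zero

/-- **T1**: the factor of type `(∞, ∞)` has `𝔪`-order `3p`. -/
theorem T1 (hc : P.c = 2 * u) (hu : ¬ (2 : ℤ) ∣ u) (hcong : P.Cong 2 4) :
    OrdM L (C ((8 : ℂ))⁻¹ * (Ainf hp P - Binf hp P)) (3 * p) := by
  refine ordM_pos_of L _ _ _ _ (Nat.mul_pos (by norm_num) hp.pos) ?_
    (fun k hk => Ainf_pos hp L P hcong hk) (fun k hk => Binf_mem hp L P u hc hk)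
    (fun k hk hlt => Binf_lt hp L P u hc hk hlt) (Binf_at hp L P u hc hu)
  rw [Ainf_zero, Binf_zero, sub_self, mul_zero]
  exact inM_zero L

/-- **T2**, `p ≡ 3 mod 8`: the factors of type `(j, ∞)` have `𝔪`-order `0`. -/
theorem T2_three (hp8 : p % 8 = 3) (hc : P.c = 2 * u) (hu : ¬ (2 : ℤ) ∣ u) (hζ : ζ ^ p = 1)
    (hcong : P.Cong 2 4) (j : ℕ) :
    OrdM L (C ((8 : ℂ))⁻¹ * (A P ζ j - Binf hp P)) 0 := by
  have hp2 : p ≠ 2 := by
    rintro rfl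
    norm_num at hp8
  have hpo := p_odd hp hp2
  have hpd : p = 8 * (p / 8) + 3 := by
    have := Nat.div_add_mod p 8
    omega
  set t : ℕ := p / 8 with ht
  have hval : (8 : ℂ)⁻¹ * (coeff 0 (A P ζ j) - coeff 0 (Binf hp P)) =
      ((-(u * (2 * (t : ℤ) + 1)) : ℤ) : ℂ) * (((p : ℤ) : ℂ))⁻¹ := by
    rw [A_zero, Binf_zero, hc]
    have hp0 := pC_ne_zero hp
    have hpc : (p : ℂ) = 8 * (t : ℂ) + 3 := by
      conv_lhs => rw [hpd]
      push_cast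
      ring
    push_cast
    field_simp
    rw [hpc]
    ring
  have hodd : ¬ (2 : ℤ) ∣ -(u * (2 * (t : ℤ) + 1)) := by
    rw [dvd_neg]
    exact odd_mul hu (by omega)
  refine ordM_zero_of L _ _ _ ?_ ?_
    (fun k hk => InM.mem L (A_pos L P ζ hp hp2 hζ hcong j hk))
    (fun k hk => Binf_mem hp L P u hc hk)
  · rw [hval]
    exact div_int_mem L _ hpo
  · rw [hval]
    exact not_inM_div_int L hodd hpo

/-- **T2**, `p ≡ 7 mod 8`: the factors of type `(j, ∞)` have `𝔪`-order `3p`. -/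
theorem T2_seven (hp8 : p % 8 = 7) (hc : P.c = 2 * u) (hu : ¬ (2 : ℤ) ∣ u) (hζ : ζ ^ p = 1)
    (hcong : P.Cong 2 4) (j : ℕ) :
    OrdM L (C ((8 : ℂ))⁻¹ * (A P ζ j - Binf hp P)) (3 * p) := by
  have hp2 : p ≠ 2 := by
    rintro rfl
    norm_num at hp8
  have hpo := p_odd hp hp2
  have hpd : p = 8 * (p / 8) + 7 := by
    have := Nat.div_add_mod p 8
    omega
  set t : ℕ := p / 8 with ht
  have hval : (8 : ℂ)⁻¹ * (coeff 0 (A P ζ j) - coeff 0 (Binf hp P)) =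
      ((-(2 * u * ((t : ℤ) + 1)) : ℤ) : ℂ) * (((p : ℤ) : ℂ))⁻¹ := by
    rw [A_zero, Binf_zero, hc]
    have hp0 := pC_ne_zero hp
    have hpc : (p : ℂ) = 8 * (t : ℂ) + 7 := by
      conv_lhs => rw [hpd]
      push_cast
      ring
    push_cast
    field_simp
    rw [hpc]
    ring
  refine ordM_pos_of L _ _ _ _ (Nat.mul_pos (by norm_num) hp.pos) ?_
    (fun k hk => A_pos L P ζ hp hp2 hζ hcong j hk) (fun k hk => Binf_mem hp L P u hc hk)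
    (fun k hk hlt => Binf_lt hp L P u hc hk hlt) (Binf_at hp L P u hc hu)
  rw [hval]
  exact inM_div_int L ⟨-(u * ((t : ℤ) + 1)), by push_cast; ring⟩ hpo

/-- **T3**: the factors of type `(∞, i)` have `𝔪`-order `0`. -/
theorem T3 (hc : P.c = 2 * u) (hu : ¬ (2 : ℤ) ∣ u) (hω : ω ^ 3 = 1) (hcong : P.Cong 2 4)
    (i : ℕ) :
    OrdM L (C ((8 : ℂ))⁻¹ * (Ainf hp P - B hp P ω i)) 0 := by
  have hval : (8 : ℂ)⁻¹ * (coeff 0 (Ainf hp P) - coeff 0 (B hp P ω i)) =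
      ((u : ℤ) : ℂ) * (((3 : ℤ) : ℂ))⁻¹ := by
    rw [Ainf_zero, B_zero, hc]
    push_cast
    ring
  refine ordM_zero_of L _ _ _ ?_ ?_
    (fun k hk => InM.mem L (Ainf_pos hp L P hcong hk))
    (fun k hk => B_mem hp L P u ω hc hω i hk)
  · rw [hval]
    exact div_int_mem L _ not_two_dvd_three
  · rw [hval]
    exact not_inM_div_int L hu not_two_dvd_three

/-- **T4**, `p ≡ 3 mod 8`: the factors of type `(j, i)` have `𝔪`-order `p`. -/
theorem T4_three (hp8 : p % 8 = 3) (hc : P.c = 2 * u) (hu : ¬ (2 : ℤ) ∣ u) (hζ : ζ ^ p = 1)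
    (hω : ω ^ 3 = 1) (hcong : P.Cong 2 4) (j i : ℕ) :
    OrdM L (C ((8 : ℂ))⁻¹ * (A P ζ j - B hp P ω i)) p := by
  have hp2 : p ≠ 2 := by
    rintro rfl
    norm_num at hp8
  have hpo := p_odd hp hp2
  have h3po : ¬ ((2 : ℕ) : ℤ) ∣ 3 * (p : ℤ) := odd_mul not_two_dvd_three hpo
  have hpd : p = 8 * (p / 8) + 3 := by
    have := Nat.div_add_mod p 8
    omega
  set t : ℕ := p / 8 with ht
  have hval : (8 : ℂ)⁻¹ * (coeff 0 (A P ζ j) - coeff 0 (B hp P ω i)) =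
      ((2 * (u * (t : ℤ)) : ℤ) : ℂ) * (((3 * (p : ℤ) : ℤ) : ℂ))⁻¹ := by
    rw [A_zero, B_zero, hc]
    have hp0 := pC_ne_zero hp
    have hpc : (p : ℂ) = 8 * (t : ℂ) + 3 := by
      conv_lhs => rw [hpd]
      push_cast
      ring
    push_cast
    field_simp
    rw [hpc]
    ring
  refine ordM_pos_of L _ _ _ _ hp.pos ?_
    (fun k hk => A_pos L P ζ hp hp2 hζ hcong j hk) (fun k hk => B_mem hp L P u ω hc hω i hk)
    (fun k hk hlt => B_lt hp L P u ω hc i hk hlt) (B_at hp L P u ω hc hu hω i)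
  rw [hval]
  exact inM_div_int L ⟨u * (t : ℤ), by push_cast; ring⟩ h3po

/-- **T4**, `p ≡ 7 mod 8`: the factors of type `(j, i)` have `𝔪`-order `0`. -/
theorem T4_seven (hp8 : p % 8 = 7) (hc : P.c = 2 * u) (hu : ¬ (2 : ℤ) ∣ u) (hζ : ζ ^ p = 1)
    (hω : ω ^ 3 = 1) (hcong : P.Cong 2 4) (j i : ℕ) :
    OrdM L (C ((8 : ℂ))⁻¹ * (A P ζ j - B hp P ω i)) 0 := by
  have hp2 : p ≠ 2 := by
    rintro rfl
    norm_num at hp8
  have hpo := p_odd hp hp2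
  have h3po : ¬ ((2 : ℕ) : ℤ) ∣ 3 * (p : ℤ) := odd_mul not_two_dvd_three hpo
  have hpd : p = 8 * (p / 8) + 7 := by
    have := Nat.div_add_mod p 8
    omega
  set t : ℕ := p / 8 with ht
  have hval : (8 : ℂ)⁻¹ * (coeff 0 (A P ζ j) - coeff 0 (B hp P ω i)) =
      ((u * (2 * (t : ℤ) + 1) : ℤ) : ℂ) * (((3 * (p : ℤ) : ℤ) : ℂ))⁻¹ := by
    rw [A_zero, B_zero, hc]
    have hp0 := pC_ne_zero hp
    have hpc : (p : ℂ) = 8 * (t : ℂ) + 7 := by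
      conv_lhs => rw [hpd]
      push_cast
      ring
    push_cast
    field_simp
    rw [hpc]
    ring
  have hodd : ¬ (2 : ℤ) ∣ u * (2 * (t : ℤ) + 1) := odd_mul hu (by omega)
  refine ordM_zero_of L _ _ _ ?_ ?_
    (fun k hk => InM.mem L (A_pos L P ζ hp hp2 hζ hcong j hk))
    (fun k hk => B_mem hp L P u ω hc hω i hk)
  · rw [hval]
    exact div_int_mem L _ h3po
  · rw [hval]
    exact not_inM_div_int L hodd h3po

end Table

end

end Fermat.Agent.S16.N2aTable18
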