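/-
S16 chapter U4 (helper3): the generic (NS) lemma against helper14's interface `Formal14`.

`HasOrd L f o` : the series `f ∈ ℂ⟦X⟧` has all coefficients in `R`, those of index `< o` lie in `𝔪`
and the one of index `o` does not (`ord_𝔪 f = o`).  It is multiplicative (`𝔪` is prime), and if a
series `n` with `SturmProp K n` satisfies `HasOrd L (expand N n) S` then `S ≤ N * (K / 12)`.
-/
import Fermat.Agent.S16.Formal14

set_option autoImplicit false

open PowerSeries

namespace Fermat.Agent.S16.NormSturm3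

open Fermat.Agent.S16.Formal14

variable {ℓ : ℕ}

/-- `ord_𝔪 f = o`: all coefficients of `f` lie in `R`, those of index `< o` lie in `𝔪`, the one of
index `o` does not. -/
structure HasOrd (L : LocalData ℓ) (f : ℂ⟦X⟧) (o : ℕ) : Prop where
  mem : ∀ k, coeff k f ∈ L.R
  lt : ∀ k, k < o → L.InM (coeff k f)
  ne : ¬ L.InM (coeff o f)

theorem inM_coe_iff (L : LocalData ℓ) (r : L.R) : L.InM (r : ℂ) ↔ r ∈ L.m := by
  constructor
  · rintro ⟨s, hs, hsr⟩
    have : s = r := Subtype.ext hsr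
    exact this ▸ hs
  · intro h
    exact ⟨r, h, rfl⟩

theorem inM_zero (L : LocalData ℓ) : L.InM 0 := ⟨0, L.m.zero_mem, rfl⟩

/-- The lift of a series with coefficients in `R` to `R⟦X⟧`. -/
noncomputable def lift (L : LocalData ℓ) (f : ℂ⟦X⟧) (h : ∀ k, coeff k f ∈ L.R) : (L.R)⟦X⟧ :=
  PowerSeries.mk fun k => ⟨coeff k f, h k⟩

theorem map_lift (L : LocalData ℓ) (f : ℂ⟦X⟧) (h : ∀ k, coeff k f ∈ L.R) :
    PowerSeries.map L.R.subtype (lift L f h) = f := by
  ext k
  simp [lift]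

theorem map_subtype_injective (L : LocalData ℓ) :
    Function.Injective (PowerSeries.map L.R.subtype) := by
  intro a b hab
  ext k
  have := congrArg (coeff k) hab
  simpa using this

theorem lift_mul (L : LocalData ℓ) (f g : ℂ⟦X⟧) (hf : ∀ k, coeff k f ∈ L.R)
    (hg : ∀ k, coeff k g ∈ L.R) (hfg : ∀ k, coeff k (f * g) ∈ L.R) :
    lift L (f * g) hfg = lift L f hf * lift L g hg := by
  apply map_subtype_injective L
  rw [map_mul, map_lift, map_lift, map_lift]

/-- The reduction modulo `𝔪` of a series with coefficients in `R`. -/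
noncomputable def red (L : LocalData ℓ) (f : ℂ⟦X⟧) (h : ∀ k, coeff k f ∈ L.R) : (L.R ⧸ L.m)⟦X⟧ :=
  PowerSeries.map (Ideal.Quotient.mk L.m) (lift L f h)

theorem coeff_red_eq_zero_iff (L : LocalData ℓ) (f : ℂ⟦X⟧) (h : ∀ k, coeff k f ∈ L.R) (k : ℕ) :
    coeff k (red L f h) = 0 ↔ L.InM (coeff k f) := by
  rw [red, coeff_map, Ideal.Quotient.eq_zero_iff_mem, ← inM_coe_iff]
  simp [lift]

theorem hasOrd_iff (L : LocalData ℓ) (f : ℂ⟦X⟧) (o : ℕ) :
    HasOrd L f o ↔ ∃ h : ∀ k, coeff k f ∈ L.R, (red L f h).order = o := by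
  constructor
  · intro H
    refine ⟨H.mem, ?_⟩
    rw [order_eq_nat]
    refine ⟨fun h0 => H.ne ((coeff_red_eq_zero_iff L f H.mem o).mp h0), fun i hi => ?_⟩
    exact (coeff_red_eq_zero_iff L f H.mem i).mpr (H.lt i hi)
  · rintro ⟨h, ho⟩
    rw [order_eq_nat] at ho
    exact ⟨h, fun k hk => (coeff_red_eq_zero_iff L f h k).mp (ho.2 k hk),
      fun h0 => ho.1 ((coeff_red_eq_zero_iff L f h o).mpr h0)⟩

theorem coeff_mul_mem (L : LocalData ℓ) {f g : ℂ⟦X⟧} (hf : ∀ k, coeff k f ∈ L.R)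
    (hg : ∀ k, coeff k g ∈ L.R) : ∀ k, coeff k (f * g) ∈ L.R := by
  intro k
  rw [coeff_mul]
  exact L.R.sum_mem fun x _ => L.R.mul_mem (hf _) (hg _)

/-- `ord_𝔪` is additive on products. -/
theorem HasOrd.mul {L : LocalData ℓ} {f g : ℂ⟦X⟧} {a b : ℕ} (hf : HasOrd L f a)
    (hg : HasOrd L g b) : HasOrd L (f * g) (a + b) := by
  have : L.m.IsPrime := L.isMaximal.isPrime
  obtain ⟨hfm, hfo⟩ := (hasOrd_iff L f a).mp hf
  obtain ⟨hgm, hgo⟩ := (hasOrd_iff L g b).mp hg
  refine (hasOrd_iff L (f * g) (a + b)).mpr ⟨coeff_mul_mem L hfm hgm, ?_⟩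
  rw [red, lift_mul L f g hfm hgm, map_mul, order_mul]
  change (red L f hfm).order + (red L g hgm).order = _
  rw [hfo, hgo]
  rfl

theorem hasOrd_one (L : LocalData ℓ) : HasOrd L 1 0 := by
  refine ⟨fun k => ?_, fun k hk => absurd hk (Nat.not_lt_zero k), ?_⟩
  · rw [coeff_one]
    split_ifs
    · exact L.R.one_mem
    · exact L.R.zero_mem
  · rw [coeff_one, if_pos rfl]
    intro h
    have h1 : (1 : L.R) ∈ L.m := (inM_coe_iff L 1).mp (by simpa using h)
    exact L.isMaximal.ne_top ((Ideal.eq_top_iff_one _).mpr h1)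

/-- `ord_𝔪` of a finite product is the sum of the `ord_𝔪`. -/
theorem HasOrd.prod {L : LocalData ℓ} {ι : Type*} (s : Finset ι) (C : ι → ℂ⟦X⟧) (o : ι → ℕ)
    (h : ∀ i ∈ s, HasOrd L (C i) (o i)) : HasOrd L (∏ i ∈ s, C i) (∑ i ∈ s, o i) := by
  classical
  induction s using Finset.induction_on with
  | empty => simpa using hasOrd_one L
  | insert a s ha ih =>
    rw [Finset.prod_insert ha, Finset.sum_insert ha]
    exact (h a (Finset.mem_insert_self a s)).mul
      (ih fun i hi => h i (Finset.mem_insert_of_mem hi))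

/-- `ord_𝔪` is unique. -/
theorem HasOrd.unique {L : LocalData ℓ} {f : ℂ⟦X⟧} {a b : ℕ} (ha : HasOrd L f a)
    (hb : HasOrd L f b) : a = b := by
  rcases Nat.lt_trichotomy a b with h | h | h
  · exact absurd (hb.lt a h) ha.ne
  · exact h
  · exact absurd (ha.lt b h) hb.ne

/-- **(NS)**: if `n` satisfies the conclusion of Sturm's theorem in weight `K` and
`ord_𝔪 (n(q^N)) = S`, then `S ≤ N * (K / 12)`. -/
theorem le_of_sturmProp (L : LocalData ℓ) {K N : ℕ} (hN : N ≠ 0) {n : ℂ⟦X⟧}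
    (hS : SturmProp K n) {S : ℕ} (hord : HasOrd L (expand N hN n) S) : S ≤ N * (K / 12) := by
  by_contra hlt
  rw [not_le] at hlt
  have hmem : ∀ k, coeff k n ∈ L.R := fun k => by
    have := hord.mem (N * k)
    rwa [coeff_expand_mul] at this
  have hlow : ∀ k, 12 * k ≤ K → ∃ r : L.R, r ∈ L.m ∧ (r : ℂ) = coeff k n := by
    intro k hk
    have hk' : k ≤ K / 12 := by omega
    have h1 : N * k < S := lt_of_le_of_lt (Nat.mul_le_mul_left N hk') hlt
    have := hord.lt (N * k) h1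
    rwa [coeff_expand_mul] at this
  have hall := hS L.R L.m hmem hlow
  apply hord.ne
  rw [coeff_expand]
  split_ifs with hdvd
  · exact hall _
  · exact inM_zero L

/-- **(NS)**, product form: if `n(q^N) = ∏ C_i` with `ord_𝔪 C_i = o_i` and `n` satisfies the
conclusion of Sturm's theorem in weight `K`, then `∑ o_i ≤ N * (K / 12)`. -/
theorem sum_le_of_sturmProp (L : LocalData ℓ) {K N : ℕ} (hN : N ≠ 0) {n : ℂ⟦X⟧}
    (hS : SturmProp K n) {ι : Type*} (s : Finset ι) (C : ι → ℂ⟦X⟧) (o : ι → ℕ)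
    (h : ∀ i ∈ s, HasOrd L (C i) (o i)) (hprod : expand N hN n = ∏ i ∈ s, C i) :
    ∑ i ∈ s, o i ≤ N * (K / 12) :=
  le_of_sturmProp L hN hS (hprod ▸ HasOrd.prod s C o h)

end Fermat.Agent.S16.NormSturm3
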