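/-
S16, upper bound, chapter U6, case (N_2a) (helper18, serving helper24): the table `T1`–`T4` of
`N2aTable18` re-exported in the two order languages that are on main:

* `NormSturm3.HasOrd L f o` (helper3), suffix `_hasOrd`;
* `f ∈ intSeries L.R ∧ ordC L.m f = o` (helper20, `IntClosure20` / `LocalData20`), suffix `_ordC`.

The series `Ainf`, `A j`, `Binf`, `B i` are `N2aTable18.Ainf` … and unfold (by `rfl`) to the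
`let`-bound series of `Formal14.Target_N2a`; see `Ainf_eq` … `B_eq`.
-/
import Mathlib
import Fermat.Agent.S16.Formal14
import Fermat.Agent.S16.NormSturm3
import Fermat.Agent.S16.IntClosure20
import Fermat.Agent.S16.LocalData20
import Fermat.Agent.S16.N2aTable18

set_option autoImplicit false

open PowerSeries

namespace Fermat.Agent.S16.N2aExport18

open Fermat.Agent.S16.Formal14 Fermat.Agent.S16.OrdM18 Fermat.Agent.S16.N2aTable18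
open Fermat.Agent.S16.IntClosure20

noncomputable section

/-! ### conversions -/

theorem hasOrd_of_ordM {ℓ : ℕ} {L : LocalData ℓ} {f : ℂ⟦X⟧} {o : ℕ} (h : OrdM L f o) :
    NormSturm3.HasOrd L f o :=
  ⟨h.mem, h.lt, h.nmem⟩

theorem ordC_of_ordM {ℓ : ℕ} {L : LocalData ℓ} {f : ℂ⟦X⟧} {o : ℕ} (h : OrdM L f o) :
    f ∈ intSeries L.R ∧ ordC L.m f = (o : ℕ∞) := by
  have hf : f ∈ intSeries L.R := mem_intSeries.2 h.mem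
  refine ⟨hf, ordC_eq hf (fun i hi => (LocalData20.inM_iff L).1 (h.lt i hi)) ?_⟩
  exact fun hm => h.nmem ((LocalData20.inM_iff L).2 hm)

/-! ### the series are literally those of `Target_N2a` -/

section Literal

variable {p : ℕ} (hp : p.Prime) (P : Pkg p) (ζ ω : ℂ)

theorem Ainf_eq (h3p : 3 * p ≠ 0) : Ainf hp P = expand (3 * p) h3p (toC P.G) := rfl

theorem A_eq (h3 : (3 : ℕ) ≠ 0) (j : ℕ) :
    A P ζ j = C (-((p : ℂ))⁻¹) * expand 3 h3 (rescale (ζ ^ j) (toC P.G')) := rfl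

theorem Binf_eq (h3p : 3 * p ≠ 0) :
    Binf hp P = C (P.c : ℂ) * expand (3 * p) h3p (G3s ℂ) := rfl

theorem B_eq (i : ℕ) :
    B hp P ω i =
      C ((P.c : ℂ) * (-((3 : ℂ))⁻¹)) * expand p hp.ne_zero (rescale (ω ^ i) (G3s ℂ)) := rfl

end Literal

/-! ### the table, `HasOrd` form -/

section HasOrdForm

variable {p : ℕ} (hp : p.Prime) (L : LocalData 2) (P : Pkg p) (u : ℤ) (ζ ω : ℂ)

theorem T1_hasOrd (hc : P.c = 2 * u) (hu : ¬ (2 : ℤ) ∣ u) (hcong : P.Cong 2 4) :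
    NormSturm3.HasOrd L (C ((8 : ℂ))⁻¹ * (Ainf hp P - Binf hp P)) (3 * p) :=
  hasOrd_of_ordM (T1 hp L P u hc hu hcong)

theorem T2_three_hasOrd (hp8 : p % 8 = 3) (hc : P.c = 2 * u) (hu : ¬ (2 : ℤ) ∣ u)
    (hζ : ζ ^ p = 1) (hcong : P.Cong 2 4) (j : ℕ) :
    NormSturm3.HasOrd L (C ((8 : ℂ))⁻¹ * (A P ζ j - Binf hp P)) 0 :=
  hasOrd_of_ordM (T2_three hp L P u ζ hp8 hc hu hζ hcong j)

theorem T2_seven_hasOrd (hp8 : p % 8 = 7) (hc : P.c = 2 * u) (hu : ¬ (2 : ℤ) ∣ u)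
    (hζ : ζ ^ p = 1) (hcong : P.Cong 2 4) (j : ℕ) :
    NormSturm3.HasOrd L (C ((8 : ℂ))⁻¹ * (A P ζ j - Binf hp P)) (3 * p) :=
  hasOrd_of_ordM (T2_seven hp L P u ζ hp8 hc hu hζ hcong j)

theorem T3_hasOrd (hc : P.c = 2 * u) (hu : ¬ (2 : ℤ) ∣ u) (hω : ω ^ 3 = 1)
    (hcong : P.Cong 2 4) (i : ℕ) :
    NormSturm3.HasOrd L (C ((8 : ℂ))⁻¹ * (Ainf hp P - B hp P ω i)) 0 :=
  hasOrd_of_ordM (T3 hp L P u ω hc hu hω hcong i)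

theorem T4_three_hasOrd (hp8 : p % 8 = 3) (hc : P.c = 2 * u) (hu : ¬ (2 : ℤ) ∣ u)
    (hζ : ζ ^ p = 1) (hω : ω ^ 3 = 1) (hcong : P.Cong 2 4) (j i : ℕ) :
    NormSturm3.HasOrd L (C ((8 : ℂ))⁻¹ * (A P ζ j - B hp P ω i)) p :=
  hasOrd_of_ordM (T4_three hp L P u ζ ω hp8 hc hu hζ hω hcong j i)

theorem T4_seven_hasOrd (hp8 : p % 8 = 7) (hc : P.c = 2 * u) (hu : ¬ (2 : ℤ) ∣ u)
    (hζ : ζ ^ p = 1) (hω : ω ^ 3 = 1) (hcong : P.Cong 2 4) (j i : ℕ) :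
    NormSturm3.HasOrd L (C ((8 : ℂ))⁻¹ * (A P ζ j - B hp P ω i)) 0 :=
  hasOrd_of_ordM (T4_seven hp L P u ζ ω hp8 hc hu hζ hω hcong j i)

end HasOrdForm

/-! ### the table, `ordC` form -/

section OrdCForm

variable {p : ℕ} (hp : p.Prime) (L : LocalData 2) (P : Pkg p) (u : ℤ) (ζ ω : ℂ)

theorem T1_ordC (hc : P.c = 2 * u) (hu : ¬ (2 : ℤ) ∣ u) (hcong : P.Cong 2 4) :
    C ((8 : ℂ))⁻¹ * (Ainf hp P - Binf hp P) ∈ intSeries L.R ∧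
      ordC L.m (C ((8 : ℂ))⁻¹ * (Ainf hp P - Binf hp P)) = ((3 * p : ℕ) : ℕ∞) :=
  ordC_of_ordM (T1 hp L P u hc hu hcong)

theorem T2_three_ordC (hp8 : p % 8 = 3) (hc : P.c = 2 * u) (hu : ¬ (2 : ℤ) ∣ u)
    (hζ : ζ ^ p = 1) (hcong : P.Cong 2 4) (j : ℕ) :
    C ((8 : ℂ))⁻¹ * (A P ζ j - Binf hp P) ∈ intSeries L.R ∧
      ordC L.m (C ((8 : ℂ))⁻¹ * (A P ζ j - Binf hp P)) = ((0 : ℕ) : ℕ∞) :=
  ordC_of_ordM (T2_three hp L P u ζ hp8 hc hu hζ hcong j)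

theorem T2_seven_ordC (hp8 : p % 8 = 7) (hc : P.c = 2 * u) (hu : ¬ (2 : ℤ) ∣ u)
    (hζ : ζ ^ p = 1) (hcong : P.Cong 2 4) (j : ℕ) :
    C ((8 : ℂ))⁻¹ * (A P ζ j - Binf hp P) ∈ intSeries L.R ∧
      ordC L.m (C ((8 : ℂ))⁻¹ * (A P ζ j - Binf hp P)) = ((3 * p : ℕ) : ℕ∞) :=
  ordC_of_ordM (T2_seven hp L P u ζ hp8 hc hu hζ hcong j)

theorem T3_ordC (hc : P.c = 2 * u) (hu : ¬ (2 : ℤ) ∣ u) (hω : ω ^ 3 = 1)
    (hcong : P.Cong 2 4) (i : ℕ) :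
    C ((8 : ℂ))⁻¹ * (Ainf hp P - B hp P ω i) ∈ intSeries L.R ∧
      ordC L.m (C ((8 : ℂ))⁻¹ * (Ainf hp P - B hp P ω i)) = ((0 : ℕ) : ℕ∞) :=
  ordC_of_ordM (T3 hp L P u ω hc hu hω hcong i)

theorem T4_three_ordC (hp8 : p % 8 = 3) (hc : P.c = 2 * u) (hu : ¬ (2 : ℤ) ∣ u)
    (hζ : ζ ^ p = 1) (hω : ω ^ 3 = 1) (hcong : P.Cong 2 4) (j i : ℕ) :
    C ((8 : ℂ))⁻¹ * (A P ζ j - B hp P ω i) ∈ intSeries L.R ∧
      ordC L.m (C ((8 : ℂ))⁻¹ * (A P ζ j - B hp P ω i)) = ((p : ℕ) : ℕ∞) :=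
  ordC_of_ordM (T4_three hp L P u ζ ω hp8 hc hu hζ hω hcong j i)

theorem T4_seven_ordC (hp8 : p % 8 = 7) (hc : P.c = 2 * u) (hu : ¬ (2 : ℤ) ∣ u)
    (hζ : ζ ^ p = 1) (hω : ω ^ 3 = 1) (hcong : P.Cong 2 4) (j i : ℕ) :
    C ((8 : ℂ))⁻¹ * (A P ζ j - B hp P ω i) ∈ intSeries L.R ∧
      ordC L.m (C ((8 : ℂ))⁻¹ * (A P ζ j - B hp P ω i)) = ((0 : ℕ) : ℕ∞) :=
  ordC_of_ordM (T4_seven hp L P u ζ ω hp8 hc hu hζ hω hcong j i)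

end OrdCForm

end

end Fermat.Agent.S16.N2aExport18
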