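/-
S16, upper bound, chapter U6, case (N_2a) (helper18; hedge / shape test for helper24's
`CaseN2a24`): `target_N2a : Formal14.Target_N2a` from the table `N2aExport18.T1_hasOrd` …
`T4_seven_hasOrd` and helper3's `NormSturm3.le_of_sturmProp`: the `𝔪`-orders of the `4(p+1)`
factors sum to `3p(p+1) > 3p · (8(p+1)/12)`.
-/
import Mathlib
import Fermat.Agent.S16.N2aExport18

set_option autoImplicit false

open PowerSeries

namespace Fermat.Agent.S16.CaseN2aFinal18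

open Fermat.Agent.S16.Formal14 Fermat.Agent.S16.N2aTable18 Fermat.Agent.S16.N2aExport18
open Fermat.Agent.S16.NormSturm3

theorem final_aux {p : ℕ} (hp : p.Prime) (L : LocalData 2) (P : Pkg p) (ζ ω : ℂ)
    (o2 o4 : ℕ) (hsum : 3 * p + p * o2 + p * (3 * o4) = 3 * p * (p + 1))
    (H1 : HasOrd L (C ((8 : ℂ))⁻¹ * (Ainf hp P - Binf hp P)) (3 * p))
    (H2 : ∀ j, HasOrd L (C ((8 : ℂ))⁻¹ * (A P ζ j - Binf hp P)) o2)
    (H3 : ∀ i, HasOrd L (C ((8 : ℂ))⁻¹ * (Ainf hp P - B hp P ω i)) 0)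
    (H4 : ∀ j i, HasOrd L (C ((8 : ℂ))⁻¹ * (A P ζ j - B hp P ω i)) o4)
    (n : ℂ⟦X⟧) (hS : SturmProp (8 * (p + 1)) n)
    (hprod : expand (3 * p) (Nat.mul_ne_zero (by norm_num) hp.ne_zero) n =
      (C ((8 : ℂ))⁻¹ * (Ainf hp P - Binf hp P)) *
      (∏ j ∈ Finset.range p, C ((8 : ℂ))⁻¹ * (A P ζ j - Binf hp P)) *
      (∏ i ∈ Finset.range 3, C ((8 : ℂ))⁻¹ * (Ainf hp P - B hp P ω i)) *
      (∏ j ∈ Finset.range p, ∏ i ∈ Finset.range 3, C ((8 : ℂ))⁻¹ * (A P ζ j - B hp P ω i))) :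
    False := by
  have K2 := HasOrd.prod (L := L) (Finset.range p)
    (fun j => C ((8 : ℂ))⁻¹ * (A P ζ j - Binf hp P)) (fun _ => o2) (fun j _ => H2 j)
  have K3 := HasOrd.prod (L := L) (Finset.range 3)
    (fun i => C ((8 : ℂ))⁻¹ * (Ainf hp P - B hp P ω i)) (fun _ => 0) (fun i _ => H3 i)
  have K4 := HasOrd.prod (L := L) (Finset.range p)
    (fun j => ∏ i ∈ Finset.range 3, C ((8 : ℂ))⁻¹ * (A P ζ j - B hp P ω i)) (fun _ => 3 * o4)
    (fun j _ => by
      have := HasOrd.prod (L := L) (Finset.range 3)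
        (fun i => C ((8 : ℂ))⁻¹ * (A P ζ j - B hp P ω i)) (fun _ => o4) (fun i _ => H4 j i)
      simpa using this)
  have Ktot := ((H1.mul K2).mul K3).mul K4
  rw [← hprod] at Ktot
  have hle := le_of_sturmProp L _ hS Ktot
  simp only [Finset.sum_const, Finset.card_range, smul_eq_mul, mul_zero, add_zero] at hle
  rw [hsum] at hle
  have h3p : 0 < 3 * p := Nat.mul_pos (by norm_num) hp.pos
  have hdiv : 8 * (p + 1) / 12 < p + 1 := by
    rw [Nat.div_lt_iff_lt_mul (by norm_num)]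
    omega
  have := Nat.mul_lt_mul_of_pos_left hdiv h3p
  omega

theorem target_N2a : Target_N2a := by
  intro p hp hp4 hp3 L P u hc hu hcong ζ ω hζ hω n hS hprod
  have hζ1 : ζ ^ p = 1 := hζ.pow_eq_one
  have hω1 : ω ^ 3 = 1 := hω.pow_eq_one
  have h8 : p % 8 = 3 ∨ p % 8 = 7 := by omega
  rcases h8 with h8 | h8
  · refine final_aux hp L P ζ ω 0 p (by ring)
      (T1_hasOrd hp L P u hc hu hcong)
      (fun j => T2_three_hasOrd hp L P u ζ h8 hc hu hζ1 hcong j)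
      (fun i => T3_hasOrd hp L P u ω hc hu hω1 hcong i)
      (fun j i => T4_three_hasOrd hp L P u ζ ω h8 hc hu hζ1 hω1 hcong j i) n hS hprod
  · refine final_aux hp L P ζ ω (3 * p) 0 (by ring)
      (T1_hasOrd hp L P u hc hu hcong)
      (fun j => T2_seven_hasOrd hp L P u ζ h8 hc hu hζ1 hcong j)
      (fun i => T3_hasOrd hp L P u ω hc hu hω1 hcong i)
      (fun j i => T4_seven_hasOrd hp L P u ζ ω h8 hc hu hζ1 hω1 hcong j i) n hS hprod

end Fermat.Agent.S16.CaseN2aFinal18
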