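/-
S16, upper bound, chapter U6: the case (N_3a), `3 ∥ p + 1` (`Formal14.Target_N3a_one`).

`G = c + 3^(v+2) H`, `G' = c + 3^(v+2) H'`, `c = 3^v u`, `3 ∤ u`.  The coefficient of `q^1` in the trace
identity (I4) `p G² + U_p(G'²) = (p+1) c² E4` reads
`2 c 3^(v+2) (p+1) H_1 + 3^(2v+4) (…) = 240 (p+1) c²`; the left side is divisible by `3^(2v+3)`, the
right side has `3`-adic valuation exactly `2v+2` when `3 ∥ p + 1`.
-/
import Mathlib
import Fermat.Agent.S16.Formal14

set_option autoImplicit false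

open PowerSeries

namespace Fermat.Agent.S16.CaseN3aOne4

open Fermat.Agent.S16.Formal14

/-- A series all of whose coefficients are divisible by `M` is `M` times a series. -/
theorem exists_eq_C_mul (f : ℤ⟦X⟧) (M : ℤ) (h : ∀ k, M ∣ coeff k f) :
    ∃ H : ℤ⟦X⟧, f = C M * H := by
  choose a ha using h
  refine ⟨PowerSeries.mk a, ?_⟩
  ext k
  rw [coeff_C_mul, coeff_mk, ha k]

/-- `G = c + M H` if all higher coefficients of `G` are divisible by `M`. -/
theorem exists_decomp (G : ℤ⟦X⟧) (c M : ℤ) (h0 : constantCoeff G = c)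
    (h : ∀ k, 1 ≤ k → M ∣ coeff k G) : ∃ H : ℤ⟦X⟧, G = C c + C M * H := by
  obtain ⟨H, hH⟩ := exists_eq_C_mul (G - C c) M (by
    intro k
    rcases Nat.eq_zero_or_pos k with rfl | hk
    · rw [map_sub, coeff_zero_eq_constantCoeff_apply, h0, coeff_zero_eq_constantCoeff_apply,
        constantCoeff_C, sub_self]
      exact dvd_zero _
    · rw [map_sub, coeff_C, if_neg hk.ne', sub_zero]
      exact h k hk)
  exact ⟨H, by rw [← hH]; ring⟩

theorem sq_decomp (c M : ℤ) (H : ℤ⟦X⟧) :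
    (C c + C M * H) ^ 2 = C (c ^ 2) + C (2 * c * M) * H + C (M ^ 2) * H ^ 2 := by
  simp only [map_mul, map_pow, map_ofNat]
  ring

theorem coeff_one_E4s : coeff 1 (E4s ℤ) = 240 := by
  rw [E4s, map_add, coeff_one, if_neg one_ne_zero, coeff_C_mul, sig, coeff_mk, zero_add]
  simp

/-- **(N_3a), case `3 ∥ p + 1`.** -/
theorem target_N3a_one : Target_N3a_one := by
  intro p hp h3 h9 P v u hc hu hcong
  -- decompositions
  set M : ℤ := 3 ^ (v + 2) with hM
  have hcongG : ∀ k, 1 ≤ k → M ∣ coeff k P.G := fun k hk => hcong k hk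
  have hcongG' : ∀ k, 1 ≤ k → M ∣ coeff k P.G' := by
    intro k hk
    rw [← P.Up_G, coeff_Up]
    exact hcong (p * k) (Nat.mul_pos hp.pos hk)
  obtain ⟨H, hH⟩ := exists_decomp P.G P.c M P.constG hcongG
  obtain ⟨H', hH'⟩ := exists_decomp P.G' P.c M P.constG' hcongG'
  -- the coefficient of `q` in (I4)
  have hI := congrArg (coeff 1) P.I4
  rw [map_add, coeff_C_mul, coeff_Up, coeff_C_mul, coeff_one_E4s, mul_one, hH, hH', sq_decomp,
    sq_decomp] at hI
  simp only [map_add, coeff_C_mul, coeff_C, one_ne_zero, hp.ne_zero, if_false, zero_add] at hI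
  -- `M H'_p = M H_1`
  have hlink : M * coeff p H' = M * coeff 1 H := by
    have h1 : coeff 1 (Up p P.G') = coeff 1 P.G := by rw [P.Up_G']
    rw [coeff_Up, mul_one] at h1
    have e1 : coeff p P.G' = M * coeff p H' := by
      rw [hH', map_add, coeff_C, if_neg hp.ne_zero, coeff_C_mul, zero_add]
    have e2 : coeff 1 P.G = M * coeff 1 H := by
      rw [hH, map_add, coeff_C, if_neg one_ne_zero, coeff_C_mul, zero_add]
    rw [← e1, ← e2, h1]
  -- arithmetic
  obtain ⟨w, hw⟩ := h3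
  have hw3 : ¬ 3 ∣ w := by
    rintro ⟨w', rfl⟩
    exact h9 ⟨w', by rw [hw]; ring⟩
  have hwZ : (p : ℤ) + 1 = 3 * (w : ℤ) := by exact_mod_cast hw
  have hpZ : (p : ℤ) = 3 * (w : ℤ) - 1 := by linarith
  have hM' : M = 3 ^ v * 9 := by rw [hM, pow_add]; norm_num
  set a := coeff 1 H with ha
  set b := coeff p H' with hb
  set z1 := coeff 1 (H ^ 2) with hz1
  set z2 := coeff p (H' ^ 2) with hz2
  have hb' : b = a := by
    have hMne : M ≠ 0 := by rw [hM]; positivity
    exact mul_left_cancel₀ hMne hlink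
  rw [hb', hc, hwZ, hM', hpZ] at hI
  have h3v : ((3 : ℤ) ^ v) ^ 2 ≠ 0 := by positivity
  have key : ((3 : ℤ) ^ v) ^ 2 * 9 *
      (3 * (2 * u * w * a) + 9 * ((3 * w - 1) * z1 + z2) - 80 * (w * (u * u))) = 0 := by
    linear_combination hI
  have key2 : 3 * (2 * u * w * a) + 9 * ((3 * w - 1) * z1 + z2) - 80 * ((w : ℤ) * (u * u)) = 0 := by
    rcases mul_eq_zero.mp key with h | h
    · exact absurd h (mul_ne_zero h3v (by norm_num))
    · exact h
  have hdvd : (3 : ℤ) ∣ (w : ℤ) * (u * u) := by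
    generalize (w : ℤ) * (u * u) = t at key2
    generalize 2 * u * (w : ℤ) * a = s at key2
    generalize (3 * (w : ℤ) - 1) * z1 + z2 = r at key2
    omega
  rcases Int.prime_three.dvd_mul.mp hdvd with h | h
  · exact hw3 (by exact_mod_cast h)
  · rcases Int.prime_three.dvd_mul.mp h with h | h <;> exact hu h

end Fermat.Agent.S16.CaseN3aOne4
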