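/-
S16, upper bound, chapter U6 (helper10): `Target_Nl_A` — the case `ℓ ≥ 3` odd, `ℓ ≠ p`,
`ℓ ∤ p + 1` (this includes (N_3b)) — from (I4), (I4') alone, via the shortcut (Δ★):
coefficient `p` of (I4) minus coefficient `1` of (I4') gives
`ℓ^(2(v+1)) ∣ 240 (p+1) p³ c²`.
-/
import Mathlib
import Fermat.Agent.S16.Formal14

set_option autoImplicit false

open PowerSeries

namespace Fermat.Agent.S16.CasesA10

open Fermat.Agent.S16.Formal14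

/-- a series congruent to its constant term modulo `m`. -/
theorem exists_eq_C_add_C_mul (f : ℤ⟦X⟧) (m : ℤ) (h : ∀ k, 1 ≤ k → m ∣ coeff k f) :
    ∃ H : ℤ⟦X⟧, f = C (constantCoeff f) + C m * H := by
  choose g hg using h
  refine ⟨PowerSeries.mk fun k => if hk : 1 ≤ k then g k hk else 0, ?_⟩
  ext k
  rcases Nat.eq_zero_or_pos k with rfl | hk
  · simp
  · have hk' : 1 ≤ k := hk
    have hk0 : k ≠ 0 := Nat.pos_iff_ne_zero.mp hk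
    rw [map_add, coeff_C, if_neg hk0, zero_add, coeff_C_mul, coeff_mk, dif_pos hk', ← hg k hk']

/-- the coefficients of the square of a series congruent to `c` modulo `m`. -/
theorem coeff_sq (F : ℤ⟦X⟧) (c m : ℤ) (hc : constantCoeff F = c)
    (hm : ∀ k, 1 ≤ k → m ∣ coeff k F) (n : ℕ) (hn : 1 ≤ n) :
    ∃ z : ℤ, coeff n (F ^ 2) = 2 * c * coeff n F + m ^ 2 * z := by
  obtain ⟨H, hH⟩ := exists_eq_C_add_C_mul F m hm
  rw [hc] at hH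
  have hn0 : n ≠ 0 := by omega
  have hsq : F ^ 2 = C (c ^ 2) + C (2 * c) * (C m * H) + C (m ^ 2) * H ^ 2 := by
    rw [hH]
    simp only [map_mul, map_pow, map_ofNat]
    ring
  have hlin : m * coeff n H = coeff n F := by
    rw [hH, map_add, coeff_C, if_neg hn0, zero_add, coeff_C_mul]
  refine ⟨coeff n (H ^ 2), ?_⟩
  rw [hsq, map_add, map_add, coeff_C, if_neg hn0, zero_add, coeff_C_mul, coeff_C_mul,
    coeff_C_mul, hlin]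

theorem cong_G' {p : ℕ} (P : Pkg p) (hp : 1 ≤ p) (ℓ a : ℕ) (h : P.Cong ℓ a) :
    ∀ k, 1 ≤ k → ((ℓ : ℤ) ^ a) ∣ coeff k P.G' := by
  intro k hk
  rw [← P.Up_G, coeff_Up]
  exact h (p * k) (Nat.one_le_iff_ne_zero.mpr (Nat.mul_ne_zero (by omega) (by omega)))

theorem coeff_E4s (n : ℕ) (hn : 1 ≤ n) :
    coeff n (E4s ℤ) = 240 * ((ArithmeticFunction.sigma 3 n : ℕ) : ℤ) := by
  have hn0 : n ≠ 0 := by omega
  rw [E4s, map_add, coeff_one, if_neg hn0, zero_add, coeff_C_mul, sig, coeff_mk]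

/-- **(Δ★)**: `m² ∣ 240 (p+1) p³ c²` when `G ≡ c mod m`. -/
theorem delta_star {p : ℕ} (hp : p.Prime) (P : Pkg p) (m : ℤ)
    (hm : ∀ k, 1 ≤ k → m ∣ coeff k P.G) (hm' : ∀ k, 1 ≤ k → m ∣ coeff k P.G') :
    m ^ 2 ∣ 240 * ((p : ℤ) + 1) * (p : ℤ) ^ 3 * P.c ^ 2 := by
  have hp1 : 1 ≤ p := hp.one_lt.le
  have hpp : 1 ≤ p * p := Nat.one_le_iff_ne_zero.mpr (Nat.mul_ne_zero hp.ne_zero hp.ne_zero)
  obtain ⟨z1, hz1⟩ := coeff_sq P.G P.c m P.constG hm p hp1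
  obtain ⟨z2, hz2⟩ := coeff_sq P.G' P.c m P.constG' hm' (p * p) hpp
  obtain ⟨z3, hz3⟩ := coeff_sq P.G' P.c m P.constG' hm' 1 le_rfl
  -- `G'_1 = G_p`, `G'_{p²} = G_p`
  have h1 : coeff 1 P.G' = coeff p P.G := by
    rw [← P.Up_G, coeff_Up, mul_one]
  have h2 : coeff (p * p) P.G' = coeff p P.G := by
    rw [← coeff_Up, P.Up_G']
  -- coefficient `p` of (I4)
  have hA := congrArg (coeff p) P.I4
  rw [map_add, coeff_C_mul, coeff_Up, coeff_C_mul, coeff_E4s p hp1, hz1, hz2, h2] at hA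
  -- coefficient `1` of (I4')
  have hB := congrArg (coeff 1) P.I4'
  rw [map_add, coeff_C_mul, coeff_Up, mul_one, coeff_C_mul, coeff_E4s 1 le_rfl, hz3, hz1, h1] at hB
  have hs1 : ((ArithmeticFunction.sigma 3 1 : ℕ) : ℤ) = 1 := by simp
  have hsp : ((ArithmeticFunction.sigma 3 p : ℕ) : ℤ) = 1 + (p : ℤ) ^ 3 := by
    rw [ArithmeticFunction.sigma_apply, hp.divisors, Finset.sum_pair hp.one_lt.ne]
    push_cast; ring
  rw [hsp] at hA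
  rw [hs1] at hB
  refine ⟨(p : ℤ) * z1 + z2 - (p : ℤ) * z3 - z1, ?_⟩
  linear_combination hB - hA

/-- a prime `ℓ ≥ 3` with `ℓ² ∣ 240` does not exist. -/
theorem not_sq_dvd_240 {ℓ : ℕ} (hℓ : ℓ.Prime) (h3 : 3 ≤ ℓ) : ¬ ((ℓ : ℤ) ^ 2 ∣ 240) := by
  intro h
  have h' : ℓ ^ 2 ∣ 240 := by exact_mod_cast h
  have hle : ℓ ^ 2 ≤ 240 := Nat.le_of_dvd (by norm_num) h'
  have hℓ16 : ℓ < 16 := by nlinarith
  clear h hle
  interval_cases ℓ <;> revert hℓ h' <;> norm_num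

theorem target_Nl_A : Target_Nl_A := by
  intro p ℓ hp hℓ h3 hne hndvd P v u hc hu hcong
  have hp1 : 1 ≤ p := hp.one_lt.le
  have hℓZ : Prime (ℓ : ℤ) := Nat.prime_iff_prime_int.mp hℓ
  have hℓ0 : (ℓ : ℤ) ≠ 0 := hℓZ.ne_zero
  have hds := delta_star hp P ((ℓ : ℤ) ^ (v + 1)) hcong (cong_G' P hp1 ℓ (v + 1) hcong)
  rw [hc] at hds
  -- cancel `ℓ^(2v)`
  have h1 : ((ℓ : ℤ) ^ (v + 1)) ^ 2 = (ℓ : ℤ) ^ (2 * v) * (ℓ : ℤ) ^ 2 := by ring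
  have h2 : 240 * ((p : ℤ) + 1) * (p : ℤ) ^ 3 * ((ℓ : ℤ) ^ v * u) ^ 2 =
      (ℓ : ℤ) ^ (2 * v) * (240 * ((p : ℤ) + 1) * (p : ℤ) ^ 3 * u ^ 2) := by ring
  rw [h1, h2] at hds
  have hds' : (ℓ : ℤ) ^ 2 ∣ 240 * ((p : ℤ) + 1) * (p : ℤ) ^ 3 * u ^ 2 :=
    (mul_dvd_mul_iff_left (pow_ne_zero _ hℓ0)).mp hds
  -- remove the factors prime to `ℓ`
  have hcop : ∀ x : ℤ, ¬ (ℓ : ℤ) ∣ x → IsCoprime ((ℓ : ℤ) ^ 2) x := fun x hx =>
    IsCoprime.pow_left ((Prime.coprime_iff_not_dvd hℓZ).mpr hx)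
  have hp' : ¬ (ℓ : ℤ) ∣ (p : ℤ) := by
    intro h
    have : ℓ ∣ p := by exact_mod_cast h
    exact hne ((Nat.prime_dvd_prime_iff_eq hℓ hp).mp this)
  have hp1' : ¬ (ℓ : ℤ) ∣ (p : ℤ) + 1 := by
    intro h
    have : ℓ ∣ p + 1 := by exact_mod_cast h
    exact hndvd this
  have hu2 : IsCoprime ((ℓ : ℤ) ^ 2) (u ^ 2) := (hcop u hu).pow_right
  have hp3 : IsCoprime ((ℓ : ℤ) ^ 2) ((p : ℤ) ^ 3) := (hcop _ hp').pow_right
  have hpp : IsCoprime ((ℓ : ℤ) ^ 2) ((p : ℤ) + 1) := hcop _ hp1'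
  have s1 := hu2.dvd_of_dvd_mul_right hds'
  have s2 := hp3.dvd_of_dvd_mul_right s1
  have s3 := hpp.dvd_of_dvd_mul_right s2
  exact not_sq_dvd_240 hℓ h3 s3

end Fermat.Agent.S16.CasesA10
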