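/-
S16 (Program M), brick U6 (helper25): the GENERIC NORM CONTRADICTION.

`L = (R, 𝔪)` a `LocalData ℓ`, `n ∈ ℂ⟦X⟧` with `SturmProp K n` (the `q`-expansion of a level-one form
of weight `K`), and `V_p n = ∏_{i ∈ s} c_i` where every `c_i ∈ R⟦X⟧` has `𝔪`-order exactly `o_i`
(coefficients below `o_i` in `𝔪`, coefficient `o_i` not in `𝔪`).  Then `12 ∑ o_i ≤ p K`.

* `HasOrd L c o` : `c ∈ R⟦X⟧` has `𝔪`-order exactly `o`; combinators `HasOrd.mul`, `HasOrd.prod`,
  `HasOrd.const_mul`, `HasOrd.of_congr`, `HasOrd.expand`;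
* `norm_contra_one`, `norm_contra`, `norm_contra_range`;
* bookkeeping for `InM`.
-/
import Mathlib
import Fermat.Agent.S16.Formal14

set_option autoImplicit false

open PowerSeries

namespace Fermat.Agent.S16.NormContra25

open Fermat.Agent.S16.Formal14

variable {ℓ : ℕ} (L : LocalData ℓ)

/-! ### `InM` bookkeeping -/

theorem InM_iff {x : ℂ} (hx : x ∈ L.R) : L.InM x ↔ (⟨x, hx⟩ : L.R) ∈ L.m := by
  constructor
  · rintro ⟨r, hr, hrx⟩
    have : r = ⟨x, hx⟩ := Subtype.ext hrx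
    rwa [← this]
  · intro h
    exact ⟨⟨x, hx⟩, h, rfl⟩

variable {L}

theorem InM_mem {x : ℂ} (h : L.InM x) : x ∈ L.R := by
  obtain ⟨r, -, rfl⟩ := h
  exact r.2

theorem InM_zero : L.InM 0 := ⟨0, L.m.zero_mem, rfl⟩

theorem InM_add {x y : ℂ} (hx : L.InM x) (hy : L.InM y) : L.InM (x + y) := by
  obtain ⟨r, hr, rfl⟩ := hx
  obtain ⟨s, hs, rfl⟩ := hy
  exact ⟨r + s, L.m.add_mem hr hs, rfl⟩

theorem InM_neg {x : ℂ} (hx : L.InM x) : L.InM (-x) := by
  obtain ⟨r, hr, rfl⟩ := hx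
  exact ⟨-r, L.m.neg_mem hr, rfl⟩

theorem InM_sub {x y : ℂ} (hx : L.InM x) (hy : L.InM y) : L.InM (x - y) := by
  rw [sub_eq_add_neg]
  exact InM_add hx (InM_neg hy)

theorem InM_mul_left {x y : ℂ} (hx : x ∈ L.R) (hy : L.InM y) : L.InM (x * y) := by
  obtain ⟨s, hs, rfl⟩ := hy
  exact ⟨⟨x, hx⟩ * s, L.m.mul_mem_left _ hs, rfl⟩

theorem InM_mul_right {x y : ℂ} (hx : L.InM x) (hy : y ∈ L.R) : L.InM (x * y) := by
  rw [mul_comm]
  exact InM_mul_left hy hx

theorem InM_sum {ι : Type*} (s : Finset ι) (f : ι → ℂ) (h : ∀ i ∈ s, L.InM (f i)) :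
    L.InM (∑ i ∈ s, f i) := by
  classical
  induction s using Finset.induction_on with
  | empty => simpa using InM_zero
  | insert a s ha ih =>
    rw [Finset.sum_insert ha]
    exact InM_add (h a (Finset.mem_insert_self a s))
      (ih fun i hi => h i (Finset.mem_insert_of_mem hi))

theorem InM_ell : L.InM (ℓ : ℂ) := L.ell_mem

theorem not_InM_one : ¬ L.InM (1 : ℂ) := by
  intro h
  have h1 : (1 : ℂ) ∈ L.R := L.R.one_mem
  have := (InM_iff L h1).mp h
  have hne : L.m ≠ ⊤ := L.isMaximal.ne_top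
  apply hne
  rw [Ideal.eq_top_iff_one]
  exact this

theorem InM_intCast_of_dvd {a : ℤ} (h : (ℓ : ℤ) ∣ a) : L.InM (a : ℂ) := by
  obtain ⟨b, rfl⟩ := h
  push_cast
  exact InM_mul_right InM_ell (L.int_mem b)

theorem not_InM_intCast {a : ℤ} (h : ¬ (ℓ : ℤ) ∣ a) : ¬ L.InM (a : ℂ) := by
  intro hin
  have hinv := L.inv_mem a h
  have ha0 : (a : ℂ) ≠ 0 := by
    intro h0
    apply h
    have : a = 0 := by exact_mod_cast h0
    rw [this]
    exact dvd_zero _
  have := InM_mul_right hin hinv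
  rw [mul_inv_cancel₀ ha0] at this
  exact not_InM_one this

theorem natCast_mem (a : ℕ) : (a : ℂ) ∈ L.R := by
  have := L.int_mem (a : ℤ)
  rwa [Int.cast_natCast] at this

/-! ### lifting to `R⟦X⟧` and reduction mod `𝔪` -/

variable (L)

/-- the lift of a series with coefficients in `R`. -/
noncomputable def lift (c : ℂ⟦X⟧) (h : ∀ k, coeff k c ∈ L.R) : (L.R)⟦X⟧ :=
  PowerSeries.mk fun k => ⟨coeff k c, h k⟩

theorem map_lift (c : ℂ⟦X⟧) (h : ∀ k, coeff k c ∈ L.R) :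
    PowerSeries.map L.R.subtype (lift L c h) = c := by
  ext k
  rw [coeff_map, lift, coeff_mk]
  rfl

theorem coeff_lift (c : ℂ⟦X⟧) (h : ∀ k, coeff k c ∈ L.R) (k : ℕ) :
    ((coeff k (lift L c h) : L.R) : ℂ) = coeff k c := by
  rw [lift, coeff_mk]

theorem subtype_map_injective :
    Function.Injective (PowerSeries.map L.R.subtype : (L.R)⟦X⟧ → ℂ⟦X⟧) :=
  PowerSeries.map_injective _ Subtype.val_injective

/-- reduction modulo `𝔪`. -/
noncomputable def red : (L.R)⟦X⟧ →+* (L.R ⧸ L.m)⟦X⟧ := PowerSeries.map (Ideal.Quotient.mk L.m)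

theorem coeff_red (f : (L.R)⟦X⟧) (k : ℕ) :
    coeff k (red L f) = Ideal.Quotient.mk L.m (coeff k f) := by
  rw [red, coeff_map]

theorem coeff_red_eq_zero_iff (c : ℂ⟦X⟧) (h : ∀ k, coeff k c ∈ L.R) (k : ℕ) :
    coeff k (red L (lift L c h)) = 0 ↔ L.InM (coeff k c) := by
  rw [coeff_red, Ideal.Quotient.eq_zero_iff_mem, InM_iff L (h k)]
  have : coeff k (lift L c h) = ⟨coeff k c, h k⟩ := by rw [lift, coeff_mk]
  rw [this]

/-! ### `𝔪`-order -/

/-- `c ∈ R⟦X⟧` has `𝔪`-order exactly `o`. -/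
structure HasOrd (c : ℂ⟦X⟧) (o : ℕ) : Prop where
  mem : ∀ k, coeff k c ∈ L.R
  low : ∀ k, k < o → L.InM (coeff k c)
  top : ¬ L.InM (coeff o c)

theorem hasOrd_iff_order (c : ℂ⟦X⟧) (h : ∀ k, coeff k c ∈ L.R) (o : ℕ) :
    HasOrd L c o ↔ order (red L (lift L c h)) = o := by
  rw [order_eq_nat]
  constructor
  · intro H
    exact ⟨fun h0 => H.top ((coeff_red_eq_zero_iff L c h o).mp h0),
      fun i hi => (coeff_red_eq_zero_iff L c h i).mpr (H.low i hi)⟩
  · rintro ⟨h1, h2⟩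
    exact ⟨h, fun k hk => (coeff_red_eq_zero_iff L c h k).mp (h2 k hk),
      fun hin => h1 ((coeff_red_eq_zero_iff L c h o).mpr hin)⟩

variable {L}

theorem coeff_mul_mem {a b : ℂ⟦X⟧} (ha : ∀ k, coeff k a ∈ L.R) (hb : ∀ k, coeff k b ∈ L.R)
    (k : ℕ) : coeff k (a * b) ∈ L.R := by
  have e : a * b = PowerSeries.map L.R.subtype (lift L a ha * lift L b hb) := by
    rw [map_mul, map_lift, map_lift]
  rw [e, coeff_map]
  exact (coeff k (lift L a ha * lift L b hb)).2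

theorem lift_mul {a b : ℂ⟦X⟧} (ha : ∀ k, coeff k a ∈ L.R) (hb : ∀ k, coeff k b ∈ L.R) :
    lift L (a * b) (coeff_mul_mem ha hb) = lift L a ha * lift L b hb := by
  apply subtype_map_injective L
  rw [map_lift, map_mul, map_lift, map_lift]

theorem HasOrd.mul {a b : ℂ⟦X⟧} {oa ob : ℕ} (Ha : HasOrd L a oa) (Hb : HasOrd L b ob) :
    HasOrd L (a * b) (oa + ob) := by
  have := L.isMaximal
  rw [hasOrd_iff_order L _ (coeff_mul_mem Ha.mem Hb.mem), lift_mul Ha.mem Hb.mem, map_mul,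
    order_mul,
    (hasOrd_iff_order L a Ha.mem oa).mp Ha, (hasOrd_iff_order L b Hb.mem ob).mp Hb]
  norm_cast

theorem hasOrd_C {u : ℂ} (hu : u ∈ L.R) (hnu : ¬ L.InM u) : HasOrd L (C u) 0 where
  mem k := by
    rw [coeff_C]
    split_ifs
    · exact hu
    · exact L.R.zero_mem
  low k hk := absurd hk (Nat.not_lt_zero k)
  top := by
    rw [coeff_zero_C]
    exact hnu

theorem hasOrd_one : HasOrd L 1 0 := by
  have := hasOrd_C (L := L) L.R.one_mem not_InM_one
  rwa [map_one] at this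

theorem HasOrd.const_mul {u : ℂ} (hu : u ∈ L.R) (hnu : ¬ L.InM u) {c : ℂ⟦X⟧} {o : ℕ}
    (H : HasOrd L c o) : HasOrd L (C u * c) o := by
  have := (hasOrd_C hu hnu).mul H
  rwa [zero_add] at this

theorem HasOrd.prod {ι : Type*} (s : Finset ι) (c : ι → ℂ⟦X⟧) (o : ι → ℕ)
    (h : ∀ i ∈ s, HasOrd L (c i) (o i)) : HasOrd L (∏ i ∈ s, c i) (∑ i ∈ s, o i) := by
  classical
  induction s using Finset.induction_on with
  | empty => simpa using hasOrd_one
  | insert a s ha ih =>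
    rw [Finset.prod_insert ha, Finset.sum_insert ha]
    exact (h a (Finset.mem_insert_self a s)).mul
      (ih fun i hi => h i (Finset.mem_insert_of_mem hi))

/-- "`c ≡ c'` mod `𝔪`" transports the order. -/
theorem HasOrd.of_congr {c c' : ℂ⟦X⟧} {o : ℕ} (hc : ∀ k, coeff k c ∈ L.R)
    (hd : ∀ k, L.InM (coeff k (c - c'))) (H : HasOrd L c' o) : HasOrd L c o where
  mem := hc
  low k hk := by
    have e : coeff k c = coeff k c' + coeff k (c - c') := by
      rw [map_sub]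
      ring
    rw [e]
    exact InM_add (H.low k hk) (hd k)
  top := by
    intro hin
    apply H.top
    have e : coeff o c' = coeff o c - coeff o (c - c') := by
      rw [map_sub]
      ring
    rw [e]
    exact InM_sub hin (hd o)

theorem HasOrd.expand {c : ℂ⟦X⟧} {o : ℕ} (H : HasOrd L c o) (p : ℕ) (hp : p ≠ 0) :
    HasOrd L (PowerSeries.expand p hp c) (p * o) where
  mem k := by
    rw [coeff_expand]
    split_ifs
    · exact H.mem _
    · exact L.R.zero_mem
  low k hk := by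
    rw [coeff_expand]
    split_ifs with hdvd
    · apply H.low
      obtain ⟨m, rfl⟩ := hdvd
      rw [Nat.mul_div_cancel_left _ (Nat.pos_of_ne_zero hp)]
      exact lt_of_mul_lt_mul_left hk (Nat.zero_le p)
    · exact InM_zero
  top := by
    rw [coeff_expand_mul]
    exact H.top

/-! ### The contradiction -/

/-- **Norm contradiction, single series.** -/
theorem norm_contra_one (L : LocalData ℓ) {p : ℕ} (hp : p ≠ 0) {K : ℕ} {n : ℂ⟦X⟧}
    (hS : SturmProp K n) {c : ℂ⟦X⟧} {O : ℕ} (hprod : PowerSeries.expand p hp n = c)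
    (H : HasOrd L c O) (hbig : p * K < 12 * O) : False := by
  have hcoeff : ∀ k, coeff k n = coeff (p * k) c := by
    intro k
    rw [← hprod, coeff_expand_mul]
  -- `p ∣ O`
  have hdvd : p ∣ O := by
    by_contra hnd
    apply H.top
    rw [← hprod, coeff_expand_of_not_dvd p hp _ hnd]
    exact InM_zero
  obtain ⟨d, rfl⟩ := hdvd
  have hall := hS L.R L.m (fun k => by rw [hcoeff]; exact H.mem _) (fun k hk => by
    rw [hcoeff]
    apply H.low
    have h1 : 12 * (p * k) ≤ p * K := by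
      calc 12 * (p * k) = p * (12 * k) := by ring
        _ ≤ p * K := Nat.mul_le_mul_left p hk
    omega)
  apply H.top
  rw [← hcoeff]
  exact hall d

/-- **Generic norm contradiction.** -/
theorem norm_contra (L : LocalData ℓ) {p : ℕ} (hp : p ≠ 0) {K : ℕ} {n : ℂ⟦X⟧}
    (hS : SturmProp K n) {ι : Type*} (s : Finset ι) (c : ι → ℂ⟦X⟧) (o : ι → ℕ)
    (hprod : PowerSeries.expand p hp n = ∏ i ∈ s, c i)
    (hc : ∀ i ∈ s, HasOrd L (c i) (o i))
    (hbig : p * K < 12 * ∑ i ∈ s, o i) : False :=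
  norm_contra_one L hp hS hprod (HasOrd.prod s c o hc) hbig

/-- The same for a product `c_∞ * ∏_{j < m} c_j` (the shape of the targets of `Formal14`). -/
theorem norm_contra_range (L : LocalData ℓ) {p : ℕ} (hp : p ≠ 0) {K : ℕ} {n : ℂ⟦X⟧}
    (hS : SturmProp K n) (m : ℕ) (cinf : ℂ⟦X⟧) (c : ℕ → ℂ⟦X⟧) (oinf : ℕ) (o : ℕ → ℕ)
    (hprod : PowerSeries.expand p hp n = cinf * ∏ j ∈ Finset.range m, c j)
    (hinf : HasOrd L cinf oinf)
    (hc : ∀ j, j < m → HasOrd L (c j) (o j))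
    (hbig : p * K < 12 * (oinf + ∑ j ∈ Finset.range m, o j)) : False :=
  norm_contra_one L hp hS hprod
    (hinf.mul (HasOrd.prod (Finset.range m) c o fun j hj => hc j (Finset.mem_range.mp hj))) hbig

end Fermat.Agent.S16.NormContra25
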