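/-
S16, upper bound, chapter U6f (helper2): the two norm cases `Target_Nl_B7` (`ℓ ≥ 7`, `ℓ ∣ p + 1`,
`h = G² - c² E4`) and `Target_Nl_B5` (`ℓ = 5 ∣ p + 1`, `h = G³ - c³ E6`) of `Formal14`, on top of
helper25's generic norm-contradiction lemma `NormContra25.norm_contra_range`.

All `p + 1` conjugate series have the same shape `C a * Y ^ 2 - C (c ^ 2) * (1 + C 240 * S)`
(resp. `C b * Y ^ 3 - C (c ^ 3) * (1 - C 504 * S)`) with `Y ≡ c`, `a ≡ 1`, `b ≡ 1` modulo `𝔪` and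
`S = expand p (sig r)` of `𝔪`-order exactly `p`; so each is `≡ unit * S` and has `𝔪`-order `p`.
-/
import Mathlib
import Fermat.Agent.S16.Formal14
import Fermat.Agent.S16.NormContra25

set_option autoImplicit false

open PowerSeries

namespace Fermat.Agent.S16.CasesB2

open Fermat.Agent.S16.Formal14 Fermat.Agent.S16.NormContra25

noncomputable section

variable {ℓ : ℕ} (L : LocalData ℓ)

/-! ### the calculus of `InM` -/

theorem inM_iff {x : ℂ} : L.InM x ↔ ∃ h : x ∈ L.R, (⟨x, h⟩ : L.R) ∈ L.m := by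
  constructor
  · rintro ⟨r, hr, rfl⟩
    exact ⟨r.2, hr⟩
  · rintro ⟨h, hm⟩
    exact ⟨⟨x, h⟩, hm, rfl⟩

theorem InM.mem {x : ℂ} (h : L.InM x) : x ∈ L.R := ((inM_iff L).1 h).1

theorem inM_zero : L.InM 0 := ⟨0, L.m.zero_mem, rfl⟩

theorem InM.add {x y : ℂ} (hx : L.InM x) (hy : L.InM y) : L.InM (x + y) := by
  obtain ⟨r, hr, rfl⟩ := hx
  obtain ⟨s, hs, rfl⟩ := hy
  exact ⟨r + s, L.m.add_mem hr hs, rfl⟩

theorem InM.neg {x : ℂ} (hx : L.InM x) : L.InM (-x) := by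
  obtain ⟨r, hr, rfl⟩ := hx
  exact ⟨-r, L.m.neg_mem hr, rfl⟩

theorem InM.sub {x y : ℂ} (hx : L.InM x) (hy : L.InM y) : L.InM (x - y) := by
  rw [sub_eq_add_neg]
  exact InM.add L hx (InM.neg L hy)

theorem InM.mul_left {x y : ℂ} (hx : x ∈ L.R) (hy : L.InM y) : L.InM (x * y) := by
  obtain ⟨s, hs, rfl⟩ := hy
  exact ⟨⟨x, hx⟩ * s, L.m.mul_mem_left _ hs, rfl⟩

theorem InM.mul_right {x y : ℂ} (hx : L.InM x) (hy : y ∈ L.R) : L.InM (x * y) := by
  rw [mul_comm]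
  exact InM.mul_left L hy hx

theorem inM_sum {ι : Type*} (s : Finset ι) (f : ι → ℂ) (h : ∀ i ∈ s, L.InM (f i)) :
    L.InM (∑ i ∈ s, f i) := by
  classical
  induction s using Finset.induction_on with
  | empty => rw [Finset.sum_empty]; exact inM_zero L
  | insert a s ha ih =>
    rw [Finset.sum_insert ha]
    exact InM.add L (h a (Finset.mem_insert_self a s))
      (ih fun i hi => h i (Finset.mem_insert_of_mem hi))

theorem not_inM_one : ¬ L.InM 1 := by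
  rintro ⟨r, hr, h1⟩
  have : r = 1 := Subtype.ext (by simpa using h1)
  exact L.isMaximal.ne_top ((Ideal.eq_top_iff_one _).2 (this ▸ hr))

/-- `𝔪` is prime. -/
theorem inM_or_of_mul {x y : ℂ} (hx : x ∈ L.R) (hy : y ∈ L.R) (h : L.InM (x * y)) :
    L.InM x ∨ L.InM y := by
  obtain ⟨r, hr, hxy⟩ := h
  have hr' : r = (⟨x, hx⟩ : L.R) * ⟨y, hy⟩ := Subtype.ext (by simpa using hxy)
  rw [hr'] at hr
  rcases (L.isMaximal.isPrime.mem_or_mem hr) with h1 | h1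
  · exact Or.inl ⟨_, h1, rfl⟩
  · exact Or.inr ⟨_, h1, rfl⟩

theorem inM_ell : L.InM (ℓ : ℂ) := L.ell_mem

theorem natCast_mem (n : ℕ) : (n : ℂ) ∈ L.R := by
  exact_mod_cast L.int_mem (n : ℤ)

theorem inM_intCast_of_dvd {a : ℤ} (h : (ℓ : ℤ) ∣ a) : L.InM (a : ℂ) := by
  obtain ⟨b, rfl⟩ := h
  push_cast
  exact InM.mul_right L (inM_ell L) (L.int_mem b)

theorem not_inM_intCast {a : ℤ} (h : ¬ (ℓ : ℤ) ∣ a) : ¬ L.InM (a : ℂ) := by
  intro ha
  have ha0 : (a : ℂ) ≠ 0 := by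
    intro h0
    apply h
    have : a = 0 := by exact_mod_cast h0
    simp [this]
  have := InM.mul_left L (L.inv_mem a h) ha
  rw [inv_mul_cancel₀ ha0] at this
  exact not_inM_one L this

/-! ### series with coefficients in `R`, resp. in `𝔪` -/

/-- all coefficients in `R`. -/
def AllR (f : ℂ⟦X⟧) : Prop := ∀ k, coeff k f ∈ L.R

/-- all coefficients in `𝔪`. -/
def AllM (f : ℂ⟦X⟧) : Prop := ∀ k, L.InM (coeff k f)

variable {L}

theorem AllM.allR {f : ℂ⟦X⟧} (h : AllM L f) : AllR L f := fun k => InM.mem L (h k)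

theorem allR_C {r : ℂ} (hr : r ∈ L.R) : AllR L (C r) := by
  intro k
  rw [coeff_C]
  split_ifs
  · exact hr
  · exact L.R.zero_mem

theorem allR_one : AllR L 1 := by
  have h := allR_C (L := L) L.R.one_mem
  rwa [map_one] at h

theorem AllR.add {f g : ℂ⟦X⟧} (hf : AllR L f) (hg : AllR L g) : AllR L (f + g) := fun k => by
  rw [map_add]; exact L.R.add_mem (hf k) (hg k)

theorem AllR.neg {f : ℂ⟦X⟧} (hf : AllR L f) : AllR L (-f) := fun k => by
  rw [map_neg]; exact L.R.neg_mem (hf k)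

theorem AllR.sub {f g : ℂ⟦X⟧} (hf : AllR L f) (hg : AllR L g) : AllR L (f - g) := fun k => by
  rw [map_sub]; exact L.R.sub_mem (hf k) (hg k)

theorem AllR.mul {f g : ℂ⟦X⟧} (hf : AllR L f) (hg : AllR L g) : AllR L (f * g) := fun k => by
  rw [coeff_mul]
  exact L.R.sum_mem fun ij _ => L.R.mul_mem (hf _) (hg _)

theorem AllR.pow {f : ℂ⟦X⟧} (hf : AllR L f) (n : ℕ) : AllR L (f ^ n) := by
  induction n with
  | zero => simpa using allR_one (L := L)
  | succ n ih => rw [pow_succ]; exact ih.mul hf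

theorem allR_toC (f : ℤ⟦X⟧) : AllR L (toC f) := fun k => by
  rw [toC, coeff_map]
  exact L.int_mem _

theorem AllR.rescale {f : ℂ⟦X⟧} (hf : AllR L f) {a : ℂ} (ha : a ∈ L.R) :
    AllR L (rescale a f) := fun k => by
  rw [coeff_rescale]
  exact L.R.mul_mem (L.R.pow_mem ha k) (hf k)

theorem AllR.expand {f : ℂ⟦X⟧} (hf : AllR L f) (p : ℕ) (hp : p ≠ 0) :
    AllR L (expand p hp f) := fun k => by
  rw [coeff_expand]
  split_ifs
  · exact hf _
  · exact L.R.zero_mem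

theorem allM_C {r : ℂ} (hr : L.InM r) : AllM L (C r) := by
  intro k
  rw [coeff_C]
  split_ifs
  · exact hr
  · exact inM_zero L

theorem AllM.add {f g : ℂ⟦X⟧} (hf : AllM L f) (hg : AllM L g) : AllM L (f + g) := fun k => by
  rw [map_add]; exact InM.add L (hf k) (hg k)

theorem AllM.mul_left {f g : ℂ⟦X⟧} (hf : AllR L f) (hg : AllM L g) : AllM L (f * g) := fun k => by
  rw [coeff_mul]
  exact inM_sum L _ _ fun ij _ => InM.mul_left L (hf _) (hg _)

theorem AllM.mul_right {f g : ℂ⟦X⟧} (hf : AllM L f) (hg : AllR L g) : AllM L (f * g) := by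
  rw [mul_comm]; exact AllM.mul_left hg hf

theorem AllM.expand {f : ℂ⟦X⟧} (hf : AllM L f) (p : ℕ) (hp : p ≠ 0) :
    AllM L (expand p hp f) := fun k => by
  rw [coeff_expand]
  split_ifs
  · exact hf _
  · exact inM_zero L

/-! ### `HasOrd` combinators -/

theorem hasOrd_of_congr {c c' : ℂ⟦X⟧} {o : ℕ} (hc : AllR L c) (hd : AllM L (c - c'))
    (h : HasOrd L c' o) : HasOrd L c o := by
  have key : ∀ k, coeff k c = coeff k c' + coeff k (c - c') := fun k => by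
    rw [map_sub]; ring
  refine ⟨hc, fun k hk => ?_, fun ht => ?_⟩
  · rw [key]; exact InM.add L (h.low k hk) (hd k)
  · apply h.top
    have : coeff o c' = coeff o c - coeff o (c - c') := by rw [map_sub]; ring
    rw [this]
    exact InM.sub L ht (hd o)

theorem hasOrd_const_mul {c : ℂ⟦X⟧} {o : ℕ} {u : ℂ} (hu : u ∈ L.R) (hu' : ¬ L.InM u)
    (h : HasOrd L c o) : HasOrd L (C u * c) o := by
  refine ⟨fun k => ?_, fun k hk => ?_, fun ht => ?_⟩
  · rw [coeff_C_mul]; exact L.R.mul_mem hu (h.mem k)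
  · rw [coeff_C_mul]; exact InM.mul_left L hu (h.low k hk)
  · rw [coeff_C_mul] at ht
    rcases inM_or_of_mul L hu (h.mem o) ht with h1 | h1
    · exact hu' h1
    · exact h.top h1

theorem hasOrd_expand {c : ℂ⟦X⟧} {o : ℕ} (h : HasOrd L c o) (p : ℕ) (hp : p ≠ 0) :
    HasOrd L (expand p hp c) (p * o) := by
  refine ⟨(show AllR L c from h.mem).expand p hp, fun k hk => ?_, fun ht => ?_⟩
  · rw [coeff_expand]
    split_ifs with hd
    · apply h.low
      obtain ⟨q, rfl⟩ := hd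
      rw [Nat.mul_div_cancel_left _ (Nat.pos_of_ne_zero hp)]
      exact lt_of_mul_lt_mul_left hk (Nat.zero_le p)
    · exact inM_zero L
  · rw [coeff_expand_mul] at ht
    exact h.top ht

/-- `s_r = ∑ σ_r(m) q^m` has `𝔪`-order exactly `1`. -/
theorem hasOrd_sig (r : ℕ) : HasOrd L (sig r : ℂ⟦X⟧) 1 := by
  refine ⟨fun k => ?_, fun k hk => ?_, fun ht => ?_⟩
  · simp only [sig, coeff_mk]
    exact natCast_mem L _
  · obtain rfl : k = 0 := by omega
    have h0 : coeff 0 (sig r : ℂ⟦X⟧) = 0 := by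
      simp [sig]
    rw [h0]
    exact inM_zero L
  · have h1 : coeff 1 (sig r : ℂ⟦X⟧) = 1 := by
      simp [sig, ArithmeticFunction.sigma_one]
    rw [h1] at ht
    exact not_inM_one L ht

/-! ### integer series modulo `ℓ` as complex series modulo `𝔪` -/

theorem allM_rescale_toC_sub {f : ℤ⟦X⟧} {c : ℤ} (h0 : constantCoeff f = c)
    (h : ∀ k, 1 ≤ k → (ℓ : ℤ) ∣ coeff k f) {a : ℂ} (ha : a ∈ L.R) :
    AllM L (rescale a (toC f) - C (c : ℂ)) := by
  intro k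
  rw [map_sub, coeff_rescale, toC, coeff_map, coeff_C]
  rcases Nat.eq_zero_or_pos k with rfl | hk
  · rw [coeff_zero_eq_constantCoeff_apply, h0]
    simpa using inM_zero L
  · rw [if_neg (by omega), sub_zero]
    exact InM.mul_left L (L.R.pow_mem ha k) (inM_intCast_of_dvd L (h k hk))

theorem allM_toC_sub {f : ℤ⟦X⟧} {c : ℤ} (h0 : constantCoeff f = c)
    (h : ∀ k, 1 ≤ k → (ℓ : ℤ) ∣ coeff k f) : AllM L (toC f - C (c : ℂ)) := by
  have := allM_rescale_toC_sub (L := L) h0 h L.R.one_mem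
  simpa using this

theorem toC_sig (r : ℕ) : toC (sig r : ℤ⟦X⟧) = sig r := by
  ext k
  simp [toC, sig]

theorem toC_E4s : toC (E4s ℤ) = E4s ℂ := by
  have h := toC_sig 3
  simp only [toC] at h
  simp only [toC, E4s, map_add, map_one, map_mul, PowerSeries.map_C, h]
  norm_num

theorem toC_E6s : toC (E6s ℤ) = E6s ℂ := by
  have h := toC_sig 5
  simp only [toC] at h
  simp only [toC, E6s, map_sub, map_one, map_mul, PowerSeries.map_C, h]
  norm_num

/-! ### the common shape of all conjugates -/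

/-- case B7: `C a * Y ^ 2 - C (c ^ 2) * (1 + C 240 * S)` with `Y ≡ c`, `a ≡ 1`. -/
theorem hasOrd_B7 {Y S : ℂ⟦X⟧} {a : ℂ} {c : ℤ} {o : ℕ}
    (hY : AllR L Y) (hYc : AllM L (Y - C (c : ℂ))) (ha : a ∈ L.R) (ha1 : L.InM (a - 1))
    (hS : HasOrd L S o) (hu : ¬ L.InM ((c : ℂ) ^ 2 * 240)) :
    HasOrd L (C a * Y ^ 2 - C ((c : ℂ) ^ 2) * (1 + C (240 : ℂ) * S)) o := by
  have hc : (c : ℂ) ∈ L.R := L.int_mem c
  have h240 : (240 : ℂ) ∈ L.R := by exact_mod_cast L.int_mem 240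
  have hSR : AllR L S := hS.mem
  refine hasOrd_of_congr (c' := C (-((c : ℂ) ^ 2 * 240)) * S) ?_ ?_ (hasOrd_const_mul ?_ ?_ hS)
  · exact ((allR_C ha).mul (hY.pow 2)).sub
      ((allR_C (L.R.pow_mem hc 2)).mul (allR_one.add ((allR_C h240).mul hSR)))
  · have key : C a * Y ^ 2 - C ((c : ℂ) ^ 2) * (1 + C (240 : ℂ) * S)
        - C (-((c : ℂ) ^ 2 * 240)) * S
        = C a * (Y - C (c : ℂ)) * (Y + C (c : ℂ)) + C ((a - 1) * (c : ℂ) ^ 2) := by
      simp only [map_neg, map_mul, map_sub, map_pow, map_one]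
      ring
    rw [key]
    exact ((AllM.mul_left (allR_C ha) hYc).mul_right (hY.add (allR_C hc))).add
      (allM_C (InM.mul_right L ha1 (L.R.pow_mem hc 2)))
  · exact L.R.neg_mem (L.R.mul_mem (L.R.pow_mem hc 2) h240)
  · intro h
    apply hu
    simpa using InM.neg L h

/-- case B5: `C b * Y ^ 3 - C (c ^ 3) * (1 - C 504 * S)` with `Y ≡ c`, `b ≡ 1`. -/
theorem hasOrd_B5 {Y S : ℂ⟦X⟧} {b : ℂ} {c : ℤ} {o : ℕ}
    (hY : AllR L Y) (hYc : AllM L (Y - C (c : ℂ))) (hb : b ∈ L.R) (hb1 : L.InM (b - 1))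
    (hS : HasOrd L S o) (hu : ¬ L.InM ((c : ℂ) ^ 3 * 504)) :
    HasOrd L (C b * Y ^ 3 - C ((c : ℂ) ^ 3) * (1 - C (504 : ℂ) * S)) o := by
  have hc : (c : ℂ) ∈ L.R := L.int_mem c
  have h504 : (504 : ℂ) ∈ L.R := by exact_mod_cast L.int_mem 504
  have hSR : AllR L S := hS.mem
  refine hasOrd_of_congr (c' := C ((c : ℂ) ^ 3 * 504) * S) ?_ ?_ (hasOrd_const_mul ?_ hu hS)
  · exact ((allR_C hb).mul (hY.pow 3)).sub
      ((allR_C (L.R.pow_mem hc 3)).mul (allR_one.sub ((allR_C h504).mul hSR)))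
  · have key : C b * Y ^ 3 - C ((c : ℂ) ^ 3) * (1 - C (504 : ℂ) * S)
        - C ((c : ℂ) ^ 3 * 504) * S
        = C b * (Y - C (c : ℂ)) * (Y ^ 2 + Y * C (c : ℂ) + C (c : ℂ) ^ 2)
          + C ((b - 1) * (c : ℂ) ^ 3) := by
      simp only [map_mul, map_sub, map_pow, map_one]
      ring
    rw [key]
    exact ((AllM.mul_left (allR_C hb) hYc).mul_right
      (((hY.pow 2).add (hY.mul (allR_C hc))).add ((allR_C hc).pow 2))).add
      (allM_C (InM.mul_right L hb1 (L.R.pow_mem hc 3)))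
  · exact L.R.mul_mem (L.R.pow_mem hc 3) h504

/-! ### common preparations -/

/-- `G' = U_p G` inherits the congruence. -/
theorem cong_G' {p : ℕ} (hp : p.Prime) (P : Pkg p) {a : ℕ} (h : P.Cong ℓ a) :
    ∀ k, 1 ≤ k → ((ℓ : ℤ) ^ a) ∣ coeff k P.G' := by
  intro k hk
  rw [← P.Up_G, coeff_Up]
  exact h (p * k) (Nat.one_le_iff_ne_zero.2 (Nat.mul_ne_zero hp.ne_zero (by omega)))

theorem not_dvd_of_dvd_succ {p : ℕ} (hℓ : ℓ.Prime) (h : ℓ ∣ p + 1) : ¬ (ℓ : ℤ) ∣ (p : ℤ) := by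
  intro hd
  have hd' : ℓ ∣ p := by exact_mod_cast hd
  have : ℓ ∣ 1 := (Nat.dvd_add_right hd').1 h
  exact hℓ.one_lt.ne' (Nat.dvd_one.1 this)

theorem inv_natCast_mem {p : ℕ} (h : ¬ (ℓ : ℤ) ∣ (p : ℤ)) : ((p : ℂ))⁻¹ ∈ L.R := by
  have := L.inv_mem (p : ℤ) h
  exact_mod_cast this

theorem inM_succ {p : ℕ} (h : ℓ ∣ p + 1) : L.InM ((p : ℂ) + 1) := by
  have h' : (ℓ : ℤ) ∣ ((p + 1 : ℕ) : ℤ) := by exact_mod_cast h
  have := inM_intCast_of_dvd L h'
  exact_mod_cast this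

theorem toC_h4 (G : ℤ⟦X⟧) (c : ℤ) :
    toC (G ^ 2 - C (c ^ 2) * E4s ℤ) = (toC G) ^ 2 - C ((c : ℂ) ^ 2) * E4s ℂ := by
  rw [← toC_E4s]
  simp only [toC, map_sub, map_pow, map_mul, PowerSeries.map_C]
  norm_num

theorem toC_h6 (G : ℤ⟦X⟧) (c : ℤ) :
    toC (G ^ 3 - C (c ^ 3) * E6s ℤ) = (toC G) ^ 3 - C ((c : ℂ) ^ 3) * E6s ℂ := by
  rw [← toC_E6s]
  simp only [toC, map_sub, map_pow, map_mul, PowerSeries.map_C]
  norm_num

/-! ### the two targets -/

theorem target_Nl_B7 : Target_Nl_B7 := by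
  intro p ℓ hp hℓ h7 hdvd L P hc hcong ζ hζ n hS hprod
  have hp0 : p ≠ 0 := hp.ne_zero
  have hℓp : ¬ (ℓ : ℤ) ∣ (p : ℤ) := not_dvd_of_dvd_succ hℓ hdvd
  have hpinv : ((p : ℂ))⁻¹ ∈ L.R := inv_natCast_mem hℓp
  have hpC : (p : ℂ) ≠ 0 := by exact_mod_cast hp0
  have hζR : ζ ∈ L.R := L.root_mem ζ p hp.one_le hζ.pow_eq_one
  have hcong1 : ∀ k, 1 ≤ k → (ℓ : ℤ) ∣ coeff k P.G := by
    intro k hk
    simpa using hcong k hk
  have hcong1' : ∀ k, 1 ≤ k → (ℓ : ℤ) ∣ coeff k P.G' := by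
    intro k hk
    simpa using cong_G' hp P hcong k hk
  set S : ℂ⟦X⟧ := expand p hp0 (sig 3) with hSdef
  have hSord : HasOrd L S (p * 1) := hasOrd_expand (hasOrd_sig 3) p hp0
  have hE : expand p hp0 (E4s ℂ) = 1 + C (240 : ℂ) * S := by
    simp only [E4s, map_add, map_one, map_mul, expand_C, hSdef]
  have hu : ¬ L.InM ((P.c : ℂ) ^ 2 * 240) := by
    have : ((P.c : ℂ) ^ 2 * 240) = ((P.c ^ 2 * 240 : ℤ) : ℂ) := by push_cast; ring
    rw [this]
    apply not_inM_intCast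
    intro hd
    have hprime : Prime (ℓ : ℤ) := Nat.prime_iff_prime_int.1 hℓ
    rcases hprime.dvd_or_dvd hd with h1 | h1
    · exact hc (hprime.dvd_of_dvd_pow h1)
    · have h2 : ℓ ∣ 240 := by exact_mod_cast h1
      have h2' : ℓ ∣ 2 ^ 4 * 3 * 5 := by simpa using h2
      rcases (hℓ.dvd_mul).1 h2' with h3 | h3
      · rcases (hℓ.dvd_mul).1 h3 with h4 | h4
        · have := Nat.le_of_dvd (by norm_num) (hℓ.dvd_of_dvd_pow h4); omega
        · have := Nat.le_of_dvd (by norm_num) h4; omega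
      · have := Nat.le_of_dvd (by norm_num) h3; omega
  have ha : ((p : ℂ))⁻¹ ^ 2 ∈ L.R := L.R.pow_mem hpinv 2
  have ha1 : L.InM (((p : ℂ))⁻¹ ^ 2 - 1) := by
    have : ((p : ℂ))⁻¹ ^ 2 - 1 = ((p : ℂ) + 1) * ((1 - (p : ℂ)) * ((p : ℂ))⁻¹ ^ 2) := by
      field_simp
      ring
    rw [this]
    exact InM.mul_right L (inM_succ hdvd)
      (L.R.mul_mem (L.R.sub_mem L.R.one_mem (natCast_mem L p)) ha)
  have hinf : HasOrd L (expand p hp0 (toC (P.G ^ 2 - C (P.c ^ 2) * E4s ℤ))) (p * 1) := by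
    have e : expand p hp0 (toC (P.G ^ 2 - C (P.c ^ 2) * E4s ℤ)) =
        C (1 : ℂ) * (expand p hp0 (toC P.G)) ^ 2
          - C ((P.c : ℂ) ^ 2) * (1 + C (240 : ℂ) * S) := by
      rw [toC_h4, map_sub, map_mul, map_pow, expand_C, hE, map_one, one_mul]
    rw [e]
    refine hasOrd_B7 ((allR_toC P.G).expand p hp0) ?_ L.R.one_mem ?_ hSord hu
    · have := (allM_toC_sub (L := L) P.constG hcong1).expand p hp0
      rwa [map_sub, expand_C] at this
    · rw [sub_self]; exact inM_zero L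
  have hfac : ∀ j, j < p →
      HasOrd L (C (((p : ℂ))⁻¹ ^ 2) * (rescale (ζ ^ j) (toC P.G')) ^ 2
        - C ((P.c : ℂ) ^ 2) * expand p hp0 (E4s ℂ)) (p * 1) := by
    intro j _
    rw [hE]
    exact hasOrd_B7 ((allR_toC P.G').rescale (L.R.pow_mem hζR j))
      (allM_rescale_toC_sub P.constG' hcong1' (L.R.pow_mem hζR j)) ha ha1 hSord hu
  refine norm_contra_range L hp0 hS p _ _ (p * 1) (fun _ => p * 1) hprod hinf hfac ?_
  simp only [Finset.sum_const, Finset.card_range, smul_eq_mul, mul_one]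
  nlinarith [hp.pos]

theorem target_Nl_B5 : Target_Nl_B5 := by
  intro p hp hdvd L P hc hcong ζ hζ n hS hprod
  have hℓ : Nat.Prime 5 := by norm_num
  have hp0 : p ≠ 0 := hp.ne_zero
  have hℓp : ¬ ((5 : ℕ) : ℤ) ∣ (p : ℤ) := not_dvd_of_dvd_succ hℓ hdvd
  have hpinv : ((p : ℂ))⁻¹ ∈ L.R := inv_natCast_mem hℓp
  have hpC : (p : ℂ) ≠ 0 := by exact_mod_cast hp0
  have hζR : ζ ∈ L.R := L.root_mem ζ p hp.one_le hζ.pow_eq_one
  have hcong1 : ∀ k, 1 ≤ k → ((5 : ℕ) : ℤ) ∣ coeff k P.G := by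
    intro k hk
    simpa using hcong k hk
  have hcong1' : ∀ k, 1 ≤ k → ((5 : ℕ) : ℤ) ∣ coeff k P.G' := by
    intro k hk
    simpa using cong_G' hp P hcong k hk
  set S : ℂ⟦X⟧ := expand p hp0 (sig 5) with hSdef
  have hSord : HasOrd L S (p * 1) := hasOrd_expand (hasOrd_sig 5) p hp0
  have hE : expand p hp0 (E6s ℂ) = 1 - C (504 : ℂ) * S := by
    simp only [E6s, map_sub, map_one, map_mul, expand_C, hSdef]
  have hu : ¬ L.InM ((P.c : ℂ) ^ 3 * 504) := by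
    have : ((P.c : ℂ) ^ 3 * 504) = ((P.c ^ 3 * 504 : ℤ) : ℂ) := by push_cast; ring
    rw [this]
    apply not_inM_intCast
    intro hd
    have hprime : Prime ((5 : ℕ) : ℤ) := Nat.prime_iff_prime_int.1 hℓ
    rcases hprime.dvd_or_dvd hd with h1 | h1
    · exact hc (by simpa using hprime.dvd_of_dvd_pow h1)
    · have h2 : (5 : ℕ) ∣ 504 := by exact_mod_cast h1
      omega
  have hb : (-((p : ℂ))⁻¹) ^ 3 ∈ L.R := L.R.pow_mem (L.R.neg_mem hpinv) 3
  have hb1 : L.InM ((-((p : ℂ))⁻¹) ^ 3 - 1) := by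
    have : (-((p : ℂ))⁻¹) ^ 3 - 1 =
        ((p : ℂ) + 1) * (-((p : ℂ) ^ 2 - (p : ℂ) + 1) * ((p : ℂ))⁻¹ ^ 3) := by
      field_simp
      ring
    rw [this]
    exact InM.mul_right L (inM_succ hdvd)
      (L.R.mul_mem (L.R.neg_mem (L.R.add_mem (L.R.sub_mem (L.R.pow_mem (natCast_mem L p) 2)
        (natCast_mem L p)) L.R.one_mem)) (L.R.pow_mem hpinv 3))
  have hinf : HasOrd L (expand p hp0 (toC (P.G ^ 3 - C (P.c ^ 3) * E6s ℤ))) (p * 1) := by
    have e : expand p hp0 (toC (P.G ^ 3 - C (P.c ^ 3) * E6s ℤ)) =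
        C (1 : ℂ) * (expand p hp0 (toC P.G)) ^ 3
          - C ((P.c : ℂ) ^ 3) * (1 - C (504 : ℂ) * S) := by
      rw [toC_h6, map_sub, map_mul, map_pow, expand_C, hE, map_one, one_mul]
    rw [e]
    refine hasOrd_B5 ((allR_toC P.G).expand p hp0) ?_ L.R.one_mem ?_ hSord hu
    · have := (allM_toC_sub (L := L) P.constG hcong1).expand p hp0
      rwa [map_sub, expand_C] at this
    · rw [sub_self]; exact inM_zero L
  have hfac : ∀ j, j < p →
      HasOrd L (C ((-((p : ℂ))⁻¹) ^ 3) * (rescale (ζ ^ j) (toC P.G')) ^ 3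
        - C ((P.c : ℂ) ^ 3) * expand p hp0 (E6s ℂ)) (p * 1) := by
    intro j _
    rw [hE]
    exact hasOrd_B5 ((allR_toC P.G').rescale (L.R.pow_mem hζR j))
      (allM_rescale_toC_sub P.constG' hcong1' (L.R.pow_mem hζR j)) hb hb1 hSord hu
  refine norm_contra_range L hp0 hS p _ _ (p * 1) (fun _ => p * 1) hprod hinf hfac ?_
  simp only [Finset.sum_const, Finset.card_range, smul_eq_mul, mul_one]
  nlinarith [hp.pos]

end

end Fermat.Agent.S16.CasesB2
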