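/-
Program M (S16), brick U3b/U1 (helper1): **explicit coset representatives of `Γ₀(p)` in `SL(2, ℤ)`**
in the shape used by Mathlib's `ModularForm.trace` / `ModularForm.norm`.

`rep p none = 1`, `rep p (some j) = S * T ^ j = [[0, -1], [1, j]]`;
`cosetEquiv p : Option (ZMod p) ≃ 𝒮ℒ ⧸ (Γ₀(p)).subgroupOf 𝒮ℒ`, `i ↦ ⟦(rep p i)⁻¹⟧`, so that
`quotientFunc f (cosetEquiv p i) = f ∣[k] rep p i`; `trace_apply`, `norm_apply`.
-/
import Mathlib

set_option autoImplicit false

open scoped MatrixGroups ModularForm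
open CongruenceSubgroup Matrix Matrix.SpecialLinearGroup ModularGroup UpperHalfPlane

noncomputable section

namespace Fermat.Agent.S16.CosetP1

variable (p : ℕ)

/-- the representatives `1`, `S T^j`. -/
def rep : Option (ZMod p) → SL(2, ℤ)
  | none => 1
  | some j => S * T ^ (j.val : ℤ)

@[simp] theorem rep_none : rep p none = 1 := rfl

@[simp] theorem rep_some (j : ZMod p) : rep p (some j) = S * T ^ (j.val : ℤ) := rfl

theorem coe_S_mul_T_zpow (n : ℤ) :
    ((S * T ^ n : SL(2, ℤ)) : Matrix (Fin 2) (Fin 2) ℤ) = !![0, -1; 1, n] := by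
  rw [coe_mul, coe_T_zpow, coe_S]
  ext i j
  fin_cases i <;> fin_cases j <;> simp [Matrix.mul_apply, Fin.sum_univ_two]

theorem mem_Gamma0_iff' (g : SL(2, ℤ)) : g ∈ Gamma0 p ↔ (p : ℤ) ∣ g 1 0 := by
  rw [Gamma0_mem, ZMod.intCast_zmod_eq_zero_iff_dvd]

/-- lower-left entry of `g' * g⁻¹`. -/
theorem mul_inv_one_zero (g g' : SL(2, ℤ)) :
    (g' * g⁻¹) 1 0 = g' 1 0 * g 1 1 - g' 1 1 * g 1 0 := by
  rw [coe_mul, coe_inv, adjugate_fin_two]
  simp [Matrix.mul_apply, Fin.sum_univ_two]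
  ring

variable [hp : Fact p.Prime]

/-- every right coset `Γ₀(p) g` contains exactly one representative. -/
theorem exists_rep (g : SL(2, ℤ)) : ∃ i : Option (ZMod p), rep p i * g⁻¹ ∈ Gamma0 p := by
  by_cases hc : (p : ℤ) ∣ g 1 0
  · refine ⟨none, ?_⟩
    rw [rep_none, one_mul]
    exact (Gamma0 p).inv_mem ((mem_Gamma0_iff' p g).2 hc)
  · have hc' : ((g 1 0 : ℤ) : ZMod p) ≠ 0 := by
      rwa [Ne, ZMod.intCast_zmod_eq_zero_iff_dvd]
    refine ⟨some (((g 1 1 : ℤ) : ZMod p) / ((g 1 0 : ℤ) : ZMod p)), ?_⟩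
    rw [mem_Gamma0_iff', mul_inv_one_zero, rep_some, coe_S_mul_T_zpow]
    simp only [of_apply, cons_val', cons_val_one, cons_val_zero, empty_val', cons_val_fin_one]
    rw [← ZMod.intCast_zmod_eq_zero_iff_dvd]
    push_cast
    rw [ZMod.natCast_zmod_val, div_mul_cancel₀ _ hc', one_mul, sub_self]

theorem rep_injective {i i' : Option (ZMod p)} (h : rep p i * (rep p i')⁻¹ ∈ Gamma0 p) :
    i = i' := by
  rw [mem_Gamma0_iff', mul_inv_one_zero] at h
  have hp1 : ¬ (p : ℤ) ∣ 1 := by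
    intro h1
    have := Int.le_of_dvd one_pos h1
    have := hp.out.two_le
    omega
  rcases i with _ | j <;> rcases i' with _ | j'
  · rfl
  · exfalso
    rw [rep_none, rep_some, coe_S_mul_T_zpow] at h
    simp at h
    exact hp1 h
  · exfalso
    rw [rep_none, rep_some, coe_S_mul_T_zpow] at h
    simp at h
    exact hp1 h
  · rw [rep_some, rep_some, coe_S_mul_T_zpow, coe_S_mul_T_zpow] at h
    simp only [of_apply, cons_val', cons_val_one, cons_val_zero, empty_val', cons_val_fin_one,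
      one_mul, mul_one] at h
    rw [← ZMod.intCast_zmod_eq_zero_iff_dvd] at h
    push_cast at h
    rw [ZMod.natCast_zmod_val, ZMod.natCast_zmod_val, sub_eq_zero] at h
    rw [h]

/-! ### the quotient `𝒮ℒ ⧸ Γ₀(p)` in Mathlib's shape -/

/-- `Γ₀(p)` as a subgroup of `GL(2, ℝ)`. -/
abbrev GG : Subgroup (GL (Fin 2) ℝ) := ((Gamma0 p : Subgroup SL(2, ℤ)) : Subgroup (GL (Fin 2) ℝ))

/-- the coset space used by `ModularForm.trace 𝒮ℒ`, `ModularForm.norm 𝒮ℒ`. -/
abbrev QQ : Type := ↥𝒮ℒ ⧸ (GG p).subgroupOf 𝒮ℒ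

/-- an element of `SL(2, ℤ)` as an element of `𝒮ℒ`. -/
def toSL (g : SL(2, ℤ)) : ↥𝒮ℒ := ⟨mapGL ℝ g, g, rfl⟩

omit hp in
theorem toSL_surjective : Function.Surjective toSL := by
  rintro ⟨_, g, rfl⟩
  exact ⟨g, rfl⟩

omit hp in
theorem toSL_mem_iff (g : SL(2, ℤ)) : toSL g ∈ (GG p).subgroupOf 𝒮ℒ ↔ g ∈ Gamma0 p := by
  rw [Subgroup.mem_subgroupOf]
  show mapGL ℝ g ∈ Subgroup.map (mapGL ℝ) (Gamma0 p) ↔ _
  exact Subgroup.mem_map_iff_mem mapGL_injective

omit hp in
theorem toSL_mul (g h : SL(2, ℤ)) : toSL (g * h) = toSL g * toSL h :=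
  Subtype.ext (map_mul _ g h)

omit hp in
theorem toSL_inv (g : SL(2, ℤ)) : toSL g⁻¹ = (toSL g)⁻¹ :=
  Subtype.ext (map_inv _ g)

/-- the class of `(rep p i)⁻¹`. -/
def cosetMap (i : Option (ZMod p)) : QQ p := QuotientGroup.mk (toSL (rep p i)⁻¹)

theorem cosetMap_bijective : Function.Bijective (cosetMap p) := by
  constructor
  · intro i i' h
    unfold cosetMap at h
    rw [QuotientGroup.eq, ← toSL_inv, ← toSL_mul, toSL_mem_iff, inv_inv] at h
    exact rep_injective p h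
  · intro q
    induction q using QuotientGroup.induction_on with
    | H x =>
      obtain ⟨g, rfl⟩ := toSL_surjective x
      obtain ⟨i, hi⟩ := exists_rep p g⁻¹
      refine ⟨i, ?_⟩
      unfold cosetMap
      rw [QuotientGroup.eq, ← toSL_inv, ← toSL_mul, toSL_mem_iff, inv_inv]
      rw [inv_inv] at hi
      exact hi

/-- **the coset bijection** `P¹(𝔽_p) ≃ 𝒮ℒ ⧸ Γ₀(p)`. -/
def cosetEquiv : Option (ZMod p) ≃ QQ p := Equiv.ofBijective _ (cosetMap_bijective p)

theorem cosetEquiv_apply (i : Option (ZMod p)) :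
    cosetEquiv p i = QuotientGroup.mk (toSL (rep p i)⁻¹) := rfl

theorem card_QQ : Nat.card (QQ p) = p + 1 := by
  have : NeZero p := ⟨hp.out.ne_zero⟩
  rw [← Nat.card_congr (cosetEquiv p), Nat.card_eq_fintype_card, Fintype.card_option,
    ZMod.card]

/-! ### trace and norm on explicit representatives -/

variable {F : Type*} [FunLike F ℍ ℂ] {k : ℤ}

omit hp in
theorem quotientFunc_cosetMap [SlashInvariantFormClass F (GG p) k] (f : F)
    (i : Option (ZMod p)) :
    SlashInvariantForm.quotientFunc (ℋ := 𝒮ℒ) f (cosetMap p i) = (f : ℍ → ℂ) ∣[k] rep p i := by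
  unfold cosetMap
  show SlashInvariantForm.quotientFunc f ⟦toSL (rep p i)⁻¹⟧ = _
  rw [SlashInvariantForm.quotientFunc_mk]
  show (f : ℍ → ℂ) ∣[k] (mapGL ℝ (rep p i)⁻¹)⁻¹ = _
  rw [map_inv, inv_inv]
  rfl

/-- **the trace on explicit representatives.** -/
theorem trace_apply [NeZero p] [ModularFormClass F (GG p) k] (f : F) :
    ⇑(ModularForm.trace 𝒮ℒ f) =
      (f : ℍ → ℂ) + ∑ j : ZMod p, (f : ℍ → ℂ) ∣[k] (S * T ^ (j.val : ℤ)) := by
  let _ := Fintype.ofFinite (QQ p)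
  rw [ModularForm.coe_trace]
  show ∑ q : QQ p, SlashInvariantForm.quotientFunc f q = _
  rw [← Equiv.sum_comp (cosetEquiv p), Fintype.sum_option]
  congr 1
  · show SlashInvariantForm.quotientFunc f (cosetMap p none) = _
    rw [quotientFunc_cosetMap, rep_none]
    show (f : ℍ → ℂ) ∣[k] (mapGL ℝ (1 : SL(2, ℤ))) = _
    rw [map_one, SlashAction.slash_one]
  · refine Finset.sum_congr rfl fun j _ => ?_
    show SlashInvariantForm.quotientFunc f (cosetMap p (some j)) = _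
    rw [quotientFunc_cosetMap, rep_some]

/-- **the norm on explicit representatives.** -/
theorem norm_apply [NeZero p] [ModularFormClass F (GG p) k] (f : F) :
    ⇑(ModularForm.norm 𝒮ℒ f) =
      (f : ℍ → ℂ) * ∏ j : ZMod p, (f : ℍ → ℂ) ∣[k] (S * T ^ (j.val : ℤ)) := by
  let _ := Fintype.ofFinite (QQ p)
  rw [ModularForm.coe_norm]
  show ∏ q : QQ p, SlashInvariantForm.quotientFunc f q = _
  rw [← Equiv.prod_comp (cosetEquiv p), Fintype.prod_option]
  congr 1
  · show SlashInvariantForm.quotientFunc f (cosetMap p none) = _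
    rw [quotientFunc_cosetMap, rep_none]
    show (f : ℍ → ℂ) ∣[k] (mapGL ℝ (1 : SL(2, ℤ))) = _
    rw [map_one, SlashAction.slash_one]
  · refine Finset.prod_congr rfl fun j _ => ?_
    show SlashInvariantForm.quotientFunc f (cosetMap p (some j)) = _
    rw [quotientFunc_cosetMap, rep_some]

/-! ### variants: natural powers, sums over `Finset.range p`, arbitrary `Fintype` instance -/

omit hp in
theorem S_mul_T_zpow_val (j : ZMod p) : S * T ^ (j.val : ℤ) = S * T ^ j.val := by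
  rw [zpow_natCast]

omit hp in
/-- sums over `ZMod p` of a function of `j.val` are sums over `Finset.range p`. -/
theorem sum_zmod_eq_sum_range [NeZero p] {M : Type*} [AddCommMonoid M] (Φ : ℕ → M) :
    ∑ j : ZMod p, Φ j.val = ∑ j ∈ Finset.range p, Φ j := by
  obtain ⟨n, rfl⟩ : ∃ n, p = n + 1 := Nat.exists_eq_succ_of_ne_zero (NeZero.ne p)
  exact Fin.sum_univ_eq_sum_range Φ (n + 1)

omit hp in
/-- products over `ZMod p` of a function of `j.val` are products over `Finset.range p`. -/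
theorem prod_zmod_eq_prod_range [NeZero p] {M : Type*} [CommMonoid M] (Φ : ℕ → M) :
    ∏ j : ZMod p, Φ j.val = ∏ j ∈ Finset.range p, Φ j := by
  obtain ⟨n, rfl⟩ : ∃ n, p = n + 1 := Nat.exists_eq_succ_of_ne_zero (NeZero.ne p)
  exact Fin.prod_univ_eq_prod_range Φ (n + 1)

/-- **reindexing a product over the coset space** (any `Fintype` instance on `QQ p`). -/
theorem prod_QQ [NeZero p] [Fintype (QQ p)] {M : Type*} [CommMonoid M] (Φ : QQ p → M) :
    ∏ q : QQ p, Φ q =
      Φ (cosetMap p none) * ∏ j ∈ Finset.range p, Φ (cosetMap p (some (j : ZMod p))) := by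
  rw [← Equiv.prod_comp (cosetEquiv p), Fintype.prod_option]
  congr 1
  rw [← prod_zmod_eq_prod_range p (fun j => Φ (cosetMap p (some (j : ZMod p))))]
  refine Finset.prod_congr rfl fun j _ => ?_
  show Φ (cosetMap p (some j)) = _
  rw [ZMod.natCast_zmod_val]

/-- **reindexing a sum over the coset space** (any `Fintype` instance on `QQ p`). -/
theorem sum_QQ [NeZero p] [Fintype (QQ p)] {M : Type*} [AddCommMonoid M] (Φ : QQ p → M) :
    ∑ q : QQ p, Φ q =
      Φ (cosetMap p none) + ∑ j ∈ Finset.range p, Φ (cosetMap p (some (j : ZMod p))) := by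
  rw [← Equiv.sum_comp (cosetEquiv p), Fintype.sum_option]
  congr 1
  rw [← sum_zmod_eq_sum_range p (fun j => Φ (cosetMap p (some (j : ZMod p))))]
  refine Finset.sum_congr rfl fun j _ => ?_
  show Φ (cosetMap p (some j)) = _
  rw [ZMod.natCast_zmod_val]

omit hp in
theorem quotientFunc_cosetMap_none [SlashInvariantFormClass F (GG p) k] (f : F) :
    SlashInvariantForm.quotientFunc (ℋ := 𝒮ℒ) f (cosetMap p none) = (f : ℍ → ℂ) := by
  rw [quotientFunc_cosetMap, rep_none]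
  show (f : ℍ → ℂ) ∣[k] (mapGL ℝ (1 : SL(2, ℤ))) = _
  rw [map_one, SlashAction.slash_one]

theorem quotientFunc_cosetMap_natCast [SlashInvariantFormClass F (GG p) k] (f : F) {j : ℕ}
    (hj : j < p) :
    SlashInvariantForm.quotientFunc (ℋ := 𝒮ℒ) f (cosetMap p (some (j : ZMod p))) =
      (f : ℍ → ℂ) ∣[k] (S * T ^ j) := by
  rw [quotientFunc_cosetMap, rep_some, ZMod.val_natCast_of_lt hj, zpow_natCast]

/-- the trace, summed over `Finset.range p`, natural powers of `T`. -/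
theorem trace_apply_range [NeZero p] [ModularFormClass F (GG p) k] (f : F) :
    ⇑(ModularForm.trace 𝒮ℒ f) =
      (f : ℍ → ℂ) + ∑ j ∈ Finset.range p, (f : ℍ → ℂ) ∣[k] (S * T ^ j) := by
  rw [trace_apply, ← sum_zmod_eq_sum_range p (fun j => (f : ℍ → ℂ) ∣[k] (S * T ^ j))]
  simp only [zpow_natCast]

/-- the norm, multiplied over `Finset.range p`, natural powers of `T`. -/
theorem norm_apply_range [NeZero p] [ModularFormClass F (GG p) k] (f : F) :
    ⇑(ModularForm.norm 𝒮ℒ f) =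
      (f : ℍ → ℂ) * ∏ j ∈ Finset.range p, (f : ℍ → ℂ) ∣[k] (S * T ^ j) := by
  rw [norm_apply, ← prod_zmod_eq_prod_range p (fun j => (f : ℍ → ℂ) ∣[k] (S * T ^ j))]
  simp only [zpow_natCast]

/-- **the norm as a level-one form of natural weight** `K = k (p + 1)`. -/
def normP [NeZero p] [ModularFormClass F (GG p) k] (f : F) (K : ℕ)
    (hK : k * ((p : ℤ) + 1) = K) : ModularForm 𝒮ℒ (K : ℤ) :=
  ModularForm.mcast (by rw [card_QQ p, ← hK]; push_cast; ring) (ModularForm.norm 𝒮ℒ f)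

theorem coe_normP [NeZero p] [ModularFormClass F (GG p) k] (f : F) (K : ℕ)
    (hK : k * ((p : ℤ) + 1) = K) :
    ⇑(normP p f K hK) =
      (f : ℍ → ℂ) * ∏ j ∈ Finset.range p, (f : ℍ → ℂ) ∣[k] (S * T ^ j) := by
  rw [← norm_apply_range]
  rfl

theorem coe_normP_eq_norm [NeZero p] [ModularFormClass F (GG p) k] (f : F) (K : ℕ)
    (hK : k * ((p : ℤ) + 1) = K) :
    ⇑(normP p f K hK) = ⇑(ModularForm.norm 𝒮ℒ f) := rfl

/-! ### aliases in the literal names of the U1 contract (helper17) -/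

/-- every `γ` lies in exactly one right coset `Γ₀(p) · rep i`. -/
theorem existsUnique_rep (γ : SL(2, ℤ)) : ∃! i, γ * (rep p i)⁻¹ ∈ Gamma0 p := by
  obtain ⟨i, hi⟩ := exists_rep p γ
  have key : ∀ i, γ * (rep p i)⁻¹ ∈ Gamma0 p ↔ rep p i * γ⁻¹ ∈ Gamma0 p := by
    intro i
    rw [← (Gamma0 p).inv_mem_iff, _root_.mul_inv_rev, inv_inv]
  refine ⟨i, (key i).2 hi, fun i' hi' => ?_⟩
  refine rep_injective p ?_
  have h1 : rep p i' * γ⁻¹ ∈ Gamma0 p := (key i').1 hi'
  have h2 : γ * (rep p i)⁻¹ ∈ Gamma0 p := (key i).2 hi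
  have := (Gamma0 p).mul_mem h1 h2
  rwa [mul_assoc, inv_mul_cancel_left] at this

omit hp in
theorem quotientFunc_cosetEquiv [Fact p.Prime] [SlashInvariantFormClass F (GG p) k] (f : F)
    (i : Option (ZMod p)) :
    SlashInvariantForm.quotientFunc (ℋ := 𝒮ℒ) f (cosetEquiv p i) = (f : ℍ → ℂ) ∣[k] rep p i :=
  quotientFunc_cosetMap p f i

theorem card_quot : Nat.card (QQ p) = p + 1 := card_QQ p

theorem coe_trace [NeZero p] [ModularFormClass F (GG p) k] (f : F) :
    ⇑(ModularForm.trace 𝒮ℒ f) =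
      (f : ℍ → ℂ) + ∑ j : ZMod p, (f : ℍ → ℂ) ∣[k] (S * T ^ j.val) := by
  rw [trace_apply]
  simp only [zpow_natCast]

theorem coe_norm [NeZero p] [ModularFormClass F (GG p) k] (f : F) :
    ⇑(ModularForm.norm 𝒮ℒ f) =
      (f : ℍ → ℂ) * ∏ j : ZMod p, (f : ℍ → ℂ) ∣[k] (S * T ^ j.val) := by
  rw [norm_apply]
  simp only [zpow_natCast]

end Fermat.Agent.S16.CosetP1
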