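/-
Program M (S16), brick U1b (helper17): the Fricke involution at prime level.
For `F : ModularForm (Gamma0 N) 2`, `N` prime:  `F ∣ W = - U_N F`,  `U_N (U_N F) = F`, and the conjugates
`F ∣ S T^j = -(1/N) (U_N F)((z + j)/N)`.  Proof: the trace of a weight-2 form to level one vanishes.
-/
import Mathlib
import Fermat.Prelude.Def_ModularForm_HeckeOperatorForms
import Fermat.Agent.S16.CosetP1

set_option autoImplicit false
set_option linter.unusedSectionVars false

namespace Fermat.Agent.S16.Fricke17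

open UpperHalfPlane ModularForm CongruenceSubgroup Matrix.SpecialLinearGroup
open scoped MatrixGroups ModularForm Pointwise
open ModularGroup (S T)
open Fermat.Agent.S16.CosetP1

noncomputable section

variable (N : ℕ) [NeZero N]

/-- the Fricke matrix `(0, -1/N; 1, 0)` (determinant `1/N`): `z ↦ -1/(N z)`. -/
def fricke : GL (Fin 2) ℝ :=
  Matrix.GeneralLinearGroup.mkOfDetNeZero !![0, -(N : ℝ)⁻¹; 1, 0] (by
    rw [Matrix.det_fin_two_of]
    simp [NeZero.ne N])

theorem val_fricke :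
    ((fricke N : GL (Fin 2) ℝ) : Matrix (Fin 2) (Fin 2) ℝ) = !![0, -(N : ℝ)⁻¹; 1, 0] := rfl

theorem det_fricke : ((fricke N).det : ℝ) = (N : ℝ)⁻¹ := by
  rw [Matrix.GeneralLinearGroup.val_det_apply, val_fricke, Matrix.det_fin_two_of]
  simp

/-- natural-power form of `CosetP1.coe_S_mul_T_zpow`. -/
theorem coe_S_mul_T_pow (j : ℕ) :
    ((S * T ^ j : SL(2, ℤ)) : Matrix (Fin 2) (Fin 2) ℤ) = !![0, -1; 1, (j : ℤ)] := by
  rw [← zpow_natCast, coe_S_mul_T_zpow]

/-- `S T^j = W · (1, j; 0, N)` in `GL(2,ℝ)`. -/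
theorem mapGL_S_mul_T_pow (j : ℕ) :
    (mapGL ℝ (S * T ^ j) : GL (Fin 2) ℝ) = fricke N * heckeMatrix N j := by
  apply Matrix.GeneralLinearGroup.ext
  intro a b
  rw [mapGL_coe_matrix, Matrix.GeneralLinearGroup.coe_mul, val_fricke,
    val_heckeMatrix (NeZero.ne N), Matrix.SpecialLinearGroup.map_apply_coe, coe_S_mul_T_pow]
  have hN : (N : ℝ) ≠ 0 := Nat.cast_ne_zero.mpr (NeZero.ne N)
  fin_cases a <;> fin_cases b <;>
    simp [Matrix.mul_apply, Fin.sum_univ_two, hN]

variable {N} {k : ℤ}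

/-- the conjugates of a function under `S T^j` through the Fricke matrix. -/
theorem slash_S_mul_T_pow (f : ℍ → ℂ) (j : ℕ) :
    f ∣[k] (S * T ^ j) = (f ∣[k] fricke N) ∣[k] heckeMatrix N j := by
  rw [SL_slash, ← SlashAction.slash_mul]
  congr 1
  exact mapGL_S_mul_T_pow N j

theorem sum_slash_S_mul_T_pow (f : ℍ → ℂ) :
    ∑ j ∈ Finset.range N, f ∣[k] (S * T ^ j) = heckeU k N (f ∣[k] fricke N) := by
  rw [heckeU_def]
  exact Finset.sum_congr rfl (fun j _ => slash_S_mul_T_pow f j)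

/-! ### the Fricke matrix normalises `Γ0(N)` -/

variable (N) in
/-- conjugation by the Fricke matrix on `Γ0(N)`: `(a, b; c, d) ↦ (d, -c/N; -N b, a)`. -/
def conjFricke (γ : SL(2, ℤ)) (h : γ ∈ Gamma0 N) : SL(2, ℤ) :=
  ⟨!![γ 1 1, -(γ 1 0 / (N : ℤ)); -((N : ℤ) * γ 0 1), γ 0 0], by
    have hdvd : (N : ℤ) ∣ γ 1 0 := by
      rw [Gamma0_mem] at h
      exact (ZMod.intCast_zmod_eq_zero_iff_dvd _ _).mp h
    obtain ⟨c, hc⟩ := hdvd
    have hN : (N : ℤ) ≠ 0 := Int.natCast_ne_zero.mpr (NeZero.ne N)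
    have hdet := Matrix.SpecialLinearGroup.det_coe γ
    rw [Matrix.det_fin_two] at hdet
    rw [Matrix.det_fin_two_of, hc, Int.mul_ediv_cancel_left _ hN]
    rw [hc] at hdet
    linear_combination hdet⟩

theorem conjFricke_mem (γ : SL(2, ℤ)) (h : γ ∈ Gamma0 N) : conjFricke N γ h ∈ Gamma0 N := by
  rw [Gamma0_mem]
  show (((-((N : ℤ) * γ 0 1) : ℤ)) : ZMod N) = 0
  push_cast
  simp

theorem fricke_mul_mapGL (γ : SL(2, ℤ)) (h : γ ∈ Gamma0 N) :
    fricke N * mapGL ℝ γ = mapGL ℝ (conjFricke N γ h) * fricke N := by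
  have hdvd : (N : ℤ) ∣ γ 1 0 := by
    rw [Gamma0_mem] at h
    exact (ZMod.intCast_zmod_eq_zero_iff_dvd _ _).mp h
  obtain ⟨c, hc⟩ := hdvd
  have hN : (N : ℤ) ≠ 0 := Int.natCast_ne_zero.mpr (NeZero.ne N)
  have hNr : (N : ℝ) ≠ 0 := Nat.cast_ne_zero.mpr (NeZero.ne N)
  have hdiv : γ 1 0 / (N : ℤ) = c := by rw [hc, Int.mul_ediv_cancel_left _ hN]
  apply Matrix.GeneralLinearGroup.ext
  intro a b
  rw [Matrix.GeneralLinearGroup.coe_mul, Matrix.GeneralLinearGroup.coe_mul, mapGL_coe_matrix,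
    mapGL_coe_matrix, val_fricke, Matrix.SpecialLinearGroup.map_apply_coe,
    Matrix.SpecialLinearGroup.map_apply_coe]
  have h10 : ((γ 1 0 : ℤ) : ℝ) = (N : ℝ) * (c : ℝ) := by rw [hc]; push_cast; ring
  fin_cases a <;> fin_cases b <;>
    simp [conjFricke, Matrix.mul_apply, Fin.sum_univ_two, hdiv, h10, hNr] <;> field_simp

/-- the image of `Γ0(N)` in `GL(2,ℝ)` is contained in its conjugate by the Fricke matrix. -/
theorem GG_le_conj : GG N ≤ ConjAct.toConjAct (fricke N)⁻¹ • GG N := by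
  rintro g ⟨γ, hγ, rfl⟩
  rw [map_inv, Subgroup.mem_inv_pointwise_smul_iff, ConjAct.toConjAct_smul]
  refine ⟨conjFricke N γ hγ, conjFricke_mem γ hγ, ?_⟩
  rw [fricke_mul_mapGL γ hγ, mul_inv_cancel_right]

/-- the Fricke involute of a modular form on `Γ0(N)`, as a modular form on `Γ0(N)`. -/
def frickeForm (F : ModularForm (Gamma0 N) k) : ModularForm (Gamma0 N) k where
  toFun := ⇑F ∣[k] fricke N
  slash_action_eq' γ hγ :=
    (ModularForm.translate F (fricke N)).slash_action_eq' γ (GG_le_conj hγ)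
  holo' := (ModularForm.translate F (fricke N)).holo'
  bdd_at_cusps' hc := (ModularForm.translate F (fricke N)).bdd_at_cusps' (hc.mono GG_le_conj)

@[simp] theorem coe_frickeForm (F : ModularForm (Gamma0 N) k) :
    ⇑(frickeForm F) = ⇑F ∣[k] fricke N := rfl

/-! ### weight two: the trace vanishes -/

theorem smul_eq_of_scalar (z : ℍ) : (fricke N * fricke N) • z = z := by
  have hN : (N : ℝ) ≠ 0 := Nat.cast_ne_zero.mpr (NeZero.ne N)
  have hdet : 0 < ((fricke N * fricke N).det : ℝ) := by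
    rw [map_mul, Units.val_mul, det_fricke]
    positivity
  apply UpperHalfPlane.ext
  rw [UpperHalfPlane.coe_smul_of_det_pos hdet]
  simp only [UpperHalfPlane.num, UpperHalfPlane.denom, Matrix.GeneralLinearGroup.coe_mul, val_fricke]
  simp [Matrix.mul_apply, Fin.sum_univ_two]
  have hNc : (N : ℂ) ≠ 0 := Nat.cast_ne_zero.mpr (NeZero.ne N)
  field_simp

/-- in weight `2` the Fricke operator is an involution (on all functions). -/
theorem slash_fricke_fricke (f : ℍ → ℂ) : (f ∣[(2 : ℤ)] fricke N) ∣[(2 : ℤ)] fricke N = f := by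
  have hN : (N : ℝ) ≠ 0 := Nat.cast_ne_zero.mpr (NeZero.ne N)
  have hNc : (N : ℂ) ≠ 0 := Nat.cast_ne_zero.mpr (NeZero.ne N)
  have hdet : 0 < ((fricke N * fricke N).det : ℝ) := by
    rw [map_mul, Units.val_mul, det_fricke]
    positivity
  rw [← SlashAction.slash_mul]
  ext z
  rw [ModularForm.slash_apply, smul_eq_of_scalar, UpperHalfPlane.σ, if_pos hdet]
  have hd : ((fricke N * fricke N).det : ℝ) = (N : ℝ)⁻¹ * (N : ℝ)⁻¹ := by
    rw [map_mul, Units.val_mul, det_fricke]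
  have hden : UpperHalfPlane.denom (fricke N * fricke N) z = -(N : ℂ)⁻¹ := by
    simp only [UpperHalfPlane.denom, Matrix.GeneralLinearGroup.coe_mul, val_fricke]
    simp [Matrix.mul_apply, Fin.sum_univ_two]
  rw [hd, hden]
  simp only [ContinuousAlgEquiv.refl_apply]
  have : (|(N : ℝ)⁻¹ * (N : ℝ)⁻¹| : ℝ) = (N : ℝ)⁻¹ * (N : ℝ)⁻¹ := abs_of_nonneg (by positivity)
  rw [this]
  push_cast
  field_simp

variable [Fact N.Prime]

/-- a weight-two form of prime level has trace zero. -/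
theorem trace_eq_zero (F : ModularForm (Gamma0 N) 2) : ModularForm.trace 𝒮ℒ F = 0 :=
  rank_zero_iff_forall_zero.mp levelOne_weight_two_rank_zero _

/-- `F + U_N (F ∣ W) = 0` for a weight-two form of prime level. -/
theorem add_heckeU_slash_fricke (F : ModularForm (Gamma0 N) 2) :
    ⇑F + heckeU 2 N (⇑F ∣[(2 : ℤ)] fricke N) = 0 := by
  have h := congrArg (fun G : ModularForm 𝒮ℒ 2 => (⇑G : ℍ → ℂ)) (trace_eq_zero F)
  simp only [FunLike.coe_zero] at h
  rw [trace_apply_range, sum_slash_S_mul_T_pow] at h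
  exact h

/-- **(W)**: `F ∣ W = - U_N F` for a weight-two form of prime level `N`. -/
theorem slash_fricke (F : ModularForm (Gamma0 N) 2) :
    ⇑F ∣[(2 : ℤ)] fricke N = -heckeU 2 N ⇑F := by
  have h := add_heckeU_slash_fricke (frickeForm F)
  rw [coe_frickeForm, slash_fricke_fricke] at h
  exact eq_neg_of_add_eq_zero_left h

theorem heckeU_neg (f : ℍ → ℂ) : heckeU 2 N (-f) = -heckeU 2 N f := by
  have := heckeU_smul (2 : ℤ) N (-1 : ℂ) f
  simpa using this

/-- **`U_N² = 1`** on weight-two forms of prime level `N`. -/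
theorem heckeU_heckeU (F : ModularForm (Gamma0 N) 2) : heckeU 2 N (heckeU 2 N ⇑F) = ⇑F := by
  have h := add_heckeU_slash_fricke F
  rw [slash_fricke, heckeU_neg (N := N)] at h
  exact (eq_of_sub_eq_zero (by rw [← h]; abel)).symm

/-- **(C)**: the conjugates `F ∣ S T^j` of a weight-two form of prime level `N`:
`(F ∣ S T^j)(z) = -(1/N) (U_N F)((z + j)/N)`. -/
theorem slash_S_mul_T_pow_apply (F : ModularForm (Gamma0 N) 2) (j : ℕ) (z : ℍ) :
    (⇑F ∣[(2 : ℤ)] (S * T ^ j)) z = -(N : ℂ)⁻¹ * heckeU 2 N ⇑F (heckeMatrix N j • z) := by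
  rw [slash_S_mul_T_pow (N := N), slash_heckeMatrix_apply 2 (NeZero.ne N), slash_fricke]
  simp

/-- bundled form of `U_N² = 1`. -/
theorem heckeULin_heckeULin (F : ModularForm (Gamma0 N) 2) :
    ModularForm.heckeULin 2 (dvd_refl N) (ModularForm.heckeULin 2 (dvd_refl N) F) = F :=
  DFunLike.coe_injective (heckeU_heckeU F)

/-- bundled form of (W). -/
theorem frickeForm_eq (F : ModularForm (Gamma0 N) 2) :
    frickeForm F = -ModularForm.heckeULin 2 (dvd_refl N) F :=
  DFunLike.coe_injective (slash_fricke F)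

/-- the trace to level one of a form of prime level, any weight, through `U_N` and the Fricke
matrix: `Tr F = F + U_N (F ∣ W)`. -/
theorem coe_trace_fricke {k : ℤ} (F : ModularForm (Gamma0 N) k) :
    ⇑(ModularForm.trace 𝒮ℒ F) = ⇑F + heckeU k N (⇑F ∣[k] fricke N) := by
  rw [trace_apply_range, sum_slash_S_mul_T_pow]

end

end Fermat.Agent.S16.Fricke17
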