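/-
Program M (S16, Mazur), brick U3 (explicit conjugate series, `IsQExp` language) / helper11.

For `F ∈ M_k(Γ₀(N))`:
* `isQExp_Gamma0`  : `F` has the `q_1`-expansion `qExpansion 1 F`;
* `isQExp_comp_heckeMatrix` : if `f = ∑ a_n q^n` then `z ↦ f((z + j)/N) = ∑ a_n ζ_N^{jn} q_N^n`;
* `isQExp_heckeU`  : `U_N F = ∑ a_{N n} q^n`;
* `isQExp_conj`    : (weight 2, `N` prime) `F ∣ S T^j = -(1/N) ∑ a_{N n} ζ_N^{jn} q_N^n`.
-/
import Mathlib
import Fermat.Prelude.Thm_CongruenceSubgroup_one_mem_strictPeriods_Gamma0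
import Fermat.Prelude.Thm_ModularFormClass_qCoeff_heckeU
import Fermat.Agent.X0.QExpRing
import Fermat.Agent.S16.Formal14
import Fermat.Agent.S16.Fricke17

set_option autoImplicit false

open UpperHalfPlane ModularForm CongruenceSubgroup PowerSeries
open scoped MatrixGroups Manifold
open ModularGroup (S T)

noncomputable section

namespace Fermat.Agent.S16.ConjQExp11

open Fermat.Agent.X0 Fermat.Agent.S16.Formal14

/-- the primitive `N`-th root of unity `exp(2πi/N)`. -/
def zetaN (N : ℕ) : ℂ := Complex.exp (2 * Real.pi * Complex.I / N)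

theorem isPrimitiveRoot_zetaN {N : ℕ} (hN : N ≠ 0) : IsPrimitiveRoot (zetaN N) N :=
  Complex.isPrimitiveRoot_exp N hN

/-- The `q`-expansion of a form on `Γ₀(N)` as an `IsQExp`. -/
theorem isQExp_Gamma0 {N : ℕ} {k : ℤ} (F : ModularForm (Gamma0 N) k) :
    IsQExp 1 (F : ℍ → ℂ) 0 (qExpansion 1 F) := by
  intro z
  have : Fact (IsCusp OnePoint.infty
      (Subgroup.map (Matrix.SpecialLinearGroup.mapGL ℝ) (Gamma0 N))) :=
    ⟨Subgroup.isCusp_of_mem_strictPeriods one_pos
      (CongruenceSubgroup.one_mem_strictPeriods_Gamma0 N)⟩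
  have := ModularForm.hasSum_qExpansion (f := F) one_pos
    (CongruenceSubgroup.one_mem_strictPeriods_Gamma0 N) z
  simpa [qh] using this

/-- `q_1((z + j)/N) = ζ_N^j q_N(z)`. -/
theorem qh_heckeMatrix_smul {N : ℕ} (hN : N ≠ 0) (j : ℕ) (z : ℍ) :
    qh 1 (heckeMatrix N j • z) = zetaN N ^ j * qh N z := by
  unfold qh Function.Periodic.qParam zetaN
  rw [coe_heckeMatrix_smul hN, ← Complex.exp_nat_mul, ← Complex.exp_add]
  congr 1
  have : (N : ℂ) ≠ 0 := by exact_mod_cast hN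
  push_cast
  field_simp
  ring

/-- substitution `z ↦ (z + j)/N` in a `q`-expansion. -/
theorem isQExp_comp_heckeMatrix {N : ℕ} (hN : N ≠ 0) {f : ℍ → ℂ} {P : ℂ⟦X⟧}
    (h : IsQExp 1 f 0 P) (j : ℕ) :
    IsQExp N (fun z => f (heckeMatrix N j • z)) 0 (rescale (zetaN N ^ j) P) := by
  intro z
  have h1 := h (heckeMatrix N j • z)
  rw [qh_heckeMatrix_smul hN] at h1
  simp only [pow_zero, mul_one] at h1 ⊢
  convert h1 using 2 with n
  rw [coeff_rescale, mul_pow]
  ring

/-- the `q`-expansion of `U_N F`. -/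
theorem isQExp_heckeU {N : ℕ} [NeZero N] {k : ℤ} (F : ModularForm (Gamma0 N) k) :
    IsQExp 1 (heckeU k N ⇑F) 0 (PowerSeries.mk fun n => (qExpansion 1 F).coeff (N * n)) := by
  have h := isQExp_Gamma0 (ModularForm.heckeULin k (dvd_refl N) F)
  rw [ModularForm.coe_heckeULin_apply] at h
  convert h using 1
  ext n
  rw [coeff_mk]
  have := ModularFormClass.qCoeff_heckeU (k := k) F
    (CongruenceSubgroup.one_mem_strictPeriods_Gamma0 N) (NeZero.ne N) n
  rw [ModularForm.coeffHeckeU_apply] at this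
  unfold ModularFormClass.qCoeff at this
  rw [this, mul_comm]

/-- **(C) as `q`-series**: the conjugates `F ∣ S T^j` of a weight-two form of prime level. -/
theorem isQExp_conj {N : ℕ} [NeZero N] [Fact N.Prime] (F : ModularForm (Gamma0 N) 2) (j : ℕ) :
    IsQExp N (⇑F ∣[(2 : ℤ)] (S * T ^ j)) 0
      (C (-((N : ℂ))⁻¹) *
        rescale (zetaN N ^ j) (PowerSeries.mk fun n => (qExpansion 1 F).coeff (N * n))) := by
  have h := (isQExp_comp_heckeMatrix (NeZero.ne N) (isQExp_heckeU F) j).smul (-((N : ℂ))⁻¹)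
  rw [PowerSeries.smul_eq_C_mul] at h
  convert h using 1
  funext z
  rw [Fricke17.slash_S_mul_T_pow_apply F j z]
  rfl

end Fermat.Agent.S16.ConjQExp11
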