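/-
Program M (S16, Mazur), brick U3-core / helper11: the NORM of a finite family of holomorphic
functions on `ℍ` which is permuted (with automorphy factor of weight `k`) by `SL(2,ℤ)` is a
level-one modular form of weight `k * card`.

Generic in the index type: it serves `SL(2,ℤ) ⧸ Γ₀(p)` as well as the double family
`(SL(2,ℤ) ⧸ Γ₀(p)) × (SL(2,ℤ) ⧸ Γ₀(3))`.
-/
import Mathlib
import Fermat.Agent.X0.LevelOneFunctions
import Fermat.Agent.X0.HolOrder

set_option autoImplicit false

open UpperHalfPlane ModularForm CongruenceSubgroup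
open scoped MatrixGroups Manifold

noncomputable section

namespace Fermat.Agent.S16.NormCore11

open Fermat.Agent.X0

/-- Slash of a finite product by an element of `SL(2,ℤ)`. -/
theorem prod_slash_SL {ι : Type*} (s : Finset ι) (k : ℤ) (γ : SL(2, ℤ)) (f : ι → ℍ → ℂ) :
    (∏ i ∈ s, f i) ∣[k * s.card] γ = ∏ i ∈ s, f i ∣[k] γ := by
  classical
  induction s using Finset.induction_on with
  | empty =>
    ext z
    simp [SL_slash_apply]
  | insert a s ha ih =>
    rw [Finset.prod_insert ha, Finset.prod_insert ha, Finset.card_insert_of_notMem ha]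
    have : k * ((s.card + 1 : ℕ) : ℤ) = k + k * s.card := by push_cast; ring
    rw [this, mul_slash_SL2, ih]

theorem prod_fun_eq {ι : Type*} (s : Finset ι) (g : ι → ℍ → ℂ) :
    (∏ x ∈ s, g x) = fun z => ∏ x ∈ s, g x z := by
  funext z; rw [Finset.prod_apply]

theorem isBoundedAtImInfty_prod {ι : Type*} (s : Finset ι) (g : ι → ℍ → ℂ)
    (hbdd : ∀ x ∈ s, IsBoundedAtImInfty (g x)) : IsBoundedAtImInfty (∏ x ∈ s, g x) := by
  classical
  induction s using Finset.induction_on with
  | empty =>
    rw [Finset.prod_empty]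
    exact Filter.const_boundedAtFilter atImInfty (1 : ℂ)
  | insert a s ha ih =>
    rw [Finset.prod_insert ha]
    exact (hbdd a (Finset.mem_insert_self a s)).mul
      (ih fun x hx => hbdd x (Finset.mem_insert_of_mem hx))

/-- **The norm form.**  A finite family `g x` of holomorphic functions bounded at `i∞`, which is
permuted by the weight-`k` slash action of `SL(2,ℤ)`, has as product a level-one modular form of
weight `k * card`. -/
def normForm {ι : Type} [Fintype ι] (k : ℤ) (g : ι → ℍ → ℂ)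
    (hhol : ∀ x, MDifferentiable 𝓘(ℂ) 𝓘(ℂ) (g x))
    (hperm : ∀ δ : SL(2, ℤ), ∃ σ : Equiv.Perm ι, ∀ x, g x ∣[k] δ = g (σ x))
    (hbdd : ∀ x, IsBoundedAtImInfty (g x)) :
    ModularForm 𝒮ℒ (k * Fintype.card ι) :=
  lof_mk (k * Fintype.card ι) (∏ x, g x)
    (MDifferentiable.prod fun x _ => hhol x)
    (by
      intro δ
      obtain ⟨σ, hσ⟩ := hperm δ
      have h1 := prod_slash_SL (Finset.univ : Finset ι) k δ g
      rw [Finset.card_univ] at h1
      rw [h1, ← Equiv.prod_comp σ g]
      exact Finset.prod_congr rfl fun x _ => hσ x)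
    (isBoundedAtImInfty_prod _ g fun x _ => hbdd x)

theorem normForm_apply {ι : Type} [Fintype ι] (k : ℤ) (g : ι → ℍ → ℂ)
    (hhol : ∀ x, MDifferentiable 𝓘(ℂ) 𝓘(ℂ) (g x))
    (hperm : ∀ δ : SL(2, ℤ), ∃ σ : Equiv.Perm ι, ∀ x, g x ∣[k] δ = g (σ x))
    (hbdd : ∀ x, IsBoundedAtImInfty (g x)) (z : ℍ) :
    normForm k g hhol hperm hbdd z = ∏ x, g x z := by
  rw [normForm, lof_mk_apply, Finset.prod_apply]

end Fermat.Agent.S16.NormCore11
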