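/-
Program M (S16, Mazur), brick U3 (double family) / helper11.

GENERIC double norm.  Two finite families `a x` (`x : ι₁`), `b y` (`y : ι₂`) of holomorphic functions
on `ℍ`, each permuted by the weight-`k` slash action of `SL(2,ℤ)`, each member with a `q_N`-expansion
`A x`, `B y` (power series in `q_N = exp(2πi z / N)`).  Then

  `ν z = ∏ x, ∏ y, c * (a x z - b y z)`

is a level-one modular form of weight `k * (card ι₁ * card ι₂)`, and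
`expand N (qExpansion 1 ν) = ∏ x, ∏ y, C c * (A x - B y)`.

(Application: `ι₁ = SL(2,ℤ) ⧸ Γ₀(p)`, `ι₂ = SL(2,ℤ) ⧸ Γ₀(3)`, `a` = conjugates of `G`, `b` = conjugates
of `c G_3`, `N = 3 p`: the double family of `S16_UB_ELEM14.md` (N_2a) — no `Γ₀(3p)`, no CRT on cosets.)
-/
import Mathlib
import Fermat.Agent.X0.QExpRing
import Fermat.Agent.S16.NormCore11

set_option autoImplicit false

open UpperHalfPlane ModularForm CongruenceSubgroup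
open scoped MatrixGroups Manifold

noncomputable section

namespace Fermat.Agent.S16.DNorm11

open Fermat.Agent.X0 Fermat.Agent.S16.NormCore11

/-- A function with a `q_N`-expansion without pole is bounded at `i∞`. -/
theorem isBoundedAtImInfty_of_isQExp {N : ℕ} [NeZero N] {f : ℍ → ℂ} {P : PowerSeries ℂ}
    (h : IsQExp N f 0 P) : IsBoundedAtImInfty f := by
  have hN : (0 : ℝ) < (N : ℝ) := by exact_mod_cast Nat.pos_of_ne_zero (NeZero.ne N)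
  refine isBoundedAtImInfty_of_hasSum_qExpansion (c := fun n => PowerSeries.coeff n P) hN ?_
  intro τ
  have := h τ
  simpa [qh, smul_eq_mul] using this

/-- The `q`-expansion of a level-one form as an `IsQExp`. -/
theorem isQExp_of_modularForm {K : ℤ} (ν : ModularForm 𝒮ℒ K) :
    IsQExp 1 (ν : ℍ → ℂ) 0 (qExpansion 1 ν) := by
  intro z
  have := ModularForm.hasSum_qExpansion (f := ν) one_pos one_mem_strictPeriods_SL z
  simpa [qh] using this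

/-- Finite products of `q_N`-expansions. -/
theorem isQExp_prod {N : ℕ} [NeZero N] {ι : Type*} (s : Finset ι) (g : ι → ℍ → ℂ)
    (P : ι → PowerSeries ℂ) (h : ∀ x ∈ s, IsQExp N (g x) 0 (P x)) :
    IsQExp N (∏ x ∈ s, g x) 0 (∏ x ∈ s, P x) := by
  classical
  induction s using Finset.induction_on with
  | empty =>
    rw [Finset.prod_empty, Finset.prod_empty]
    have := isQExp_const N 1
    have e : (1 : ℍ → ℂ) = fun _ => (1 : ℂ) := rfl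
    rw [e]
    simpa using this
  | insert a s ha ih =>
    rw [Finset.prod_insert ha, Finset.prod_insert ha]
    have h1 := h a (Finset.mem_insert_self a s)
    have h2 := ih fun x hx => h x (Finset.mem_insert_of_mem hx)
    simpa using h1.mul h2

/-- **The double norm.** -/
theorem dnorm_exists {ι₁ ι₂ : Type} [Fintype ι₁] [Fintype ι₂] (k : ℤ) (c : ℂ)
    (a : ι₁ → ℍ → ℂ) (b : ι₂ → ℍ → ℂ)
    (ha : ∀ x, a x ∈ HolH) (hb : ∀ y, b y ∈ HolH)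
    (hpa : ∀ δ : SL(2, ℤ), ∃ σ : Equiv.Perm ι₁, ∀ x, a x ∣[k] δ = a (σ x))
    (hpb : ∀ δ : SL(2, ℤ), ∃ σ : Equiv.Perm ι₂, ∀ y, b y ∣[k] δ = b (σ y))
    (N : ℕ) [NeZero N] (A : ι₁ → PowerSeries ℂ) (B : ι₂ → PowerSeries ℂ)
    (hA : ∀ x, IsQExp N (a x) 0 (A x)) (hB : ∀ y, IsQExp N (b y) 0 (B y)) :
    ∃ ν : ModularForm 𝒮ℒ (k * Fintype.card (ι₁ × ι₂)),
      (∀ z, ν z = ∏ x, ∏ y, c * (a x z - b y z)) ∧
      PowerSeries.expand N (NeZero.ne N) (qExpansion 1 ν) =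
        ∏ x, ∏ y, PowerSeries.C c * (A x - B y) := by
  classical
  -- the family indexed by pairs
  let g : ι₁ × ι₂ → ℍ → ℂ := fun xy => c • (a xy.1 - b xy.2)
  let P : ι₁ × ι₂ → PowerSeries ℂ := fun xy => PowerSeries.C c * (A xy.1 - B xy.2)
  have hgP : ∀ xy, IsQExp N (g xy) 0 (P xy) := by
    intro xy
    have h1 : IsQExp N (a xy.1 - b xy.2) 0 (A xy.1 - B xy.2) := by
      have := (hA xy.1).add (hB xy.2).neg
      simpa [sub_eq_add_neg] using this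
    have h2 := h1.smul c
    rw [PowerSeries.smul_eq_C_mul] at h2
    exact h2
  have hhol : ∀ xy, MDifferentiable 𝓘(ℂ) 𝓘(ℂ) (g xy) := by
    intro xy
    have : g xy ∈ HolH := HolH.smul_mem (HolH.sub_mem (ha xy.1) (hb xy.2)) c
    exact mem_HolH.mp this
  have hperm : ∀ δ : SL(2, ℤ), ∃ σ : Equiv.Perm (ι₁ × ι₂), ∀ xy, g xy ∣[k] δ = g (σ xy) := by
    intro δ
    obtain ⟨σ₁, h₁⟩ := hpa δ
    obtain ⟨σ₂, h₂⟩ := hpb δ
    refine ⟨Equiv.prodCongr σ₁ σ₂, fun xy => ?_⟩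
    show (c • (a xy.1 - b xy.2)) ∣[k] δ = c • (a (σ₁ xy.1) - b (σ₂ xy.2))
    rw [ModularForm.SL_smul_slash, sub_eq_add_neg, SlashAction.add_slash, SlashAction.neg_slash,
      h₁, h₂, ← sub_eq_add_neg]
  have hbdd : ∀ xy, IsBoundedAtImInfty (g xy) := fun xy => isBoundedAtImInfty_of_isQExp (hgP xy)
  let ν := normForm k g hhol hperm hbdd
  refine ⟨ν, fun z => ?_, ?_⟩
  · rw [normForm_apply, Fintype.prod_prod_type]
    rfl
  · -- both sides are the `q_N`-expansion of `ν`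
    have h1 : IsQExp N (ν : ℍ → ℂ) 0 (PowerSeries.expand N (NeZero.ne N) (qExpansion 1 ν)) := by
      have := (isQExp_of_modularForm ν).level_mul N
      simpa using this
    have h2 : IsQExp N (ν : ℍ → ℂ) 0 (∏ xy, P xy) := by
      have := isQExp_prod (N := N) Finset.univ g P fun xy _ => hgP xy
      have e : (ν : ℍ → ℂ) = ∏ xy, g xy := by
        funext z
        rw [normForm_apply, Finset.prod_apply]
      rw [e]
      exact this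
    rw [h1.coeff_unique h2, Fintype.prod_prod_type]

/-! ### The double norm in Mathlib's `quotientFunc` language -/

section QuotientFunc

open SlashInvariantForm

variable {𝒢₁ 𝒢₂ : Subgroup (GL (Fin 2) ℝ)} {k : ℤ}

/-- the translates of a modular form are holomorphic. -/
theorem quotientFunc_mem_HolH {𝒢 : Subgroup (GL (Fin 2) ℝ)} (h : ModularForm 𝒢 k)
    (q : 𝒮ℒ ⧸ 𝒢.subgroupOf 𝒮ℒ) : quotientFunc h q ∈ HolH := by
  induction q using Quotient.inductionOn with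
  | h r =>
    rw [quotientFunc_mk]
    exact mem_HolH.mpr (ModularForm.translate h r.val⁻¹).holo'

/-- `SL(2,ℤ)` permutes the translates. -/
theorem quotientFunc_perm {𝒢 : Subgroup (GL (Fin 2) ℝ)} (h : ModularForm 𝒢 k) (δ : SL(2, ℤ)) :
    ∃ σ : Equiv.Perm (𝒮ℒ ⧸ 𝒢.subgroupOf 𝒮ℒ), ∀ q, quotientFunc h q ∣[k] δ = quotientFunc h (σ q) := by
  have hδ : (Matrix.SpecialLinearGroup.mapGL ℝ δ : GL (Fin 2) ℝ) ∈ 𝒮ℒ := ⟨δ, rfl⟩
  refine ⟨MulAction.toPerm ((⟨_, hδ⟩ : 𝒮ℒ)⁻¹), fun q => ?_⟩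
  rw [ModularForm.SL_slash]
  exact quotientFunc_smul h hδ q

/-- **The double norm of two modular forms**, with its `q_N`-expansion. -/
theorem dnorm_quotientFunc [𝒢₁.IsFiniteRelIndex 𝒮ℒ] [𝒢₂.IsFiniteRelIndex 𝒮ℒ]
    (h₁ : ModularForm 𝒢₁ k) (h₂ : ModularForm 𝒢₂ k) (c : ℂ) (N : ℕ) [NeZero N]
    (A : (𝒮ℒ ⧸ 𝒢₁.subgroupOf 𝒮ℒ) → PowerSeries ℂ) (B : (𝒮ℒ ⧸ 𝒢₂.subgroupOf 𝒮ℒ) → PowerSeries ℂ)
    (hA : ∀ q, IsQExp N (quotientFunc h₁ q) 0 (A q))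
    (hB : ∀ q, IsQExp N (quotientFunc h₂ q) 0 (B q)) :
    letI := Fintype.ofFinite (𝒮ℒ ⧸ 𝒢₁.subgroupOf 𝒮ℒ)
    letI := Fintype.ofFinite (𝒮ℒ ⧸ 𝒢₂.subgroupOf 𝒮ℒ)
    ∃ ν : ModularForm 𝒮ℒ
        (k * (Nat.card (𝒮ℒ ⧸ 𝒢₁.subgroupOf 𝒮ℒ) * Nat.card (𝒮ℒ ⧸ 𝒢₂.subgroupOf 𝒮ℒ) : ℕ)),
      (∀ z, ν z = ∏ q₁ : 𝒮ℒ ⧸ 𝒢₁.subgroupOf 𝒮ℒ, ∏ q₂ : 𝒮ℒ ⧸ 𝒢₂.subgroupOf 𝒮ℒ,
          c * (quotientFunc h₁ q₁ z - quotientFunc h₂ q₂ z)) ∧
      PowerSeries.expand N (NeZero.ne N) (qExpansion 1 ν) =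
        ∏ q₁ : 𝒮ℒ ⧸ 𝒢₁.subgroupOf 𝒮ℒ, ∏ q₂ : 𝒮ℒ ⧸ 𝒢₂.subgroupOf 𝒮ℒ,
          PowerSeries.C c * (A q₁ - B q₂) := by
  letI := Fintype.ofFinite (𝒮ℒ ⧸ 𝒢₁.subgroupOf 𝒮ℒ)
  letI := Fintype.ofFinite (𝒮ℒ ⧸ 𝒢₂.subgroupOf 𝒮ℒ)
  obtain ⟨ν, hν1, hν2⟩ := dnorm_exists k c (quotientFunc h₁) (quotientFunc h₂)
    (quotientFunc_mem_HolH h₁) (quotientFunc_mem_HolH h₂)
    (quotientFunc_perm h₁) (quotientFunc_perm h₂) N A B hA hB
  have hk : k * (Fintype.card ((𝒮ℒ ⧸ 𝒢₁.subgroupOf 𝒮ℒ) × (𝒮ℒ ⧸ 𝒢₂.subgroupOf 𝒮ℒ)) : ℤ)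
      = k * (Nat.card (𝒮ℒ ⧸ 𝒢₁.subgroupOf 𝒮ℒ) * Nat.card (𝒮ℒ ⧸ 𝒢₂.subgroupOf 𝒮ℒ) : ℕ) := by
    rw [Fintype.card_prod, Nat.card_eq_fintype_card, Nat.card_eq_fintype_card]
  refine ⟨ModularForm.mcast hk ν, fun z => ?_, ?_⟩
  · exact hν1 z
  · exact hν2

end QuotientFunc

end Fermat.Agent.S16.DNorm11
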