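/-
Program M (S16, Mazur), brick U3 (double family, export for `Formal14.Target_N2a`) / helper11.

From the two coset enumerations `Option (ZMod p) ≃ 𝒬_p`, `Option (ZMod 3) ≃ 𝒬_3` and the
`q_{3p}`-expansions of the conjugates of `G ∈ M_2(Γ₀(p))` and of `G_3 ∈ M_2(Γ₀(3))` (inputs from
bricks U1 / U3-explicit), the level-one form `ν` of weight `8 (p + 1)` whose `q`-expansion satisfies
LITERALLY the product formula in the hypothesis of `Formal14.Target_N2a`.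
-/
import Mathlib
import Fermat.Agent.S16.Formal14
import Fermat.Agent.S16.DNorm11

set_option autoImplicit false

open UpperHalfPlane ModularForm CongruenceSubgroup PowerSeries
open scoped MatrixGroups Manifold

noncomputable section

namespace Fermat.Agent.S16.DNormN2a11

open Fermat.Agent.X0 Fermat.Agent.S16.NormCore11 Fermat.Agent.S16.DNorm11
open Fermat.Agent.S16.Formal14

/-- product over `ZMod p` of a function of `j.val`, as a product over `Finset.range p`. -/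
theorem prod_zmod_val {M : Type*} [CommMonoid M] (p : ℕ) [NeZero p] (f : ℕ → M) :
    ∏ j : ZMod p, f j.val = ∏ j ∈ Finset.range p, f j := by
  rw [← Fin.prod_univ_eq_prod_range]
  refine Fintype.prod_equiv (ZMod.finEquiv p).symm.toEquiv _ _ fun j => ?_
  congr 1
  obtain ⟨n, rfl⟩ : ∃ n, p = n + 1 := Nat.exists_eq_succ_of_ne_zero (NeZero.ne p)
  rfl

/-- **Export for (N_2a).**  `a` = the `p + 1` conjugates of `G`, `b` = the `4` conjugates of `G_3`,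
indexed by `Option (ZMod p)`, `Option (ZMod 3)` (`none` = the identity coset), each permuted by the
weight-2 slash action of `SL(2,ℤ)`, with the displayed `q_{3p}`-expansions. -/
theorem exists_norm_N2a (p : ℕ) (hp : p.Prime) (cc : ℤ) (gs gs' : ℤ⟦X⟧) (ζ ω : ℂ)
    (a : Option (ZMod p) → ℍ → ℂ) (b : Option (ZMod 3) → ℍ → ℂ)
    (ha : ∀ x, a x ∈ HolH) (hb : ∀ y, b y ∈ HolH)
    (hpa : ∀ δ : SL(2, ℤ), ∃ σ : Equiv.Perm (Option (ZMod p)), ∀ x, a x ∣[(2 : ℤ)] δ = a (σ x))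
    (hpb : ∀ δ : SL(2, ℤ), ∃ σ : Equiv.Perm (Option (ZMod 3)), ∀ y, b y ∣[(2 : ℤ)] δ = b (σ y))
    (h3p : 3 * p ≠ 0)
    (hAinf : haveI : NeZero (3 * p) := ⟨h3p⟩
      IsQExp (3 * p) (a none) 0 (expand (3 * p) h3p (toC gs)))
    (hA : haveI : NeZero (3 * p) := ⟨h3p⟩
      ∀ j : ZMod p, IsQExp (3 * p) (a (some j)) 0
        (C (-((p : ℂ))⁻¹) * expand 3 (by norm_num) (rescale (ζ ^ j.val) (toC gs'))))
    (hBinf : haveI : NeZero (3 * p) := ⟨h3p⟩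
      IsQExp (3 * p) (b none) 0 (expand (3 * p) h3p (G3s ℂ)))
    (hB : haveI : NeZero (3 * p) := ⟨h3p⟩
      ∀ i : ZMod 3, IsQExp (3 * p) (b (some i)) 0
        (C (-((3 : ℂ))⁻¹) * expand p hp.ne_zero (rescale (ω ^ i.val) (G3s ℂ)))) :
    ∃ ν : ModularForm 𝒮ℒ ((8 * (p + 1) : ℕ) : ℤ),
      (let h3 : (3 : ℕ) ≠ 0 := by norm_num
       let Ainf : ℂ⟦X⟧ := expand (3 * p) h3p (toC gs)
       let A : ℕ → ℂ⟦X⟧ := fun j =>
         C (-((p : ℂ))⁻¹) * expand 3 h3 (rescale (ζ ^ j) (toC gs'))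
       let Binf : ℂ⟦X⟧ := C (cc : ℂ) * expand (3 * p) h3p (G3s ℂ)
       let B : ℕ → ℂ⟦X⟧ := fun i =>
         C ((cc : ℂ) * (-((3 : ℂ))⁻¹)) * expand p hp.ne_zero (rescale (ω ^ i) (G3s ℂ))
       expand (3 * p) h3p (qExpansion 1 ν) =
         (C ((8 : ℂ))⁻¹ * (Ainf - Binf)) *
         (∏ j ∈ Finset.range p, C ((8 : ℂ))⁻¹ * (A j - Binf)) *
         (∏ i ∈ Finset.range 3, C ((8 : ℂ))⁻¹ * (Ainf - B i)) *
         (∏ j ∈ Finset.range p, ∏ i ∈ Finset.range 3, C ((8 : ℂ))⁻¹ * (A j - B i))) := by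
  haveI : NeZero (3 * p) := ⟨h3p⟩
  haveI : NeZero p := ⟨hp.ne_zero⟩
  -- the series of the two families
  let SA : Option (ZMod p) → ℂ⟦X⟧ := fun x => x.casesOn' (expand (3 * p) h3p (toC gs))
    (fun j => C (-((p : ℂ))⁻¹) * expand 3 (by norm_num) (rescale (ζ ^ j.val) (toC gs')))
  let SB : Option (ZMod 3) → ℂ⟦X⟧ := fun y => y.casesOn'
    (C (cc : ℂ) * expand (3 * p) h3p (G3s ℂ))
    (fun i => C ((cc : ℂ) * (-((3 : ℂ))⁻¹)) * expand p hp.ne_zero (rescale (ω ^ i.val) (G3s ℂ)))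
  have hSA : ∀ x, IsQExp (3 * p) (a x) 0 (SA x) := by
    intro x
    cases x with
    | none => exact hAinf
    | some j => exact hA j
  have hSB : ∀ y, IsQExp (3 * p) ((cc : ℂ) • b y) 0 (SB y) := by
    intro y
    cases y with
    | none =>
      have := hBinf.smul (cc : ℂ)
      rw [PowerSeries.smul_eq_C_mul] at this
      exact this
    | some i =>
      have := (hB i).smul (cc : ℂ)
      have e : (cc : ℂ) • (C (-((3 : ℂ))⁻¹) * expand p hp.ne_zero (rescale (ω ^ i.val) (G3s ℂ)))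
          = C ((cc : ℂ) * (-((3 : ℂ))⁻¹)) * expand p hp.ne_zero (rescale (ω ^ i.val) (G3s ℂ)) := by
        rw [PowerSeries.smul_eq_C_mul, map_mul, mul_assoc]
      rw [e] at this
      exact this
  have hb' : ∀ y, (cc : ℂ) • b y ∈ HolH := fun y => HolH.smul_mem (hb y) _
  have hpb' : ∀ δ : SL(2, ℤ), ∃ σ : Equiv.Perm (Option (ZMod 3)),
      ∀ y, ((cc : ℂ) • b y) ∣[(2 : ℤ)] δ = (cc : ℂ) • b (σ y) := by
    intro δ
    obtain ⟨σ, hσ⟩ := hpb δ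
    exact ⟨σ, fun y => by rw [ModularForm.SL_smul_slash, hσ]⟩
  obtain ⟨ν, -, hν⟩ := dnorm_exists (2 : ℤ) ((8 : ℂ))⁻¹ a (fun y => (cc : ℂ) • b y) ha hb' hpa hpb'
    (3 * p) SA SB hSA hSB
  have hk : (2 : ℤ) * (Fintype.card (Option (ZMod p) × Option (ZMod 3)) : ℤ)
      = ((8 * (p + 1) : ℕ) : ℤ) := by
    rw [Fintype.card_prod, Fintype.card_option, Fintype.card_option, ZMod.card, ZMod.card]
    push_cast
    ring
  refine ⟨ModularForm.mcast hk ν, ?_⟩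
  show expand (3 * p) h3p (qExpansion 1 ν) = _
  rw [show expand (3 * p) h3p (qExpansion 1 ν) = expand (3 * p) (NeZero.ne (3 * p)) (qExpansion 1 ν)
    from rfl, hν]
  -- reindex the double product
  simp only [Fintype.prod_option]
  have e1 : ∀ (f : ℕ → ℂ⟦X⟧), ∏ j : ZMod p, f j.val = ∏ j ∈ Finset.range p, f j :=
    fun f => prod_zmod_val p f
  have e3 : ∀ (f : ℕ → ℂ⟦X⟧), ∏ i : ZMod 3, f i.val = ∏ i ∈ Finset.range 3, f i :=
    fun f => prod_zmod_val 3 f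
  show (C ((8 : ℂ))⁻¹ * (SA none - SB none) * ∏ i : ZMod 3, C ((8 : ℂ))⁻¹ * (SA none - SB (some i))) *
      ∏ j : ZMod p, (C ((8 : ℂ))⁻¹ * (SA (some j) - SB none) *
        ∏ i : ZMod 3, C ((8 : ℂ))⁻¹ * (SA (some j) - SB (some i))) = _
  rw [Finset.prod_mul_distrib (s := (Finset.univ : Finset (ZMod p)))]
  have hx1 : ∏ i : ZMod 3, C ((8 : ℂ))⁻¹ * (SA none - SB (some i))
      = ∏ i ∈ Finset.range 3, C ((8 : ℂ))⁻¹ * (expand (3 * p) h3p (toC gs) -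
          C ((cc : ℂ) * (-((3 : ℂ))⁻¹)) * expand p hp.ne_zero (rescale (ω ^ i) (G3s ℂ))) :=
    e3 fun i => C ((8 : ℂ))⁻¹ * (expand (3 * p) h3p (toC gs) -
          C ((cc : ℂ) * (-((3 : ℂ))⁻¹)) * expand p hp.ne_zero (rescale (ω ^ i) (G3s ℂ)))
  have hx2 : ∏ j : ZMod p, C ((8 : ℂ))⁻¹ * (SA (some j) - SB none)
      = ∏ j ∈ Finset.range p, C ((8 : ℂ))⁻¹ *
          (C (-((p : ℂ))⁻¹) * expand 3 (by norm_num) (rescale (ζ ^ j) (toC gs')) -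
            C (cc : ℂ) * expand (3 * p) h3p (G3s ℂ)) :=
    e1 fun j => C ((8 : ℂ))⁻¹ *
          (C (-((p : ℂ))⁻¹) * expand 3 (by norm_num) (rescale (ζ ^ j) (toC gs')) -
            C (cc : ℂ) * expand (3 * p) h3p (G3s ℂ))
  have hx3 : ∏ j : ZMod p, ∏ i : ZMod 3, C ((8 : ℂ))⁻¹ * (SA (some j) - SB (some i))
      = ∏ j ∈ Finset.range p, ∏ i ∈ Finset.range 3, C ((8 : ℂ))⁻¹ *
          (C (-((p : ℂ))⁻¹) * expand 3 (by norm_num) (rescale (ζ ^ j) (toC gs')) -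
            C ((cc : ℂ) * (-((3 : ℂ))⁻¹)) * expand p hp.ne_zero (rescale (ω ^ i) (G3s ℂ))) := by
    rw [← e1 fun j => ∏ i ∈ Finset.range 3, C ((8 : ℂ))⁻¹ *
          (C (-((p : ℂ))⁻¹) * expand 3 (by norm_num) (rescale (ζ ^ j) (toC gs')) -
            C ((cc : ℂ) * (-((3 : ℂ))⁻¹)) * expand p hp.ne_zero (rescale (ω ^ i) (G3s ℂ)))]
    refine Finset.prod_congr rfl fun j _ => ?_
    exact e3 fun i => C ((8 : ℂ))⁻¹ *
          (C (-((p : ℂ))⁻¹) * expand 3 (by norm_num) (rescale (ζ ^ j.val) (toC gs')) -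
            C ((cc : ℂ) * (-((3 : ℂ))⁻¹)) * expand p hp.ne_zero (rescale (ω ^ i) (G3s ℂ)))
  rw [hx1, hx2, hx3]
  have hSAn : SA none = expand (3 * p) h3p (toC gs) := rfl
  have hSBn : SB none = C (cc : ℂ) * expand (3 * p) h3p (G3s ℂ) := rfl
  rw [hSAn, hSBn]
  show _ = (C ((8 : ℂ))⁻¹ * (expand (3 * p) h3p (toC gs) - C (cc : ℂ) * expand (3 * p) h3p (G3s ℂ))) *
    _ * _ * _
  ring

/-! ### The same in Mathlib's `quotientFunc` language -/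

open SlashInvariantForm in
/-- **Export for (N_2a), modular-form version.**  `G ∈ M_2(𝒢p)`, `G3 ∈ M_2(𝒢3)` (`𝒢p`, `𝒢3` the images
of `Γ₀(p)`, `Γ₀(3)` in `GL(2,ℝ)`), `ep`, `e3` enumerations of the cosets (`none` ↦ identity coset,
`some j` ↦ the coset with `quotientFunc G (ep (some j)) = G ∣[2] S T^j`), and the `q_{3p}`-expansions
of the translates. -/
theorem exists_norm_N2a_quotientFunc (p : ℕ) (hp : p.Prime) {𝒢p 𝒢3 : Subgroup (GL (Fin 2) ℝ)}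
    (G : ModularForm 𝒢p 2) (G3 : ModularForm 𝒢3 2)
    (ep : Option (ZMod p) ≃ (𝒮ℒ ⧸ 𝒢p.subgroupOf 𝒮ℒ))
    (e3 : Option (ZMod 3) ≃ (𝒮ℒ ⧸ 𝒢3.subgroupOf 𝒮ℒ))
    (cc : ℤ) (gs gs' : ℤ⟦X⟧) (ζ ω : ℂ) (h3p : 3 * p ≠ 0)
    (hAinf : haveI : NeZero (3 * p) := ⟨h3p⟩
      IsQExp (3 * p) (quotientFunc G (ep none)) 0 (expand (3 * p) h3p (toC gs)))
    (hA : haveI : NeZero (3 * p) := ⟨h3p⟩
      ∀ j : ZMod p, IsQExp (3 * p) (quotientFunc G (ep (some j))) 0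
        (C (-((p : ℂ))⁻¹) * expand 3 (by norm_num) (rescale (ζ ^ j.val) (toC gs'))))
    (hBinf : haveI : NeZero (3 * p) := ⟨h3p⟩
      IsQExp (3 * p) (quotientFunc G3 (e3 none)) 0 (expand (3 * p) h3p (G3s ℂ)))
    (hB : haveI : NeZero (3 * p) := ⟨h3p⟩
      ∀ i : ZMod 3, IsQExp (3 * p) (quotientFunc G3 (e3 (some i))) 0
        (C (-((3 : ℂ))⁻¹) * expand p hp.ne_zero (rescale (ω ^ i.val) (G3s ℂ)))) :
    ∃ ν : ModularForm 𝒮ℒ ((8 * (p + 1) : ℕ) : ℤ),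
      (let h3 : (3 : ℕ) ≠ 0 := by norm_num
       let Ainf : ℂ⟦X⟧ := expand (3 * p) h3p (toC gs)
       let A : ℕ → ℂ⟦X⟧ := fun j =>
         C (-((p : ℂ))⁻¹) * expand 3 h3 (rescale (ζ ^ j) (toC gs'))
       let Binf : ℂ⟦X⟧ := C (cc : ℂ) * expand (3 * p) h3p (G3s ℂ)
       let B : ℕ → ℂ⟦X⟧ := fun i =>
         C ((cc : ℂ) * (-((3 : ℂ))⁻¹)) * expand p hp.ne_zero (rescale (ω ^ i) (G3s ℂ))
       expand (3 * p) h3p (qExpansion 1 ν) =
         (C ((8 : ℂ))⁻¹ * (Ainf - Binf)) *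
         (∏ j ∈ Finset.range p, C ((8 : ℂ))⁻¹ * (A j - Binf)) *
         (∏ i ∈ Finset.range 3, C ((8 : ℂ))⁻¹ * (Ainf - B i)) *
         (∏ j ∈ Finset.range p, ∏ i ∈ Finset.range 3, C ((8 : ℂ))⁻¹ * (A j - B i))) := by
  have perm_transport : ∀ {ι κ : Type} (e : ι ≃ κ) (f : κ → ℍ → ℂ),
      (∀ δ : SL(2, ℤ), ∃ σ : Equiv.Perm κ, ∀ q, f q ∣[(2 : ℤ)] δ = f (σ q)) →
      ∀ δ : SL(2, ℤ), ∃ σ : Equiv.Perm ι, ∀ x, f (e x) ∣[(2 : ℤ)] δ = f (e (σ x)) := by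
    intro ι κ e f h δ
    obtain ⟨σ, hσ⟩ := h δ
    refine ⟨(e.trans σ).trans e.symm, fun x => ?_⟩
    rw [hσ]
    simp
  exact exists_norm_N2a p hp cc gs gs' ζ ω
    (fun x => quotientFunc G (ep x)) (fun y => quotientFunc G3 (e3 y))
    (fun x => quotientFunc_mem_HolH G _) (fun y => quotientFunc_mem_HolH G3 _)
    (perm_transport ep _ (quotientFunc_perm G)) (perm_transport e3 _ (quotientFunc_perm G3))
    h3p hAinf hA hBinf hB

end Fermat.Agent.S16.DNormN2a11
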