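/-
Program M (S16), brick U5 (helper16): the weight-two Eisenstein series of level `N`,
`Eis N = (N · E₂(N z) − E₂(z)) / 24 ∈ M₂(Γ₀(N))`, from Mathlib's `E2`, with its `q`-expansion
`(N − 1)/24 + Σ_{k ≥ 1} (σ(k) − N σ(k/N)) q^k` (`= Σ_{d ∣ k, N ∤ d} d` for `N` prime), and the slash
formula for an arbitrary `γ ∈ SL(2, ℤ)` in terms of the Hermite normal form of `diag(N, 1) γ`.
-/
import Mathlib
import Fermat.Agent.X0.Hermite
import Fermat.Prelude.Thm_CongruenceSubgroup_one_mem_strictPeriods_Gamma0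
import Fermat.Prelude.Def_FLTPrelim_Modularity

set_option autoImplicit false

open UpperHalfPlane EisensteinSeries ModularForm CongruenceSubgroup Filter Topology
open scoped MatrixGroups Manifold ArithmeticFunction.sigma

noncomputable section

namespace Fermat.Agent.S16.EisLevel16

open Fermat.Agent.X0 Fermat.Agent.X0.Hermite

/-- The constant `1 / (2 ζ(2))` of `E2_slash_action`. -/
def kap : ℂ := 1 / (2 * riemannZeta 2)

/-- Pointwise form of `E2_slash_action`. -/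
theorem E2_smul (γ : SL(2, ℤ)) (z : ℍ) :
    E2 (γ • z) = denom γ z ^ 2 * (E2 z - kap * D2 γ z) := by
  have h := congrFun (E2_slash_action γ) z
  rw [SL_slash_apply] at h
  have hd : denom γ z ≠ 0 := denom_ne_zero γ z
  have h2 : E2 (γ • z) = (E2 ∣[(2 : ℤ)] γ) z * denom γ z ^ 2 := by
    rw [SL_slash_apply, zpow_neg, mul_assoc]
    rw [show (denom γ z ^ (2 : ℤ))⁻¹ * denom γ z ^ 2 = 1 by
      rw [zpow_ofNat]; exact inv_mul_cancel₀ (pow_ne_zero 2 hd)]
    rw [mul_one]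
  rw [h2, E2_slash_action]
  simp only [Pi.sub_apply, Pi.smul_apply, smul_eq_mul, kap]
  ring

/-- The function `z ↦ (N · E₂(N z) − E₂(z)) / 24`. -/
def eisFun (N : ℕ) [NeZero N] : ℍ → ℂ := fun z => ((N : ℂ) * E2 (scaleH N z) - E2 z) / 24

theorem eisFun_apply (N : ℕ) [NeZero N] (z : ℍ) :
    eisFun N z = ((N : ℂ) * E2 (scaleH N z) - E2 z) / 24 := rfl

theorem denom_eq (γ : SL(2, ℤ)) (z : ℍ) :
    denom γ z = ((γ 1 0 : ℤ) : ℂ) * z + ((γ 1 1 : ℤ) : ℂ) := by
  rw [ModularGroup.denom_apply]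

theorem D2_apply (γ : SL(2, ℤ)) (z : ℍ) :
    D2 γ z = 2 * Real.pi * Complex.I * ((γ 1 0 : ℤ) : ℂ) / denom γ z := rfl

/-- `Γ₀(N)`-invariance of `eisFun N` in weight two. -/
theorem eisFun_slash_of_mem {N : ℕ} [NeZero N] {γ : SL(2, ℤ)} (hγ : γ ∈ Gamma0 N) :
    eisFun N ∣[(2 : ℤ)] γ = eisFun N := by
  have hdvd : (N : ℤ) ∣ γ 1 0 := by
    rw [Gamma0_mem] at hγ
    exact (ZMod.intCast_zmod_eq_zero_iff_dvd _ _).mp hγ
  obtain ⟨k, hk⟩ := hdvd
  have hdet : γ 0 0 * γ 1 1 - γ 0 1 * γ 1 0 = 1 := by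
    have := γ.det_coe
    rw [Matrix.det_fin_two] at this
    exact this
  let γ' : SL(2, ℤ) := ⟨!![γ 0 0, N * γ 0 1; k, γ 1 1], by
    rw [Matrix.det_fin_two_of]
    rw [hk] at hdet
    linear_combination hdet⟩
  have h00 : γ' 0 0 = γ 0 0 := rfl
  have h01 : γ' 0 1 = N * γ 0 1 := rfl
  have h10 : γ' 1 0 = k := rfl
  have h11 : γ' 1 1 = γ 1 1 := rfl
  ext z
  have hNC : (N : ℂ) ≠ 0 := by exact_mod_cast NeZero.ne N
  have hden : denom γ' (scaleH N z) = denom γ z := by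
    rw [denom_eq, denom_eq, coe_scaleH, h10, h11, hk]
    push_cast
    ring
  have hsm : scaleH N (γ • z) = γ' • scaleH N z := by
    apply UpperHalfPlane.ext
    rw [coe_scaleH, coe_smul', coe_smul', coe_scaleH, h00, h01, h10, h11, hk]
    have hd := denom_ne_zero' γ z
    rw [hk] at hd
    have hd' : ((k : ℤ) : ℂ) * ((N : ℂ) * z) + ((γ 1 1 : ℤ) : ℂ) ≠ 0 := by
      intro h0
      apply hd
      rw [← h0]
      push_cast
      ring
    push_cast
    push_cast at hd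
    field_simp
  rw [SL_slash_apply, eisFun_apply, eisFun_apply, hsm, E2_smul γ' (scaleH N z), E2_smul γ z,
    D2_apply, D2_apply, hden, h10, hk]
  have hd : denom γ z ≠ 0 := denom_ne_zero γ z
  rw [zpow_neg, zpow_ofNat]
  push_cast
  field_simp
  ring

/-- Hermite normal form on `ℍ`, with the relation between the denominators:
`N · (γ • z) = γ' • ((a z + b)/e)`, `c z + d = e (c' w + d')`, `c = c' a`. -/
theorem exists_hermite_data (N : ℕ) [NeZero N] (γ : SL(2, ℤ)) :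
    ∃ (γ' : SL(2, ℤ)) (a e : ℕ) (b : ℤ) (ha : 0 < a) (he : 0 < e), a * e = N ∧ 0 ≤ b ∧ b < e ∧
      γ 1 0 = γ' 1 0 * a ∧
      ∀ z : ℍ, scaleH N (γ • z) = γ' • affH a e b ha he z ∧
        denom γ z = (e : ℂ) * denom γ' (affH a e b ha he z) := by
  have hd : 0 < N := Nat.pos_of_ne_zero (NeZero.ne N)
  obtain ⟨γ', a, e, b, hae, ha, he, hb0, hbe, h1, h2, h3, h4⟩ := exists_hermite γ hd
  refine ⟨γ', a, e, b, ha, he, hae, hb0, hbe, h3, fun z => ?_⟩
  have heC : (e : ℂ) ≠ 0 := by exact_mod_cast he.ne'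
  have e1 : ((N : ℤ) : ℂ) * ((γ 0 0 : ℤ) : ℂ) = ((γ' 0 0 : ℤ) : ℂ) * ((a : ℤ) : ℂ) := by
    exact_mod_cast congrArg (Int.cast : ℤ → ℂ) h1
  have e2 : ((N : ℤ) : ℂ) * ((γ 0 1 : ℤ) : ℂ) =
      ((γ' 0 0 : ℤ) : ℂ) * (b : ℂ) + ((γ' 0 1 : ℤ) : ℂ) * ((e : ℤ) : ℂ) := by
    exact_mod_cast congrArg (Int.cast : ℤ → ℂ) h2
  have e3 : ((γ 1 0 : ℤ) : ℂ) = ((γ' 1 0 : ℤ) : ℂ) * ((a : ℤ) : ℂ) := by
    exact_mod_cast congrArg (Int.cast : ℤ → ℂ) h3
  have e4 : ((γ 1 1 : ℤ) : ℂ) =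
      ((γ' 1 0 : ℤ) : ℂ) * (b : ℂ) + ((γ' 1 1 : ℤ) : ℂ) * ((e : ℤ) : ℂ) := by
    exact_mod_cast congrArg (Int.cast : ℤ → ℂ) h4
  simp only [Int.cast_natCast] at e1 e2 e3 e4
  have hnum : ((γ' 0 0 : ℤ) : ℂ) * (((a : ℂ) * z + b) / e) + ((γ' 0 1 : ℤ) : ℂ) =
      ((N : ℂ) * (((γ 0 0 : ℤ) : ℂ) * z + ((γ 0 1 : ℤ) : ℂ))) / e := by
    field_simp
    linear_combination (-(z : ℂ)) * e1 - e2
  have hdenom : ((γ' 1 0 : ℤ) : ℂ) * (((a : ℂ) * z + b) / e) + ((γ' 1 1 : ℤ) : ℂ) =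
      (((γ 1 0 : ℤ) : ℂ) * z + ((γ 1 1 : ℤ) : ℂ)) / e := by
    field_simp
    linear_combination (-(z : ℂ)) * e3 - e4
  constructor
  · apply UpperHalfPlane.ext
    rw [coe_scaleH, coe_smul', coe_smul', coe_affH]
    have hden := denom_ne_zero' γ z
    have hden' := denom_ne_zero' γ' (affH a e b ha he z)
    rw [coe_affH] at hden'
    rw [hnum, hdenom]
    field_simp
  · rw [denom_eq, denom_eq, coe_affH, hdenom]
    field_simp

/-- **Slash formula**: for every `γ ∈ SL(2, ℤ)`, with `(a, b, e)` the Hermite data of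
`diag(N, 1) γ`:  `(eisFun N ∣[2] γ)(z) = ((a/e) E₂((a z + b)/e) − E₂(z)) / 24`. -/
theorem exists_eisFun_slash (N : ℕ) [NeZero N] (γ : SL(2, ℤ)) :
    ∃ (a e : ℕ) (b : ℤ) (ha : 0 < a) (he : 0 < e), a * e = N ∧ 0 ≤ b ∧ b < e ∧
      ∀ z : ℍ, (eisFun N ∣[(2 : ℤ)] γ) z =
        (((a : ℂ) / e) * E2 (affH a e b ha he z) - E2 z) / 24 := by
  obtain ⟨γ', a, e, b, ha, he, hae, hb0, hbe, h10, hz⟩ := exists_hermite_data N γ
  refine ⟨a, e, b, ha, he, hae, hb0, hbe, fun z => ?_⟩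
  obtain ⟨hsm, hden⟩ := hz z
  have heC : (e : ℂ) ≠ 0 := by exact_mod_cast he.ne'
  have hd : denom γ z ≠ 0 := denom_ne_zero γ z
  have hd' : denom γ' (affH a e b ha he z) ≠ 0 := denom_ne_zero γ' _
  have hN : (N : ℂ) = (a : ℂ) * e := by exact_mod_cast congrArg (Nat.cast : ℕ → ℂ) hae.symm
  rw [SL_slash_apply, eisFun_apply, hsm, E2_smul γ' (affH a e b ha he z), E2_smul γ z,
    D2_apply, D2_apply, hden, h10, hN, zpow_neg, zpow_ofNat]
  push_cast
  field_simp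
  ring

/-! ### Holomorphy -/

/-- `f ∘ ((a z + b)/e)` is holomorphic if `f` is. -/
theorem mdifferentiable_comp_affH {f : ℍ → ℂ} (hf : MDiff f) (a e : ℕ) (b : ℤ) (ha : 0 < a)
    (he : 0 < e) : MDiff (fun z => f (affH a e b ha he z)) := by
  rw [UpperHalfPlane.mdifferentiable_iff] at hf ⊢
  have ha' : (0 : ℝ) < a := by exact_mod_cast ha
  have he' : (0 : ℝ) < e := by exact_mod_cast he
  have hmaps : Set.MapsTo (fun w : ℂ => ((a : ℂ) * w + b) / e) {z | 0 < z.im} {z | 0 < z.im} := by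
    intro w hw
    show 0 < (((a : ℂ) * w + b) / e).im
    have : (((a : ℂ) * w + b) / e).im = a * w.im / e := by
      rw [Complex.div_natCast_im]
      simp
    rw [this]
    exact div_pos (mul_pos ha' hw) he'
  have hd : DifferentiableOn ℂ (fun w : ℂ => ((a : ℂ) * w + b) / e) {z | 0 < z.im} := by
    intro w _
    fun_prop
  refine (hf.comp hd hmaps).congr fun w hw => ?_
  show f (affH a e b ha he (ofComplex w)) = f (ofComplex (((a : ℂ) * w + b) / e))
  congr 1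
  apply UpperHalfPlane.ext
  rw [coe_affH, ofComplex_apply_of_im_pos hw, ofComplex_apply_of_im_pos (hmaps hw)]

theorem scaleH_eq_affH (N : ℕ) [NeZero N] (z : ℍ) :
    scaleH N z = affH N 1 0 (Nat.pos_of_ne_zero (NeZero.ne N)) one_pos z := by
  apply UpperHalfPlane.ext
  rw [coe_scaleH, coe_affH]
  simp

theorem eisFun_mdifferentiable (N : ℕ) [NeZero N] : MDiff (eisFun N) := by
  have h1 : MDiff (fun z => E2 (scaleH N z)) := by
    have := mdifferentiable_comp_affH E2_mdifferentiable N 1 0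
      (Nat.pos_of_ne_zero (NeZero.ne N)) one_pos
    convert this using 2 with z
    rw [scaleH_eq_affH]
  have h2 : MDiff (fun z => ((N : ℂ) * E2 (scaleH N z) - E2 z)) :=
    (mdifferentiable_const.mul h1).sub E2_mdifferentiable
  have h3 : MDiff (fun z => ((N : ℂ) * E2 (scaleH N z) - E2 z) * (1 / 24 : ℂ)) :=
    h2.mul mdifferentiable_const
  convert h3 using 2 with z
  rw [eisFun_apply]
  ring

/-! ### Boundedness at the cusps -/

theorem im_affH (a e : ℕ) (b : ℤ) (ha : 0 < a) (he : 0 < e) (z : ℍ) :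
    (affH a e b ha he z).im = a * z.im / e := by
  show (((a : ℂ) * z + b) / e).im = _
  rw [Complex.div_natCast_im]
  simp

theorem isBoundedAtImInfty_comp_affH {f : ℍ → ℂ} (hf : IsBoundedAtImInfty f) (a e : ℕ) (b : ℤ)
    (ha : 0 < a) (he : 0 < e) : IsBoundedAtImInfty (fun z => f (affH a e b ha he z)) := by
  rw [UpperHalfPlane.isBoundedAtImInfty_iff] at hf ⊢
  obtain ⟨M, A, hMA⟩ := hf
  have ha' : (0 : ℝ) < a := by exact_mod_cast ha
  have he' : (0 : ℝ) < e := by exact_mod_cast he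
  refine ⟨M, A * e / a, fun z hz => ?_⟩
  apply hMA
  rw [im_affH]
  rw [div_le_iff₀ ha'] at hz
  rw [le_div_iff₀ he']
  linarith

theorem isBoundedAtImInfty_eisFun_slash (N : ℕ) [NeZero N] (γ : SL(2, ℤ)) :
    IsBoundedAtImInfty (eisFun N ∣[(2 : ℤ)] γ) := by
  obtain ⟨a, e, b, ha, he, -, -, -, hz⟩ := exists_eisFun_slash N γ
  have h1 : IsBoundedAtImInfty (fun z => E2 (affH a e b ha he z)) :=
    isBoundedAtImInfty_comp_affH isBoundedAtImInfty_E2 a e b ha he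
  have h2 : IsBoundedAtImInfty ((((fun _ : ℍ => ((a : ℂ) / e)) * fun z => E2 (affH a e b ha he z))
      + (-E2)) * fun _ : ℍ => (1 / 24 : ℂ)) :=
    Filter.BoundedAtFilter.mul
      (Filter.BoundedAtFilter.add
        (Filter.BoundedAtFilter.mul (Filter.const_boundedAtFilter _ ((a : ℂ) / e)) h1)
        (Filter.BoundedAtFilter.neg isBoundedAtImInfty_E2))
      (Filter.const_boundedAtFilter _ (1 / 24 : ℂ))
  convert h2 using 1
  funext z
  rw [hz z]
  simp only [Pi.mul_apply, Pi.add_apply, Pi.neg_apply]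
  ring

/-! ### The modular form -/

/-- **The Eisenstein series of weight two and level `N`**:
`Eis N = (N E₂(N z) − E₂(z)) / 24 ∈ M₂(Γ₀(N))`. -/
def Eis (N : ℕ) [NeZero N] : ModularForm (Gamma0 N) 2 where
  toFun := eisFun N
  slash_action_eq' A hA := by
    obtain ⟨A, (hA : A ∈ Gamma0 N), rfl⟩ := hA
    exact eisFun_slash_of_mem hA
  holo' := eisFun_mdifferentiable N
  bdd_at_cusps' {c} hc := by
    rw [Subgroup.IsArithmetic.isCusp_iff_isCusp_SL2Z] at hc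
    rw [OnePoint.isBoundedAt_iff_forall_SL2Z hc]
    intro γ _
    exact isBoundedAtImInfty_eisFun_slash N γ

@[simp] theorem coe_Eis (N : ℕ) [NeZero N] : ⇑(Eis N) = eisFun N := rfl

theorem Eis_apply (N : ℕ) [NeZero N] (z : ℍ) :
    Eis N z = ((N : ℂ) * E2 (scaleH N z) - E2 z) / 24 := rfl

/-! ### The `q`-expansion -/

/-- `σ^{(N)}(n) = σ(n) − N σ(n/N) [N ∣ n]`, the sum of the divisors of `n` not divisible by `N`. -/
def sigmaN (N n : ℕ) : ℤ := (σ 1 n : ℤ) - N * (if N ∣ n then (σ 1 (n / N) : ℤ) else 0)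

/-- The `q`-expansion coefficients of `Eis N`. -/
def eisCoeff (N n : ℕ) : ℂ := if n = 0 then ((N : ℂ) - 1) / 24 else (sigmaN N n : ℂ)

theorem eisCoeff_zero (N : ℕ) : eisCoeff N 0 = ((N : ℂ) - 1) / 24 := if_pos rfl

theorem eisCoeff_of_ne_zero (N : ℕ) {n : ℕ} (hn : n ≠ 0) : eisCoeff N n = (sigmaN N n : ℂ) :=
  if_neg hn

/-- `σ^{(N)}(n)` is the sum of the divisors of `n` which are not divisible by `N`. -/
theorem sigmaN_eq_sum (N : ℕ) [NeZero N] (n : ℕ) :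
    sigmaN N n = ∑ d ∈ n.divisors.filter (fun d => ¬ N ∣ d), (d : ℤ) := by
  classical
  have hN : 0 < N := Nat.pos_of_ne_zero (NeZero.ne N)
  have hsplit : (σ 1 n : ℤ) = ∑ d ∈ n.divisors.filter (fun d => N ∣ d), (d : ℤ) +
      ∑ d ∈ n.divisors.filter (fun d => ¬ N ∣ d), (d : ℤ) := by
    rw [Finset.sum_filter_add_sum_filter_not, ArithmeticFunction.sigma_one_apply]
    push_cast
    rfl
  have hdiv : ∑ d ∈ n.divisors.filter (fun d => N ∣ d), (d : ℤ) =
      N * (if N ∣ n then (σ 1 (n / N) : ℤ) else 0) := by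
    by_cases hNn : N ∣ n
    · rw [if_pos hNn, ArithmeticFunction.sigma_one_apply]
      push_cast
      rw [Finset.mul_sum]
      rcases Nat.eq_zero_or_pos n with rfl | hn
      · simp
      symm
      refine Finset.sum_bij (fun d _ => N * d) ?_ ?_ ?_ ?_
      · intro d hd
        rw [Nat.mem_divisors] at hd
        rw [Finset.mem_filter, Nat.mem_divisors]
        refine ⟨⟨?_, hn.ne'⟩, dvd_mul_right _ _⟩
        obtain ⟨k, hk⟩ := hd.1
        refine ⟨k, ?_⟩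
        rw [mul_assoc, ← hk, Nat.mul_div_cancel' hNn]
      · intro d₁ _ d₂ _ h
        exact Nat.eq_of_mul_eq_mul_left hN h
      · intro d hd
        rw [Finset.mem_filter, Nat.mem_divisors] at hd
        obtain ⟨⟨hdn, -⟩, k, rfl⟩ := hd
        refine ⟨k, ?_, rfl⟩
        rw [Nat.mem_divisors]
        refine ⟨?_, ?_⟩
        · obtain ⟨m, hm⟩ := hdn
          refine ⟨m, ?_⟩
          rw [hm, mul_assoc, Nat.mul_div_cancel_left _ hN]
        · exact Nat.div_ne_zero_iff.mpr ⟨hN.ne', Nat.le_of_dvd hn hNn⟩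
      · intro d _
        push_cast
        ring
    · rw [if_neg hNn, mul_zero]
      apply Finset.sum_eq_zero
      intro d hd
      rw [Finset.mem_filter, Nat.mem_divisors] at hd
      exact absurd (dvd_trans hd.2 hd.1.1) hNn
  rw [sigmaN, hsplit, hdiv]
  ring

/-- the coefficients of `E2`. -/
def cE (m : ℕ) : ℂ := if m = 0 then 1 else -24 * (σ 1 m : ℂ)

theorem eisCoeff_eq (N : ℕ) [NeZero N] (n : ℕ) :
    eisCoeff N n = ((N : ℂ) * (if N ∣ n then cE (n / N) else 0) - cE n) / 24 := by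
  have hN : 0 < N := Nat.pos_of_ne_zero (NeZero.ne N)
  rcases Nat.eq_zero_or_pos n with rfl | hn
  · rw [eisCoeff_zero, if_pos (dvd_zero N), Nat.zero_div, cE, if_pos rfl]
    ring
  · have hcE : cE n = -24 * (σ 1 n : ℂ) := if_neg hn.ne'
    rw [eisCoeff_of_ne_zero N hn.ne', sigmaN, hcE]
    by_cases hNn : N ∣ n
    · have h0 : n / N ≠ 0 := Nat.div_ne_zero_iff.mpr ⟨hN.ne', Nat.le_of_dvd hn hNn⟩
      have hcE' : cE (n / N) = -24 * (σ 1 (n / N) : ℂ) := if_neg h0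
      rw [if_pos hNn, if_pos hNn, hcE']
      push_cast
      ring
    · rw [if_neg hNn, if_neg hNn]
      push_cast
      ring

theorem qParam_scaleH (N : ℕ) [NeZero N] (z : ℍ) :
    Function.Periodic.qParam 1 (scaleH N z : ℂ) = Function.Periodic.qParam 1 (z : ℂ) ^ N := by
  rw [Function.Periodic.qParam, Function.Periodic.qParam, ← Complex.exp_nat_mul, coe_scaleH]
  congr 1
  push_cast
  ring

theorem hasSum_E2 (z : ℍ) :
    HasSum (fun m : ℕ => cE m • Function.Periodic.qParam 1 (z : ℂ) ^ m) (E2 z) := by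
  simpa only [Function.Periodic.qParam, Complex.ofReal_one, div_one, cE] using
    hasSum_qExpansion_E2 (z := z)

theorem hasSum_E2_scaleH (N : ℕ) [NeZero N] (z : ℍ) :
    HasSum (fun n : ℕ => (if N ∣ n then cE (n / N) else 0) •
      Function.Periodic.qParam 1 (z : ℂ) ^ n) (E2 (scaleH N z)) := by
  have hN : 0 < N := Nat.pos_of_ne_zero (NeZero.ne N)
  have h := hasSum_E2 (scaleH N z)
  rw [qParam_scaleH] at h
  have hinj : Function.Injective (fun m : ℕ => N * m) := fun a b hab =>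
    Nat.eq_of_mul_eq_mul_left hN hab
  rw [← hinj.hasSum_iff]
  · convert h using 2 with m
    simp only [Function.comp_apply]
    rw [if_pos (dvd_mul_right N m), Nat.mul_div_cancel_left m hN, pow_mul]
  · intro n hn
    rw [Set.mem_range, not_exists] at hn
    have : ¬ N ∣ n := fun ⟨k, hk⟩ => hn k hk.symm
    rw [if_neg this, zero_smul]

/-- **`q`-expansion of `Eis N`** as a convergent series on all of `ℍ`. -/
theorem hasSum_Eis (N : ℕ) [NeZero N] (z : ℍ) :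
    HasSum (fun n : ℕ => eisCoeff N n • Function.Periodic.qParam 1 (z : ℂ) ^ n) (Eis N z) := by
  have h1 := (hasSum_E2_scaleH N z).mul_left (N : ℂ)
  have h2 := (h1.sub (hasSum_E2 z)).mul_right (1 / 24 : ℂ)
  have hfun : (fun n : ℕ => eisCoeff N n • Function.Periodic.qParam 1 (z : ℂ) ^ n) =
      fun i : ℕ => ((N : ℂ) * ((if N ∣ i then cE (i / N) else 0) •
        Function.Periodic.qParam 1 (z : ℂ) ^ i) - cE i • Function.Periodic.qParam 1 (z : ℂ) ^ i) *
        (1 / 24) := by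
    funext n
    rw [eisCoeff_eq]
    simp only [smul_eq_mul]
    ring
  have hval : ((N : ℂ) * E2 (scaleH N z) - E2 z) / 24 =
      ((N : ℂ) * E2 (scaleH N z) - E2 z) * (1 / 24) := by ring
  rw [Eis_apply, hfun, hval]
  exact h2

theorem qExpansion_Eis_coeff (N : ℕ) [NeZero N] (n : ℕ) :
    (UpperHalfPlane.qExpansion 1 (Eis N)).coeff n = eisCoeff N n :=
  (ModularFormClass.qExpansion_coeff_unique one_pos
    (CongruenceSubgroup.one_mem_strictPeriods_Gamma0 N) (f := Eis N)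
    (fun τ => by simpa using hasSum_Eis N τ) n).symm

/-- In the Prelude's notation. -/
theorem qCoeff_Eis (N : ℕ) [NeZero N] (n : ℕ) :
    ModularFormClass.qCoeff (Eis N) n = eisCoeff N n :=
  qExpansion_Eis_coeff N n

theorem qCoeff_Eis_zero (N : ℕ) [NeZero N] :
    ModularFormClass.qCoeff (Eis N) 0 = ((N : ℂ) - 1) / 24 := by
  rw [qCoeff_Eis, eisCoeff_zero]

/-- The higher coefficients, in the literal `σ'` form (sum of the divisors not divisible by
`N`). -/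
theorem qCoeff_Eis_of_pos (N : ℕ) [NeZero N] {k : ℕ} (hk : 1 ≤ k) :
    ModularFormClass.qCoeff (Eis N) k =
      ((∑ d ∈ k.divisors.filter (fun d => ¬ N ∣ d), (d : ℤ) : ℤ) : ℂ) := by
  rw [qCoeff_Eis, eisCoeff_of_ne_zero N (by omega), sigmaN_eq_sum]

theorem qCoeff_Eis_of_pos' (N : ℕ) [NeZero N] {k : ℕ} (hk : 1 ≤ k) :
    ModularFormClass.qCoeff (Eis N) k = ((sigmaN N k : ℤ) : ℂ) := by
  rw [qCoeff_Eis, eisCoeff_of_ne_zero N (by omega)]

theorem qExpansion_Eis (N : ℕ) [NeZero N] :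
    UpperHalfPlane.qExpansion 1 (Eis N) = PowerSeries.mk (eisCoeff N) := by
  ext n
  rw [qExpansion_Eis_coeff, PowerSeries.coeff_mk]

/-- Slash formula for the bundled form. -/
theorem exists_Eis_slash (N : ℕ) [NeZero N] (γ : SL(2, ℤ)) :
    ∃ (a e : ℕ) (b : ℤ) (ha : 0 < a) (he : 0 < e), a * e = N ∧ 0 ≤ b ∧ b < e ∧
      ∀ z : ℍ, ((Eis N : ℍ → ℂ) ∣[(2 : ℤ)] γ) z =
        (((a : ℂ) / e) * E2 (affH a e b ha he z) - E2 z) / 24 :=
  exists_eisFun_slash N γ

/-! ### `U_N`-invariance of the coefficients for prime `N` -/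

theorem sigmaN_mul_prime {N : ℕ} (hN : N.Prime) (k : ℕ) : sigmaN N (N * k) = sigmaN N k := by
  classical
  have : NeZero N := ⟨hN.ne_zero⟩
  rw [sigmaN_eq_sum, sigmaN_eq_sum]
  rcases Nat.eq_zero_or_pos k with rfl | hk
  · simp
  congr 1
  ext d
  simp only [Finset.mem_filter, Nat.mem_divisors]
  constructor
  · rintro ⟨⟨hd, -⟩, hNd⟩
    refine ⟨⟨?_, hk.ne'⟩, hNd⟩
    have hcop : Nat.Coprime d N := ((Nat.Prime.coprime_iff_not_dvd hN).mpr hNd).symm
    exact hcop.dvd_of_dvd_mul_left hd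
  · rintro ⟨⟨hd, -⟩, hNd⟩
    exact ⟨⟨dvd_mul_of_dvd_right hd N, Nat.mul_ne_zero hN.ne_zero hk.ne'⟩, hNd⟩

theorem eisCoeff_mul_prime {N : ℕ} (hN : N.Prime) (k : ℕ) :
    eisCoeff N (N * k) = eisCoeff N k := by
  rcases Nat.eq_zero_or_pos k with rfl | hk
  · rw [mul_zero]
  · rw [eisCoeff_of_ne_zero N (Nat.mul_ne_zero hN.ne_zero hk.ne'), eisCoeff_of_ne_zero N hk.ne',
      sigmaN_mul_prime hN]

theorem sigmaN_one (N : ℕ) (hN : 1 < N) : sigmaN N 1 = 1 := by
  have : ¬ N ∣ 1 := fun h => by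
    have := Nat.le_of_dvd one_pos h
    omega
  rw [sigmaN, if_neg this]
  simp

/-! ### The level three form `G₃ = 12 · Eis 3 = 1 + 12 Σ σ^{(3)}(m) q^m` -/

/-- `G₃ = (3 E₂(3z) − E₂(z)) / 2 ∈ M₂(Γ₀(3))`. -/
def G3 : ModularForm (Gamma0 3) 2 := (12 : ℂ) • Eis 3

theorem G3_apply (z : ℍ) : G3 z = 12 * Eis 3 z := rfl

/-- The coefficients of `G₃`. -/
def g3Coeff (n : ℕ) : ℂ := if n = 0 then 1 else 12 * (sigmaN 3 n : ℂ)

theorem g3Coeff_eq (n : ℕ) : g3Coeff n = 12 * eisCoeff 3 n := by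
  rcases Nat.eq_zero_or_pos n with rfl | hn
  · rw [g3Coeff, if_pos rfl, eisCoeff_zero]
    norm_num
  · rw [g3Coeff, if_neg hn.ne', eisCoeff_of_ne_zero 3 hn.ne']

theorem hasSum_G3 (z : ℍ) :
    HasSum (fun n : ℕ => g3Coeff n • Function.Periodic.qParam 1 (z : ℂ) ^ n) (G3 z) := by
  have h := (hasSum_Eis 3 z).mul_left (12 : ℂ)
  have hfun : (fun n : ℕ => g3Coeff n • Function.Periodic.qParam 1 (z : ℂ) ^ n) =
      fun i : ℕ => 12 * eisCoeff 3 i • Function.Periodic.qParam 1 (z : ℂ) ^ i := by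
    funext n
    rw [g3Coeff_eq]
    simp only [smul_eq_mul]
    ring
  rw [G3_apply, hfun]
  exact h

theorem qExpansion_G3_coeff (n : ℕ) :
    (UpperHalfPlane.qExpansion 1 G3).coeff n = g3Coeff n :=
  (ModularFormClass.qExpansion_coeff_unique one_pos
    (CongruenceSubgroup.one_mem_strictPeriods_Gamma0 3) (f := G3)
    (fun τ => by simpa using hasSum_G3 τ) n).symm

theorem qCoeff_G3 (n : ℕ) : ModularFormClass.qCoeff G3 n = g3Coeff n :=
  qExpansion_G3_coeff n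

end Fermat.Agent.S16.EisLevel16
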