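/-
Program M (S16), brick U5, part 2 (helper16): the `q`-expansions of `G₃ = 12 · Eis 3` and of
`24 · Eis N` in the formal vocabulary of `Formal14` (`G3s ℂ`, integer series through `toC`).
-/
import Mathlib
import Fermat.Agent.S16.EisLevel16
import Fermat.Agent.S16.Formal14

set_option autoImplicit false

open UpperHalfPlane CongruenceSubgroup PowerSeries
open scoped MatrixGroups

noncomputable section

namespace Fermat.Agent.S16.EisFormal16

open Fermat.Agent.S16.EisLevel16 Fermat.Agent.S16.Formal14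

/-- `σ^{(3)}` of `Formal14` is `sigmaN 3`. -/
theorem sigma3'_eq (m : ℕ) : ((sigma3' m : ℕ) : ℤ) = sigmaN 3 m := by
  rw [sigmaN_eq_sum, sigma3']
  push_cast
  rfl

theorem coeff_G3s (n : ℕ) : coeff n (G3s ℂ) = g3Coeff n := by
  rw [G3s, map_add, coeff_C_mul, phi3, coeff_mk, g3Coeff, coeff_one]
  rcases Nat.eq_zero_or_pos n with rfl | hn
  · rw [if_pos rfl, if_pos rfl]
    simp [sigma3']
  · rw [if_neg hn.ne', if_neg hn.ne', zero_add]
    have h := sigma3'_eq n
    have h' : ((sigma3' n : ℕ) : ℂ) = ((sigmaN 3 n : ℤ) : ℂ) := by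
      rw [← h]
      push_cast
      rfl
    rw [h']

/-- **The `q`-expansion of `G₃`** in `Formal14`'s vocabulary. -/
theorem qExpansion_G3 : UpperHalfPlane.qExpansion 1 ⇑G3 = G3s ℂ := by
  ext n
  rw [qExpansion_G3_coeff, coeff_G3s]

/-! ### `24 · Eis N` as a form with integer `q`-expansion -/

/-- `24 · Eis N = N E₂(N z) − E₂(z)`. -/
def Eis24 (N : ℕ) [NeZero N] : ModularForm (Gamma0 N) 2 := (24 : ℂ) • Eis N

theorem Eis24_apply (N : ℕ) [NeZero N] (z : ℍ) : Eis24 N z = 24 * Eis N z := rfl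

/-- The integer `q`-series of `24 · Eis N`: `(N − 1) + 24 Σ σ^{(N)}(k) q^k`. -/
def eis24s (N : ℕ) : ℤ⟦X⟧ :=
  PowerSeries.mk fun k => if k = 0 then (N : ℤ) - 1 else
    24 * ∑ d ∈ k.divisors.filter (fun d => ¬ N ∣ d), (d : ℤ)

theorem constantCoeff_eis24s (N : ℕ) : constantCoeff (eis24s N) = (N : ℤ) - 1 := by
  rw [← coeff_zero_eq_constantCoeff_apply, eis24s, coeff_mk, if_pos rfl]

theorem coeff_eis24s (N : ℕ) {k : ℕ} (hk : 1 ≤ k) :
    coeff k (eis24s N) = 24 * ∑ d ∈ k.divisors.filter (fun d => ¬ N ∣ d), (d : ℤ) := by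
  rw [eis24s, coeff_mk, if_neg (by omega)]

theorem coeff_toC_eis24s (N : ℕ) [NeZero N] (n : ℕ) :
    coeff n (toC (eis24s N)) = 24 * eisCoeff N n := by
  rw [toC, coeff_map, eis24s, coeff_mk]
  rcases Nat.eq_zero_or_pos n with rfl | hn
  · rw [if_pos rfl, eisCoeff_zero, eq_intCast]
    push_cast
    ring
  · rw [if_neg hn.ne', eisCoeff_of_ne_zero N hn.ne', sigmaN_eq_sum, eq_intCast]
    push_cast
    rfl

theorem hasSum_Eis24 (N : ℕ) [NeZero N] (z : ℍ) :
    HasSum (fun n : ℕ => (24 * eisCoeff N n) • Function.Periodic.qParam 1 (z : ℂ) ^ n)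
      (Eis24 N z) := by
  have h := (hasSum_Eis N z).mul_left (24 : ℂ)
  have hfun : (fun n : ℕ => (24 * eisCoeff N n) • Function.Periodic.qParam 1 (z : ℂ) ^ n) =
      fun i : ℕ => 24 * eisCoeff N i • Function.Periodic.qParam 1 (z : ℂ) ^ i := by
    funext n
    simp only [smul_eq_mul]
    ring
  rw [Eis24_apply, hfun]
  exact h

theorem qExpansion_Eis24_coeff (N : ℕ) [NeZero N] (n : ℕ) :
    (UpperHalfPlane.qExpansion 1 (Eis24 N)).coeff n = 24 * eisCoeff N n :=
  (ModularFormClass.qExpansion_coeff_unique one_pos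
    (CongruenceSubgroup.one_mem_strictPeriods_Gamma0 N) (f := Eis24 N)
    (fun τ => by simpa using hasSum_Eis24 N τ) n).symm

/-- **The `q`-expansion of `24 · Eis N` is the integer series `eis24s N`.** -/
theorem toC_eis24s (N : ℕ) [NeZero N] :
    toC (eis24s N) = UpperHalfPlane.qExpansion 1 ⇑(Eis24 N) := by
  ext n
  rw [coeff_toC_eis24s, qExpansion_Eis24_coeff]

/-! ### `G = 24 (Eis N − f)` for a cusp form `f` with integer coefficients -/

/-- For a cusp form `f` of level `N` whose higher `q`-coefficients are the integers `af k`, the form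
`G = 24 (Eis N − f) ∈ M₂(Γ₀(N))` has the integer `q`-expansion
`(N − 1) + Σ_{k ≥ 1} 24 (σ^{(N)}(k) − af k) q^k`. -/
theorem exists_form_of_cusp (N : ℕ) [NeZero N] (f : CuspForm (Gamma0 N) 2) (af : ℕ → ℤ)
    (haf : ∀ k, 1 ≤ k → ModularFormClass.qCoeff f k = (af k : ℂ)) :
    ∃ (G : ModularForm (Gamma0 N) 2) (Gs : ℤ⟦X⟧),
      toC Gs = UpperHalfPlane.qExpansion 1 ⇑G ∧ (∀ z, G z = 24 * (Eis N z - f z)) ∧
      constantCoeff Gs = (N : ℤ) - 1 ∧
      ∀ k, 1 ≤ k → coeff k Gs =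
        24 * (∑ d ∈ k.divisors.filter (fun d => ¬ N ∣ d), (d : ℤ) - af k) := by
  let Gs : ℤ⟦X⟧ := PowerSeries.mk fun k => if k = 0 then (N : ℤ) - 1 else
    24 * (∑ d ∈ k.divisors.filter (fun d => ¬ N ∣ d), (d : ℤ) - af k)
  let fM : ModularForm (Gamma0 N) 2 := CuspForm.toModularFormₗ f
  refine ⟨Eis24 N - (24 : ℂ) • fM, Gs, ?_, ?_, ?_, ?_⟩
  · have hΓ := CongruenceSubgroup.one_mem_strictPeriods_Gamma0 N
    have h1 : (⇑(Eis24 N - (24 : ℂ) • fM) : ℍ → ℂ) = ⇑(Eis24 N) - ⇑((24 : ℂ) • fM) := rfl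
    have h2 : (⇑((24 : ℂ) • fM) : ℍ → ℂ) = (24 : ℂ) • ⇑f := rfl
    rw [h1, ModularForm.qExpansion_sub one_pos hΓ (Eis24 N) ((24 : ℂ) • fM), h2,
      ModularForm.qExpansion_smul one_pos hΓ (24 : ℂ) f, ← toC_eis24s]
    ext n
    rw [map_sub, coeff_toC_eis24s, toC, coeff_map, coeff_mk, eq_intCast]
    rcases Nat.eq_zero_or_pos n with rfl | hn
    · have h0 : (UpperHalfPlane.qExpansion 1 ⇑f).coeff 0 = 0 :=
        CuspFormClass.qExpansion_coeff_zero f one_pos hΓ
      rw [if_pos rfl, eisCoeff_zero, PowerSeries.coeff_smul, h0]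
      push_cast
      ring
    · have hk : (UpperHalfPlane.qExpansion 1 ⇑f).coeff n = (af n : ℂ) := haf n hn
      rw [if_neg hn.ne', eisCoeff_of_ne_zero N hn.ne', sigmaN_eq_sum, PowerSeries.coeff_smul, hk]
      push_cast
      simp only [smul_eq_mul]
      ring
  · intro z
    show Eis24 N z - (24 : ℂ) • f z = _
    rw [Eis24_apply, smul_eq_mul]
    ring
  · rw [← coeff_zero_eq_constantCoeff_apply, coeff_mk, if_pos rfl]
  · intro k hk
    rw [coeff_mk, if_neg (by omega)]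

end Fermat.Agent.S16.EisFormal16
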