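/-
S16, upper bound: the EXPORT CONTRACTS (helper14).  The literal statements that chapters U2 (trace
package), U3 (norms) + U4 (Sturm) have to deliver, in the shapes of the hypotheses of the targets of
`Formal14`, and the assembly U7a: exports + targets ⇒ the six non-existence statements for forms
`g ∈ M_2(Γ0(p))` with integer `q`-expansion.

`IntQ g a` : `a : ℕ → ℤ` is the `q`-expansion of `g`.  Series: `G = mk a`, `G' = Up p G`, `c = a 0`.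
-/
import Mathlib
import Fermat.Agent.S16.Formal14

set_option autoImplicit false

open PowerSeries UpperHalfPlane CongruenceSubgroup
open scoped MatrixGroups

namespace Fermat.Agent.S16.Export14

open Fermat.Agent.S16.Formal14

noncomputable section

/-- `a` is the (integer) `q`-expansion of `g`. -/
def IntQ {N : ℕ} (g : ModularForm (Gamma0 N) 2) (a : ℕ → ℤ) : Prop :=
  ∀ k, (qExpansion 1 g).coeff k = ((a k : ℤ) : ℂ)

/-- **U2**: the trace package of a form with integer `q`-expansion. -/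
def Export_Pkg : Prop :=
  ∀ (p : ℕ), p.Prime → ∀ (g : ModularForm (Gamma0 p) 2) (a : ℕ → ℤ), IntQ g a →
    ∃ P : Pkg p, P.G = PowerSeries.mk a

/-- **U3 + U4**, `h = G² - c² E4` (weight 4). -/
def Export_norm4 : Prop :=
  ∀ (p : ℕ) (hp : p.Prime) (g : ModularForm (Gamma0 p) 2) (a : ℕ → ℤ), IntQ g a →
    ∃ (ζ : ℂ) (n : ℂ⟦X⟧), IsPrimitiveRoot ζ p ∧ SturmProp (4 * (p + 1)) n ∧
      expand p hp.ne_zero n =
        expand p hp.ne_zero (toC ((PowerSeries.mk a) ^ 2 - C ((a 0) ^ 2) * E4s ℤ)) *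
          ∏ j ∈ Finset.range p,
            (C (((p : ℂ))⁻¹ ^ 2) * (rescale (ζ ^ j) (toC (Up p (PowerSeries.mk a)))) ^ 2
              - C (((a 0 : ℤ) : ℂ) ^ 2) * expand p hp.ne_zero (E4s ℂ))

/-- **U3 + U4**, `h = G³ - c³ E6` (weight 6). -/
def Export_norm6 : Prop :=
  ∀ (p : ℕ) (hp : p.Prime) (g : ModularForm (Gamma0 p) 2) (a : ℕ → ℤ), IntQ g a →
    ∃ (ζ : ℂ) (n : ℂ⟦X⟧), IsPrimitiveRoot ζ p ∧ SturmProp (6 * (p + 1)) n ∧
      expand p hp.ne_zero n =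
        expand p hp.ne_zero (toC ((PowerSeries.mk a) ^ 3 - C ((a 0) ^ 3) * E6s ℤ)) *
          ∏ j ∈ Finset.range p,
            (C ((-((p : ℂ))⁻¹) ^ 3) * (rescale (ζ ^ j) (toC (Up p (PowerSeries.mk a)))) ^ 3
              - C (((a 0 : ℤ) : ℂ) ^ 3) * expand p hp.ne_zero (E6s ℂ))

/-- **U3 + U4**, `h = (G E4 - c E6)/3` (weight 6). -/
def Export_norm6' : Prop :=
  ∀ (p : ℕ) (hp : p.Prime) (g : ModularForm (Gamma0 p) 2) (a : ℕ → ℤ), IntQ g a →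
    ∃ (ζ : ℂ) (n : ℂ⟦X⟧), IsPrimitiveRoot ζ p ∧ SturmProp (6 * (p + 1)) n ∧
      expand p hp.ne_zero n =
        (C ((3 : ℂ))⁻¹ * expand p hp.ne_zero
            (toC (PowerSeries.mk a * E4s ℤ - C (a 0) * E6s ℤ))) *
          ∏ j ∈ Finset.range p,
            (C ((3 : ℂ))⁻¹ * (C (-((p : ℂ))⁻¹) * rescale (ζ ^ j) (toC (Up p (PowerSeries.mk a))) *
                expand p hp.ne_zero (E4s ℂ) - C ((a 0 : ℤ) : ℂ) * expand p hp.ne_zero (E6s ℂ)))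

/-- **U3 + U4 + U5**, the double family `(G|γ - c G_3|δ)/8` (weight `8 (p+1)`). -/
def Export_dnorm : Prop :=
  ∀ (p : ℕ) (hp : p.Prime), p ≠ 3 → ∀ (g : ModularForm (Gamma0 p) 2) (a : ℕ → ℤ), IntQ g a →
    ∃ (ζ ω : ℂ) (n : ℂ⟦X⟧), IsPrimitiveRoot ζ p ∧ IsPrimitiveRoot ω 3 ∧
      SturmProp (8 * (p + 1)) n ∧
      (let h3 : (3 : ℕ) ≠ 0 := by norm_num
       let h3p : 3 * p ≠ 0 := Nat.mul_ne_zero h3 hp.ne_zero
       let Ainf : ℂ⟦X⟧ := expand (3 * p) h3p (toC (PowerSeries.mk a))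
       let A : ℕ → ℂ⟦X⟧ := fun j =>
         C (-((p : ℂ))⁻¹) * expand 3 h3 (rescale (ζ ^ j) (toC (Up p (PowerSeries.mk a))))
       let Binf : ℂ⟦X⟧ := C ((a 0 : ℤ) : ℂ) * expand (3 * p) h3p (G3s ℂ)
       let B : ℕ → ℂ⟦X⟧ := fun i =>
         C (((a 0 : ℤ) : ℂ) * (-((3 : ℂ))⁻¹)) * expand p hp.ne_zero (rescale (ω ^ i) (G3s ℂ))
       expand (3 * p) h3p n =
         (C ((8 : ℂ))⁻¹ * (Ainf - Binf)) *
         (∏ j ∈ Finset.range p, C ((8 : ℂ))⁻¹ * (A j - Binf)) *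
         (∏ i ∈ Finset.range 3, C ((8 : ℂ))⁻¹ * (Ainf - B i)) *
         (∏ j ∈ Finset.range p, ∏ i ∈ Finset.range 3, C ((8 : ℂ))⁻¹ * (A j - B i)))

/-! ### U7a: the six non-existence statements for forms with integer `q`-expansion -/

/-- "`g ≡ c mod ℓ^e`" for a form with integer `q`-expansion `a`, `c = a 0 = ℓ^v u`. -/
def CongForm (ℓ : ℕ) (a : ℕ → ℤ) (v e : ℕ) (u : ℤ) : Prop :=
  a 0 = (ℓ : ℤ) ^ v * u ∧ ¬ (ℓ : ℤ) ∣ u ∧ ∀ k, 1 ≤ k → ((ℓ : ℤ) ^ (v + e)) ∣ a k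

theorem pkg_facts {p : ℕ} {a : ℕ → ℤ} {P : Pkg p} (h : P.G = PowerSeries.mk a) :
    P.c = a 0 ∧ P.G' = Up p (PowerSeries.mk a) := by
  refine ⟨?_, ?_⟩
  · rw [← P.constG, h]
    simp
  · rw [← P.Up_G, h]

theorem cong_of_congForm {p ℓ : ℕ} {a : ℕ → ℤ} {P : Pkg p} (h : P.G = PowerSeries.mk a)
    {v e : ℕ} {u : ℤ} (hc : CongForm ℓ a v e u) : P.Cong ℓ (v + e) := by
  intro k hk
  rw [h, coeff_mk]
  exact hc.2.2 k hk

variable (hPkg : Export_Pkg)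

include hPkg

/-- (N_p) for forms. -/
theorem nform_Np (hT : Target_Np) (p : ℕ) (hp : p.Prime) (h7 : 7 ≤ p)
    (g : ModularForm (Gamma0 p) 2) (a : ℕ → ℤ) (ha : IntQ g a) (hc : ¬ (p : ℤ) ∣ a 0)
    (hk : ∀ k, 1 ≤ k → (p : ℤ) ∣ a k) : False := by
  obtain ⟨P, hP⟩ := hPkg p hp g a ha
  refine hT p hp h7 P (by rw [(pkg_facts hP).1]; exact hc) ?_
  intro k hk1
  rw [hP, coeff_mk, pow_one]
  exact hk k hk1

/-- (N_l) first case and (N_3b) for forms. -/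
theorem nform_Nl_A (hT : Target_Nl_A) (p ℓ : ℕ) (hp : p.Prime) (hℓ : ℓ.Prime) (h3 : 3 ≤ ℓ)
    (hne : ℓ ≠ p) (hnd : ¬ ℓ ∣ p + 1) (g : ModularForm (Gamma0 p) 2) (a : ℕ → ℤ) (ha : IntQ g a)
    (v : ℕ) (u : ℤ) (hc : CongForm ℓ a v 1 u) : False := by
  obtain ⟨P, hP⟩ := hPkg p hp g a ha
  exact hT p ℓ hp hℓ h3 hne hnd P v u (by rw [(pkg_facts hP).1]; exact hc.1) hc.2.1
    (cong_of_congForm hP hc)

/-- (N_3a), `3 ∥ p + 1`, for forms. -/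
theorem nform_N3a_one (hT : Target_N3a_one) (p : ℕ) (hp : p.Prime) (h3 : 3 ∣ p + 1)
    (h9 : ¬ 9 ∣ p + 1) (g : ModularForm (Gamma0 p) 2) (a : ℕ → ℤ) (ha : IntQ g a)
    (v : ℕ) (u : ℤ) (hc : CongForm 3 a v 2 u) : False := by
  obtain ⟨P, hP⟩ := hPkg p hp g a ha
  exact hT p hp h3 h9 P v u (by rw [(pkg_facts hP).1]; exact_mod_cast hc.1)
    (by exact_mod_cast hc.2.1) (by simpa using cong_of_congForm hP hc)

/-- (N_2b) for forms. -/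
theorem nform_N2b (hT : Target_N2b) (p : ℕ) (hp : p.Prime) (h4 : p % 4 = 1)
    (g : ModularForm (Gamma0 p) 2) (a : ℕ → ℤ) (ha : IntQ g a)
    (v : ℕ) (u : ℤ) (hc : CongForm 2 a v 2 u) : False := by
  obtain ⟨P, hP⟩ := hPkg p hp g a ha
  exact hT p hp h4 P v u (by rw [(pkg_facts hP).1]; exact_mod_cast hc.1)
    (by exact_mod_cast hc.2.1) (by simpa using cong_of_congForm hP hc)

/-- (N_l), `ℓ ≥ 7`, `ℓ ∣ p + 1`, for forms. -/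
theorem nform_Nl_B7 (hT : Target_Nl_B7) (hL : Target_LocalData) (hN : Export_norm4)
    (p ℓ : ℕ) (hp : p.Prime) (hℓ : ℓ.Prime) (h7 : 7 ≤ ℓ) (hd : ℓ ∣ p + 1)
    (g : ModularForm (Gamma0 p) 2) (a : ℕ → ℤ) (ha : IntQ g a)
    (hc : ¬ (ℓ : ℤ) ∣ a 0) (hk : ∀ k, 1 ≤ k → (ℓ : ℤ) ∣ a k) : False := by
  obtain ⟨P, hP⟩ := hPkg p hp g a ha
  obtain ⟨L⟩ := hL ℓ hℓ
  obtain ⟨ζ, n, hζ, hn, hprod⟩ := hN p hp g a ha
  obtain ⟨h1, h2⟩ := pkg_facts hP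
  refine hT p ℓ hp hℓ h7 hd L P (by rw [h1]; exact hc) ?_ ζ hζ n hn ?_
  · intro k hk1
    rw [hP, coeff_mk, pow_one]
    exact hk k hk1
  · rw [hP, h1, h2]
    exact hprod

/-- (N_l), `ℓ = 5 ∣ p + 1`, for forms. -/
theorem nform_Nl_B5 (hT : Target_Nl_B5) (hL : Target_LocalData) (hN : Export_norm6)
    (p : ℕ) (hp : p.Prime) (hd : 5 ∣ p + 1)
    (g : ModularForm (Gamma0 p) 2) (a : ℕ → ℤ) (ha : IntQ g a)
    (hc : ¬ (5 : ℤ) ∣ a 0) (hk : ∀ k, 1 ≤ k → (5 : ℤ) ∣ a k) : False := by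
  obtain ⟨P, hP⟩ := hPkg p hp g a ha
  obtain ⟨L⟩ := hL 5 (by norm_num)
  obtain ⟨ζ, n, hζ, hn, hprod⟩ := hN p hp g a ha
  obtain ⟨h1, h2⟩ := pkg_facts hP
  refine hT p hp hd L P (by rw [h1]; exact hc) ?_ ζ hζ n hn ?_
  · intro k hk1
    rw [hP, coeff_mk]
    simpa using hk k hk1
  · rw [hP, h1, h2]
    exact hprod

/-- (N_3a), `9 ∣ p + 1`, for forms. -/
theorem nform_N3a_nine (hT : Target_N3a_nine) (hL : Target_LocalData) (hN : Export_norm6')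
    (p : ℕ) (hp : p.Prime) (hd : 9 ∣ p + 1)
    (g : ModularForm (Gamma0 p) 2) (a : ℕ → ℤ) (ha : IntQ g a)
    (hc : ¬ (3 : ℤ) ∣ a 0) (hk : ∀ k, 1 ≤ k → (9 : ℤ) ∣ a k) : False := by
  obtain ⟨P, hP⟩ := hPkg p hp g a ha
  obtain ⟨L⟩ := hL 3 (by norm_num)
  obtain ⟨ζ, n, hζ, hn, hprod⟩ := hN p hp g a ha
  obtain ⟨h1, h2⟩ := pkg_facts hP
  refine hT p hp hd L P (by rw [h1]; exact hc) ?_ ζ hζ n hn ?_
  · intro k hk1
    rw [hP, coeff_mk]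
    have := hk k hk1
    norm_num
    exact this
  · rw [hP, h1, h2]
    exact hprod

/-- (N_2a) for forms: `p ≡ 3 mod 4`, `p ≠ 3`, `a 0 = 2u`, `u` odd, `16 ∣ a k`. -/
theorem nform_N2a (hT : Target_N2a) (hL : Target_LocalData) (hN : Export_dnorm)
    (p : ℕ) (hp : p.Prime) (h4 : p % 4 = 3) (hp3 : p ≠ 3)
    (g : ModularForm (Gamma0 p) 2) (a : ℕ → ℤ) (ha : IntQ g a)
    (u : ℤ) (hc : a 0 = 2 * u) (hu : ¬ (2 : ℤ) ∣ u) (hk : ∀ k, 1 ≤ k → (16 : ℤ) ∣ a k) :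
    False := by
  obtain ⟨P, hP⟩ := hPkg p hp g a ha
  obtain ⟨L⟩ := hL 2 (by norm_num)
  obtain ⟨ζ, ω, n, hζ, hω, hn, hprod⟩ := hN p hp hp3 g a ha
  obtain ⟨h1, h2⟩ := pkg_facts hP
  refine hT p hp h4 hp3 L P u (by rw [h1]; exact hc) hu ?_ ζ ω hζ hω n hn ?_
  · intro k hk1
    rw [hP, coeff_mk]
    have := hk k hk1
    norm_num
    exact this
  · rw [hP, h1, h2]
    exact hprod

end

end Fermat.Agent.S16.Export14
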