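/-
S16 chapter U4 (helper3): Sturm's bound at level one "modulo an additive subgroup".

If `f ∈ M_k(SL₂(ℤ))` and `M ⊆ ℂ` is an additive subgroup containing the `q`-expansion
coefficients `a_n(f)` for all `n ≤ k / 12`, then `M` contains all the coefficients of `f`.
(Equivalently: the Victor Miller basis has integer coefficients.)
-/
import Mathlib.NumberTheory.ModularForms.LevelOne.DimensionFormula
import Fermat.Agent.X0.JQExp

set_option autoImplicit false

noncomputable section

namespace Fermat.Agent.S16.SturmMod3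

open UpperHalfPlane ModularForm ModularFormClass EisensteinSeries
open scoped MatrixGroups

local notation "𝕢" => Function.Periodic.qParam

/-- Cast of an integer power series to `ℂ`. -/
def castPS (A : PowerSeries ℤ) : PowerSeries ℂ := A.map (Int.castRingHom ℂ)

@[simp] theorem coeff_castPS (A : PowerSeries ℤ) (n : ℕ) :
    (castPS A).coeff n = ((A.coeff n : ℤ) : ℂ) := by
  simp [castPS]

theorem castPS_mul (A B : PowerSeries ℤ) : castPS (A * B) = castPS A * castPS B := by
  simp [castPS]

theorem castPS_one : castPS 1 = 1 := by simp [castPS]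

/-- Multiplying by an integral power series preserves "the first `N + 1` coefficients lie in
the additive subgroup `M`". -/
theorem coeff_int_mul_mem (M : AddSubgroup ℂ) (A : PowerSeries ℤ) (Q : PowerSeries ℂ) (N : ℕ)
    (hQ : ∀ n ≤ N, Q.coeff n ∈ M) : ∀ n ≤ N, (castPS A * Q).coeff n ∈ M := by
  intro n hn
  rw [PowerSeries.coeff_mul]
  refine M.sum_mem fun x hx => ?_
  have hx2 : x.2 ≤ N := by
    have := Finset.HasAntidiagonal.mem_antidiagonal.mp hx
    omega
  rw [coeff_castPS, ← zsmul_eq_mul]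
  exact M.zsmul_mem (hQ _ hx2) _

theorem coeff_int_mul_mem_all (M : AddSubgroup ℂ) (A : PowerSeries ℤ) (Q : PowerSeries ℂ)
    (hQ : ∀ n, Q.coeff n ∈ M) : ∀ n, (castPS A * Q).coeff n ∈ M := fun n =>
  coeff_int_mul_mem M A Q n (fun m _ => hQ m) n le_rfl

/-! ### The `q`-expansion of `Δ` -/

theorem qExpansion_discriminant :
    qExpansion 1 ModularForm.discriminant
      = PowerSeries.X * castPS ModularCurve.dedekindEtaUnit := by
  ext n
  have key : ∀ τ : ℍ, HasSum (fun m : ℕ =>
      (PowerSeries.X * castPS ModularCurve.dedekindEtaUnit).coeff m • 𝕢 (1 : ℝ) τ ^ m)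
      (CuspForm.discriminant τ) := by
    intro τ
    have h := X0.JQExp.hasSum_discriminant τ
    rw [← hasSum_nat_add_iff' 1]
    simp only [Finset.range_one, Finset.sum_singleton, PowerSeries.coeff_zero_X_mul,
      PowerSeries.coeff_succ_X_mul, coeff_castPS, smul_eq_mul, zero_mul, sub_zero]
    exact h
  have := ModularFormClass.qExpansion_coeff_unique (f := CuspForm.discriminant) one_pos
    one_mem_strictPeriods_SL key n
  rw [this]
  rfl

/-! ### Integral `q`-expansions of `E₄`, `E₆` -/

open scoped ArithmeticFunction.sigma in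
/-- The integral `q`-expansion of `E₄`. -/
def e4 : PowerSeries ℤ := PowerSeries.mk fun n => if n = 0 then 1 else 240 * (σ 3 n : ℤ)

open scoped ArithmeticFunction.sigma in
/-- The integral `q`-expansion of `E₆`. -/
def e6 : PowerSeries ℤ := PowerSeries.mk fun n => if n = 0 then 1 else -504 * (σ 5 n : ℤ)

theorem constantCoeff_e4 : PowerSeries.constantCoeff e4 = 1 := by
  rw [← PowerSeries.coeff_zero_eq_constantCoeff]; simp [e4]

theorem constantCoeff_e6 : PowerSeries.constantCoeff e6 = 1 := by
  rw [← PowerSeries.coeff_zero_eq_constantCoeff]; simp [e6]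

theorem qExpansion_E₄ : qExpansion 1 E₄ = castPS e4 := by
  ext n
  rw [E_qExpansion_coeff _ ⟨2, rfl⟩, coeff_castPS, e4, PowerSeries.coeff_mk]
  split_ifs with h
  · simp
  · norm_num [show bernoulli 4 = -1 / 30 by decide +kernel]

theorem qExpansion_E₆ : qExpansion 1 E₆ = castPS e6 := by
  ext n
  rw [E_qExpansion_coeff _ ⟨3, rfl⟩, coeff_castPS, e6, PowerSeries.coeff_mk]
  split_ifs with h
  · simp
  · norm_num [show bernoulli 6 = 1 / 42 by decide +kernel]

/-! ### Integral forms with constant term `1` in every even weight `≠ 2` -/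

theorem exists_intMonic (k : ℕ) (hk : Even k) (hk2 : k ≠ 2) :
    ∃ B : ModularForm 𝒮ℒ (k : ℤ), ∃ b : PowerSeries ℤ,
      qExpansion 1 B = castPS b ∧ PowerSeries.constantCoeff b = 1 := by
  induction k using Nat.strong_induction_on with | _ k ih =>
  rcases Nat.lt_or_ge k 8 with h8 | h8
  · obtain ⟨m, rfl⟩ := hk
    have hm : m = 0 ∨ m = 2 ∨ m = 3 := by omega
    rcases hm with rfl | rfl | rfl
    · refine ⟨ModularForm.mcast (by simp) (1 : ModularForm 𝒮ℒ 0), 1, ?_, by simp⟩
      rw [castPS_one, ← ModularForm.qExpansion_one (Γ := 𝒮ℒ) (h := 1)]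
      rfl
    · exact ⟨E₄, e4, qExpansion_E₄, constantCoeff_e4⟩
    · exact ⟨E₆, e6, qExpansion_E₆, constantCoeff_e6⟩
  · obtain ⟨B', b', hB', hb'⟩ := ih (k - 4) (by omega)
      (by rcases hk with ⟨m, rfl⟩; exact ⟨m - 2, by omega⟩) (by omega)
    refine ⟨ModularForm.mcast (by push_cast [Nat.cast_sub (show 4 ≤ k by omega)]; ring)
      (E₄.mul B'), e4 * b', ?_, by simp [constantCoeff_e4, hb']⟩
    rw [castPS_mul, ← qExpansion_E₄, ← hB',
      ← ModularForm.qExpansion_mul one_pos one_mem_strictPeriods_SL E₄ B']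
    rfl

/-! ### Sturm's bound modulo an additive subgroup -/

theorem castPS_dedekindEtaUnitInv_mul :
    castPS ModularCurve.dedekindEtaUnitInv * castPS ModularCurve.dedekindEtaUnit = 1 := by
  rw [← castPS_mul, mul_comm, ModularCurve.dedekindEtaUnit_mul_inv, castPS_one]

/-- **Sturm's bound at level one modulo an additive subgroup.** If the `q`-expansion coefficients
`a_n(f)`, `n ≤ k / 12`, of `f ∈ M_k(SL₂(ℤ))` lie in an additive subgroup `M ⊆ ℂ`, then all
coefficients of `f` lie in `M`. -/
theorem sturm_addSubgroup (M : AddSubgroup ℂ) (k : ℕ) (f : ModularForm 𝒮ℒ (k : ℤ))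
    (h : ∀ n ≤ k / 12, (qExpansion 1 f).coeff n ∈ M) : ∀ n, (qExpansion 1 f).coeff n ∈ M := by
  induction k using Nat.strong_induction_on with | _ k ih =>
  by_cases hodd : Odd k
  · have hf : f = 0 := levelOne_odd_weight_eq_zero (by exact_mod_cast hodd) f
    subst hf
    intro n
    simp [qExpansion_zero]
  by_cases h2 : k = 2
  · subst h2
    have hf : f = 0 := rank_zero_iff_forall_zero.mp levelOne_weight_two_rank_zero f
    subst hf
    intro n
    simp [qExpansion_zero]
  have hev : Even k := Nat.not_odd_iff_even.mp hodd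
  obtain ⟨B, b, hB, hb⟩ := exists_intMonic k hev h2
  set a0 : ℂ := (qExpansion 1 f).coeff 0 with ha0def
  have ha0 : a0 ∈ M := h 0 (Nat.zero_le _)
  obtain ⟨g, hgdef⟩ : ∃ g : ModularForm 𝒮ℒ (k : ℤ), g = f - a0 • B := ⟨_, rfl⟩
  have hgq : qExpansion 1 g = qExpansion 1 f - a0 • castPS b := by
    rw [hgdef, FunLike.coe_sub, ModularForm.qExpansion_sub one_pos one_mem_strictPeriods_SL,
      FunLike.coe_smul, ModularForm.qExpansion_smul one_pos one_mem_strictPeriods_SL, hB]
  have hg0 : (qExpansion 1 g).coeff 0 = 0 := by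
    rw [hgq, map_sub, PowerSeries.coeff_smul, coeff_castPS,
      PowerSeries.coeff_zero_eq_constantCoeff_apply b, hb]
    simp [ha0def]
  have hBM : ∀ n, (a0 • castPS b).coeff n ∈ M := by
    intro n
    rw [PowerSeries.coeff_smul, coeff_castPS, smul_eq_mul, mul_comm, ← zsmul_eq_mul]
    exact M.zsmul_mem ha0 _
  obtain ⟨f1, hf1def⟩ : ∃ f1 : ModularForm 𝒮ℒ ((k : ℤ) - 12),
      f1 = CuspForm.discriminantEquiv (toCuspForm g hg0) := ⟨_, rfl⟩
  have hfac : qExpansion 1 g
      = PowerSeries.X * (castPS ModularCurve.dedekindEtaUnit * qExpansion 1 f1) := by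
    rw [qExpansion_eq_qExpansion_discriminant_mul g hg0, qExpansion_discriminant,
      mul_assoc, hf1def]
  suffices hf1 : ∀ n, (qExpansion 1 f1).coeff n ∈ M by
    intro n
    have hsplit : (qExpansion 1 f).coeff n
        = (qExpansion 1 g).coeff n + (a0 • castPS b).coeff n := by
      rw [hgq, map_sub, sub_add_cancel]
    rw [hsplit]
    refine M.add_mem ?_ (hBM n)
    rw [hfac]
    cases n with
    | zero => simp
    | succ n =>
      rw [PowerSeries.coeff_succ_X_mul]
      exact coeff_int_mul_mem_all M _ _ hf1 n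
  rcases Nat.lt_or_ge k 12 with hk | hk
  · have hz : f1 = 0 :=
      rank_zero_iff_forall_zero.mp (levelOne_neg_weight_rank_zero (by omega)) f1
    rw [hz]
    intro n
    simp [qExpansion_zero]
  · have hcast : ((k : ℤ) - 12) = ((k - 12 : ℕ) : ℤ) := by omega
    have hshift : qExpansion 1 f1 = castPS ModularCurve.dedekindEtaUnitInv *
        (PowerSeries.mk fun j => (qExpansion 1 g).coeff (j + 1)) := by
      have h1 : (PowerSeries.mk fun j => (qExpansion 1 g).coeff (j + 1))
          = castPS ModularCurve.dedekindEtaUnit * qExpansion 1 f1 := by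
        ext j
        rw [PowerSeries.coeff_mk, hfac, PowerSeries.coeff_succ_X_mul]
      rw [h1, ← mul_assoc, castPS_dedekindEtaUnitInv_mul, one_mul]
    have hlow : ∀ n ≤ (k - 12) / 12, (qExpansion 1 f1).coeff n ∈ M := by
      rw [hshift]
      refine coeff_int_mul_mem M _ _ _ fun j hj => ?_
      rw [PowerSeries.coeff_mk, hgq, map_sub]
      refine M.sub_mem (h _ ?_) (hBM _)
      omega
    have := ih (k - 12) (by omega) (ModularForm.mcast hcast f1) hlow
    exact this

/-- `sturm_addSubgroup` for an integer weight equal to a natural number. -/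
theorem sturm_addSubgroup_of_eq (M : AddSubgroup ℂ) {k : ℤ} {K : ℕ} (hk : k = K)
    (f : ModularForm 𝒮ℒ k) (h : ∀ n ≤ K / 12, (qExpansion 1 f).coeff n ∈ M) :
    ∀ n, (qExpansion 1 f).coeff n ∈ M := by
  subst hk
  exact sturm_addSubgroup M K f h

/-- **(ST)** in the shape of `Formal14.SturmProp K (qExpansion 1 f)`: for every subring `R ⊆ ℂ` and
ideal `𝔪 ⊆ R`, if all coefficients of `f ∈ M_K(SL₂(ℤ))` lie in `R` and those of index `≤ K / 12`
lie in `𝔪`, then all coefficients lie in `𝔪`. (The hypothesis on `R` is not even needed.) -/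
theorem sturm_subring {k : ℤ} {K : ℕ} (hk : k = K) (f : ModularForm 𝒮ℒ k) :
    ∀ (R : Subring ℂ) (m : Ideal R), (∀ n, (qExpansion 1 f).coeff n ∈ R) →
      (∀ n, 12 * n ≤ K → ∃ r : R, r ∈ m ∧ (r : ℂ) = (qExpansion 1 f).coeff n) →
      ∀ n, ∃ r : R, r ∈ m ∧ (r : ℂ) = (qExpansion 1 f).coeff n := by
  intro R m _ hlow
  have key := sturm_addSubgroup_of_eq (m.toAddSubgroup.map R.subtype.toAddMonoidHom) hk f ?_
  · intro n
    obtain ⟨r, hr, hr'⟩ := key n
    exact ⟨r, hr, hr'⟩
  · intro n hn
    obtain ⟨r, hr, hr'⟩ := hlow n (by omega)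
    exact ⟨r, hr, hr'⟩

end Fermat.Agent.S16.SturmMod3
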