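/-
S16 chapter U4 (helper3): `(ST)` in the literal shape of helper14's interface `Formal14.SturmProp`.
-/
import Fermat.Agent.S16.Formal14
import Fermat.Agent.S16.SturmMod3

set_option autoImplicit false

namespace Fermat.Agent.S16.SturmProp3

open UpperHalfPlane
open scoped MatrixGroups

/-- The `q`-expansion of a level-one modular form of weight `K` satisfies `SturmProp K`. -/
theorem sturmProp_qExpansion {k : ℤ} {K : ℕ} (hk : k = K) (f : ModularForm 𝒮ℒ k) :
    Formal14.SturmProp K (qExpansion 1 f) :=
  SturmMod3.sturm_subring hk f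

/-- Natural-number weight version. -/
theorem sturmProp_qExpansion_nat (K : ℕ) (f : ModularForm 𝒮ℒ (K : ℤ)) :
    Formal14.SturmProp K (qExpansion 1 f) :=
  SturmMod3.sturm_subring rfl f

end Fermat.Agent.S16.SturmProp3
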