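/-
Program M (S16, Mazur), brick U3e (double-family export) / helper11:
`export_dnorm : Export14.Export_dnorm`, on the `IsQExp` route
(`DNormN2a11.exists_norm_N2a_quotientFunc` + the explicit conjugate series of `ConjQExp11`).
-/
import Mathlib
import Fermat.Agent.S16.Export14
import Fermat.Agent.S16.CosetP1
import Fermat.Agent.S16.EisFormal16
import Fermat.Agent.S16.SturmProp3
import Fermat.Agent.S16.DNormN2a11
import Fermat.Agent.S16.ConjQExp11

set_option autoImplicit false

open UpperHalfPlane ModularForm CongruenceSubgroup PowerSeries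
open scoped MatrixGroups Manifold
open ModularGroup (S T)

noncomputable section

namespace Fermat.Agent.S16.ExportDNorm11

open Fermat.Agent.X0 Fermat.Agent.S16.Formal14 Fermat.Agent.S16.Export14
open Fermat.Agent.S16.CosetP1 Fermat.Agent.S16.ConjQExp11 Fermat.Agent.S16.DNormN2a11
open Fermat.Agent.S16.EisLevel16 Fermat.Agent.S16.EisFormal16

/-- the `q`-expansion of a form with integer `q`-expansion `a`. -/
theorem qExpansion_eq_toC {N : ℕ} {g : ModularForm (Gamma0 N) 2} {a : ℕ → ℤ} (ha : IntQ g a) :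
    qExpansion 1 g = toC (PowerSeries.mk a) := by
  ext n
  rw [ha n]
  simp [toC]

/-- the `q`-expansion of `U_p g`. -/
theorem mk_coeff_mul_eq_toC_Up {N : ℕ} {g : ModularForm (Gamma0 N) 2} {a : ℕ → ℤ}
    (ha : IntQ g a) (p : ℕ) :
    (PowerSeries.mk fun n => (qExpansion 1 g).coeff (p * n)) = toC (Up p (PowerSeries.mk a)) := by
  ext n
  rw [coeff_mk, ha (p * n)]
  simp [toC]

/-- `U_3 G_3 = G_3` on `q`-expansions. -/
theorem mk_coeff_three_mul_G3 :
    (PowerSeries.mk fun n => (qExpansion 1 G3).coeff (3 * n)) = G3s ℂ := by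
  ext n
  rw [coeff_mk, qExpansion_G3_coeff, coeff_G3s, g3Coeff, g3Coeff]
  rcases Nat.eq_zero_or_pos n with rfl | hn
  · simp
  · rw [if_neg (by omega), if_neg (by omega), sigmaN_mul_prime Nat.prime_three]

/-- change of the level parameter along an equality. -/
theorem isQExp_congr_level {h h' : ℕ} (e : h = h') {f : ℍ → ℂ} {m m' : ℕ} (em : m = m')
    {P : ℂ⟦X⟧} (H : IsQExp h f m P) : IsQExp h' f m' P := by
  subst e; subst em; exact H

/-- **U3e**: the double-family export. -/
theorem export_dnorm : Export_dnorm := by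
  intro p hp hp3 g a ha
  haveI : Fact p.Prime := ⟨hp⟩
  haveI : NeZero p := ⟨hp.ne_zero⟩
  haveI : Fact (Nat.Prime 3) := ⟨Nat.prime_three⟩
  have h3p : 3 * p ≠ 0 := Nat.mul_ne_zero (by norm_num) hp.ne_zero
  haveI : NeZero (3 * p) := ⟨h3p⟩
  -- the four families of expansions
  have hAinf : IsQExp (3 * p) (SlashInvariantForm.quotientFunc g (cosetEquiv p none)) 0
      (expand (3 * p) h3p (toC (PowerSeries.mk a))) := by
    have e : SlashInvariantForm.quotientFunc (ℋ := 𝒮ℒ) g (cosetEquiv p none) = ⇑g :=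
      quotientFunc_cosetMap_none p g
    rw [e]
    have h := (isQExp_Gamma0 g).level_mul (3 * p)
    rw [qExpansion_eq_toC ha] at h
    exact isQExp_congr_level (one_mul _) (zero_mul _) h
  have hA : ∀ j : ZMod p, IsQExp (3 * p)
      (SlashInvariantForm.quotientFunc g (cosetEquiv p (some j))) 0
      (C (-((p : ℂ))⁻¹) * expand 3 (by norm_num)
        (rescale (zetaN p ^ j.val) (toC (Up p (PowerSeries.mk a))))) := by
    intro j
    rw [quotientFunc_cosetEquiv p g (some j), rep_some, S_mul_T_zpow_val]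
    have h := (isQExp_conj g j.val).level_mul 3
    rw [mk_coeff_mul_eq_toC_Up ha p, map_mul] at h
    have h' := isQExp_congr_level (mul_comm p 3) (zero_mul 3) h
    convert h' using 2
    exact (PowerSeries.expand_C 3 (by norm_num) _).symm
  have hBinf : IsQExp (3 * p) (SlashInvariantForm.quotientFunc G3 (cosetEquiv 3 none)) 0
      (expand (3 * p) h3p (G3s ℂ)) := by
    have e : SlashInvariantForm.quotientFunc (ℋ := 𝒮ℒ) G3 (cosetEquiv 3 none) = ⇑G3 :=
      quotientFunc_cosetMap_none 3 G3
    rw [e]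
    have h := (isQExp_Gamma0 G3).level_mul (3 * p)
    rw [qExpansion_G3] at h
    exact isQExp_congr_level (one_mul _) (zero_mul _) h
  have hB : ∀ i : ZMod 3, IsQExp (3 * p)
      (SlashInvariantForm.quotientFunc G3 (cosetEquiv 3 (some i))) 0
      (C (-((3 : ℂ))⁻¹) * expand p hp.ne_zero (rescale (zetaN 3 ^ i.val) (G3s ℂ))) := by
    intro i
    rw [quotientFunc_cosetEquiv 3 G3 (some i), rep_some, S_mul_T_zpow_val]
    have h := (isQExp_conj G3 i.val).level_mul p
    rw [mk_coeff_three_mul_G3, map_mul] at h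
    have h' := isQExp_congr_level (rfl : 3 * p = 3 * p) (zero_mul p) h
    convert h' using 2
    rw [PowerSeries.expand_C]
    norm_num
  obtain ⟨ν, hν⟩ := exists_norm_N2a_quotientFunc p hp g G3 (cosetEquiv p) (cosetEquiv 3) (a 0)
    (PowerSeries.mk a) (Up p (PowerSeries.mk a)) (zetaN p) (zetaN 3) h3p hAinf hA hBinf hB
  exact ⟨zetaN p, zetaN 3, qExpansion 1 ν, isPrimitiveRoot_zetaN hp.ne_zero,
    isPrimitiveRoot_zetaN (by norm_num), SturmProp3.sturmProp_qExpansion_nat _ ν, hν⟩

end Fermat.Agent.S16.ExportDNorm11
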