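/-
Program M (S16), brick U2 — helper23.
The weight-4 trace identity (I4) of `S16_UB_ELEM14.md`:
for `F ∈ M_2(Γ0(p))`, `F' = U_p F`:   `p F² + U_p(F'²) = (p+1) a_0(F)² E₄`,
as an identity of functions on `ℍ` and of q-expansions.

Inputs (from brick U1) are taken as hypotheses:
* `ConjFormula p F`   : `(F ∣[2] S T^j)(z) = -p⁻¹ (U_p F)((z+j)/p)`;
* `ExplicitTrace p 4 (F*F)` : `h + ∑_j h ∣[4] S T^j` is a level-one modular form.
-/
import Mathlib
import Fermat.Prelude.Def_ModularForm_HeckeOperatorForms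
import Fermat.Prelude.Thm_ModularFormClass_qCoeff_heckeU
import Fermat.Prelude.Thm_CongruenceSubgroup_one_mem_strictPeriods_Gamma0

set_option autoImplicit false

open UpperHalfPlane ModularForm ModularFormClass CongruenceSubgroup ModularGroup
open scoped MatrixGroups ModularForm

noncomputable section

namespace Fermat.Agent.S16.TraceI4_23

/-- (C) of `S16_UB_ELEM14.md` (output of U1): the conjugates of a weight-2 form of level `p`. -/
def ConjFormula (p : ℕ) (F : ℍ → ℂ) : Prop :=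
  ∀ (j : ℕ) (z : ℍ),
    (F ∣[(2 : ℤ)] (S * T ^ j)) z = -(p : ℂ)⁻¹ * heckeU 2 p F (heckeMatrix p j • z)

/-- The explicit trace `h + ∑_{j<p} h ∣[k] S T^j` is (the function of) a level-one modular form. -/
def ExplicitTrace (p : ℕ) (k : ℤ) (h : ℍ → ℂ) : Prop :=
  ∃ Tr : ModularForm 𝒮ℒ k, ∀ z : ℍ,
    Tr z = h z + ∑ j ∈ Finset.range p, (h ∣[k] (S * T ^ j)) z

variable {p : ℕ}

/-- `U_p F` as a modular form. -/
def Uform [NeZero p] {k : ℤ} (F : ModularForm (Gamma0 p) k) : ModularForm (Gamma0 p) k :=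
  heckeULin k (dvd_refl p) F

@[simp] lemma coe_Uform [NeZero p] {k : ℤ} (F : ModularForm (Gamma0 p) k) :
    ⇑(Uform F) = heckeU k p ⇑F := rfl

lemma hΓ (p : ℕ) : (1 : ℝ) ∈ (Subgroup.map (Matrix.SpecialLinearGroup.mapGL ℝ) (Gamma0 p)).strictPeriods :=
  CongruenceSubgroup.one_mem_strictPeriods_Gamma0 p

/-- q-coefficients of `U_p F`. -/
lemma coeff_Uform [NeZero p] {k : ℤ} (F : ModularForm (Gamma0 p) k) (n : ℕ) :
    (qExpansion 1 (Uform F)).coeff n = (qExpansion 1 F).coeff (n * p) := by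
  have := ModularFormClass.qCoeff_heckeU F (hΓ p) (NeZero.ne p) n
  simpa [ModularFormClass.qCoeff, coeffHeckeU] using this

/-- Slash of a square (weight `2 + 2 = 4`) by an element of `SL(2,ℤ)`. -/
lemma sq_slash (F : ℍ → ℂ) (γ : SL(2, ℤ)) (z : ℍ) :
    ((F * F) ∣[(4 : ℤ)] γ) z = ((F ∣[(2 : ℤ)] γ) z) ^ 2 := by
  have h4 : (4 : ℤ) = 2 + 2 := by norm_num
  rw [h4, ModularForm.mul_slash_SL2, Pi.mul_apply, sq]

/-- Step 1: the explicit trace of `F²` in terms of `U_p`. -/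
theorem explicit_trace_sq [NeZero p] (F : ModularForm (Gamma0 p) 2) (hC : ConjFormula p ⇑F)
    (z : ℍ) :
    (⇑F * ⇑F) z + ∑ j ∈ Finset.range p, ((⇑F * ⇑F) ∣[(4 : ℤ)] (S * T ^ j)) z
      = (F z) ^ 2 + (p : ℂ)⁻¹ * heckeU 4 p (⇑(Uform F) * ⇑(Uform F)) z := by
  have hp : (p : ℂ) ≠ 0 := by exact_mod_cast NeZero.ne p
  rw [heckeU_apply 4 (NeZero.ne p), Finset.mul_sum, Finset.mul_sum, Pi.mul_apply, ← sq]
  congr 1
  refine Finset.sum_congr rfl fun j _ => ?_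
  rw [sq_slash, hC j z, Pi.mul_apply, coe_Uform]
  ring

/-- The weight-`(2+2)` form `F² + p⁻¹ U_p((U_p F)²)` of level `p`. -/
def G4 [NeZero p] (F : ModularForm (Gamma0 p) 2) : ModularForm (Gamma0 p) (2 + 2) :=
  F.mul F + (p : ℂ)⁻¹ • Uform ((Uform F).mul (Uform F))

lemma G4_apply [NeZero p] (F : ModularForm (Gamma0 p) 2) (z : ℍ) :
    G4 F z = (F z) ^ 2 + (p : ℂ)⁻¹ * heckeU (2 + 2) p (⇑(Uform F) * ⇑(Uform F)) z := by
  simp only [G4, add_apply, smul_apply, smul_eq_mul, coe_Uform,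
    ModularForm.coe_mul, Pi.mul_apply, sq]

/-- A level-one form of weight `4` is its constant term times `E₄`. -/
lemma eq_coeff_zero_smul_E4 (Tr : ModularForm 𝒮ℒ 4) :
    Tr = ((qExpansion 1 Tr).coeff 0) • E₄ := by
  have hE : (E₄ : ModularForm 𝒮ℒ 4) ≠ 0 := EisensteinSeries.E_ne_zero (by norm_num) ⟨2, rfl⟩
  have hfin : Module.finrank ℂ (ModularForm 𝒮ℒ 4) = 1 :=
    Module.finrank_eq_of_rank_eq levelOne_weight_four_rank_one
  obtain ⟨c, hc⟩ := (finrank_eq_one_iff_of_nonzero' E₄ hE).mp hfin Tr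
  have h0 : (qExpansion 1 Tr).coeff 0 = c := by
    rw [← hc, FunLike.coe_smul,
      ModularForm.qExpansion_smul one_pos one_mem_strictPeriods_SL c E₄]
    simp [EisensteinSeries.E_qExpansion_coeff_zero (by norm_num : 3 ≤ 4) ⟨2, rfl⟩]
  rw [h0, hc]

/-- q-expansion of `G4 F`. -/
lemma qExpansion_G4 [NeZero p] (F : ModularForm (Gamma0 p) 2) (n : ℕ) :
    (qExpansion 1 (G4 F)).coeff n =
      ((qExpansion 1 F) ^ 2).coeff n
        + (p : ℂ)⁻¹ * ((qExpansion 1 (Uform F)) ^ 2).coeff (n * p) := by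
  have h1 := hΓ p
  set U := Uform ((Uform F).mul (Uform F)) with hU
  have a1 : qExpansion 1 ⇑(G4 F) = qExpansion 1 ⇑(F.mul F) + qExpansion 1 ⇑((p : ℂ)⁻¹ • U) := by
    unfold G4
    rw [FunLike.coe_add]
    exact ModularForm.qExpansion_add one_pos h1 (F.mul F) ((p : ℂ)⁻¹ • U)
  have a2 : qExpansion 1 ⇑((p : ℂ)⁻¹ • U) = (p : ℂ)⁻¹ • qExpansion 1 ⇑U := by
    rw [FunLike.coe_smul]
    exact ModularForm.qExpansion_smul one_pos h1 _ U
  have a3 : qExpansion 1 ⇑(F.mul F) = qExpansion 1 ⇑F ^ 2 := by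
    rw [ModularForm.qExpansion_mul one_pos h1, sq]
  have a4 : (qExpansion 1 ⇑U).coeff n = ((qExpansion 1 ⇑(Uform F)) ^ 2).coeff (n * p) := by
    rw [hU, coeff_Uform, ModularForm.qExpansion_mul one_pos h1, sq]
  rw [a1, a2, a3, map_add, PowerSeries.coeff_smul, a4, smul_eq_mul]

/-- **(I4)**, q-expansion form, unnormalised:
`a_n(F²) + p⁻¹ a_{np}((U_pF)²) = (1 + p⁻¹) a_0(F)² a_n(E₄)`. -/
theorem I4_coeff [NeZero p] (F : ModularForm (Gamma0 p) 2) (hC : ConjFormula p ⇑F)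
    (hT : ExplicitTrace p 4 (⇑F * ⇑F)) (n : ℕ) :
    ((qExpansion 1 F) ^ 2).coeff n + (p : ℂ)⁻¹ * ((qExpansion 1 (Uform F)) ^ 2).coeff (n * p)
      = (1 + (p : ℂ)⁻¹) * ((qExpansion 1 F).coeff 0) ^ 2 * (qExpansion 1 E₄).coeff n := by
  obtain ⟨Tr, hTr⟩ := hT
  -- the two functions agree
  have hfun : (⇑Tr : ℍ → ℂ) = ⇑(G4 F) := by
    funext z
    rw [hTr z, explicit_trace_sq F hC z, G4_apply]
    norm_num
  have hq : qExpansion 1 Tr = qExpansion 1 (G4 F) := by rw [hfun]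
  -- constant term of the trace
  have h0 : (qExpansion 1 Tr).coeff 0 = (1 + (p : ℂ)⁻¹) * ((qExpansion 1 F).coeff 0) ^ 2 := by
    rw [hq, qExpansion_G4, zero_mul]
    have e1 : ((qExpansion 1 F) ^ 2).coeff 0 = ((qExpansion 1 F).coeff 0) ^ 2 := by
      simp [sq, PowerSeries.coeff_mul]
    have e2 : ((qExpansion 1 (Uform F)) ^ 2).coeff 0 = ((qExpansion 1 F).coeff 0) ^ 2 := by
      have := coeff_Uform F 0
      rw [zero_mul] at this
      rw [sq, sq, PowerSeries.coeff_mul, Finset.Nat.antidiagonal_zero, Finset.sum_singleton, this]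
    rw [e1, e2]; ring
  have hE := eq_coeff_zero_smul_E4 Tr
  rw [← qExpansion_G4, ← hq]
  conv_lhs => rw [hE]
  rw [FunLike.coe_smul,
    ModularForm.qExpansion_smul one_pos one_mem_strictPeriods_SL, PowerSeries.coeff_smul, h0,
    smul_eq_mul]

end Fermat.Agent.S16.TraceI4_23
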