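/-
Program M (S16), brick U2 export — helper23.
From a form `F ∈ M_2(Γ0(p))` with integer q-expansion `g` we build the formal package
`Formal14.Pkg p` (`G = g`, `G' = U_p g`, `U_p G' = G`, (I4), (I4')).

Inputs from brick U1 are hypotheses quantified over all weight-2 forms of level `p`:
`ConjFormula` (C), `ExplicitTrace` (the explicit trace of `F²` is a level-one form), and `U_p U_p = 1`.
-/
import Fermat.Agent.S16.TraceI4_23
import Fermat.Agent.S16.Formal14

set_option autoImplicit false

open UpperHalfPlane ModularForm ModularFormClass CongruenceSubgroup ModularGroup PowerSeries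
open scoped MatrixGroups ModularForm

noncomputable section

namespace Fermat.Agent.S16.PkgOfForm23

open Fermat.Agent.S16.TraceI4_23 Fermat.Agent.S16.Formal14

/-- The q-expansion of `E₄` is `1 + 240 ∑ σ₃(m) q^m`. -/
theorem qExpansion_E4 : qExpansion 1 E₄ = toC (E4s ℤ) := by
  ext m
  rw [EisensteinSeries.E_qExpansion_coeff (by norm_num : 3 ≤ 4) ⟨2, rfl⟩ m]
  have hb : bernoulli 4 = -1 / 30 := by decide +kernel
  simp only [toC, E4s, sig, PowerSeries.coeff_map, map_add, PowerSeries.coeff_one,
    PowerSeries.coeff_C_mul, PowerSeries.coeff_mk, Int.coe_castRingHom]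
  by_cases hm : m = 0
  · subst hm; simp
  · simp only [hm, if_false]
    push_cast
    rw [hb]
    norm_num

variable {p : ℕ}

/-- coefficients of `toC`. -/
lemma coeff_toC (g : ℤ⟦X⟧) (n : ℕ) : coeff n (toC g) = ((coeff n g : ℤ) : ℂ) := by
  simp [toC]

lemma toC_injective : Function.Injective toC := by
  intro a b h
  ext n
  have := congrArg (coeff n) h
  simpa [coeff_toC] using this

/-- `U_p` of the integral q-expansion is the q-expansion of `U_p F`. -/
lemma toC_Up [NeZero p] (F : ModularForm (Gamma0 p) 2) (g : ℤ⟦X⟧)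
    (hg : toC g = qExpansion 1 F) : toC (Up p g) = qExpansion 1 (Uform F) := by
  ext n
  rw [coeff_toC, coeff_Up, coeff_Uform, ← hg, coeff_toC, mul_comm]

/-- (I4) over `ℤ`. -/
theorem I4_int [NeZero p] (F : ModularForm (Gamma0 p) 2) (g : ℤ⟦X⟧)
    (hg : toC g = qExpansion 1 F) (hC : ConjFormula p ⇑F)
    (hT : ExplicitTrace p 4 (⇑F * ⇑F)) :
    C (p : ℤ) * g ^ 2 + Up p ((Up p g) ^ 2)
      = C (((p : ℤ) + 1) * (constantCoeff g) ^ 2) * E4s ℤ := by
  apply toC_injective
  ext n
  have hp : (p : ℂ) ≠ 0 := by exact_mod_cast NeZero.ne p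
  have h := I4_coeff F hC hT n
  rw [← hg, ← toC_Up F g hg, qExpansion_E4] at h
  have e1 : (toC g) ^ 2 = toC (g ^ 2) := by simp [toC]
  have e2 : (toC (Up p g)) ^ 2 = toC ((Up p g) ^ 2) := by simp [toC]
  rw [e1, e2, coeff_toC, coeff_toC, coeff_toC, coeff_toC] at h
  rw [coeff_toC, coeff_toC]
  simp only [map_add, PowerSeries.coeff_C_mul, coeff_Up]
  rw [mul_comm p n, ← coeff_zero_eq_constantCoeff_apply]
  push_cast
  field_simp at h
  linear_combination h

/-- `U_p U_p g = g` on the integral q-expansion, from `U_p U_p F = F`. -/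
lemma Up_Up [NeZero p] (F : ModularForm (Gamma0 p) 2) (g : ℤ⟦X⟧)
    (hg : toC g = qExpansion 1 F) (hUU : heckeU 2 p (heckeU 2 p ⇑F) = ⇑F) :
    Up p (Up p g) = g := by
  apply toC_injective
  have h1 := toC_Up (Uform F) (Up p g) (toC_Up F g hg)
  rw [h1, hg]
  congr 1

/-- **U2 export.** The formal package of a weight-2 form of level `p` with integral q-expansion. -/
theorem exists_pkg [NeZero p]
    (hC : ∀ F : ModularForm (Gamma0 p) 2, ConjFormula p ⇑F)
    (hT : ∀ F : ModularForm (Gamma0 p) 2, ExplicitTrace p 4 (⇑F * ⇑F))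
    (hUU : ∀ F : ModularForm (Gamma0 p) 2, heckeU 2 p (heckeU 2 p ⇑F) = ⇑F)
    (F : ModularForm (Gamma0 p) 2) (g : ℤ⟦X⟧) (hg : toC g = qExpansion 1 F) :
    ∃ P : Pkg p, P.G = g ∧ P.G' = Up p g ∧ P.c = constantCoeff g := by
  have hUp : Up p (Up p g) = g := Up_Up F g hg (hUU F)
  have hc' : constantCoeff (Up p g) = constantCoeff g := by
    rw [← coeff_zero_eq_constantCoeff_apply, ← coeff_zero_eq_constantCoeff_apply, coeff_Up, mul_zero]
  have h4 := I4_int F g hg (hC F) (hT F)
  have h4' := I4_int (Uform F) (Up p g) (toC_Up F g hg) (hC _) (hT _)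
  rw [hUp, hc'] at h4'
  exact ⟨{ c := constantCoeff g
           G := g
           G' := Up p g
           constG := rfl
           constG' := hc'
           Up_G := rfl
           Up_G' := hUp
           I4 := h4
           I4' := h4' }, rfl, rfl, rfl⟩

end Fermat.Agent.S16.PkgOfForm23
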