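/-
Program M (S16), brick U2 — helper23.  Adapter: the explicit trace of `F²` from `CosetP1`,
and the export contract `Export14.Export_Pkg` modulo the two Fricke facts (C) and `U_p U_p = 1`
of brick U1.
-/
import Fermat.Agent.S16.PkgOfForm23
import Fermat.Agent.S16.CosetP1
import Fermat.Agent.S16.Export14

set_option autoImplicit false

open UpperHalfPlane ModularForm ModularFormClass CongruenceSubgroup ModularGroup PowerSeries
open scoped MatrixGroups ModularForm

noncomputable section

namespace Fermat.Agent.S16.TraceAdapter23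

open Fermat.Agent.S16.TraceI4_23 Fermat.Agent.S16.PkgOfForm23 Fermat.Agent.S16.Formal14
open Fermat.Agent.S16.Export14

/-- The explicit trace of `F²` (weight `4`) is a level-one modular form. -/
theorem explicitTrace_sq (p : ℕ) [hp : Fact p.Prime] (F : ModularForm (Gamma0 p) 2) :
    ExplicitTrace p 4 (⇑F * ⇑F) := by
  have : NeZero p := ⟨hp.out.ne_zero⟩
  refine ⟨ModularForm.mcast (by norm_num : (2 : ℤ) + 2 = 4) (ModularForm.trace 𝒮ℒ (F.mul F)),
    fun z => ?_⟩
  have h := CosetP1.trace_apply_range p (F.mul F)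
  have h' := congrFun h z
  rw [ModularForm.coe_mul] at h'
  simp only [Pi.add_apply, Finset.sum_apply] at h'
  exact h'

/-- `IntQ g a` in the form used by `PkgOfForm23`. -/
lemma toC_mk_of_intQ {p : ℕ} (g : ModularForm (Gamma0 p) 2) (a : ℕ → ℤ) (h : IntQ g a) :
    toC (PowerSeries.mk a) = qExpansion 1 g := by
  ext k
  rw [coeff_toC, PowerSeries.coeff_mk, h k]

/-- **U2 export**, modulo the two outputs (C) and `U_p U_p = 1` of brick U1 (Fricke). -/
theorem export_Pkg_of_fricke
    (hC : ∀ (p : ℕ) [Fact p.Prime] (F : ModularForm (Gamma0 p) 2), ConjFormula p ⇑F)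
    (hUU : ∀ (p : ℕ) [Fact p.Prime] (F : ModularForm (Gamma0 p) 2),
      heckeU 2 p (heckeU 2 p ⇑F) = ⇑F) :
    Export_Pkg := by
  intro p hp g a ha
  have : Fact p.Prime := ⟨hp⟩
  have : NeZero p := ⟨hp.ne_zero⟩
  obtain ⟨P, hP, -, -⟩ := exists_pkg (p := p) (fun F => hC p F) (fun F => explicitTrace_sq p F)
    (fun F => hUU p F) g (PowerSeries.mk a) (toC_mk_of_intQ g a ha)
  exact ⟨P, hP⟩

end Fermat.Agent.S16.TraceAdapter23
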