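/-
Program M (S16), brick U2 — helper23.  FINAL EXPORT: `export_Pkg : Export14.Export_Pkg`
(the trace package (W) + (I4) + (I4') of every weight-2 form of prime level with integral
q-expansion), from `TraceAdapter23.export_Pkg_of_fricke` and `Fricke17` ((C), `U_p U_p = 1`).
-/
import Fermat.Agent.S16.TraceAdapter23
import Fermat.Agent.S16.Fricke17

set_option autoImplicit false

open UpperHalfPlane ModularForm CongruenceSubgroup

namespace Fermat.Agent.S16.ExportPkg23

/-- **U2 export contract.** -/
theorem export_Pkg : Fermat.Agent.S16.Export14.Export_Pkg :=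
  Fermat.Agent.S16.TraceAdapter23.export_Pkg_of_fricke
    (fun p hp F => by
      have : NeZero p := ⟨hp.out.ne_zero⟩
      intro j z
      exact Fermat.Agent.S16.Fricke17.slash_S_mul_T_pow_apply (N := p) F j z)
    (fun p hp F => by
      have : NeZero p := ⟨hp.out.ne_zero⟩
      exact Fermat.Agent.S16.Fricke17.heckeU_heckeU (N := p) F)

end Fermat.Agent.S16.ExportPkg23
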