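/-
S16, chapter A-top, helper12: the case check of `S16_PROOF11.md` §2.
`UBfStatement p` (for `p ≥ 5`) from the six non-existence contracts `NStatement p l e`:
"there is no `f ∈ S(ℤ)` with `l^(e + v_l(p-1)) ∣ 24 (σ'(k) - a_k(f))` for all `k ≥ 1`",
i.e. `G := 24/(p-1) · (E - f) ≡ 1 mod l^e` does not exist.
-/
import Fermat.Agent.S16.Top12

set_option autoImplicit false

noncomputable section

open ModularCurve CuspForm

namespace Fermat.Agent.S16.CaseCheck12

open Fermat.Agent.S16.Top12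

variable (p : ℕ) [Fact p.Prime]

/-- **(N)** non-existence contract: no `f ∈ S(ℤ)` with
`l^(e + v_l(p-1)) ∣ 24 (σ'(k) - a_k(f))` for all `k ≥ 1`
(equivalently: no `G = 24/(p-1)·(E - f) ∈ M_2(Γ0(p))` with `G ≡ 1 mod l^e`). -/
def NStatement (l e : ℕ) : Prop :=
  ∀ (f : LL p) (af : ℕ → ℤ), (∀ k : ℕ, 1 ≤ k → aCoeff p f k = ((af k : ℤ) : ℂ)) →
    (∀ k : ℕ, 1 ≤ k →
      ((l ^ (e + padicValNat l (p - 1)) : ℕ) : ℤ) ∣ 24 * (sigmaPrime p k - af k)) → False

omit [Fact p.Prime] in
/-- The `l`-part of the case check: if `N(l, e)` holds and `e + v_l(p-1) ≤ e₀ + v_l(24)`, then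
`l^e₀` cannot divide all `σ'(k) - a_k(f)`. -/
theorem not_pow_dvd (l e e₀ : ℕ) [Fact l.Prime] (hN : NStatement p l e)
    (hle : e + padicValNat l (p - 1) ≤ e₀ + padicValNat l 24)
    (f : LL p) (af : ℕ → ℤ) (haf : ∀ k : ℕ, 1 ≤ k → aCoeff p f k = ((af k : ℤ) : ℂ))
    (hdiv : ∀ k : ℕ, 1 ≤ k → ((l ^ e₀ : ℕ) : ℤ) ∣ sigmaPrime p k - af k) : False := by
  refine hN f af haf fun k hk => ?_
  have h24 : ((l ^ padicValNat l 24 : ℕ) : ℤ) ∣ 24 := by
    have : l ^ padicValNat l 24 ∣ 24 := pow_padicValNat_dvd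
    exact_mod_cast this
  have h1 : ((l ^ (e₀ + padicValNat l 24) : ℕ) : ℤ) ∣ 24 * (sigmaPrime p k - af k) := by
    rw [pow_add, Nat.cast_mul, mul_comm]
    exact mul_dvd_mul h24 (hdiv k hk)
  refine dvd_trans ?_ h1
  have : l ^ (e + padicValNat l (p - 1)) ∣ l ^ (e₀ + padicValNat l 24) := pow_dvd_pow l hle
  exact_mod_cast this

theorem pv2_24 : padicValNat 2 24 = 3 := by
  have : (24 : ℕ) = 2 ^ 3 * 3 := by norm_num
  rw [this, padicValNat.mul (by norm_num) (by norm_num), padicValNat.prime_pow,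
    padicValNat.eq_zero_of_not_dvd (by norm_num)]

theorem pv3_24 : padicValNat 3 24 = 1 := by
  have : (24 : ℕ) = 3 ^ 1 * 8 := by norm_num
  rw [this, padicValNat.mul (by norm_num) (by norm_num), padicValNat.prime_pow,
    padicValNat.eq_zero_of_not_dvd (by norm_num)]

theorem pv2_12 : padicValNat 2 12 = 2 := by
  have : (12 : ℕ) = 2 ^ 2 * 3 := by norm_num
  rw [this, padicValNat.mul (by norm_num) (by norm_num), padicValNat.prime_pow,
    padicValNat.eq_zero_of_not_dvd (by norm_num)]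

theorem pv3_12 : padicValNat 3 12 = 1 := by
  have : (12 : ℕ) = 3 ^ 1 * 4 := by norm_num
  rw [this, padicValNat.mul (by norm_num) (by norm_num), padicValNat.prime_pow,
    padicValNat.eq_zero_of_not_dvd (by norm_num)]

theorem not_dvd_24 {l : ℕ} (hl : l.Prime) (h5 : 5 ≤ l) : ¬ l ∣ 24 := by
  intro h
  have h' : l ∣ 2 ^ 3 * 3 := by norm_num; exact h
  rcases (Nat.Prime.dvd_mul hl).mp h' with h2 | h3
  · have := (Nat.prime_dvd_prime_iff_eq hl Nat.prime_two).mp (hl.dvd_of_dvd_pow h2)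
    omega
  · have := (Nat.prime_dvd_prime_iff_eq hl Nat.prime_three).mp h3
    omega

/-- `v_l(n) ≥ v_l(p-1) - v_l(12)` for `n = (p-1)/gcd(p-1,12)`. -/
theorem le_padicValNat_eisensteinNumerator (l : ℕ) [Fact l.Prime] :
    padicValNat l (p - 1) - padicValNat l 12 ≤ padicValNat l (eisensteinNumerator p) := by
  have hp : 2 ≤ p := (Fact.out : p.Prime).two_le
  have hpos : 0 < p - 1 := by omega
  have hg : Nat.gcd (p - 1) 12 ∣ p - 1 := Nat.gcd_dvd_left _ _
  have hg12 : Nat.gcd (p - 1) 12 ∣ 12 := Nat.gcd_dvd_right _ _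
  unfold eisensteinNumerator
  rw [padicValNat.div_of_dvd hg]
  have h1 : padicValNat l (Nat.gcd (p - 1) 12) ≤ padicValNat l 12 := by
    rw [← padicValNat_dvd_iff_le (by norm_num)]
    exact dvd_trans pow_padicValNat_dvd hg12
  omega

/-- **§2 case check**: the upper bound `UBfStatement` from the six non-existence statements. -/
theorem UBf_of_N (hp5 : 5 ≤ p)
    (hNl : ∀ l : ℕ, l.Prime → 5 ≤ l → NStatement p l 1)
    (hN3a : NStatement p 3 2) (hN3b : p % 3 = 1 → NStatement p 3 1)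
    (hN2a : NStatement p 2 3) (hN2b : p % 4 = 1 → NStatement p 2 2) :
    UBfStatement p := by
  classical
  intro m hm f hf
  have hpp : p.Prime := Fact.out
  -- integer coefficients
  let af : ℕ → ℤ := fun k => if hk : 1 ≤ k then Classical.choose (hf k hk) else 0
  have haf : ∀ k : ℕ, 1 ≤ k → aCoeff p f k = ((af k : ℤ) : ℂ) := by
    intro k hk
    simp only [af, dif_pos hk]
    exact (Classical.choose_spec (hf k hk)).1
  have hmdiv : ∀ k : ℕ, 1 ≤ k → (m : ℤ) ∣ sigmaPrime p k - af k := by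
    intro k hk
    simp only [af, dif_pos hk]
    have := (Classical.choose_spec (hf k hk)).2
    rw [← dvd_neg, neg_sub] at this
    exact this
  have hn0 : eisensteinNumerator p ≠ 0 := by
    have := one_le_eisensteinNumerator p; omega
  rw [← Nat.factorization_prime_le_iff_dvd (by omega) hn0]
  intro l hl
  have : Fact l.Prime := ⟨hl⟩
  rw [Nat.factorization_def _ hl, Nat.factorization_def _ hl]
  set e₀ := padicValNat l m with he₀
  have hdiv : ∀ k : ℕ, 1 ≤ k → ((l ^ e₀ : ℕ) : ℤ) ∣ sigmaPrime p k - af k := by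
    intro k hk
    refine dvd_trans ?_ (hmdiv k hk)
    have : l ^ e₀ ∣ m := pow_padicValNat_dvd
    exact_mod_cast this
  refine le_trans ?_ (le_padicValNat_eisensteinNumerator p l)
  by_contra hcon
  rw [not_le] at hcon
  -- hcon : v_l(p-1) - v_l(12) < e₀
  have hpodd : p % 2 = 1 := by
    rcases hpp.eq_two_or_odd with h | h <;> omega
  by_cases hl5 : 5 ≤ l
  · have h24 : padicValNat l 24 = 0 := padicValNat.eq_zero_of_not_dvd (not_dvd_24 hl hl5)
    have h12 : padicValNat l 12 = 0 :=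
      padicValNat.eq_zero_of_not_dvd fun h => not_dvd_24 hl hl5 (dvd_trans h ⟨2, by norm_num⟩)
    exact not_pow_dvd p l 1 e₀ (hNl l hl hl5) (by omega) f af haf hdiv
  · have hl23 : l = 2 ∨ l = 3 := by
      have h2 := hl.two_le
      have : l ≠ 4 := fun h => by rw [h] at hl; exact absurd hl (by norm_num)
      omega
    rcases hl23 with rfl | rfl
    · -- l = 2
      have hdvd2 : 2 ∣ p - 1 := by omega
      have ha1 : 1 ≤ padicValNat 2 (p - 1) := by
        rw [← padicValNat_dvd_iff_le (by omega)]; simpa using hdvd2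
      by_cases h4 : p % 4 = 1
      · exact not_pow_dvd p 2 2 e₀ (hN2b h4) (by rw [pv2_24]; rw [pv2_12] at hcon; omega)
          f af haf hdiv
      · have hnd : ¬ 2 ^ 2 ∣ p - 1 := by
          intro h; have : 4 ∣ p - 1 := by simpa using h
          omega
        have ha2 : ¬ 2 ≤ padicValNat 2 (p - 1) := by
          rw [← padicValNat_dvd_iff_le (by omega)]; exact hnd
        exact not_pow_dvd p 2 3 e₀ hN2a (by rw [pv2_24]; rw [pv2_12] at hcon; omega)
          f af haf hdiv
    · -- l = 3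
      by_cases h3 : p % 3 = 1
      · exact not_pow_dvd p 3 1 e₀ (hN3b h3) (by rw [pv3_24]; rw [pv3_12] at hcon; omega)
          f af haf hdiv
      · have hnd : ¬ 3 ^ 1 ∣ p - 1 := by
          intro h; have : 3 ∣ p - 1 := by simpa using h
          omega
        have ha0 : ¬ 1 ≤ padicValNat 3 (p - 1) := by
          rw [← padicValNat_dvd_iff_le (by omega)]; exact hnd
        exact not_pow_dvd p 3 2 e₀ hN3a (by rw [pv3_24]; rw [pv3_12] at hcon; omega)
          f af haf hdiv

end Fermat.Agent.S16.CaseCheck12
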