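/-
S16, chapter U7 (glue), helper12: the six non-existence contracts `CaseCheck12.NStatement p l e`
from the formal targets of `Formal14` and the exports of U2/U3/U4/U5.
Part 1: the cases that only need the trace package (`Pkg p`).
-/
import Fermat.Agent.S16.CaseCheck12
import Fermat.Agent.S16.Formal14

set_option autoImplicit false

noncomputable section

open ModularCurve CuspForm PowerSeries

namespace Fermat.Agent.S16.Glue12

open Fermat.Agent.S16.Top12 Fermat.Agent.S16.CaseCheck12 Fermat.Agent.S16.Formal14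

variable (p : ℕ) [hp : Fact p.Prime]

/-- **Export of U5 + U2**: for `f ∈ S(ℤ)` the form `G = 24 (E - f) ∈ M_2(Γ0(p))` has a trace
package with `c = p - 1` and `a_k(G) = 24 (σ'(k) - a_k(f))`. -/
def PkgExport : Prop :=
  ∀ (f : LL p) (af : ℕ → ℤ), (∀ k : ℕ, 1 ≤ k → aCoeff p f k = ((af k : ℤ) : ℂ)) →
    ∃ P : Pkg p, P.c = (p : ℤ) - 1 ∧
      ∀ k : ℕ, 1 ≤ k → coeff k P.G = 24 * (sigmaPrime p k - af k)

/-- `p - 1 = l^v u` with `v = v_l(p-1)`, `l ∤ u`. -/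
theorem decomp (l : ℕ) [hl : Fact l.Prime] :
    ∃ u : ℤ, (p : ℤ) - 1 = (l : ℤ) ^ padicValNat l (p - 1) * u ∧ ¬ (l : ℤ) ∣ u := by
  have hp2 : 2 ≤ p := hp.out.two_le
  have hne : p - 1 ≠ 0 := by omega
  obtain ⟨v, u, hnd, huv⟩ := Nat.exists_eq_pow_mul_and_not_dvd hne l hl.out.ne_one
  have hu0 : u ≠ 0 := fun h => hne (by rw [huv, h, mul_zero])
  have hv : padicValNat l (p - 1) = v := by
    rw [huv, padicValNat.mul (pow_ne_zero _ hl.out.ne_zero) hu0, padicValNat.prime_pow,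
      padicValNat.eq_zero_of_not_dvd hnd, add_zero]
  refine ⟨(u : ℤ), ?_, ?_⟩
  · rw [hv]
    have : ((p - 1 : ℕ) : ℤ) = (p : ℤ) - 1 := by
      rw [Nat.cast_sub (by omega)]; simp
    rw [← this, huv]; push_cast; ring
  · intro h
    exact hnd (by exact_mod_cast h)

variable {p}

omit hp in
/-- the congruence hypothesis of `NStatement` is `P.Cong l (v + e)`. -/
theorem cong_of_hyp {l e : ℕ} {af : ℕ → ℤ} {P : Pkg p}
    (hPG : ∀ k : ℕ, 1 ≤ k → coeff k P.G = 24 * (sigmaPrime p k - af k))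
    (hdiv : ∀ k : ℕ, 1 ≤ k →
      ((l ^ (e + padicValNat l (p - 1)) : ℕ) : ℤ) ∣ 24 * (sigmaPrime p k - af k)) :
    P.Cong l (padicValNat l (p - 1) + e) := by
  intro k hk
  rw [hPG k hk, add_comm]
  have := hdiv k hk
  push_cast at this
  exact this

omit hp in
theorem cong_mono {P : Pkg p} {l a b : ℕ} (h : P.Cong l b) (hab : a ≤ b) : P.Cong l a :=
  fun k hk => dvd_trans (pow_dvd_pow _ hab) (h k hk)

variable (p)

/-- (N_p): `l = p ≥ 7`. -/
theorem N_p (hE : PkgExport p) (hT : Target_Np) (hp7 : 7 ≤ p) : NStatement p p 1 := by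
  intro f af haf hdiv
  obtain ⟨P, hc, hPG⟩ := hE f af haf
  have hv : padicValNat p (p - 1) = 0 := by
    apply padicValNat.eq_zero_of_not_dvd
    intro h
    have := Nat.le_of_dvd (by omega) h
    omega
  have hcong := cong_of_hyp hPG hdiv
  rw [hv, zero_add] at hcong
  refine hT p hp.out hp7 P ?_ hcong
  rw [hc]
  intro h
  have h1 : (p : ℤ) ∣ 1 := by
    have := dvd_sub (dvd_refl (p : ℤ)) h
    simpa using this
  have : p ∣ 1 := by exact_mod_cast h1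
  have := Nat.le_of_dvd one_pos this
  omega

/-- (N_l), first case, and (N_3b): `l ≥ 3`, `l ≠ p`, `l ∤ p + 1`, any `e ≥ 1`. -/
theorem N_A (hE : PkgExport p) (hT : Target_Nl_A) (l e : ℕ) [hl : Fact l.Prime] (hl3 : 3 ≤ l)
    (hlp : l ≠ p) (hnd : ¬ l ∣ p + 1) (he : 1 ≤ e) : NStatement p l e := by
  intro f af haf hdiv
  obtain ⟨P, hc, hPG⟩ := hE f af haf
  obtain ⟨u, hu, hlu⟩ := decomp p l
  have hcong := cong_mono (a := padicValNat l (p - 1) + 1) (cong_of_hyp hPG hdiv) (by omega)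
  exact hT p l hp.out hl.out hl3 hlp hnd P _ u (hc.trans hu) hlu hcong

/-- (N_2b) and the `p ≡ 1 mod 4` half of (N_2a): `p ≡ 1 mod 4`, `e ≥ 2`. -/
theorem N_2b (hE : PkgExport p) (hT : Target_N2b) (hp4 : p % 4 = 1) (e : ℕ) (he : 2 ≤ e) :
    NStatement p 2 e := by
  have : Fact (Nat.Prime 2) := ⟨Nat.prime_two⟩
  intro f af haf hdiv
  obtain ⟨P, hc, hPG⟩ := hE f af haf
  obtain ⟨u, hu, hlu⟩ := decomp p 2
  have hcong := cong_mono (a := padicValNat 2 (p - 1) + 2) (cong_of_hyp hPG hdiv) (by omega)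
  exact hT p hp.out hp4 P _ u (hc.trans (by exact_mod_cast hu)) (by exact_mod_cast hlu) hcong

/-- (N_3a), case `3 ∥ p + 1`. -/
theorem N_3a_one (hE : PkgExport p) (hT : Target_N3a_one) (h3 : 3 ∣ p + 1) (h9 : ¬ 9 ∣ p + 1) :
    NStatement p 3 2 := by
  have : Fact (Nat.Prime 3) := ⟨Nat.prime_three⟩
  intro f af haf hdiv
  obtain ⟨P, hc, hPG⟩ := hE f af haf
  obtain ⟨u, hu, hlu⟩ := decomp p 3
  have hcong := cong_of_hyp hPG hdiv
  exact hT p hp.out h3 h9 P _ u (hc.trans (by exact_mod_cast hu)) (by exact_mod_cast hlu) hcong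

/-! ### Part 2: the norm cases.  Export contracts for U2 / U3(+ST) / U4 in terms of an actual form
`G ∈ M_2(Γ0(p))` with integer `q`-expansion `Gs`. -/

open UpperHalfPlane in
/-- `Gs ∈ ℤ⟦X⟧` is the `q`-expansion of `G`. -/
def IsQExp (G : ModularForm (CongruenceSubgroup.Gamma0 p) 2) (Gs : ℤ⟦X⟧) : Prop :=
  toC Gs = qExpansion 1 G

/-- **Export of U5**: the form `G = 24 (E - f)`, `f ∈ S(ℤ)`, with its integer `q`-expansion. -/
def ExportU5 : Prop :=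
  ∀ (f : LL p) (af : ℕ → ℤ), (∀ k : ℕ, 1 ≤ k → aCoeff p f k = ((af k : ℤ) : ℂ)) →
    ∃ (G : ModularForm (CongruenceSubgroup.Gamma0 p) 2) (Gs : ℤ⟦X⟧), IsQExp p G Gs ∧
      constantCoeff Gs = (p : ℤ) - 1 ∧
      ∀ k : ℕ, 1 ≤ k → coeff k Gs = 24 * (sigmaPrime p k - af k)

/-- **Export of U2**: the trace package of a form with integer `q`-expansion. -/
def ExportU2 : Prop :=
  ∀ (G : ModularForm (CongruenceSubgroup.Gamma0 p) 2) (Gs : ℤ⟦X⟧), IsQExp p G Gs →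
    ∃ P : Pkg p, P.G = Gs

/-- **Export of U3 + (ST)**, family `h = G² - c² E4` (weight 4). -/
def ExportB7 : Prop :=
  ∀ (G : ModularForm (CongruenceSubgroup.Gamma0 p) 2) (Gs : ℤ⟦X⟧), IsQExp p G Gs →
    ∃ ζ : ℂ, IsPrimitiveRoot ζ p ∧ ∃ n : ℂ⟦X⟧, SturmProp (4 * (p + 1)) n ∧
      expand p hp.out.ne_zero n =
        expand p hp.out.ne_zero (toC (Gs ^ 2 - C ((constantCoeff Gs) ^ 2) * E4s ℤ)) *
          ∏ j ∈ Finset.range p,
            (C (((p : ℂ))⁻¹ ^ 2) * (rescale (ζ ^ j) (toC (Up p Gs))) ^ 2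
              - C (((constantCoeff Gs : ℤ) : ℂ) ^ 2) * expand p hp.out.ne_zero (E4s ℂ))

/-- **Export of U3 + (ST)**, family `h = G³ - c³ E6` (weight 6). -/
def ExportB5 : Prop :=
  ∀ (G : ModularForm (CongruenceSubgroup.Gamma0 p) 2) (Gs : ℤ⟦X⟧), IsQExp p G Gs →
    ∃ ζ : ℂ, IsPrimitiveRoot ζ p ∧ ∃ n : ℂ⟦X⟧, SturmProp (6 * (p + 1)) n ∧
      expand p hp.out.ne_zero n =
        expand p hp.out.ne_zero (toC (Gs ^ 3 - C ((constantCoeff Gs) ^ 3) * E6s ℤ)) *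
          ∏ j ∈ Finset.range p,
            (C ((-((p : ℂ))⁻¹) ^ 3) * (rescale (ζ ^ j) (toC (Up p Gs))) ^ 3
              - C (((constantCoeff Gs : ℤ) : ℂ) ^ 3) * expand p hp.out.ne_zero (E6s ℂ))

/-- **Export of U3 + (ST)**, family `h = (G E4 - c E6)/3` (weight 6). -/
def ExportN3 : Prop :=
  ∀ (G : ModularForm (CongruenceSubgroup.Gamma0 p) 2) (Gs : ℤ⟦X⟧), IsQExp p G Gs →
    ∃ ζ : ℂ, IsPrimitiveRoot ζ p ∧ ∃ n : ℂ⟦X⟧, SturmProp (6 * (p + 1)) n ∧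
      expand p hp.out.ne_zero n =
        (C ((3 : ℂ))⁻¹ * expand p hp.out.ne_zero
            (toC (Gs * E4s ℤ - C (constantCoeff Gs) * E6s ℤ))) *
          ∏ j ∈ Finset.range p,
            (C ((3 : ℂ))⁻¹ * (C (-((p : ℂ))⁻¹) * rescale (ζ ^ j) (toC (Up p Gs)) *
                expand p hp.out.ne_zero (E4s ℂ)
              - C ((constantCoeff Gs : ℤ) : ℂ) * expand p hp.out.ne_zero (E6s ℂ)))

/-- **Export of U3 + (ST)**, the double family `(G|γ - c G_3|δ)/8` at `3pz` (weight 2, index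
`4(p+1)`), `p ≠ 3`. -/
def ExportN2 : Prop :=
  p ≠ 3 →
  ∀ (G : ModularForm (CongruenceSubgroup.Gamma0 p) 2) (Gs : ℤ⟦X⟧), IsQExp p G Gs →
    ∃ ζ ω : ℂ, IsPrimitiveRoot ζ p ∧ IsPrimitiveRoot ω 3 ∧
    ∃ n : ℂ⟦X⟧, SturmProp (8 * (p + 1)) n ∧
      (let h3 : (3 : ℕ) ≠ 0 := by norm_num
       let h3p : 3 * p ≠ 0 := Nat.mul_ne_zero h3 hp.out.ne_zero
       let Ainf : ℂ⟦X⟧ := expand (3 * p) h3p (toC Gs)
       let A : ℕ → ℂ⟦X⟧ := fun j =>
         C (-((p : ℂ))⁻¹) * expand 3 h3 (rescale (ζ ^ j) (toC (Up p Gs)))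
       let Binf : ℂ⟦X⟧ := C ((constantCoeff Gs : ℤ) : ℂ) * expand (3 * p) h3p (G3s ℂ)
       let B : ℕ → ℂ⟦X⟧ := fun i =>
         C (((constantCoeff Gs : ℤ) : ℂ) * (-((3 : ℂ))⁻¹)) *
           expand p hp.out.ne_zero (rescale (ω ^ i) (G3s ℂ))
       expand (3 * p) h3p n =
         (C ((8 : ℂ))⁻¹ * (Ainf - Binf)) *
         (∏ j ∈ Finset.range p, C ((8 : ℂ))⁻¹ * (A j - Binf)) *
         (∏ i ∈ Finset.range 3, C ((8 : ℂ))⁻¹ * (Ainf - B i)) *
         (∏ j ∈ Finset.range p, ∏ i ∈ Finset.range 3, C ((8 : ℂ))⁻¹ * (A j - B i)))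

omit hp in
/-- `ExportU5` + `ExportU2` give `PkgExport`. -/
theorem pkgExport_of (h5 : ExportU5 p) (h2 : ExportU2 p) : PkgExport p := by
  intro f af haf
  obtain ⟨G, Gs, hq, hc, hk⟩ := h5 f af haf
  obtain ⟨P, hP⟩ := h2 G Gs hq
  refine ⟨P, ?_, ?_⟩
  · rw [← P.constG, hP, hc]
  · intro k hk1
    rw [hP]; exact hk k hk1

/-- `l ∣ p + 1`, `l ≥ 3` prime ⇒ `l ∤ p - 1`, hence `v_l(p-1) = 0`. -/
theorem padicValNat_eq_zero_of_dvd_succ {l : ℕ} (_hl : l.Prime) (hl3 : 3 ≤ l) (hd : l ∣ p + 1) :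
    padicValNat l (p - 1) = 0 := by
  have hp2 : 2 ≤ p := hp.out.two_le
  apply padicValNat.eq_zero_of_not_dvd
  intro h
  have h2 : l ∣ (p + 1) - (p - 1) := Nat.dvd_sub hd h
  have : (p + 1) - (p - 1) = 2 := by omega
  rw [this] at h2
  have := Nat.le_of_dvd (by norm_num) h2
  omega

theorem not_dvd_c_of_dvd_succ {l : ℕ} (_hl : l.Prime) (hl3 : 3 ≤ l) (hd : l ∣ p + 1) :
    ¬ (l : ℤ) ∣ (p : ℤ) - 1 := by
  have hp2 : 2 ≤ p := hp.out.two_le
  intro h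
  have h' : l ∣ p - 1 := by
    have : ((p - 1 : ℕ) : ℤ) = (p : ℤ) - 1 := by rw [Nat.cast_sub (by omega)]; simp
    rw [← this] at h
    exact_mod_cast h
  have h2 : l ∣ (p + 1) - (p - 1) := Nat.dvd_sub hd h'
  have : (p + 1) - (p - 1) = 2 := by omega
  rw [this] at h2
  have := Nat.le_of_dvd (by norm_num) h2
  omega

/-- (N_l), `l ≥ 7`, `l ∣ p + 1`. -/
theorem N_B7 (h5 : ExportU5 p) (h2 : ExportU2 p) (h7 : ExportB7 p) (hL : Target_LocalData)
    (hT : Target_Nl_B7) (l : ℕ) [hl : Fact l.Prime] (hl7 : 7 ≤ l) (hd : l ∣ p + 1) :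
    NStatement p l 1 := by
  intro f af haf hdiv
  obtain ⟨G, Gs, hq, hc, hk⟩ := h5 f af haf
  obtain ⟨P, rfl⟩ := h2 G Gs hq
  obtain ⟨L⟩ := hL l hl.out
  have hcong := cong_of_hyp (P := P) hk hdiv
  rw [padicValNat_eq_zero_of_dvd_succ p hl.out (by omega) hd, zero_add] at hcong
  obtain ⟨ζ, hζ, n, hS, hform⟩ := h7 G P.G hq
  rw [P.constG, P.Up_G] at hform
  have hPc : ¬ (l : ℤ) ∣ P.c := by
    rw [← P.constG, hc]; exact not_dvd_c_of_dvd_succ p hl.out (by omega) hd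
  exact hT p l hp.out hl.out hl7 hd L P hPc hcong ζ hζ n hS hform

/-- (N_l), `l = 5 ∣ p + 1`. -/
theorem N_B5 (h5 : ExportU5 p) (h2 : ExportU2 p) (h7 : ExportB5 p) (hL : Target_LocalData)
    (hT : Target_Nl_B5) (hd : 5 ∣ p + 1) :
    NStatement p 5 1 := by
  have hl : Fact (Nat.Prime 5) := ⟨by norm_num⟩
  intro f af haf hdiv
  obtain ⟨G, Gs, hq, hc, hk⟩ := h5 f af haf
  obtain ⟨P, rfl⟩ := h2 G Gs hq
  obtain ⟨L⟩ := hL 5 hl.out
  have hcong := cong_of_hyp (P := P) hk hdiv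
  rw [padicValNat_eq_zero_of_dvd_succ p hl.out (by omega) hd, zero_add] at hcong
  obtain ⟨ζ, hζ, n, hS, hform⟩ := h7 G P.G hq
  rw [P.constG, P.Up_G] at hform
  have hPc : ¬ ((5 : ℕ) : ℤ) ∣ P.c := by
    rw [← P.constG, hc]; exact not_dvd_c_of_dvd_succ p hl.out (by omega) hd
  exact hT p hp.out hd L P (by exact_mod_cast hPc) hcong ζ hζ n hS hform

/-- (N_3a), case `9 ∣ p + 1`. -/
theorem N_3a_nine (h5 : ExportU5 p) (h2 : ExportU2 p) (h7 : ExportN3 p) (hL : Target_LocalData)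
    (hT : Target_N3a_nine) (hd : 9 ∣ p + 1) :
    NStatement p 3 2 := by
  have hl : Fact (Nat.Prime 3) := ⟨Nat.prime_three⟩
  have hd3 : 3 ∣ p + 1 := dvd_trans (by norm_num) hd
  intro f af haf hdiv
  obtain ⟨G, Gs, hq, hc, hk⟩ := h5 f af haf
  obtain ⟨P, rfl⟩ := h2 G Gs hq
  obtain ⟨L⟩ := hL 3 hl.out
  have hcong := cong_of_hyp (P := P) hk hdiv
  rw [padicValNat_eq_zero_of_dvd_succ p hl.out (by omega) hd3, zero_add] at hcong
  obtain ⟨ζ, hζ, n, hS, hform⟩ := h7 G P.G hq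
  rw [P.constG, P.Up_G] at hform
  have hPc : ¬ ((3 : ℕ) : ℤ) ∣ P.c := by
    rw [← P.constG, hc]; exact not_dvd_c_of_dvd_succ p hl.out (by omega) hd3
  exact hT p hp.out hd L P (by exact_mod_cast hPc) hcong ζ hζ n hS hform

omit hp in
/-- `p ≡ 3 mod 4` ⇒ `v_2(p-1) = 1` and `p - 1 = 2u`, `u` odd. -/
theorem two_part_of_three_mod_four (h4 : p % 4 = 3) :
    padicValNat 2 (p - 1) = 1 ∧ ∃ u : ℤ, (p : ℤ) - 1 = 2 * u ∧ ¬ (2 : ℤ) ∣ u := by
  have : Fact (Nat.Prime 2) := ⟨Nat.prime_two⟩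
  have hne : p - 1 ≠ 0 := by omega
  have h1 : 1 ≤ padicValNat 2 (p - 1) := by
    rw [← padicValNat_dvd_iff_le hne]; omega
  have h2 : ¬ 2 ≤ padicValNat 2 (p - 1) := by
    rw [← padicValNat_dvd_iff_le hne]; omega
  refine ⟨by omega, ((p : ℤ) - 1) / 2, ?_, ?_⟩ <;> omega

/-- (N_2a), case `p ≡ 3 mod 4`, `p ≠ 3`. -/
theorem N_2a_three (h5 : ExportU5 p) (h2 : ExportU2 p) (h7 : ExportN2 p) (hL : Target_LocalData)
    (hT : Target_N2a) (h4 : p % 4 = 3) (hp3 : p ≠ 3) :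
    NStatement p 2 3 := by
  have hl : Fact (Nat.Prime 2) := ⟨Nat.prime_two⟩
  intro f af haf hdiv
  obtain ⟨G, Gs, hq, hc, hk⟩ := h5 f af haf
  obtain ⟨P, rfl⟩ := h2 G Gs hq
  obtain ⟨L⟩ := hL 2 hl.out
  obtain ⟨hv, u, hu, hodd⟩ := two_part_of_three_mod_four p h4
  have hcong := cong_of_hyp (P := P) hk hdiv
  rw [hv] at hcong
  obtain ⟨ζ, ω, hζ, hω, n, hS, hform⟩ := h7 hp3 G P.G hq
  rw [P.constG, P.Up_G] at hform
  have hPc : P.c = 2 * u := by rw [← P.constG, hc, hu]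
  exact hT p hp.out h4 hp3 L P u hPc hodd (by exact_mod_cast hcong) ζ ω hζ hω n hS hform

/-- All exports and targets of the upper bound, bundled. -/
structure UpperInputs : Prop where
  u5 : ExportU5 p
  u2 : ExportU2 p
  b7 : ExportB7 p
  b5 : ExportB5 p
  n3 : ExportN3 p
  n2 : ExportN2 p
  localData : Target_LocalData
  tNp : Target_Np
  tA : Target_Nl_A
  t3one : Target_N3a_one
  t2b : Target_N2b
  tB7 : Target_Nl_B7
  tB5 : Target_Nl_B5
  t3nine : Target_N3a_nine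
  t2a : Target_N2a

variable {p}

theorem UpperInputs.pkg (H : UpperInputs p) : PkgExport p := pkgExport_of p H.u5 H.u2

/-- (N_l) + (N_p): all primes `l ≥ 5`. -/
theorem UpperInputs.N_ge_five (H : UpperInputs p) (hp7 : 7 ≤ p) (l : ℕ) (hl : l.Prime)
    (hl5 : 5 ≤ l) : NStatement p l 1 := by
  have : Fact l.Prime := ⟨hl⟩
  by_cases hlp : l = p
  · subst hlp
    exact N_p l H.pkg H.tNp hp7
  · by_cases hd : l ∣ p + 1
    · by_cases h5 : l = 5
      · subst h5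
        exact N_B5 p H.u5 H.u2 H.b5 H.localData H.tB5 hd
      · have hl7 : 7 ≤ l := by
          have h6 : l ≠ 6 := fun h => by rw [h] at hl; exact absurd hl (by norm_num)
          omega
        exact N_B7 p H.u5 H.u2 H.b7 H.localData H.tB7 l hl7 hd
    · exact N_A p H.pkg H.tA l 1 (by omega) hlp hd le_rfl

theorem UpperInputs.N_three (H : UpperInputs p) (hp7 : 7 ≤ p) :
    NStatement p 3 2 ∧ (p % 3 = 1 → NStatement p 3 1) := by
  have h3 : Fact (Nat.Prime 3) := ⟨Nat.prime_three⟩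
  have hpp : p.Prime := hp.out
  have h3p : (3 : ℕ) ≠ p := by omega
  have hmod : p % 3 = 1 ∨ p % 3 = 2 := by
    have : ¬ 3 ∣ p := fun h => by
      have := (Nat.prime_dvd_prime_iff_eq Nat.prime_three hpp).mp h
      omega
    omega
  refine ⟨?_, fun h1 => N_A p H.pkg H.tA 3 1 le_rfl h3p (by omega) le_rfl⟩
  rcases hmod with h1 | h2
  · exact N_A p H.pkg H.tA 3 2 le_rfl h3p (by omega) (by omega)
  · have hd3 : 3 ∣ p + 1 := by omega
    by_cases h9 : 9 ∣ p + 1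
    · exact N_3a_nine p H.u5 H.u2 H.n3 H.localData H.t3nine h9
    · exact N_3a_one p H.pkg H.t3one hd3 h9

theorem UpperInputs.N_two (H : UpperInputs p) (hp7 : 7 ≤ p) :
    NStatement p 2 3 ∧ (p % 4 = 1 → NStatement p 2 2) := by
  have hpp : p.Prime := hp.out
  have hodd : p % 2 = 1 := by
    rcases hpp.eq_two_or_odd with h | h <;> omega
  refine ⟨?_, fun h1 => N_2b p H.pkg H.t2b h1 2 le_rfl⟩
  by_cases h1 : p % 4 = 1
  · exact N_2b p H.pkg H.t2b h1 3 (by omega)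
  · exact N_2a_three p H.u5 H.u2 H.n2 H.localData H.t2a (by omega) (by omega)

end Fermat.Agent.S16.Glue12
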