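/-
S16, chapter U7 (glue), helper12: the adapters from helper14's BINDING export contracts
`Export14.Export_Pkg / Export_norm4 / Export_norm6 / Export_norm6' / Export_dnorm` (on main) to the
internal shapes `Glue12.ExportU2 / ExportB7 / ExportB5 / ExportN3 / ExportN2 p`.
Export owners prove the `Export14` statements; nobody codes against the `Glue12` shapes.
-/
import Fermat.Agent.S16.Glue12
import Fermat.Agent.S16.Export14

set_option autoImplicit false

noncomputable section

open PowerSeries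

namespace Fermat.Agent.S16.Bridge12

open Fermat.Agent.S16.Glue12 Fermat.Agent.S16.Formal14 Fermat.Agent.S16.Export14

variable (p : ℕ) [hp : Fact p.Prime]

omit hp in
/-- `IsQExp` gives `IntQ` for the coefficient function. -/
theorem intQ_of_isQExp {G : ModularForm (CongruenceSubgroup.Gamma0 p) 2} {Gs : ℤ⟦X⟧}
    (hq : IsQExp p G Gs) : IntQ G (fun k => coeff k Gs) := by
  intro k
  unfold IsQExp at hq
  rw [← hq]
  simp

theorem mk_coeff_eq (Gs : ℤ⟦X⟧) : PowerSeries.mk (fun k => coeff k Gs) = Gs := by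
  ext k
  simp

theorem exportU2_of (h : Export_Pkg) : ExportU2 p := by
  intro G Gs hq
  obtain ⟨P, hP⟩ := h p hp.out G _ (intQ_of_isQExp p hq)
  exact ⟨P, hP.trans (mk_coeff_eq Gs)⟩

theorem exportB7_of (h : Export_norm4) : ExportB7 p := by
  intro G Gs hq
  obtain ⟨ζ, n, hζ, hS, hform⟩ := h p hp.out G _ (intQ_of_isQExp p hq)
  refine ⟨ζ, hζ, n, hS, ?_⟩
  rw [mk_coeff_eq] at hform
  simpa only [coeff_zero_eq_constantCoeff_apply] using hform

theorem exportB5_of (h : Export_norm6) : ExportB5 p := by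
  intro G Gs hq
  obtain ⟨ζ, n, hζ, hS, hform⟩ := h p hp.out G _ (intQ_of_isQExp p hq)
  refine ⟨ζ, hζ, n, hS, ?_⟩
  rw [mk_coeff_eq] at hform
  simpa only [coeff_zero_eq_constantCoeff_apply] using hform

theorem exportN3_of (h : Export_norm6') : ExportN3 p := by
  intro G Gs hq
  obtain ⟨ζ, n, hζ, hS, hform⟩ := h p hp.out G _ (intQ_of_isQExp p hq)
  refine ⟨ζ, hζ, n, hS, ?_⟩
  rw [mk_coeff_eq] at hform
  simpa only [coeff_zero_eq_constantCoeff_apply] using hform

theorem exportN2_of (h : Export_dnorm) : ExportN2 p := by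
  intro hp3 G Gs hq
  obtain ⟨ζ, ω, n, hζ, hω, hS, hform⟩ := h p hp.out hp3 G _ (intQ_of_isQExp p hq)
  refine ⟨ζ, ω, hζ, hω, n, hS, ?_⟩
  rw [mk_coeff_eq] at hform
  simpa only [coeff_zero_eq_constantCoeff_apply] using hform

end Fermat.Agent.S16.Bridge12
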