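/-
S16, chapter A-top, helper12: the trivial levels `p = 2, 3` of the upper bound
(`S_2(Γ0(p)) = 0`, so `f ≡ δ mod m` forces `m ∣ σ'(1) = 1`).
-/
import Fermat.Agent.S16.Top12
import Fermat.Agent.S07

set_option autoImplicit false

noncomputable section

open ModularCurve CuspForm ModularFormClass UpperHalfPlane
open scoped MatrixGroups

namespace Fermat.Agent.S16.SmallP12

open Fermat.Agent.S16.Top12

/-- The index of `Gamma0(3)` in `SL(2,ℤ)` is at most `4`: the left coset of `A` is determined by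
the point `[a : c] ∈ ℙ¹(𝔽₃)` given by the first column. -/
theorem Gamma0_three_index_le : (CongruenceSubgroup.Gamma0 3).index ≤ 4 := by
  have h3 : Fact (Nat.Prime 3) := ⟨Nat.prime_three⟩
  have := Fermat.Agent.S07.index_le_card_of_forall (CongruenceSubgroup.Gamma0 3)
    (fun A : SL(2, ℤ) ↦ (if ((A 1 0 : ℤ) : ZMod 3) = 0 then none
      else some (((A 0 0 : ℤ) : ZMod 3) * (((A 1 0 : ℤ) : ZMod 3))⁻¹) : Option (ZMod 3))) ?_
  · simpa using this
  · intro A B hAB
    rw [CongruenceSubgroup.Gamma0_mem]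
    have hform : (A⁻¹ * B) 1 0 = - A 1 0 * B 0 0 + A 0 0 * B 1 0 := by
      simp [Matrix.SpecialLinearGroup.coe_inv, Matrix.adjugate_fin_two, Matrix.mul_apply,
        Fin.sum_univ_two]
    rw [hform]; push_cast
    by_cases hA : ((A 1 0 : ℤ) : ZMod 3) = 0
    · by_cases hB : ((B 1 0 : ℤ) : ZMod 3) = 0
      · rw [hA, hB]; ring
      · simp only [hA, hB, if_true, if_false] at hAB
        exact absurd hAB (by simp)
    · by_cases hB : ((B 1 0 : ℤ) : ZMod 3) = 0
      · simp only [hA, hB, if_true, if_false] at hAB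
        exact absurd hAB (by simp)
      · simp only [hA, hB, if_false, Option.some.injEq] at hAB
        have h1 : ((A 0 0 : ℤ) : ZMod 3) * ((B 1 0 : ℤ) : ZMod 3) =
            ((B 0 0 : ℤ) : ZMod 3) * ((A 1 0 : ℤ) : ZMod 3) := by
          field_simp at hAB
          linear_combination hAB
        linear_combination h1

theorem cuspForm_Gamma0_three_eq_zero (f : CuspForm (CongruenceSubgroup.Gamma0 3) 2) : f = 0 := by
  apply Fermat.Agent.S07.eq_zero_of_weight_mul_index_lt
  rw [Fermat.Agent.S07.card_quotient_eq_index]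
  have := Gamma0_three_index_le
  omega

theorem qCoeff_zero_cuspForm (N : ℕ) (k : ℕ) :
    ModularFormClass.qCoeff (0 : CuspForm (CongruenceSubgroup.Gamma0 N) 2) k = 0 := by
  have hcoe : ((0 : CuspForm (CongruenceSubgroup.Gamma0 N) 2) : ℍ → ℂ) = (0 : ℍ → ℂ) := rfl
  rw [qCoeff, hcoe, qExpansion_zero]
  simp

variable (p : ℕ) [Fact p.Prime]

/-- If `S_2(Γ0(p)) = 0` then the upper bound statement holds trivially. -/
theorem UBf_of_forall_eq_zero
    (h0 : ∀ f : CuspForm (CongruenceSubgroup.Gamma0 p) 2, f = 0) : UBfStatement p := by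
  intro m _ f hf
  obtain ⟨a, ha, hdvd⟩ := hf 1 le_rfl
  have hf0 : aCoeff p f 1 = 0 := by
    unfold aCoeff
    rw [h0 (f : CuspForm (CongruenceSubgroup.Gamma0 p) 2)]
    exact qCoeff_zero_cuspForm p 1
  have ha0 : a = 0 := by
    rw [hf0] at ha
    exact_mod_cast ha.symm
  have hs : sigmaPrime p 1 = 1 := by
    unfold sigmaPrime
    have hp : ¬ p ∣ 1 := by
      have := (Fact.out : p.Prime).two_le
      intro h; have := Nat.le_of_dvd one_pos h; omega
    rw [Nat.divisors_one, Finset.filter_singleton, if_pos hp, Finset.sum_singleton]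
    rfl
  rw [ha0, hs] at hdvd
  have h1 : (m : ℤ) ∣ 1 := by
    have := (dvd_neg (a := (m : ℤ)) (b := (0 - 1 : ℤ))).mpr hdvd
    simpa using this
  have : m ∣ 1 := by exact_mod_cast h1
  exact dvd_trans this (one_dvd _)

end Fermat.Agent.S16.SmallP12
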