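/-
S16, chapter A-top, helper12: `S_2(Γ0(5)) = 0` from the dimension formula S20 (`genusFormula 5 = 0`),
hence the upper bound statement at `p = 5` (needed because (N_p) of the elementary route wants `p ≥ 7`).
-/
import Fermat.Agent.S16.SmallP12
import Fermat.Agent.S20

set_option autoImplicit false

noncomputable section

open ModularCurve CuspForm

namespace Fermat.Agent.S16.SmallFive12

open Fermat.Agent.S16.Top12 Fermat.Agent.S16.SmallP12

theorem dedekindPsi_five : dedekindPsi 5 = 6 := by
  unfold dedekindPsi
  have hd : (5 : ℕ).divisors = {1, 5} := by decide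
  rw [hd, Finset.filter_true_of_mem]
  · simp
  · intro d hd
    simp only [Finset.mem_insert, Finset.mem_singleton] at hd
    rcases hd with rfl | rfl
    · exact squarefree_one
    · exact Nat.prime_five.prime.squarefree

theorem cuspCount_five : cuspCount 5 = 2 := by decide

theorem nuTwo_five : nuTwo 5 = 2 := by
  unfold nuTwo
  rw [Nat.card_eq_fintype_card]
  decide

theorem nuThree_five : nuThree 5 = 0 := by
  unfold nuThree
  rw [Nat.card_eq_fintype_card]
  decide

theorem genusFormula_five : genusFormula 5 = 0 := by
  unfold genusFormula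
  rw [dedekindPsi_five, cuspCount_five, nuTwo_five, nuThree_five]
  norm_num

theorem cuspForm_Gamma0_five_eq_zero (f : CuspForm (CongruenceSubgroup.Gamma0 5) 2) : f = 0 := by
  have h := Fermat.Agent.S20.result 5
  rw [genusFormula_five] at h
  have h0 : Module.finrank ℂ (CuspForm (CongruenceSubgroup.Gamma0 5) 2) = 0 := by
    exact_mod_cast h
  have : Module.Finite ℂ (CuspForm (CongruenceSubgroup.Gamma0 5) 2) := inferInstance
  exact finrank_zero_iff_forall_zero.mp h0 f

instance : Fact (Nat.Prime 5) := ⟨by norm_num⟩

theorem UBf_five : UBfStatement 5 := UBf_of_forall_eq_zero 5 cuspForm_Gamma0_five_eq_zero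

end Fermat.Agent.S16.SmallFive12
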