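/-
S16, chapter A-top, helper12 (integrator): the literal frozen statement from the chapter contracts
  (LB')  `Top12.LBStatement p`            (chapter B, only needed for `p ≥ 7`)
  (A1)   `Top12.A1Statement p`            (chapter A)
  (A3)   `Top12.A3Statement p`            (chapter A)
  (N)    `CaseCheck12.NStatement p l e`   (upper bound chapters; only for `p ≥ 7`).
`p = 2, 3, 5` are closed here (`S_2(Γ0(p)) = 0` by S07 / the norm lemma of S07 / S20).
-/
import Fermat.Agent.S16.CaseCheck12
import Fermat.Agent.S16.SmallP12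
import Fermat.Agent.S16.SmallFive12

set_option autoImplicit false

noncomputable section

open ModularCurve CuspForm

namespace Fermat.Agent.S16.Assemble12

open Fermat.Agent.S16.Top12 Fermat.Agent.S16.CaseCheck12 Fermat.Agent.S16.SmallP12

variable (p : ℕ) [Fact p.Prime]

theorem LB_of_numerator_eq_one (h1 : eisensteinNumerator p = 1) : LBStatement p := by
  intro P _
  rw [h1]
  exact one_dvd _

theorem result_of_chapters
    (hLB : 7 ≤ p → LBStatement p) (hA1 : A1Statement p) (hA3 : A3Statement p)
    (hNl : 7 ≤ p → ∀ l : ℕ, l.Prime → 5 ≤ l → NStatement p l 1)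
    (hN3a : 7 ≤ p → NStatement p 3 2) (hN3b : 7 ≤ p → p % 3 = 1 → NStatement p 3 1)
    (hN2a : 7 ≤ p → NStatement p 2 3) (hN2b : 7 ≤ p → p % 4 = 1 → NStatement p 2 2) :
    Nat.card (↥(heckeLatticeAlgebra p ∅) ⧸
        Ideal.map ((latticeRestrictHom p ∅).toRingHom.comp (heckeEvalForms p 2))
          (eisensteinIdeal p)) =
      eisensteinNumerator p := by
  have hpp : p.Prime := Fact.out
  by_cases hp7 : 7 ≤ p
  · exact result_of_contracts p (hLB hp7)
      (UBf_of_N p (by omega) (hNl hp7) (hN3a hp7) (hN3b hp7) (hN2a hp7) (hN2b hp7)) hA1 hA3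
  · have hp235 : p = 2 ∨ p = 3 ∨ p = 5 := by
      have h2 := hpp.two_le
      have h4 : p ≠ 4 := fun h => by rw [h] at hpp; exact absurd hpp (by norm_num)
      have h6 : p ≠ 6 := fun h => by rw [h] at hpp; exact absurd hpp (by norm_num)
      omega
    have hn1 : eisensteinNumerator p = 1 := by
      rcases hp235 with h | h | h <;> subst h <;> decide
    have h0 : ∀ f : CuspForm (CongruenceSubgroup.Gamma0 p) 2, f = 0 := by
      rcases hp235 with h | h | h
      · subst h; exact Fermat.Agent.S07.result
      · subst h; exact cuspForm_Gamma0_three_eq_zero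
      · subst h; exact Fermat.Agent.S16.SmallFive12.cuspForm_Gamma0_five_eq_zero
    exact result_of_contracts p (LB_of_numerator_eq_one p hn1)
      (UBf_of_forall_eq_zero p h0) hA1 hA3

end Fermat.Agent.S16.Assemble12
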