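/-
S16, helper12 (integrator): the literal frozen statement from
  (LB) chapter B, (A1), (A3) chapter A, and the bundle `Glue12.UpperInputs p` (exports of U2–U5 and
  the formal targets of `Formal14`) for `p ≥ 7`.
-/
import Fermat.Agent.S16.Assemble12
import Fermat.Agent.S16.Glue12

set_option autoImplicit false

noncomputable section

open ModularCurve CuspForm

namespace Fermat.Agent.S16.Final12

open Fermat.Agent.S16.Top12 Fermat.Agent.S16.CaseCheck12 Fermat.Agent.S16.Glue12

theorem result_of_inputs (p : ℕ) [Fact p.Prime]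
    (hLB : 7 ≤ p → LBStatement p) (hA1 : A1Statement p) (hA3 : A3Statement p)
    (hU : 7 ≤ p → UpperInputs p) :
    Nat.card (↥(heckeLatticeAlgebra p ∅) ⧸
        Ideal.map ((latticeRestrictHom p ∅).toRingHom.comp (heckeEvalForms p 2))
          (eisensteinIdeal p)) =
      eisensteinNumerator p :=
  Fermat.Agent.S16.Assemble12.result_of_chapters p hLB hA1 hA3
    (fun h7 l hl hl5 => (hU h7).N_ge_five h7 l hl hl5)
    (fun h7 => ((hU h7).N_three h7).1) (fun h7 => ((hU h7).N_three h7).2)
    (fun h7 => ((hU h7).N_two h7).1) (fun h7 => ((hU h7).N_two h7).2)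

end Fermat.Agent.S16.Final12
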