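/-
S16, chapter U7 (glue), helper12: the export `Glue12.ExportU5 p` — for `f ∈ S(ℤ)` the form
`G = 24 (Eis p - f) ∈ M_2(Γ0(p))` (with helper16's `Eis p`) has integer `q`-expansion
`(p - 1) + ∑_{k ≥ 1} 24 (σ'(k) - a_k(f)) q^k`.
-/
import Fermat.Agent.S16.Glue12
import Fermat.Agent.S16.EisLevel16

set_option autoImplicit false

noncomputable section

open ModularCurve CuspForm PowerSeries UpperHalfPlane CongruenceSubgroup

namespace Fermat.Agent.S16.U5Export12

open Fermat.Agent.S16.Top12 Fermat.Agent.S16.Glue12 Fermat.Agent.S16.Formal14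
  Fermat.Agent.S16.EisLevel16

variable (p : ℕ) [hp : Fact p.Prime]

/-- the form `24 (Eis p - f)`. -/
def gForm (f : CuspForm (Gamma0 p) 2) : ModularForm (Gamma0 p) 2 :=
  haveI : NeZero p := ⟨hp.out.ne_zero⟩
  (24 : ℂ) • (Eis p - CuspForm.toModularFormₗ f)

/-- its integer coefficients. -/
def gCoeff (af : ℕ → ℤ) (k : ℕ) : ℤ :=
  if k = 0 then (p : ℤ) - 1 else 24 * (sigmaPrime p k - af k)

theorem qExpansion_gForm (f : CuspForm (Gamma0 p) 2) :
    haveI : NeZero p := ⟨hp.out.ne_zero⟩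
    qExpansion 1 (gForm p f) =
      (24 : ℂ) • (qExpansion 1 (Eis p) - qExpansion 1 f) := by
  have : NeZero p := ⟨hp.out.ne_zero⟩
  have hΓ := CongruenceSubgroup.one_mem_strictPeriods_Gamma0 p
  have h1 : (⇑(gForm p f) : ℍ → ℂ) =
      (24 : ℂ) • (⇑(Eis p - CuspForm.toModularFormₗ f) : ℍ → ℂ) := rfl
  have h2 : (⇑(Eis p - CuspForm.toModularFormₗ f) : ℍ → ℂ) = ⇑(Eis p) - ⇑f := rfl
  rw [h1, ModularForm.qExpansion_smul one_pos hΓ, h2,
    ModularForm.qExpansion_sub one_pos hΓ]

theorem exportU5 : ExportU5 p := by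
  have : NeZero p := ⟨hp.out.ne_zero⟩
  have hΓ := CongruenceSubgroup.one_mem_strictPeriods_Gamma0 p
  intro f af haf
  refine ⟨gForm p (f : CuspForm (Gamma0 p) 2), PowerSeries.mk (gCoeff p af), ?_, ?_, ?_⟩
  · unfold IsQExp
    rw [qExpansion_gForm]
    ext k
    rw [coeff_map, coeff_mk, PowerSeries.coeff_smul, map_sub, qExpansion_Eis_coeff]
    unfold gCoeff
    rcases Nat.eq_zero_or_pos k with rfl | hk
    · rw [if_pos rfl, eisCoeff_zero,
        CuspFormClass.qExpansion_coeff_zero (f : CuspForm (Gamma0 p) 2) one_pos hΓ]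
      simp only [eq_intCast, Int.cast_sub, Int.cast_natCast, Int.cast_one, sub_zero, smul_eq_mul]
      ring
    · rw [if_neg hk.ne', eisCoeff_of_ne_zero p hk.ne', sigmaN_eq_sum]
      have h := haf k hk
      unfold aCoeff ModularFormClass.qCoeff at h
      rw [h]
      simp only [eq_intCast, smul_eq_mul, sigmaPrime]
      push_cast
      ring
  · rw [← coeff_zero_eq_constantCoeff_apply, coeff_mk]
    exact if_pos rfl
  · intro k hk
    rw [coeff_mk]
    exact if_neg (by omega)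

end Fermat.Agent.S16.U5Export12
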