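/-
S16, chapter U7 (glue), helper12: `Glue12.UpperInputs p` from helper14's binding export contracts
(`Export14.Export_*`), the formal targets (`Formal14.Target_*`) and the `U5` export
(`U5Export12.exportU5`, proved); and the frozen statement from the chapter outputs in their literal
on-main shapes.
-/
import Fermat.Agent.S16.Bridge12
import Fermat.Agent.S16.U5Export12
import Fermat.Agent.S16.Final12

set_option autoImplicit false

noncomputable section

open ModularCurve CuspForm

namespace Fermat.Agent.S16.Inputs12

open Fermat.Agent.S16.Top12 Fermat.Agent.S16.Glue12 Fermat.Agent.S16.Formal14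
  Fermat.Agent.S16.Export14 Fermat.Agent.S16.Bridge12

/-- All inputs of the upper bound that do not depend on `p`: the exports of U2/U3/U4 (helper14's
contracts) and the formal targets of U6. -/
structure UpperExports : Prop where
  pkg : Export_Pkg
  norm4 : Export_norm4
  norm6 : Export_norm6
  norm6' : Export_norm6'
  dnorm : Export_dnorm
  localData : Target_LocalData
  tNp : Target_Np
  tA : Target_Nl_A
  t3one : Target_N3a_one
  t2b : Target_N2b
  tB7 : Target_Nl_B7
  tB5 : Target_Nl_B5
  t3nine : Target_N3a_nine
  t2a : Target_N2a

variable (p : ℕ) [hp : Fact p.Prime]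

theorem upperInputs_of (H : UpperExports) : UpperInputs p where
  u5 := U5Export12.exportU5 p
  u2 := exportU2_of p H.pkg
  b7 := exportB7_of p H.norm4
  b5 := exportB5_of p H.norm6
  n3 := exportN3_of p H.norm6'
  n2 := exportN2_of p H.dnorm
  localData := H.localData
  tNp := H.tNp
  tA := H.tA
  t3one := H.t3one
  t2b := H.t2b
  tB7 := H.tB7
  tB5 := H.tB5
  t3nine := H.t3nine
  t2a := H.t2a

/-- **The frozen statement of S16** from: the lower bound (`p ≥ 7`), (A1), (A3), and the
`p`-independent exports/targets of the upper bound. -/
theorem result_of_exports (hLB : 7 ≤ p → LBStatement p) (hA1 : A1Statement p)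
    (hA3 : A3Statement p) (H : UpperExports) :
    Nat.card (↥(heckeLatticeAlgebra p ∅) ⧸
      Ideal.map ((latticeRestrictHom p ∅).toRingHom.comp (heckeEvalForms p 2))
        (eisensteinIdeal p)) = eisensteinNumerator p :=
  Final12.result_of_inputs p hLB hA1 hA3 (fun _ => upperInputs_of p H)

end Fermat.Agent.S16.Inputs12
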