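/-
S16 (Program M), brick U6 (helper25): series with coefficients in `R` (`L = (R, 𝔪)` a `LocalData ℓ`):
closure properties, and the standard way to produce `HasOrd`:
`x = base + C ℓ * y` with `y ∈ R⟦X⟧` and `HasOrd L base o` ⇒ `HasOrd L x o`.
-/
import Mathlib
import Fermat.Agent.S16.Formal14
import Fermat.Agent.S16.NormContra25

set_option autoImplicit false

open PowerSeries

namespace Fermat.Agent.S16.RSeries25

open Fermat.Agent.S16.Formal14 Fermat.Agent.S16.NormContra25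

variable {ℓ : ℕ} (L : LocalData ℓ)

/-- all coefficients lie in `R`. -/
def InR (x : ℂ⟦X⟧) : Prop := ∀ k, coeff k x ∈ L.R

variable {L}

theorem InR_zero : InR L 0 := fun k => by rw [map_zero]; exact L.R.zero_mem

theorem InR_one : InR L 1 := fun k => by
  rw [coeff_one]
  split_ifs
  · exact L.R.one_mem
  · exact L.R.zero_mem

theorem InR_C {u : ℂ} (hu : u ∈ L.R) : InR L (C u) := fun k => by
  rw [coeff_C]
  split_ifs
  · exact hu
  · exact L.R.zero_mem

theorem InR_add {x y : ℂ⟦X⟧} (hx : InR L x) (hy : InR L y) : InR L (x + y) := fun k => by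
  rw [map_add]
  exact L.R.add_mem (hx k) (hy k)

theorem InR_neg {x : ℂ⟦X⟧} (hx : InR L x) : InR L (-x) := fun k => by
  rw [map_neg]
  exact L.R.neg_mem (hx k)

theorem InR_sub {x y : ℂ⟦X⟧} (hx : InR L x) (hy : InR L y) : InR L (x - y) := fun k => by
  rw [map_sub]
  exact L.R.sub_mem (hx k) (hy k)

theorem InR_mul {x y : ℂ⟦X⟧} (hx : InR L x) (hy : InR L y) : InR L (x * y) :=
  fun k => coeff_mul_mem hx hy k

theorem InR_pow {x : ℂ⟦X⟧} (hx : InR L x) (n : ℕ) : InR L (x ^ n) := by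
  induction n with
  | zero => rw [pow_zero]; exact InR_one
  | succ n ih => rw [pow_succ]; exact InR_mul ih hx

theorem InR_expand {x : ℂ⟦X⟧} (hx : InR L x) (p : ℕ) (hp : p ≠ 0) :
    InR L (PowerSeries.expand p hp x) := fun k => by
  rw [coeff_expand]
  split_ifs
  · exact hx _
  · exact L.R.zero_mem

/-- integer series have coefficients in `R`. -/
theorem InR_toC (f : ℤ⟦X⟧) : InR L (toC f) := fun k => by
  rw [coeff_map]
  exact L.int_mem _

/-- twisting by a root of unity keeps coefficients in `R`. -/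
theorem InR_rescale {x : ℂ⟦X⟧} (hx : InR L x) {z : ℂ} {n : ℕ} (hn : 1 ≤ n) (hz : z ^ n = 1) :
    InR L (rescale z x) := fun k => by
  rw [coeff_rescale]
  refine L.R.mul_mem (L.root_mem (z ^ k) n hn ?_) (hx k)
  rw [← pow_mul, mul_comm, pow_mul, hz, one_pow]

theorem InR_of_hasOrd {x : ℂ⟦X⟧} {o : ℕ} (H : HasOrd L x o) : InR L x := H.mem

/-- `x = base + C ℓ * y`, `y ∈ R⟦X⟧`: same `𝔪`-order as `base`. -/
theorem hasOrd_of_eq_add {x base y : ℂ⟦X⟧} {o : ℕ} (H : HasOrd L base o) (hy : InR L y)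
    (hx : x = base + C (ℓ : ℂ) * y) : HasOrd L x o := by
  have hℓ : (ℓ : ℂ) ∈ L.R := natCast_mem ℓ
  refine HasOrd.of_congr ?_ ?_ H
  · rw [hx]
    exact InR_add H.mem (InR_mul (InR_C hℓ) hy)
  · intro k
    have : x - base = C (ℓ : ℂ) * y := by rw [hx]; ring
    rw [this, coeff_C_mul]
    exact InM_mul_right InM_ell (hy k)

/-- the same with the constant written as a series `t` with `t = C ℓ`. -/
theorem hasOrd_of_eq_add' {x base y t : ℂ⟦X⟧} {o : ℕ} (H : HasOrd L base o) (hy : InR L y)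
    (ht : t = C (ℓ : ℂ)) (hx : x = base + t * y) : HasOrd L x o := by
  subst ht
  exact hasOrd_of_eq_add H hy hx

/-! ### the formal series of `Formal14` over `ℂ` -/

theorem toC_sig (r : ℕ) : toC (sig r : ℤ⟦X⟧) = (sig r : ℂ⟦X⟧) := by
  ext k
  rw [coeff_map]
  simp [sig]

theorem toC_E4s : toC (E4s ℤ) = E4s ℂ := by
  rw [E4s, E4s, toC, map_add, map_one, map_mul, map_C]
  rw [show PowerSeries.map (Int.castRingHom ℂ) (sig 3 : ℤ⟦X⟧) = toC (sig 3) from rfl, toC_sig]
  simp

theorem toC_E6s : toC (E6s ℤ) = E6s ℂ := by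
  rw [E6s, E6s, toC, map_sub, map_one, map_mul, map_C]
  rw [show PowerSeries.map (Int.castRingHom ℂ) (sig 5 : ℤ⟦X⟧) = toC (sig 5) from rfl, toC_sig]
  simp

theorem InR_sig (r : ℕ) : InR L (sig r : ℂ⟦X⟧) := by
  rw [← toC_sig]
  exact InR_toC _

theorem InR_E4s : InR L (E4s ℂ) := by
  rw [← toC_E4s]
  exact InR_toC _

theorem InR_E6s : InR L (E6s ℂ) := by
  rw [← toC_E6s]
  exact InR_toC _

theorem coeff_sig {A : Type*} [Semiring A] (r k : ℕ) :
    coeff k (sig r : A⟦X⟧) = ((ArithmeticFunction.sigma r k : ℕ) : A) := by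
  rw [sig, coeff_mk]

theorem rescale_C' (z u : ℂ) : rescale z (C u) = C u := by
  ext k
  rw [coeff_rescale, coeff_C]
  split_ifs with h
  · rw [h, pow_zero, one_mul]
  · rw [mul_zero]

end Fermat.Agent.S16.RSeries25
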