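/-
S16 (Program M), brick U6 (helper25): `Formal14.Target_N3a_nine`, i.e. (N_3a) in the case `9 ∣ p + 1`.

Every one of the `p + 1` conjugates of `h = (G E4 - c E6)/3` (evaluated at `pz`) is
`≡ c · d(q^p)` modulo `3 R⟦q⟧`, `d = (E4 - E6)/3 = 80 s_3 + 168 s_5 = 248 q + …`, hence has `𝔪`-order
exactly `p`; the generic norm contradiction (`NormContra25`) gives `12 p (p+1) ≤ p · 6 (p+1)`: absurd.
-/
import Mathlib
import Fermat.Agent.S16.Formal14
import Fermat.Agent.S16.NormContra25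
import Fermat.Agent.S16.RSeries25

set_option autoImplicit false

open PowerSeries

namespace Fermat.Agent.S16.NormCases25

open Fermat.Agent.S16.Formal14 Fermat.Agent.S16.NormContra25 Fermat.Agent.S16.RSeries25

/-! ### two ring identities -/

theorem factor_identity {A : Type*} [CommRing A] (a T B S c ρ E4 E6 dp : A)
    (h3 : a * T = 1) (hβ : B = 1 + T * T * S) (hE : E4 - E6 = T * dp) :
    a * (B * (c + T * T * ρ) * E4 - c * E6) = c * dp + T * ((c * S + B * ρ) * E4) := by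
  linear_combination (T * B * ρ * E4 + c * dp + T * c * S * E4) * h3 + (a * c * E4) * hβ
    + (a * c) * hE

theorem factor_identity_inf {A : Type*} [CommRing A] (a T c γ E4 E6 d : A)
    (h3 : a * T = 1) (hE : E4 - E6 = T * d) :
    a * ((c + T * T * γ) * E4 - c * E6) = c * d + T * (γ * E4) := by
  linear_combination (a * c) * hE + (c * d + T * γ * E4) * h3

/-! ### `G = c + 9 γ` -/

theorem exists_gamma (G : ℤ⟦X⟧) (c : ℤ) (hc : constantCoeff G = c)
    (h9 : ∀ k, 1 ≤ k → (9 : ℤ) ∣ coeff k G) : ∃ γ : ℤ⟦X⟧, G = C c + C 9 * γ := by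
  refine ⟨PowerSeries.mk fun k => if k = 0 then 0 else coeff k G / 9, ?_⟩
  ext k
  rw [map_add, coeff_C, coeff_C_mul, coeff_mk]
  by_cases hk : k = 0
  · subst hk
    rw [if_pos rfl, if_pos rfl, mul_zero, add_zero, coeff_zero_eq_constantCoeff_apply, hc]
  · rw [if_neg hk, if_neg hk, zero_add]
    exact (Int.mul_ediv_cancel' (h9 k (Nat.one_le_iff_ne_zero.mpr hk))).symm

/-! ### the series `d = (E4 - E6)/3` -/

/-- `d = 80 s_3 + 168 s_5`. -/
noncomputable def dC : ℂ⟦X⟧ := C 80 * sig 3 + C 168 * sig 5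

theorem E4s_sub_E6s : E4s ℂ - E6s ℂ = C 3 * dC := by
  have h1 : (C (240 : ℂ) : ℂ⟦X⟧) = C 3 * C 80 := by rw [← map_mul]; norm_num
  have h2 : (C (504 : ℂ) : ℂ⟦X⟧) = C 3 * C 168 := by rw [← map_mul]; norm_num
  rw [E4s, E6s, dC, h1, h2]
  ring

theorem coeff_dC (k : ℕ) : coeff k dC =
    80 * ((ArithmeticFunction.sigma 3 k : ℕ) : ℂ) + 168 * ((ArithmeticFunction.sigma 5 k : ℕ) : ℂ) := by
  rw [dC, map_add, coeff_C_mul, coeff_C_mul, coeff_sig, coeff_sig]

theorem hasOrd_dC (L : LocalData 3) : HasOrd L dC 1 where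
  mem := InR_add (InR_mul (InR_C (by simp)) (InR_sig 3))
    (InR_mul (InR_C (by simp)) (InR_sig 5))
  low k hk := by
    have : k = 0 := by omega
    subst this
    rw [coeff_dC]
    simpa using InM_zero
  top := by
    rw [coeff_dC]
    have e : (80 : ℂ) * ((ArithmeticFunction.sigma 3 1 : ℕ) : ℂ) +
        168 * ((ArithmeticFunction.sigma 5 1 : ℕ) : ℂ) = ((248 : ℤ) : ℂ) := by
      simp
      norm_num
    rw [e]
    apply not_InM_intCast
    norm_num

/-! ### the target -/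

theorem target_N3a_nine : Target_N3a_nine := by
  intro p hp h9 L P hc hcong ζ hζ n hS hprod
  have hp0 : p ≠ 0 := hp.ne_zero
  have hp3 : ¬ 3 ∣ p := by omega
  obtain ⟨t, ht⟩ := h9
  -- constants
  have hpC : (p : ℂ) ≠ 0 := by exact_mod_cast hp0
  have h3C : (C ((3 : ℂ))⁻¹ : ℂ⟦X⟧) * C 3 = 1 := by
    rw [← map_mul, inv_mul_cancel₀ (by norm_num : (3 : ℂ) ≠ 0), map_one]
  have hT : (C (3 : ℂ) : ℂ⟦X⟧) = C ((3 : ℕ) : ℂ) := by norm_num
  have h9C : (C (9 : ℂ) : ℂ⟦X⟧) = C 3 * C 3 := by rw [← map_mul]; norm_num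
  have hcR : (P.c : ℂ) ∈ L.R := L.int_mem P.c
  have hcM : ¬ L.InM (P.c : ℂ) := not_InM_intCast (by exact_mod_cast hc)
  have hpinv : ((p : ℂ))⁻¹ ∈ L.R := by
    have := L.inv_mem (p : ℤ) (by exact_mod_cast hp3)
    rwa [Int.cast_natCast] at this
  -- `G = c + 9 γ`, `G' = c + 9 γ'`
  have hcong9 : ∀ k, 1 ≤ k → (9 : ℤ) ∣ coeff k P.G := by
    intro k hk
    have := hcong k hk
    norm_num at this
    exact this
  have hcong9' : ∀ k, 1 ≤ k → (9 : ℤ) ∣ coeff k P.G' := by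
    intro k hk
    rw [← P.Up_G, coeff_Up]
    exact hcong9 _ (Nat.one_le_iff_ne_zero.mpr (Nat.mul_ne_zero hp0 (by omega)))
  obtain ⟨γ, hγ⟩ := exists_gamma P.G P.c P.constG hcong9
  obtain ⟨γ', hγ'⟩ := exists_gamma P.G' P.c P.constG' hcong9'
  have hGC : toC P.G = C (P.c : ℂ) + C 3 * C 3 * toC γ := by
    rw [hγ, toC, map_add, map_mul, map_C, map_C, ← h9C]
    simp
  have hGC' : toC P.G' = C (P.c : ℂ) + C 3 * C 3 * toC γ' := by
    rw [hγ', toC, map_add, map_mul, map_C, map_C, ← h9C]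
    simp
  -- the base series
  have hbase : HasOrd L (C (P.c : ℂ) * PowerSeries.expand p hp0 dC) p := by
    have := ((hasOrd_dC L).expand p hp0).const_mul hcR hcM
    rwa [mul_one] at this
  have hEp : PowerSeries.expand p hp0 (E4s ℂ) - PowerSeries.expand p hp0 (E6s ℂ) =
      C 3 * PowerSeries.expand p hp0 dC := by
    rw [← map_sub, E4s_sub_E6s, map_mul, expand_C]
  -- the factor at infinity
  have hinf : HasOrd L (C ((3 : ℂ))⁻¹ *
      PowerSeries.expand p hp0 (toC (P.G * E4s ℤ - C P.c * E6s ℤ))) p := by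
    have e1 : toC (P.G * E4s ℤ - C P.c * E6s ℤ) =
        (C (P.c : ℂ) + C 3 * C 3 * toC γ) * E4s ℂ - C (P.c : ℂ) * E6s ℂ := by
      rw [← hGC, toC, map_sub, map_mul, map_mul, map_C]
      rw [show PowerSeries.map (Int.castRingHom ℂ) (E4s ℤ) = toC (E4s ℤ) from rfl, toC_E4s,
        show PowerSeries.map (Int.castRingHom ℂ) (E6s ℤ) = toC (E6s ℤ) from rfl, toC_E6s]
      simp
    have e2 : C ((3 : ℂ))⁻¹ * PowerSeries.expand p hp0 (toC (P.G * E4s ℤ - C P.c * E6s ℤ)) =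
        C (P.c : ℂ) * PowerSeries.expand p hp0 dC +
          C 3 * PowerSeries.expand p hp0 (toC γ * E4s ℂ) := by
      have := factor_identity_inf (C ((3 : ℂ))⁻¹ : ℂ⟦X⟧) (C 3) (C (P.c : ℂ)) (toC γ) (E4s ℂ)
        (E6s ℂ) dC h3C E4s_sub_E6s
      rw [e1, ← expand_C p hp0 ((3 : ℂ)⁻¹), ← map_mul, this, map_add, map_mul, map_mul,
        expand_C, expand_C]
    exact hasOrd_of_eq_add' hbase (InR_expand (InR_mul (InR_toC γ) InR_E4s) p hp0) hT e2
  -- the other factors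
  have hfac : ∀ j, j < p → HasOrd L (C ((3 : ℂ))⁻¹ * (C (-((p : ℂ))⁻¹) *
      rescale (ζ ^ j) (toC P.G') * PowerSeries.expand p hp0 (E4s ℂ) -
        C (P.c : ℂ) * PowerSeries.expand p hp0 (E6s ℂ))) p := by
    intro j _
    set ρ : ℂ⟦X⟧ := rescale (ζ ^ j) (toC γ') with hρ
    have hρR : InR L ρ := by
      refine InR_rescale (InR_toC γ') hp.one_le ?_
      rw [← pow_mul, mul_comm, pow_mul, hζ.pow_eq_one, one_pow]
    have e1 : rescale (ζ ^ j) (toC P.G') = C (P.c : ℂ) + C 3 * C 3 * ρ := by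
      rw [hGC', map_add, map_mul, map_mul, rescale_C', rescale_C']
    set s : ℂ := -(t : ℂ) * ((p : ℂ))⁻¹ with hs
    have hβ : (C (-((p : ℂ))⁻¹) : ℂ⟦X⟧) = 1 + C 3 * C 3 * C s := by
      rw [← map_mul, ← map_mul, ← map_one (C (R := ℂ)), ← map_add]
      congr 1
      have htC : (p : ℂ) + 1 = 9 * (t : ℂ) := by exact_mod_cast congrArg (Nat.cast : ℕ → ℂ) ht
      rw [hs]
      field_simp
      linear_combination -htC
    have e2 := factor_identity (C ((3 : ℂ))⁻¹ : ℂ⟦X⟧) (C 3) (C (-((p : ℂ))⁻¹)) (C s) (C (P.c : ℂ)) ρ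
      (PowerSeries.expand p hp0 (E4s ℂ)) (PowerSeries.expand p hp0 (E6s ℂ))
      (PowerSeries.expand p hp0 dC) h3C hβ hEp
    rw [← e1] at e2
    have hsR : s ∈ L.R := by
      rw [hs]
      exact L.R.mul_mem (L.R.neg_mem (natCast_mem t)) hpinv
    have hβR : -((p : ℂ))⁻¹ ∈ L.R := L.R.neg_mem hpinv
    refine hasOrd_of_eq_add' hbase ?_ hT e2
    exact InR_mul (InR_add (InR_mul (InR_C hcR) (InR_C hsR)) (InR_mul (InR_C hβR) hρR))
      (InR_expand InR_E4s p hp0)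
  -- the contradiction
  refine norm_contra_range L hp0 hS p _ _ p (fun _ => p) hprod hinf hfac ?_
  rw [Finset.sum_const, Finset.card_range, smul_eq_mul]
  have := hp.pos
  nlinarith

end Fermat.Agent.S16.NormCases25
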