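/-
S16 (Program M), upper bound, chapter U3c (explicit conjugate series), GENERIC analytic part
(helper5, serving helper13).  Mathlib + Prelude only.

For a plain function `g : ℍ → ℂ` which is `1`-periodic, holomorphic and bounded at `i∞`
(e.g. `g = ⇑(U_N F)`, `F` a modular form of level `Γ0(N)`), with `q`-expansion
`φ = qExpansion 1 g = ∑ a_m q^m`:

* `qExpansion_comp_heckeMatrix` : the function `z ↦ g ((z + j) / N) = g (heckeMatrix N j • z)` has
  period `N` and `qExpansion N (·) = PowerSeries.rescale (ζ ^ j) φ`, `ζ = zetaN N = exp (2πi / N)`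
  (`q_N ↦ φ(ζ^j q_N)`);
* `qExpansion_const_mul_comp_heckeMatrix` : the same with a scalar `β` in front
  (`β = -1/N` in (C): `(F ∣[2] S T^j)(z) = -(1/N) (U_N F)((z + j)/N)`);
* `qExpansion_natCast_mul_eq_expand` : for ANY `h`-periodic holomorphic bounded `F`,
  `qExpansion (M * h) F = PowerSeries.expand M (qExpansion h F)` (the Prelude coefficient lemma
  `UpperHalfPlane.qExpansion_coeff_nat_mul` in bundled form), with analyticity of the cusp function;
* `qExpansion_mul_const_mul_comp_heckeMatrix` : the combination at period `M * N` used by the double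
  family: `qExpansion (M * N) (z ↦ β g ((z + j)/N)) = C β * expand M (rescale (ζ^j) φ)`.
-/
import Mathlib
import Fermat.Prelude.Def_ModularForm_HeckeOperator
import Fermat.Prelude.Thm_UpperHalfPlane_qExpansion_coeff_nat_mul
import Fermat.Prelude.Thm_CongruenceSubgroup_one_mem_strictPeriods_Gamma0

set_option autoImplicit false

open UpperHalfPlane Function ModularForm
open scoped Manifold Real

noncomputable section

namespace Fermat.Agent.S16.ConjSeries5

local notation "𝕢" => Periodic.qParam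

/-- `ζ_N = exp (2πi / N)`. -/
def zetaN (N : ℕ) : ℂ := Complex.exp (2 * π * Complex.I / N)

theorem isPrimitiveRoot_zetaN {N : ℕ} (hN : N ≠ 0) : IsPrimitiveRoot (zetaN N) N :=
  Complex.isPrimitiveRoot_exp N hN

theorem zetaN_pow_self {N : ℕ} (hN : N ≠ 0) : zetaN N ^ N = 1 :=
  (isPrimitiveRoot_zetaN hN).pow_eq_one

/-- `e((z + j)/N) = ζ^j · e(z/N)`. -/
theorem qParam_one_heckeMatrix_smul {N : ℕ} (hN : 0 < N) (j : ℕ) (τ : ℍ) :
    𝕢 1 ((heckeMatrix N j • τ : ℍ) : ℂ) = zetaN N ^ j * 𝕢 (N : ℝ) τ := by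
  have hN' : (N : ℂ) ≠ 0 := by exact_mod_cast hN.ne'
  rw [coe_heckeMatrix_smul hN.ne', zetaN, ← Complex.exp_nat_mul, Periodic.qParam, Periodic.qParam,
    ← Complex.exp_add]
  congr 1
  push_cast
  field_simp
  ring

/-- `e(z) = e(z/M)^M`. -/
theorem qParam_natCast_mul_pow {h : ℝ} {M : ℕ} (hM : 0 < M) (hh : h ≠ 0) (z : ℂ) :
    𝕢 ((M : ℝ) * h) z ^ M = 𝕢 h z := by
  have hM' : (M : ℂ) ≠ 0 := by exact_mod_cast hM.ne'
  have hh' : (h : ℂ) ≠ 0 := by exact_mod_cast hh
  rw [Periodic.qParam, Periodic.qParam, ← Complex.exp_nat_mul]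
  congr 1
  push_cast
  field_simp

/-- uniqueness of the `q`-expansion for PLAIN functions `ℍ → ℂ` (Mathlib's
`UpperHalfPlane.qExpansion_coeff_unique` is stated for `FunLike` types). -/
theorem qExpansion_coeff_unique_fun {h : ℝ} {f : ℍ → ℂ} {c : ℕ → ℂ} (hh : 0 < h)
    (hfanalytic : AnalyticAt ℂ (cuspFunction h f) 0)
    (hf : ∀ τ : ℍ, HasSum (fun m ↦ c m • 𝕢 h τ ^ m) (f τ)) (m : ℕ) :
    c m = (qExpansion h f).coeff m := by
  have h1 := (hasFPowerSeriesOnBall_cuspFunction hh hfanalytic hf).hasFPowerSeriesAt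
  have h2 : HasFPowerSeriesAt (cuspFunction h f)
      (FormalMultilinearSeries.ofScalars ℂ fun m ↦ (qExpansion h f).coeff m) 0 := by
    simpa [qExpansion_coeff, div_eq_mul_inv, mul_comm] using hfanalytic.hasFPowerSeriesAt
  simpa [FormalMultilinearSeries.coeff_ofScalars] using
    congr_arg (FormalMultilinearSeries.coeff · m) (h1.eq_formalMultilinearSeries h2)

theorem qExpansion_eq_mk_of_hasSum {h : ℝ} {f : ℍ → ℂ} {c : ℕ → ℂ} (hh : 0 < h)
    (hfanalytic : AnalyticAt ℂ (cuspFunction h f) 0)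
    (hf : ∀ τ : ℍ, HasSum (fun m ↦ c m • 𝕢 h τ ^ m) (f τ)) :
    qExpansion h f = PowerSeries.mk c := by
  ext m
  rw [PowerSeries.coeff_mk, ← qExpansion_coeff_unique_fun hh hfanalytic hf m]

section comp

variable {g : ℍ → ℂ}

theorem im_heckeMatrix_smul {N : ℕ} (hN : 0 < N) (j : ℕ) (τ : ℍ) :
    (heckeMatrix N j • τ : ℍ).im = τ.im / N := by
  have h1 : ((heckeMatrix N j • τ : ℍ) : ℂ).im = (((τ : ℂ) + j) / N).im := by
    rw [coe_heckeMatrix_smul hN.ne']
  have h2 : (((τ : ℂ) + j) / N).im = τ.im / N := by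
    have : (((τ : ℂ) + j) / N) = (((τ : ℂ) + j) / ((N : ℝ) : ℂ)) := by push_cast; rfl
    rw [this, Complex.div_ofReal_im]
    simp
  rw [← h2, ← h1]
  rfl

theorem tendsto_heckeMatrix_smul_atImInfty {N : ℕ} (hN : 0 < N) (j : ℕ) :
    Filter.Tendsto (fun τ : ℍ => heckeMatrix N j • τ) atImInfty atImInfty := by
  rw [atImInfty, Filter.tendsto_comap_iff]
  have : (UpperHalfPlane.im ∘ fun τ : ℍ => heckeMatrix N j • τ) = fun τ : ℍ => τ.im / N := by
    funext τ
    exact im_heckeMatrix_smul hN j τ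
  rw [this]
  exact Filter.Tendsto.atTop_div_const (by exact_mod_cast hN) Filter.tendsto_comap

theorem isBoundedAtImInfty_comp_heckeMatrix (hbdd : IsBoundedAtImInfty g) {N : ℕ} (hN : 0 < N)
    (j : ℕ) : IsBoundedAtImInfty (fun τ : ℍ => g (heckeMatrix N j • τ)) :=
  hbdd.comp_tendsto (tendsto_heckeMatrix_smul_atImInfty hN j)

theorem mdiff_comp_heckeMatrix (hhol : MDiff g) (N j : ℕ) :
    MDiff (fun τ : ℍ => g (heckeMatrix N j • τ)) :=
  hhol.comp (mdifferentiable_smul (det_heckeMatrix_pos N j))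

theorem periodic_comp_heckeMatrix (hper : Periodic (g ∘ ofComplex) 1) {N : ℕ} (hN : 0 < N)
    (j : ℕ) : Periodic ((fun τ : ℍ => g (heckeMatrix N j • τ)) ∘ ofComplex) (N : ℝ) := by
  intro w
  have hN' : (N : ℂ) ≠ 0 := by exact_mod_cast hN.ne'
  by_cases! hw : 0 < Complex.im w
  · have hw' : 0 < Complex.im (w + ((N : ℝ) : ℂ)) := by simp [hw]
    simp only [comp_apply, ofComplex_apply_of_im_pos hw', ofComplex_apply_of_im_pos hw]
    set τ₁ : ℍ := heckeMatrix N j • (⟨w + ((N : ℝ) : ℂ), hw'⟩ : ℍ) with hτ₁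
    set τ₀ : ℍ := heckeMatrix N j • (⟨w, hw⟩ : ℍ) with hτ₀
    have hc : (τ₁ : ℂ) = (τ₀ : ℂ) + 1 := by
      rw [hτ₁, hτ₀, coe_heckeMatrix_smul hN.ne', coe_heckeMatrix_smul hN.ne']
      push_cast
      field_simp
      ring
    have h1 := hper (τ₀ : ℂ)
    simp only [comp_apply] at h1
    rw [ofComplex_apply τ₀] at h1
    rw [← h1, ← ofComplex_apply τ₁, hc]
  · have hw' : Complex.im (w + ((N : ℝ) : ℂ)) ≤ 0 := by simpa using hw
    simp only [comp_apply]
    rw [ofComplex_apply_eq_of_im_nonpos hw' hw]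

theorem analyticAt_cuspFunction_comp_heckeMatrix (hper : Periodic (g ∘ ofComplex) 1)
    (hhol : MDiff g) (hbdd : IsBoundedAtImInfty g) {N : ℕ} (hN : 0 < N) (j : ℕ) :
    AnalyticAt ℂ (cuspFunction (N : ℝ) (fun τ : ℍ => g (heckeMatrix N j • τ))) 0 :=
  analyticAt_cuspFunction_zero (by exact_mod_cast hN) (periodic_comp_heckeMatrix hper hN j)
    (mdiff_comp_heckeMatrix hhol N j) (isBoundedAtImInfty_comp_heckeMatrix hbdd hN j)

/-- the convergent expansion of `z ↦ g ((z + j)/N)` in `q_N = e(z/N)`. -/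
theorem hasSum_comp_heckeMatrix (hper : Periodic (g ∘ ofComplex) 1)
    (hhol : MDiff g) (hbdd : IsBoundedAtImInfty g) {N : ℕ} (hN : 0 < N) (j : ℕ) (τ : ℍ) :
    HasSum (fun m : ℕ => PowerSeries.coeff m (PowerSeries.rescale (zetaN N ^ j) (qExpansion 1 g))
      • 𝕢 (N : ℝ) τ ^ m) (g (heckeMatrix N j • τ)) := by
  have h := hasSum_qExpansion one_pos hper hhol hbdd (heckeMatrix N j • τ)
  have hfun : (fun m : ℕ => PowerSeries.coeff m (PowerSeries.rescale (zetaN N ^ j) (qExpansion 1 g))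
      • 𝕢 (N : ℝ) τ ^ m)
      = fun m : ℕ => (qExpansion 1 g).coeff m • 𝕢 1 ((heckeMatrix N j • τ : ℍ) : ℂ) ^ m := by
    funext m
    rw [qParam_one_heckeMatrix_smul hN, PowerSeries.coeff_rescale, mul_pow, smul_eq_mul,
      smul_eq_mul]
    ring
  rw [hfun]
  exact h

/-- **the conjugate series**: `qExpansion N (z ↦ g ((z + j)/N)) = φ(ζ^j q)`. -/
theorem qExpansion_comp_heckeMatrix (hper : Periodic (g ∘ ofComplex) 1)
    (hhol : MDiff g) (hbdd : IsBoundedAtImInfty g) {N : ℕ} (hN : 0 < N) (j : ℕ) :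
    qExpansion (N : ℝ) (fun τ : ℍ => g (heckeMatrix N j • τ))
      = PowerSeries.rescale (zetaN N ^ j) (qExpansion 1 g) := by
  ext m
  have hN' : (0 : ℝ) < (N : ℝ) := by exact_mod_cast hN
  have key := qExpansion_coeff_unique_fun (h := (N : ℝ))
    (f := fun τ : ℍ => g (heckeMatrix N j • τ))
    (c := fun m => PowerSeries.coeff m (PowerSeries.rescale (zetaN N ^ j) (qExpansion 1 g))) hN'
    (analyticAt_cuspFunction_comp_heckeMatrix hper hhol hbdd hN j)
    (fun τ => hasSum_comp_heckeMatrix hper hhol hbdd hN j τ) m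
  exact key.symm

/-- analyticity of the cusp function of `z ↦ β g ((z + j)/N)`. -/
theorem analyticAt_cuspFunction_const_mul_comp_heckeMatrix (hper : Periodic (g ∘ ofComplex) 1)
    (hhol : MDiff g) (hbdd : IsBoundedAtImInfty g) {N : ℕ} (hN : 0 < N) (j : ℕ) (β : ℂ) :
    AnalyticAt ℂ (cuspFunction (N : ℝ) (fun τ : ℍ => β * g (heckeMatrix N j • τ))) 0 := by
  have h1 := analyticAt_cuspFunction_comp_heckeMatrix hper hhol hbdd hN j
  have h2 : (fun τ : ℍ => β * g (heckeMatrix N j • τ))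
      = β • (fun τ : ℍ => g (heckeMatrix N j • τ)) := by
    funext τ
    simp
  rw [h2, cuspFunction_smul h1.continuousAt]
  exact h1.const_smul (c := β)

/-- **the conjugate series with a scalar** (`β = -1/N` in (C)):
`qExpansion N (z ↦ β g ((z + j)/N)) = β φ(ζ^j q)`. -/
theorem qExpansion_const_mul_comp_heckeMatrix (hper : Periodic (g ∘ ofComplex) 1)
    (hhol : MDiff g) (hbdd : IsBoundedAtImInfty g) {N : ℕ} (hN : 0 < N) (j : ℕ) (β : ℂ) :
    qExpansion (N : ℝ) (fun τ : ℍ => β * g (heckeMatrix N j • τ))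
      = PowerSeries.C β * PowerSeries.rescale (zetaN N ^ j) (qExpansion 1 g) := by
  have h1 := analyticAt_cuspFunction_comp_heckeMatrix hper hhol hbdd hN j
  have h2 : (fun τ : ℍ => β * g (heckeMatrix N j • τ))
      = β • (fun τ : ℍ => g (heckeMatrix N j • τ)) := by
    funext τ
    simp
  rw [h2, qExpansion_smul h1, qExpansion_comp_heckeMatrix hper hhol hbdd hN j,
    PowerSeries.smul_eq_C_mul]

end comp

/-! ### change of period -/

section period

variable {h : ℝ} {F : ℍ → ℂ}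

theorem periodic_natCast_mul (hper : Periodic (F ∘ ofComplex) h) (M : ℕ) :
    Periodic (F ∘ ofComplex) (((M : ℝ) * h : ℝ) : ℂ) := by
  have := hper.nat_mul M
  simpa using this

/-- `qExpansion (M h) F = V_M (qExpansion h F)` for any `h`-periodic holomorphic bounded `F`
(bundled form of the Prelude lemma `UpperHalfPlane.qExpansion_coeff_nat_mul`). -/
theorem qExpansion_natCast_mul_eq_expand (hh : 0 < h) (hper : Periodic (F ∘ ofComplex) h)
    (hhol : MDiff F) (hbdd : IsBoundedAtImInfty F) {M : ℕ} (hM : 0 < M) :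
    qExpansion ((M : ℝ) * h) F = PowerSeries.expand M hM.ne' (qExpansion h F) := by
  ext n
  rw [UpperHalfPlane.qExpansion_coeff_nat_mul hh hper hhol hbdd hM n, PowerSeries.coeff_expand]

theorem analyticAt_cuspFunction_natCast_mul (hh : 0 < h) (hper : Periodic (F ∘ ofComplex) h)
    (hhol : MDiff F) (hbdd : IsBoundedAtImInfty F) {M : ℕ} (hM : 0 < M) :
    AnalyticAt ℂ (cuspFunction ((M : ℝ) * h) F) 0 :=
  analyticAt_cuspFunction_zero (mul_pos (by exact_mod_cast hM) hh) (periodic_natCast_mul hper M)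
    hhol hbdd

end period

/-! ### the combination at period `M * N` (double family) -/

section double

variable {g : ℍ → ℂ}

theorem periodic_const_mul_comp_heckeMatrix (hper : Periodic (g ∘ ofComplex) 1) {N : ℕ}
    (hN : 0 < N) (j : ℕ) (β : ℂ) :
    Periodic ((fun τ : ℍ => β * g (heckeMatrix N j • τ)) ∘ ofComplex) (N : ℝ) := by
  intro w
  have := periodic_comp_heckeMatrix hper hN j w
  simp only [comp_apply] at this ⊢
  rw [this]

theorem mdiff_const_mul_comp_heckeMatrix (hhol : MDiff g) (N j : ℕ) (β : ℂ) :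
    MDiff (fun τ : ℍ => β * g (heckeMatrix N j • τ)) :=
  mdifferentiable_const.mul (mdiff_comp_heckeMatrix hhol N j)

theorem isBoundedAtImInfty_const_mul_comp_heckeMatrix (hbdd : IsBoundedAtImInfty g) {N : ℕ}
    (hN : 0 < N) (j : ℕ) (β : ℂ) :
    IsBoundedAtImInfty (fun τ : ℍ => β * g (heckeMatrix N j • τ)) :=
  (Filter.const_boundedAtFilter _ β).mul (isBoundedAtImInfty_comp_heckeMatrix hbdd hN j)

/-- **the conjugate series at period `M N`**:
`qExpansion (M N) (z ↦ β g ((z + j)/N)) = β · V_M (φ(ζ^j q))`. -/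
theorem qExpansion_mul_const_mul_comp_heckeMatrix (hper : Periodic (g ∘ ofComplex) 1)
    (hhol : MDiff g) (hbdd : IsBoundedAtImInfty g) {N : ℕ} (hN : 0 < N) (j : ℕ) (β : ℂ)
    {M : ℕ} (hM : 0 < M) :
    qExpansion (((M * N : ℕ) : ℝ)) (fun τ : ℍ => β * g (heckeMatrix N j • τ))
      = PowerSeries.C β * PowerSeries.expand M hM.ne'
          (PowerSeries.rescale (zetaN N ^ j) (qExpansion 1 g)) := by
  have hN' : (0 : ℝ) < (N : ℝ) := by exact_mod_cast hN
  rw [Nat.cast_mul, qExpansion_natCast_mul_eq_expand hN'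
    (periodic_const_mul_comp_heckeMatrix hper hN j β) (mdiff_const_mul_comp_heckeMatrix hhol N j β)
    (isBoundedAtImInfty_const_mul_comp_heckeMatrix hbdd hN j β) hM,
    qExpansion_const_mul_comp_heckeMatrix hper hhol hbdd hN j β, map_mul, PowerSeries.expand_C]

theorem analyticAt_cuspFunction_mul_const_mul_comp_heckeMatrix (hper : Periodic (g ∘ ofComplex) 1)
    (hhol : MDiff g) (hbdd : IsBoundedAtImInfty g) {N : ℕ} (hN : 0 < N) (j : ℕ) (β : ℂ)
    {M : ℕ} (hM : 0 < M) :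
    AnalyticAt ℂ (cuspFunction (((M * N : ℕ) : ℝ)) (fun τ : ℍ => β * g (heckeMatrix N j • τ))) 0 := by
  have hN' : (0 : ℝ) < (N : ℝ) := by exact_mod_cast hN
  rw [Nat.cast_mul]
  exact analyticAt_cuspFunction_natCast_mul hN'
    (periodic_const_mul_comp_heckeMatrix hper hN j β) (mdiff_const_mul_comp_heckeMatrix hhol N j β)
    (isBoundedAtImInfty_const_mul_comp_heckeMatrix hbdd hN j β) hM

end double

/-! ### the hypotheses for modular forms of level `Γ0(N)` and the packaged corollaries -/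

section forms

open CongruenceSubgroup Matrix.SpecialLinearGroup

variable {F : Type*} [FunLike F ℍ ℂ]

theorem periodic_one_Gamma0 (N : ℕ) {k : ℤ} [ModularFormClass F ((Gamma0 N).map (mapGL ℝ)) k]
    (f : F) : Periodic (⇑f ∘ ofComplex) 1 := by
  have := SlashInvariantFormClass.periodic_comp_ofComplex f
    (CongruenceSubgroup.one_mem_strictPeriods_Gamma0 N)
  simpa using this

theorem mdiff_Gamma0 (N : ℕ) {k : ℤ} [ModularFormClass F ((Gamma0 N).map (mapGL ℝ)) k]
    (f : F) : MDiff (⇑f) := ModularFormClass.holo f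

theorem isBoundedAtImInfty_Gamma0 (N : ℕ) {k : ℤ}
    [ModularFormClass F ((Gamma0 N).map (mapGL ℝ)) k] (f : F) : IsBoundedAtImInfty (⇑f) :=
  have : Fact (IsCusp OnePoint.infty ((Gamma0 N).map (mapGL ℝ))) :=
    ⟨Subgroup.isCusp_of_mem_strictPeriods one_pos
      (CongruenceSubgroup.one_mem_strictPeriods_Gamma0 N)⟩
  ModularFormClass.bdd_at_infty f

/-- `qExpansion N (z ↦ β f((z + j)/N)) = β φ(ζ^j q)` for `f` of level `Γ0(N)`. -/
theorem qExpansion_const_mul_comp_heckeMatrix_Gamma0 {N : ℕ} {k : ℤ} [ModularFormClass F ((Gamma0 N).map (mapGL ℝ)) k]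
    (f : F) (hN : 0 < N) (j : ℕ) (β : ℂ) :
    qExpansion (N : ℝ) (fun τ : ℍ => β * f (heckeMatrix N j • τ))
      = PowerSeries.C β * PowerSeries.rescale (zetaN N ^ j) (qExpansion 1 ⇑f) :=
  qExpansion_const_mul_comp_heckeMatrix (periodic_one_Gamma0 N f) (mdiff_Gamma0 N f)
    (isBoundedAtImInfty_Gamma0 N f) hN j β

theorem analyticAt_cuspFunction_const_mul_comp_heckeMatrix_Gamma0 {N : ℕ} {k : ℤ} [ModularFormClass F ((Gamma0 N).map (mapGL ℝ)) k]
    (f : F) (hN : 0 < N) (j : ℕ) (β : ℂ) :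
    AnalyticAt ℂ (cuspFunction (N : ℝ) (fun τ : ℍ => β * f (heckeMatrix N j • τ))) 0 :=
  analyticAt_cuspFunction_const_mul_comp_heckeMatrix (periodic_one_Gamma0 N f) (mdiff_Gamma0 N f)
    (isBoundedAtImInfty_Gamma0 N f) hN j β

/-- the period-`M N` version for `f` of level `Γ0(N)`. -/
theorem qExpansion_mul_const_mul_comp_heckeMatrix_Gamma0 {N : ℕ} {k : ℤ} [ModularFormClass F ((Gamma0 N).map (mapGL ℝ)) k]
    (f : F) (hN : 0 < N) (j : ℕ) (β : ℂ) {M : ℕ}
    (hM : 0 < M) :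
    qExpansion (((M * N : ℕ) : ℝ)) (fun τ : ℍ => β * f (heckeMatrix N j • τ))
      = PowerSeries.C β * PowerSeries.expand M hM.ne'
          (PowerSeries.rescale (zetaN N ^ j) (qExpansion 1 ⇑f)) :=
  qExpansion_mul_const_mul_comp_heckeMatrix (periodic_one_Gamma0 N f) (mdiff_Gamma0 N f)
    (isBoundedAtImInfty_Gamma0 N f) hN j β hM

theorem analyticAt_cuspFunction_mul_const_mul_comp_heckeMatrix_Gamma0 {N : ℕ} {k : ℤ} [ModularFormClass F ((Gamma0 N).map (mapGL ℝ)) k]
    (f : F) (hN : 0 < N) (j : ℕ) (β : ℂ)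
    {M : ℕ} (hM : 0 < M) :
    AnalyticAt ℂ
      (cuspFunction (((M * N : ℕ) : ℝ)) (fun τ : ℍ => β * f (heckeMatrix N j • τ))) 0 :=
  analyticAt_cuspFunction_mul_const_mul_comp_heckeMatrix (periodic_one_Gamma0 N f)
    (mdiff_Gamma0 N f) (isBoundedAtImInfty_Gamma0 N f) hN j β hM

/-- the period-`M` expansion of `f` itself (level `Γ0(N)`, any `M`): `V_M φ`. -/
theorem qExpansion_natCast_Gamma0 (N : ℕ) {k : ℤ} [ModularFormClass F ((Gamma0 N).map (mapGL ℝ)) k]
    (f : F) {M : ℕ} (hM : 0 < M) :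
    qExpansion (M : ℝ) ⇑f = PowerSeries.expand M hM.ne' (qExpansion 1 ⇑f) := by
  have := qExpansion_natCast_mul_eq_expand one_pos (periodic_one_Gamma0 N f) (mdiff_Gamma0 N f)
    (isBoundedAtImInfty_Gamma0 N f) hM
  rwa [mul_one] at this

theorem analyticAt_cuspFunction_natCast_Gamma0 (N : ℕ) {k : ℤ}
    [ModularFormClass F ((Gamma0 N).map (mapGL ℝ)) k] (f : F) {M : ℕ} (hM : 0 < M) :
    AnalyticAt ℂ (cuspFunction (M : ℝ) ⇑f) 0 := by
  have := analyticAt_cuspFunction_natCast_mul one_pos (periodic_one_Gamma0 N f) (mdiff_Gamma0 N f)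
    (isBoundedAtImInfty_Gamma0 N f) hM
  rwa [mul_one] at this

end forms

end Fermat.Agent.S16.ConjSeries5
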