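/-
S16, upper bound, level-one `q`-expansion facts (helper19), against helper14's `Formal14` interface.

* (a) `qExpansion_E4 : qExpansion 1 E₄ = E4s ℂ`, `qExpansion_E6 : qExpansion 1 E₆ = E6s ℂ`
  (and the integer forms `= toC (E4s ℤ)`, `= toC (E6s ℤ)`);
* (b) rank one in weights `4`, `6` in the usable forms `f = a₀ • E₄`, `⇑f = a₀ • ⇑E₄`,
  `qExpansion 1 f = C a₀ * E4s ℂ`; no level-one forms of weight `2`.
-/
import Mathlib
import Fermat.Agent.S16.Formal14

set_option autoImplicit false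

noncomputable section

namespace Fermat.Agent.S16.LevelOneQ19

open UpperHalfPlane ModularForm ModularFormClass MatrixGroups EisensteinSeries PowerSeries
open Fermat.Agent.S16.Formal14

/-! ### (a) the `q`-expansions of `E₄`, `E₆` -/

theorem coeff_sig {A : Type*} [Semiring A] (r m : ℕ) :
    coeff m (sig (A := A) r) = ((ArithmeticFunction.sigma r m : ℕ) : A) := by
  simp [sig]

theorem coeff_E4s (A : Type*) [CommRing A] (m : ℕ) :
    coeff m (E4s A) = if m = 0 then 1 else 240 * ((ArithmeticFunction.sigma 3 m : ℕ) : A) := by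
  rw [E4s, map_add, coeff_C_mul, coeff_sig, coeff_one]
  split_ifs with h
  · subst h; simp
  · simp

theorem coeff_E6s (A : Type*) [CommRing A] (m : ℕ) :
    coeff m (E6s A) = if m = 0 then 1 else -(504 * ((ArithmeticFunction.sigma 5 m : ℕ) : A)) := by
  rw [E6s, map_sub, coeff_C_mul, coeff_sig, coeff_one]
  split_ifs with h
  · subst h; simp
  · simp

/-- **(a)** `E₄ = 1 + 240 ∑ σ₃(m) q^m`. -/
theorem qExpansion_E4 : qExpansion 1 E₄ = E4s ℂ := by
  ext m
  rw [E_qExpansion_coeff _ ⟨2, rfl⟩, coeff_E4s]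
  split_ifs with h
  · rfl
  · norm_num [show bernoulli 4 = -1 / 30 by decide +kernel]

/-- **(a)** `E₆ = 1 - 504 ∑ σ₅(m) q^m`. -/
theorem qExpansion_E6 : qExpansion 1 E₆ = E6s ℂ := by
  ext m
  rw [E_qExpansion_coeff _ ⟨3, rfl⟩, coeff_E6s]
  split_ifs with h
  · rfl
  · norm_num [show bernoulli 6 = 1 / 42 by decide +kernel]

/-! ### integer versus complex series -/

theorem toC_sig (r : ℕ) : toC (sig r) = sig r := by
  ext m
  rw [toC, coeff_map, coeff_sig, coeff_sig]
  simp

theorem toC_E4s : toC (E4s ℤ) = E4s ℂ := by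
  rw [E4s, E4s, toC, map_add, map_one, map_mul, map_C]
  have h := toC_sig 3
  rw [toC] at h
  rw [h]
  simp

theorem toC_E6s : toC (E6s ℤ) = E6s ℂ := by
  rw [E6s, E6s, toC, map_sub, map_one, map_mul, map_C]
  have h := toC_sig 5
  rw [toC] at h
  rw [h]
  simp

theorem toC_injective : Function.Injective toC := by
  intro f g h
  ext n
  have := congrArg (coeff n) h
  rw [toC, coeff_map, coeff_map] at this
  exact Int.cast_injective this

/-- `E₄`, integer form. -/
theorem qExpansion_E4_int : qExpansion 1 E₄ = toC (E4s ℤ) := by rw [toC_E4s, qExpansion_E4]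

/-- `E₆`, integer form. -/
theorem qExpansion_E6_int : qExpansion 1 E₆ = toC (E6s ℤ) := by rw [toC_E6s, qExpansion_E6]

/-! ### (b) rank one in weights `4`, `6`; rank zero in weight `2` -/

/-- **(b)** every level-one form of weight `4` is `a₀ • E₄`. -/
theorem eq_coeff_zero_smul_E4 (f : ModularForm 𝒮ℒ 4) : f = (qExpansion 1 f).coeff 0 • E₄ := by
  obtain ⟨c, hc⟩ : ∃ c : ℂ, c • E₄ = f :=
    (finrank_eq_one_iff_of_nonzero' E₄ (E_ne_zero _ ⟨2, rfl⟩)).mp
      (Module.rank_eq_one_iff_finrank_eq_one.mp levelOne_weight_four_rank_one) _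
  have h0 : (qExpansion 1 f).coeff 0 = c := by
    rw [← hc, FunLike.coe_smul, ModularForm.qExpansion_smul one_pos one_mem_strictPeriods_SL,
      PowerSeries.coeff_smul, E_qExpansion_coeff_zero _ ⟨2, rfl⟩, smul_eq_mul, mul_one]
  rw [h0, hc]

/-- **(b)** function form. -/
theorem coe_eq_coeff_zero_smul_E4 (f : ModularForm 𝒮ℒ 4) :
    (f : ℍ → ℂ) = (qExpansion 1 f).coeff 0 • (E₄ : ℍ → ℂ) := by
  conv_lhs => rw [eq_coeff_zero_smul_E4 f]
  rfl

/-- **(b)** `q`-expansion form. -/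
theorem qExpansion_weight_four (f : ModularForm 𝒮ℒ 4) :
    qExpansion 1 f = C ((qExpansion 1 f).coeff 0) * E4s ℂ := by
  conv_lhs => rw [coe_eq_coeff_zero_smul_E4 f]
  rw [ModularForm.qExpansion_smul one_pos one_mem_strictPeriods_SL, qExpansion_E4,
    PowerSeries.smul_eq_C_mul]

/-- **(b)** every level-one form of weight `6` is `a₀ • E₆`. -/
theorem eq_coeff_zero_smul_E6 (f : ModularForm 𝒮ℒ 6) : f = (qExpansion 1 f).coeff 0 • E₆ := by
  obtain ⟨c, hc⟩ : ∃ c : ℂ, c • E₆ = f :=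
    (finrank_eq_one_iff_of_nonzero' E₆ (E_ne_zero _ ⟨3, rfl⟩)).mp
      (Module.rank_eq_one_iff_finrank_eq_one.mp levelOne_weight_six_rank_one) _
  have h0 : (qExpansion 1 f).coeff 0 = c := by
    rw [← hc, FunLike.coe_smul, ModularForm.qExpansion_smul one_pos one_mem_strictPeriods_SL,
      PowerSeries.coeff_smul, E_qExpansion_coeff_zero _ ⟨3, rfl⟩, smul_eq_mul, mul_one]
  rw [h0, hc]

/-- **(b)** function form. -/
theorem coe_eq_coeff_zero_smul_E6 (f : ModularForm 𝒮ℒ 6) :
    (f : ℍ → ℂ) = (qExpansion 1 f).coeff 0 • (E₆ : ℍ → ℂ) := by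
  conv_lhs => rw [eq_coeff_zero_smul_E6 f]
  rfl

/-- **(b)** `q`-expansion form. -/
theorem qExpansion_weight_six (f : ModularForm 𝒮ℒ 6) :
    qExpansion 1 f = C ((qExpansion 1 f).coeff 0) * E6s ℂ := by
  conv_lhs => rw [coe_eq_coeff_zero_smul_E6 f]
  rw [ModularForm.qExpansion_smul one_pos one_mem_strictPeriods_SL, qExpansion_E6,
    PowerSeries.smul_eq_C_mul]

/-- **(b)** there is no nonzero level-one form of weight `2`. -/
theorem weight_two_eq_zero (f : ModularForm 𝒮ℒ 2) : f = 0 :=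
  rank_zero_iff_forall_zero.mp levelOne_weight_two_rank_zero f

theorem coe_weight_two_eq_zero (f : ModularForm 𝒮ℒ 2) : (f : ℍ → ℂ) = 0 := by
  rw [weight_two_eq_zero f]
  rfl

end Fermat.Agent.S16.LevelOneQ19
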