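/-
S16 (Program M), upper bound, chapter U3 (NORM), GENERIC part (helper15).  Mathlib + Prelude only.

For a subgroup `𝒢` of `GL(2, ℝ)` of finite relative index in `𝒮ℒ = SL(2, ℤ)` and a modular form `f`
of level `𝒢`, Mathlib's `ModularForm.norm 𝒮ℒ f` is the level-one form `∏_{q ∈ 𝒮ℒ ⧸ 𝒢} f|q⁻¹`
(`SlashInvariantForm.quotientFunc f q`).  If `M` is a strict period of every `SL(2, ℤ)`-conjugate
of `𝒢` (`IsUniformPeriod 𝒢 M`; e.g. `Γ(N) ≤ Γ`, `N ∣ M`: `isUniformPeriod_of_Gamma_le`,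
`isUniformPeriod_Gamma0`), every conjugate has a period-`M` `q`-expansion
`C_q := qExpansion M (quotientFunc f q)` and

* `qExpansion_norm` : `qExpansion M (norm f) = ∏ q, C_q`;
* `qExpansion_natCast_eq_expand` : for a level-one form `𝒩`,
  `qExpansion M 𝒩 = PowerSeries.expand M (qExpansion 1 𝒩)`  (`= ν(q^M)`; also
  `coeff_qExpansion_natCast`, `coeff_qExpansion_natCast_mul`);
* `expand_qExpansion_norm` : `expand M (qExpansion 1 (norm f)) = ∏ q, C_q`.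

The same for the DOUBLE norm `dnorm f₁ f₂ = ∏_{(q₁,q₂)} (f₁|q₁⁻¹ − f₂|q₂⁻¹)`, a level-one form of
weight `k * Nat.card (𝒬₁ × 𝒬₂)` (`dnorm`, `coe_dnorm`, `qExpansion_dnorm`,
`expand_qExpansion_dnorm`).
-/
import Mathlib
import Fermat.Prelude.Thm_UpperHalfPlane_qExpansion_prod
import Fermat.Prelude.Thm_UpperHalfPlane_qExpansion_coeff_nat_mul

set_option autoImplicit false
set_option linter.unusedSectionVars false

open UpperHalfPlane CongruenceSubgroup Matrix.SpecialLinearGroup ConjAct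
open scoped MatrixGroups ModularForm Manifold Pointwise

noncomputable section

namespace Fermat.Agent.S16.NormQExp15

variable {𝒢 : Subgroup (GL (Fin 2) ℝ)} {F : Type*} [FunLike F ℍ ℂ] {k : ℤ}

local notation "𝒬[" G "]" => (𝒮ℒ) ⧸ (Subgroup.subgroupOf G 𝒮ℒ)

/-- `M` is a strict period of every `SL(2, ℤ)`-conjugate of `𝒢`. -/
def IsUniformPeriod (𝒢 : Subgroup (GL (Fin 2) ℝ)) (M : ℕ) : Prop :=
  ∀ γ : SL(2, ℤ), (M : ℝ) ∈ (toConjAct (mapGL ℝ γ) • 𝒢).strictPeriods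

theorem mapGL_T_zpow (m : ℤ) :
    mapGL ℝ (ModularGroup.T ^ m) = Matrix.GeneralLinearGroup.upperRightHom (m : ℝ) := by
  apply Units.ext
  rw [mapGL_coe_matrix, map_apply_coe, ModularGroup.coe_T_zpow]
  ext i j
  fin_cases i <;> fin_cases j <;> simp

/-- if `Γ(N) ≤ Γ` then every multiple of `N` is a uniform period of `Γ`. -/
theorem isUniformPeriod_of_Gamma_le (Γ : Subgroup SL(2, ℤ)) {N M : ℕ} (hΓ : Gamma N ≤ Γ)
    (hNM : N ∣ M) : IsUniformPeriod (Γ : Subgroup (GL (Fin 2) ℝ)) M := by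
  intro γ
  rw [Subgroup.mem_strictPeriods_iff, Subgroup.mem_pointwise_smul_iff_inv_smul_mem]
  have hT : ModularGroup.T ^ (M : ℤ) ∈ Gamma N := by
    have := ModularGroup_T_pow_mem_Gamma (N : ℤ) (M : ℤ) (by exact_mod_cast hNM)
    simpa using this
  have hconj : γ⁻¹ * ModularGroup.T ^ (M : ℤ) * γ ∈ Γ := by
    apply hΓ
    have hn : (Gamma N).Normal := Gamma_normal N
    have := hn.conj_mem _ hT γ⁻¹
    simpa using this
  refine ⟨γ⁻¹ * ModularGroup.T ^ (M : ℤ) * γ, hconj, ?_⟩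
  rw [map_mul, map_mul, map_inv, mapGL_T_zpow, ConjAct.smul_def]
  simp

theorem isUniformPeriod_Gamma0 {N M : ℕ} (hNM : N ∣ M) :
    IsUniformPeriod (Gamma0 N : Subgroup (GL (Fin 2) ℝ)) M :=
  isUniformPeriod_of_Gamma_le (Gamma0 N) (N := N) (fun g hg => by
    rw [Gamma0_mem]
    rw [Gamma_mem] at hg
    exact hg.2.2.1) hNM

section quotientFunc

variable [ModularFormClass F 𝒢 k] (f : F)

/-- every translate of `f` has an analytic cusp function for a uniform period `M`. -/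
theorem analyticAt_cuspFunction_quotientFunc {M : ℕ} (hM : 0 < M) (hper : IsUniformPeriod 𝒢 M)
    (q : 𝒬[𝒢]) :
    AnalyticAt ℂ (cuspFunction (M : ℝ) (SlashInvariantForm.quotientFunc f q)) 0 := by
  induction q using Quotient.inductionOn with
  | h r =>
    obtain ⟨γ, hγ⟩ := r.2
    have h1 : SlashInvariantForm.quotientFunc f (⟦r⟧ : 𝒬[𝒢])
        = ⇑(ModularForm.translate f (r.val⁻¹)) := rfl
    rw [h1]
    refine ModularFormClass.analyticAt_cuspFunction_zero (ModularForm.translate f (r.val⁻¹))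
      (by exact_mod_cast hM) ?_
    have := hper γ
    rw [hγ] at this
    simpa using this

/-- **the `q`-expansion (period `M`) of the norm is the product of the `q`-expansions of the
conjugates.** -/
theorem qExpansion_norm [𝒢.IsFiniteRelIndex 𝒮ℒ] [Fintype 𝒬[𝒢]] {M : ℕ} (hM : 0 < M)
    (hper : IsUniformPeriod 𝒢 M) :
    qExpansion (M : ℝ) ⇑(ModularForm.norm 𝒮ℒ f)
      = ∏ q : 𝒬[𝒢], qExpansion (M : ℝ) (SlashInvariantForm.quotientFunc f q) := by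
  rw [ModularForm.coe_norm]
  have := UpperHalfPlane.qExpansion_prod (h := (M : ℝ)) (Finset.univ : Finset 𝒬[𝒢])
    (F := fun q => SlashInvariantForm.quotientFunc f q)
    (fun q _ => analyticAt_cuspFunction_quotientFunc f hM hper q)
  convert this

end quotientFunc

/-! ### the double norm -/

section dnorm

open SlashInvariantForm

variable {𝒢₁ 𝒢₂ : Subgroup (GL (Fin 2) ℝ)} {F₁ F₂ : Type*} [FunLike F₁ ℍ ℂ] [FunLike F₂ ℍ ℂ]

/-- the factors of the double norm: differences of translates. -/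
def dfac [SlashInvariantFormClass F₁ 𝒢₁ k] [SlashInvariantFormClass F₂ 𝒢₂ k] (f₁ : F₁) (f₂ : F₂)
    (x : 𝒬[𝒢₁] × 𝒬[𝒢₂]) : ℍ → ℂ :=
  quotientFunc f₁ x.1 - quotientFunc f₂ x.2

theorem dfac_slash [SlashInvariantFormClass F₁ 𝒢₁ k] [SlashInvariantFormClass F₂ 𝒢₂ k]
    (f₁ : F₁) (f₂ : F₂) {h : GL (Fin 2) ℝ} (hh : h ∈ 𝒮ℒ) (x : 𝒬[𝒢₁] × 𝒬[𝒢₂]) :
    dfac f₁ f₂ x ∣[k] h
      = dfac f₁ f₂ ((⟨h, hh⟩ : 𝒮ℒ)⁻¹ • x.1, (⟨h, hh⟩ : 𝒮ℒ)⁻¹ • x.2) := by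
  simp only [dfac, sub_eq_add_neg, SlashAction.add_slash, SlashAction.neg_slash,
    quotientFunc_smul f₁ hh, quotientFunc_smul f₂ hh]

variable [𝒢₁.IsFiniteRelIndex 𝒮ℒ] [𝒢₂.IsFiniteRelIndex 𝒮ℒ]

/-- the double norm as a slash invariant form of level one. -/
def dnormSIF [SlashInvariantFormClass F₁ 𝒢₁ k] [SlashInvariantFormClass F₂ 𝒢₂ k]
    (f₁ : F₁) (f₂ : F₂) :
    SlashInvariantForm 𝒮ℒ (k * Nat.card (𝒬[𝒢₁] × 𝒬[𝒢₂])) where
  toFun := let := Fintype.ofFinite (𝒬[𝒢₁] × 𝒬[𝒢₂]); ∏ x : 𝒬[𝒢₁] × 𝒬[𝒢₂], dfac f₁ f₂ x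
  slash_action_eq' h hh := by
    let := Fintype.ofFinite (𝒬[𝒢₁] × 𝒬[𝒢₂])
    have hdet : |h.det.val| = 1 := Subgroup.HasDetPlusMinusOne.abs_det hh
    rw [Nat.card_eq_fintype_card, ← Finset.card_univ, ModularForm.prod_slash, hdet, one_zpow,
      one_smul]
    simp only [dfac_slash f₁ f₂ hh]
    exact Equiv.prod_comp ((MulAction.toPerm (⟨h, hh⟩ : 𝒮ℒ)⁻¹).prodCongr
      (MulAction.toPerm (⟨h, hh⟩ : 𝒮ℒ)⁻¹)) (dfac f₁ f₂)

theorem coe_dnormSIF [SlashInvariantFormClass F₁ 𝒢₁ k] [SlashInvariantFormClass F₂ 𝒢₂ k]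
    (f₁ : F₁) (f₂ : F₂) [Fintype (𝒬[𝒢₁] × 𝒬[𝒢₂])] :
    ⇑(dnormSIF f₁ f₂) = ∏ x : 𝒬[𝒢₁] × 𝒬[𝒢₂], dfac f₁ f₂ x := by
  show (let := Fintype.ofFinite (𝒬[𝒢₁] × 𝒬[𝒢₂]); ∏ x : 𝒬[𝒢₁] × 𝒬[𝒢₂], dfac f₁ f₂ x) = _
  simp only
  congr!

/-- **the double norm** `∏_{γ, δ} (f₁|γ − f₂|δ)` as a modular form of level one. -/
def dnorm [ModularFormClass F₁ 𝒢₁ k] [ModularFormClass F₂ 𝒢₂ k] (f₁ : F₁) (f₂ : F₂) :
    ModularForm 𝒮ℒ (k * Nat.card (𝒬[𝒢₁] × 𝒬[𝒢₂])) where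
  __ := dnormSIF f₁ f₂
  holo' := by
    refine MDifferentiable.prod ?_
    rintro ⟨q₁, q₂⟩ -
    induction q₁ using Quotient.inductionOn with
    | h r₁ =>
      induction q₂ using Quotient.inductionOn with
      | h r₂ =>
        exact (ModularForm.translate f₁ r₁.val⁻¹).holo'.sub (ModularForm.translate f₂ r₂.val⁻¹).holo'
  bdd_at_cusps' h γ := by
    rintro rfl
    simp_rw [dnormSIF, IsBoundedAtImInfty, Filter.BoundedAtFilter]
    let := Fintype.ofFinite (𝒬[𝒢₁] × 𝒬[𝒢₂])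
    rw [Nat.card_eq_fintype_card, ← Finset.card_univ, ModularForm.prod_slash]
    apply Asymptotics.IsBigO.const_smul_left
    rw [show (1 : ℍ → ℝ) = (fun x ↦ ∏ (i : 𝒬[𝒢₁] × 𝒬[𝒢₂]), 1) by ext; simp, Finset.prod_fn]
    refine .finsetProd ?_
    rintro ⟨q₁, q₂⟩ -
    induction q₁ using Quotient.inductionOn with
    | h r₁ =>
      induction q₂ using Quotient.inductionOn with
      | h r₂ =>
        have h1 : IsBoundedAtImInfty (⇑(ModularForm.translate f₁ r₁.val⁻¹) ∣[k] γ) :=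
          (ModularForm.translate f₁ r₁.val⁻¹).bdd_at_cusps'
            (by simpa using h.of_isFiniteRelIndex_conj r₁.2) γ rfl
        have h2 : IsBoundedAtImInfty (⇑(ModularForm.translate f₂ r₂.val⁻¹) ∣[k] γ) :=
          (ModularForm.translate f₂ r₂.val⁻¹).bdd_at_cusps'
            (by simpa using h.of_isFiniteRelIndex_conj r₂.2) γ rfl
        have h3 : dfac f₁ f₂ (⟦r₁⟧, ⟦r₂⟧) ∣[k] γ
            = ⇑(ModularForm.translate f₁ r₁.val⁻¹) ∣[k] γ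
              - ⇑(ModularForm.translate f₂ r₂.val⁻¹) ∣[k] γ := by
          simp only [dfac, sub_eq_add_neg, SlashAction.add_slash, SlashAction.neg_slash]
          rfl
        rw [h3]
        exact h1.sub h2

theorem coe_dnorm [ModularFormClass F₁ 𝒢₁ k] [ModularFormClass F₂ 𝒢₂ k] (f₁ : F₁) (f₂ : F₂)
    [Fintype (𝒬[𝒢₁] × 𝒬[𝒢₂])] :
    ⇑(dnorm f₁ f₂) = ∏ x : 𝒬[𝒢₁] × 𝒬[𝒢₂], dfac f₁ f₂ x :=
  coe_dnormSIF f₁ f₂

/-- the `q`-expansion (period `M`) of a factor of the double norm. -/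
theorem qExpansion_dfac [ModularFormClass F₁ 𝒢₁ k] [ModularFormClass F₂ 𝒢₂ k] (f₁ : F₁) (f₂ : F₂)
    {M : ℕ} (hM : 0 < M) (hper₁ : IsUniformPeriod 𝒢₁ M) (hper₂ : IsUniformPeriod 𝒢₂ M)
    (x : 𝒬[𝒢₁] × 𝒬[𝒢₂]) :
    qExpansion (M : ℝ) (dfac f₁ f₂ x)
      = qExpansion (M : ℝ) (quotientFunc f₁ x.1) - qExpansion (M : ℝ) (quotientFunc f₂ x.2) :=
  UpperHalfPlane.qExpansion_sub (analyticAt_cuspFunction_quotientFunc f₁ hM hper₁ x.1)
    (analyticAt_cuspFunction_quotientFunc f₂ hM hper₂ x.2)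

theorem analyticAt_cuspFunction_dfac [ModularFormClass F₁ 𝒢₁ k] [ModularFormClass F₂ 𝒢₂ k]
    (f₁ : F₁) (f₂ : F₂) {M : ℕ} (hM : 0 < M) (hper₁ : IsUniformPeriod 𝒢₁ M)
    (hper₂ : IsUniformPeriod 𝒢₂ M) (x : 𝒬[𝒢₁] × 𝒬[𝒢₂]) :
    AnalyticAt ℂ (cuspFunction (M : ℝ) (dfac f₁ f₂ x)) 0 := by
  have h1 := analyticAt_cuspFunction_quotientFunc f₁ hM hper₁ x.1
  have h2 := analyticAt_cuspFunction_quotientFunc f₂ hM hper₂ x.2
  rw [dfac, UpperHalfPlane.cuspFunction_sub h1.continuousAt h2.continuousAt]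
  exact h1.sub h2

/-- **the `q`-expansion (period `M`) of the double norm.** -/
theorem qExpansion_dnorm [ModularFormClass F₁ 𝒢₁ k] [ModularFormClass F₂ 𝒢₂ k] (f₁ : F₁) (f₂ : F₂)
    [Fintype (𝒬[𝒢₁] × 𝒬[𝒢₂])] {M : ℕ} (hM : 0 < M) (hper₁ : IsUniformPeriod 𝒢₁ M)
    (hper₂ : IsUniformPeriod 𝒢₂ M) :
    qExpansion (M : ℝ) ⇑(dnorm f₁ f₂)
      = ∏ x : 𝒬[𝒢₁] × 𝒬[𝒢₂], (qExpansion (M : ℝ) (quotientFunc f₁ x.1)
          - qExpansion (M : ℝ) (quotientFunc f₂ x.2)) := by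
  rw [coe_dnorm, UpperHalfPlane.qExpansion_prod (h := (M : ℝ)) Finset.univ
    (fun x _ => analyticAt_cuspFunction_dfac f₁ f₂ hM hper₁ hper₂ x)]
  exact Finset.prod_congr rfl (fun x _ => qExpansion_dfac f₁ f₂ hM hper₁ hper₂ x)

end dnorm

/-! ### period `M` versus period `1` for level-one forms -/

/-- `ν(q^M)`: the period-`M` expansion of a level-one form in terms of its period-`1` expansion. -/
theorem coeff_qExpansion_natCast {K : ℤ} (𝒩 : ModularForm 𝒮ℒ K) {M : ℕ} (hM : 0 < M) (n : ℕ) :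
    (qExpansion (M : ℝ) ⇑𝒩).coeff n
      = if M ∣ n then (qExpansion 1 ⇑𝒩).coeff (n / M) else 0 := by
  have := UpperHalfPlane.qExpansion_coeff_nat_mul (h := 1) one_pos (F := ⇑𝒩)
    (SlashInvariantFormClass.periodic_comp_ofComplex 𝒩 one_mem_strictPeriods_SL)
    (ModularFormClass.holo 𝒩) (ModularFormClass.bdd_at_infty 𝒩) hM n
  rwa [mul_one] at this

theorem coeff_qExpansion_natCast_mul {K : ℤ} (𝒩 : ModularForm 𝒮ℒ K) {M : ℕ} (hM : 0 < M) (n : ℕ) :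
    (qExpansion (M : ℝ) ⇑𝒩).coeff (M * n) = (qExpansion 1 ⇑𝒩).coeff n := by
  rw [coeff_qExpansion_natCast 𝒩 hM, if_pos (dvd_mul_right M n), Nat.mul_div_cancel_left n hM]

/-- the period-`M` expansion of a level-one form is `V_M` (`PowerSeries.expand M`) of its
period-`1` expansion. -/
theorem qExpansion_natCast_eq_expand {K : ℤ} (𝒩 : ModularForm 𝒮ℒ K) {M : ℕ} (hM : 0 < M) :
    qExpansion (M : ℝ) ⇑𝒩 = PowerSeries.expand M hM.ne' (qExpansion 1 ⇑𝒩) := by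
  ext n
  rw [coeff_qExpansion_natCast 𝒩 hM, PowerSeries.coeff_expand]

/-- **(NORM), generic single family**: `V_M` of the `q`-expansion of the norm is the product of the
period-`M` expansions of all conjugates. -/
theorem expand_qExpansion_norm [ModularFormClass F 𝒢 k] (f : F) [𝒢.IsFiniteRelIndex 𝒮ℒ]
    [Fintype 𝒬[𝒢]] {M : ℕ} (hM : 0 < M) (hper : IsUniformPeriod 𝒢 M) :
    PowerSeries.expand M hM.ne' (qExpansion 1 ⇑(ModularForm.norm 𝒮ℒ f))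
      = ∏ q : 𝒬[𝒢], qExpansion (M : ℝ) (SlashInvariantForm.quotientFunc f q) := by
  rw [← qExpansion_natCast_eq_expand _ hM, qExpansion_norm f hM hper]

/-- **(NORM), generic double family**. -/
theorem expand_qExpansion_dnorm {𝒢₁ 𝒢₂ : Subgroup (GL (Fin 2) ℝ)} {F₁ F₂ : Type*}
    [FunLike F₁ ℍ ℂ] [FunLike F₂ ℍ ℂ] [𝒢₁.IsFiniteRelIndex 𝒮ℒ] [𝒢₂.IsFiniteRelIndex 𝒮ℒ]
    [ModularFormClass F₁ 𝒢₁ k] [ModularFormClass F₂ 𝒢₂ k] (f₁ : F₁) (f₂ : F₂)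
    [Fintype (𝒬[𝒢₁] × 𝒬[𝒢₂])] {M : ℕ} (hM : 0 < M) (hper₁ : IsUniformPeriod 𝒢₁ M)
    (hper₂ : IsUniformPeriod 𝒢₂ M) :
    PowerSeries.expand M hM.ne' (qExpansion 1 ⇑(dnorm f₁ f₂))
      = ∏ x : 𝒬[𝒢₁] × 𝒬[𝒢₂], (qExpansion (M : ℝ) (SlashInvariantForm.quotientFunc f₁ x.1)
          - qExpansion (M : ℝ) (SlashInvariantForm.quotientFunc f₂ x.2)) := by
  rw [← qExpansion_natCast_eq_expand _ hM, qExpansion_dnorm f₁ f₂ hM hper₁ hper₂]

end Fermat.Agent.S16.NormQExp15
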