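/-
Program M (S16), brick U3f (helper29): the single-family EXPORT assembly.

For `g ∈ M_2(Γ0(p))` with integer `q`-expansion `a` (`c = a 0`) and each of
  `h4 = g² − c² E₄` (weight 4), `h6 = g³ − c³ E₆` (weight 6), `h6' = (g E₄ − c E₆)/3` (weight 6)
the norm to level one `n = N(h)` satisfies `SturmProp (k (p+1)) n` and
  `V_p n = V_p h · ∏_{j<p} (h ∣ S T^j)(p z)`
with the conjugate series computed from (C): `(g ∣[2] S T^j)(p z) = −p⁻¹ · (U_p g)^♯(ζ^j q)`.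
-/
import Mathlib
import Fermat.Agent.S16.Formal14
import Fermat.Agent.S16.Export14
import Fermat.Agent.S16.CosetP1
import Fermat.Agent.S16.NormQExp15
import Fermat.Agent.S16.SturmProp3
import Fermat.Agent.S16.LevelOneQ19
import Fermat.Agent.S16.PkgOfForm23
import Fermat.Agent.S16.Fricke17
import Fermat.Agent.S16.ConjSeries5

set_option autoImplicit false

open UpperHalfPlane ModularForm ModularFormClass CongruenceSubgroup ModularGroup PowerSeries
open scoped MatrixGroups ModularForm Manifold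

noncomputable section

namespace Fermat.Agent.S16.NormExport29

open Fermat.Agent.S16.Formal14 Fermat.Agent.S16.Export14 Fermat.Agent.S16.TraceI4_23
open Fermat.Agent.S16.PkgOfForm23

/-! ### level-one forms as forms of level `Γ0(N)` -/

theorem Gamma0_le_SL (N : ℕ) :
    ((Gamma0 N : Subgroup SL(2, ℤ)) : Subgroup (GL (Fin 2) ℝ)) ≤ 𝒮ℒ := by
  rintro _ ⟨g, -, rfl⟩
  exact ⟨g, rfl⟩

/-- a level-one form, seen as a form of level `Γ0(N)`. -/
def resLevel (N : ℕ) {k : ℤ} (f : ModularForm 𝒮ℒ k) : ModularForm (Gamma0 N) k where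
  toFun := f
  slash_action_eq' γ hγ := f.slash_action_eq' γ (Gamma0_le_SL N hγ)
  holo' := f.holo'
  bdd_at_cusps' hc := f.bdd_at_cusps' (hc.mono (Gamma0_le_SL N))

@[simp] theorem coe_resLevel (N : ℕ) {k : ℤ} (f : ModularForm 𝒮ℒ k) :
    ⇑(resLevel N f) = ⇑f := rfl

/-- invariance of a level-one form under `SL(2, ℤ)`. -/
theorem levelOne_slash {k : ℤ} (f : ModularForm 𝒮ℒ k) (γ : SL(2, ℤ)) :
    (⇑f) ∣[k] γ = ⇑f :=
  SlashInvariantForm.slash_action_eqn f _ ⟨γ, rfl⟩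

variable {p : ℕ}

/-! ### the three forms -/

/-- `h4 = g² − c² E₄`. -/
def h4 (g : ModularForm (Gamma0 p) 2) (c : ℂ) : ModularForm (Gamma0 p) 4 :=
  ModularForm.mcast (by norm_num) (g.mul g) - (c ^ 2) • resLevel p E₄

/-- `h6 = g³ − c³ E₆`. -/
def h6 (g : ModularForm (Gamma0 p) 2) (c : ℂ) : ModularForm (Gamma0 p) 6 :=
  ModularForm.mcast (by norm_num) ((g.mul g).mul g) - (c ^ 3) • resLevel p E₆

/-- `h6' = (g E₄ − c E₆) / 3`. -/
def h6' (g : ModularForm (Gamma0 p) 2) (c : ℂ) : ModularForm (Gamma0 p) 6 :=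
  (3 : ℂ)⁻¹ • (ModularForm.mcast (by norm_num) (g.mul (resLevel p E₄)) - c • resLevel p E₆)

theorem coe_h4 (g : ModularForm (Gamma0 p) 2) (c : ℂ) :
    ⇑(h4 g c) = ⇑g * ⇑g - (c ^ 2) • ⇑E₄ := rfl

theorem coe_h6 (g : ModularForm (Gamma0 p) 2) (c : ℂ) :
    ⇑(h6 g c) = ⇑g * ⇑g * ⇑g - (c ^ 3) • ⇑E₆ := rfl

theorem coe_h6' (g : ModularForm (Gamma0 p) 2) (c : ℂ) :
    ⇑(h6' g c) = (3 : ℂ)⁻¹ • (⇑g * ⇑E₄ - c • ⇑E₆) := rfl

/-! ### slashes by elements of `SL(2, ℤ)` -/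

theorem h4_slash (g : ModularForm (Gamma0 p) 2) (c : ℂ) (γ : SL(2, ℤ)) :
    ⇑(h4 g c) ∣[(4 : ℤ)] γ = (⇑g ∣[(2 : ℤ)] γ) * (⇑g ∣[(2 : ℤ)] γ) - (c ^ 2) • ⇑E₄ := by
  rw [coe_h4, sub_eq_add_neg, SlashAction.add_slash, SlashAction.neg_slash,
    ModularForm.SL_smul_slash, levelOne_slash, ← sub_eq_add_neg]
  congr 1
  have h4 : (4 : ℤ) = 2 + 2 := by norm_num
  rw [h4, ModularForm.mul_slash_SL2]

theorem h6_slash (g : ModularForm (Gamma0 p) 2) (c : ℂ) (γ : SL(2, ℤ)) :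
    ⇑(h6 g c) ∣[(6 : ℤ)] γ
      = (⇑g ∣[(2 : ℤ)] γ) * (⇑g ∣[(2 : ℤ)] γ) * (⇑g ∣[(2 : ℤ)] γ) - (c ^ 3) • ⇑E₆ := by
  rw [coe_h6, sub_eq_add_neg, SlashAction.add_slash, SlashAction.neg_slash,
    ModularForm.SL_smul_slash, levelOne_slash, ← sub_eq_add_neg]
  congr 1
  have h6 : (6 : ℤ) = 2 + 2 + 2 := by norm_num
  rw [h6, ModularForm.mul_slash_SL2, ModularForm.mul_slash_SL2]

theorem h6'_slash (g : ModularForm (Gamma0 p) 2) (c : ℂ) (γ : SL(2, ℤ)) :
    ⇑(h6' g c) ∣[(6 : ℤ)] γ = (3 : ℂ)⁻¹ • ((⇑g ∣[(2 : ℤ)] γ) * ⇑E₄ - c • ⇑E₆) := by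
  rw [coe_h6', ModularForm.SL_smul_slash, sub_eq_add_neg, SlashAction.add_slash,
    SlashAction.neg_slash, ModularForm.SL_smul_slash, levelOne_slash, ← sub_eq_add_neg]
  congr 2
  have h6 : (6 : ℤ) = 2 + 4 := by norm_num
  rw [h6, ModularForm.mul_slash_SL2, levelOne_slash]

/-! ### `q`-expansions of the three shapes, at any period -/

/-- the cusp function of `f` (period `h`) is analytic at `0`. -/
def An (h : ℝ) (f : ℍ → ℂ) : Prop := AnalyticAt ℂ (cuspFunction h f) 0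

theorem An.mul {h : ℝ} {f g : ℍ → ℂ} (hf : An h f) (hg : An h g) : An h (f * g) := by
  unfold An at *
  rw [UpperHalfPlane.cuspFunction_mul hf.continuousAt hg.continuousAt]
  exact hf.mul hg

theorem An.sub {h : ℝ} {f g : ℍ → ℂ} (hf : An h f) (hg : An h g) : An h (f - g) := by
  unfold An at *
  rw [UpperHalfPlane.cuspFunction_sub hf.continuousAt hg.continuousAt]
  exact hf.sub hg

theorem An.smul {h : ℝ} {f : ℍ → ℂ} (hf : An h f) (c : ℂ) : An h (c • f) := by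
  unfold An at *
  rw [UpperHalfPlane.cuspFunction_smul hf.continuousAt]
  exact hf.const_smul

theorem qExp_shape4 {h : ℝ} {f e : ℍ → ℂ} (hf : An h f) (he : An h e) (c : ℂ) :
    qExpansion h (f * f - c • e) = qExpansion h f ^ 2 - C c * qExpansion h e := by
  rw [UpperHalfPlane.qExpansion_sub (hf.mul hf) (he.smul c), UpperHalfPlane.qExpansion_mul hf hf,
    UpperHalfPlane.qExpansion_smul he, PowerSeries.smul_eq_C_mul, sq]

theorem qExp_shape6 {h : ℝ} {f e : ℍ → ℂ} (hf : An h f) (he : An h e) (c : ℂ) :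
    qExpansion h (f * f * f - c • e) = qExpansion h f ^ 3 - C c * qExpansion h e := by
  rw [UpperHalfPlane.qExpansion_sub ((hf.mul hf).mul hf) (he.smul c),
    UpperHalfPlane.qExpansion_mul (hf.mul hf) hf, UpperHalfPlane.qExpansion_mul hf hf,
    UpperHalfPlane.qExpansion_smul he, PowerSeries.smul_eq_C_mul]
  ring

theorem qExp_shape6' {h : ℝ} {f e4 e6 : ℍ → ℂ} (hf : An h f) (h4 : An h e4) (h6 : An h e6)
    (c : ℂ) :
    qExpansion h ((3 : ℂ)⁻¹ • (f * e4 - c • e6))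
      = C (3 : ℂ)⁻¹ * (qExpansion h f * qExpansion h e4 - C c * qExpansion h e6) := by
  rw [UpperHalfPlane.qExpansion_smul ((hf.mul h4).sub (h6.smul c)),
    UpperHalfPlane.qExpansion_sub (hf.mul h4) (h6.smul c), UpperHalfPlane.qExpansion_mul hf h4,
    UpperHalfPlane.qExpansion_smul h6, PowerSeries.smul_eq_C_mul, PowerSeries.smul_eq_C_mul]

/-! ### analyticity of the relevant cusp functions -/

theorem an_one {N : ℕ} {k : ℤ} (f : ModularForm (Gamma0 N) k) : An 1 ⇑f :=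
  ModularFormClass.analyticAt_cuspFunction_zero f one_pos (hΓ N)

theorem an_one_levelOne {k : ℤ} (f : ModularForm 𝒮ℒ k) : An 1 ⇑f :=
  ModularFormClass.analyticAt_cuspFunction_zero f one_pos one_mem_strictPeriods_SL

theorem an_nat_levelOne {k : ℤ} (f : ModularForm 𝒮ℒ k) {M : ℕ} (hM : 0 < M) : An (M : ℝ) ⇑f := by
  refine ModularFormClass.analyticAt_cuspFunction_zero f (by exact_mod_cast hM) ?_
  have := AddSubgroup.nsmul_mem (𝒮ℒ).strictPeriods one_mem_strictPeriods_SL M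
  simpa using this

/-- period `M` versus period `1` for forms of level `Γ0(N)`. -/
theorem qExpansion_nat_eq_expand {N : ℕ} {k : ℤ} (f : ModularForm (Gamma0 N) k) {M : ℕ}
    (hM : 0 < M) :
    qExpansion (M : ℝ) ⇑f = PowerSeries.expand M hM.ne' (qExpansion 1 ⇑f) := by
  ext n
  have : Fact (IsCusp OnePoint.infty
      (Subgroup.map (Matrix.SpecialLinearGroup.mapGL ℝ) (Gamma0 N))) :=
    ⟨Subgroup.isCusp_of_mem_strictPeriods one_pos (hΓ N)⟩
  have := UpperHalfPlane.qExpansion_coeff_nat_mul (h := 1) one_pos (F := ⇑f)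
    (SlashInvariantFormClass.periodic_comp_ofComplex f (hΓ N))
    (ModularFormClass.holo f) (ModularFormClass.bdd_at_infty f) hM n
  rw [mul_one] at this
  rw [this, PowerSeries.coeff_expand]

section conj

variable [hp : Fact p.Prime]

/-- analyticity of the conjugates at period `p`. -/
theorem an_conj {k : ℤ} (f : ModularForm (Gamma0 p) k) {j : ℕ} (hj : j < p) :
    An (p : ℝ) (⇑f ∣[k] (S * T ^ j)) := by
  have h := NormQExp15.analyticAt_cuspFunction_quotientFunc f hp.out.pos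
    (NormQExp15.isUniformPeriod_Gamma0 (dvd_refl p)) (CosetP1.cosetMap p (some (j : ZMod p)))
  rw [CosetP1.quotientFunc_cosetMap_natCast p f hj] at h
  exact h

/-- **(NORM) + (ST), single family, generic in `h`.** -/
theorem exists_norm_series {k : ℤ} (h : ModularForm (Gamma0 p) k) (K : ℕ)
    (hK : k * ((p : ℤ) + 1) = K) :
    ∃ n : ℂ⟦X⟧, SturmProp K n ∧
      PowerSeries.expand p hp.out.ne_zero n
        = PowerSeries.expand p hp.out.ne_zero (qExpansion 1 ⇑h)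
          * ∏ j ∈ Finset.range p, qExpansion (p : ℝ) (⇑h ∣[k] (S * T ^ j)) := by
  have : NeZero p := ⟨hp.out.ne_zero⟩
  refine ⟨qExpansion 1 (CosetP1.normP p h K hK), SturmProp3.sturmProp_qExpansion_nat K _, ?_⟩
  rw [CosetP1.coe_normP_eq_norm]
  let _ := Fintype.ofFinite (CosetP1.QQ p)
  have hprod : ∏ j ∈ Finset.range p, qExpansion (p : ℝ)
        (SlashInvariantForm.quotientFunc (ℋ := 𝒮ℒ) h (CosetP1.cosetMap p (some (j : ZMod p))))
      = ∏ j ∈ Finset.range p, qExpansion (p : ℝ) (⇑h ∣[k] (S * T ^ j)) :=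
    Finset.prod_congr rfl fun j hj => by
      rw [CosetP1.quotientFunc_cosetMap_natCast p h (Finset.mem_range.mp hj)]
  rw [NormQExp15.expand_qExpansion_norm h hp.out.pos
      (NormQExp15.isUniformPeriod_Gamma0 (dvd_refl p)),
    CosetP1.prod_QQ, CosetP1.quotientFunc_cosetMap_none, qExpansion_nat_eq_expand h hp.out.pos,
    hprod]

end conj

/-! ### integer series -/

theorem toC_sig (r : ℕ) : toC (sig r) = sig r := by
  ext m
  simp [toC, sig]

theorem toC_E4s : toC (E4s ℤ) = E4s ℂ := by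
  simp only [toC, E4s, map_add, map_one, map_mul, PowerSeries.map_C]
  rw [show PowerSeries.map (Int.castRingHom ℂ) (sig 3) = sig 3 from toC_sig 3]
  simp

theorem toC_E6s : toC (E6s ℤ) = E6s ℂ := by
  simp only [toC, E6s, map_sub, map_one, map_mul, PowerSeries.map_C]
  rw [show PowerSeries.map (Int.castRingHom ℂ) (sig 5) = sig 5 from toC_sig 5]
  simp

theorem toC_mk_of_intQ {N : ℕ} {g : ModularForm (Gamma0 N) 2} {a : ℕ → ℤ} (ha : IntQ g a) :
    toC (PowerSeries.mk a) = qExpansion 1 ⇑g := by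
  ext k
  rw [coeff_toC, coeff_mk, ha k]

/-! ### the input (C) in `q`-expansion form -/

/-- **(C)**, `q`-expansion form (output of U1 + U3c): the conjugates of a weight-2 form at
period `p`. -/
def ConjQ (p : ℕ) (ζ : ℂ) (g : ModularForm (Gamma0 p) 2) : Prop :=
  ∀ j, j < p → qExpansion (p : ℝ) (⇑g ∣[(2 : ℤ)] (S * T ^ j))
    = C (-(p : ℂ)⁻¹) * rescale (ζ ^ j) (qExpansion 1 (heckeU 2 p ⇑g))

theorem conjQ_toC [NeZero p] {ζ : ℂ} {g : ModularForm (Gamma0 p) 2} (hC : ConjQ p ζ g)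
    {a : ℕ → ℤ} (ha : IntQ g a) {j : ℕ} (hj : j < p) :
    qExpansion (p : ℝ) (⇑g ∣[(2 : ℤ)] (S * T ^ j))
      = C (-(p : ℂ)⁻¹) * rescale (ζ ^ j) (toC (Up p (PowerSeries.mk a))) := by
  rw [hC j hj, toC_Up g (PowerSeries.mk a) (toC_mk_of_intQ ha), coe_Uform]

theorem qExpansion_p_E4 {M : ℕ} (hM : 0 < M) :
    qExpansion (M : ℝ) ⇑E₄ = PowerSeries.expand M hM.ne' (E4s ℂ) := by
  rw [NormQExp15.qExpansion_natCast_eq_expand E₄ hM, LevelOneQ19.qExpansion_E4]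

theorem qExpansion_p_E6 {M : ℕ} (hM : 0 < M) :
    qExpansion (M : ℝ) ⇑E₆ = PowerSeries.expand M hM.ne' (E6s ℂ) := by
  rw [NormQExp15.qExpansion_natCast_eq_expand E₆ hM, LevelOneQ19.qExpansion_E6]

/-! ### the three exports, from (C) -/

/-- `h = G² − c² E₄`. -/
theorem norm4_of_conjQ (hp : p.Prime) (g : ModularForm (Gamma0 p) 2) (a : ℕ → ℤ)
    (ha : IntQ g a) (ζ : ℂ) (hC : ConjQ p ζ g) :
    ∃ n : ℂ⟦X⟧, SturmProp (4 * (p + 1)) n ∧
      expand p hp.ne_zero n =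
        expand p hp.ne_zero (toC ((PowerSeries.mk a) ^ 2 - C ((a 0) ^ 2) * E4s ℤ)) *
          ∏ j ∈ Finset.range p,
            (C (((p : ℂ))⁻¹ ^ 2) * (rescale (ζ ^ j) (toC (Up p (PowerSeries.mk a)))) ^ 2
              - C (((a 0 : ℤ) : ℂ) ^ 2) * expand p hp.ne_zero (E4s ℂ)) := by
  have : Fact p.Prime := ⟨hp⟩
  have : NeZero p := ⟨hp.ne_zero⟩
  set c : ℂ := ((a 0 : ℤ) : ℂ) with hc
  obtain ⟨n, hn, hprod⟩ := exists_norm_series (h4 g c) (4 * (p + 1)) (by push_cast; ring)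
  refine ⟨n, hn, ?_⟩
  rw [hprod]
  have h1 : qExpansion 1 ⇑(h4 g c)
      = toC ((PowerSeries.mk a) ^ 2 - C ((a 0) ^ 2) * E4s ℤ) := by
    rw [coe_h4, qExp_shape4 (an_one g) (an_one_levelOne E₄), ← toC_mk_of_intQ ha,
      PkgOfForm23.qExpansion_E4]
    simp [toC, hc]
  have h2 : ∀ j ∈ Finset.range p, qExpansion (p : ℝ) (⇑(h4 g c) ∣[(4 : ℤ)] (S * T ^ j))
      = C (((p : ℂ))⁻¹ ^ 2) * (rescale (ζ ^ j) (toC (Up p (PowerSeries.mk a)))) ^ 2
        - C (c ^ 2) * expand p hp.ne_zero (E4s ℂ) := by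
    intro j hj
    have hj' := Finset.mem_range.mp hj
    rw [h4_slash, qExp_shape4 (an_conj g hj') (an_nat_levelOne E₄ hp.pos), conjQ_toC hC ha hj',
      qExpansion_p_E4 hp.pos, mul_pow, ← map_pow, neg_sq]
  rw [h1, Finset.prod_congr rfl h2]

/-- `h = G³ − c³ E₆`. -/
theorem norm6_of_conjQ (hp : p.Prime) (g : ModularForm (Gamma0 p) 2) (a : ℕ → ℤ)
    (ha : IntQ g a) (ζ : ℂ) (hC : ConjQ p ζ g) :
    ∃ n : ℂ⟦X⟧, SturmProp (6 * (p + 1)) n ∧
      expand p hp.ne_zero n =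
        expand p hp.ne_zero (toC ((PowerSeries.mk a) ^ 3 - C ((a 0) ^ 3) * E6s ℤ)) *
          ∏ j ∈ Finset.range p,
            (C ((-((p : ℂ))⁻¹) ^ 3) * (rescale (ζ ^ j) (toC (Up p (PowerSeries.mk a)))) ^ 3
              - C (((a 0 : ℤ) : ℂ) ^ 3) * expand p hp.ne_zero (E6s ℂ)) := by
  have : Fact p.Prime := ⟨hp⟩
  have : NeZero p := ⟨hp.ne_zero⟩
  set c : ℂ := ((a 0 : ℤ) : ℂ) with hc
  obtain ⟨n, hn, hprod⟩ := exists_norm_series (h6 g c) (6 * (p + 1)) (by push_cast; ring)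
  refine ⟨n, hn, ?_⟩
  rw [hprod]
  have h1 : qExpansion 1 ⇑(h6 g c)
      = toC ((PowerSeries.mk a) ^ 3 - C ((a 0) ^ 3) * E6s ℤ) := by
    rw [coe_h6, qExp_shape6 (an_one g) (an_one_levelOne E₆), ← toC_mk_of_intQ ha,
      LevelOneQ19.qExpansion_E6, ← toC_E6s]
    simp [toC, hc]
  have h2 : ∀ j ∈ Finset.range p, qExpansion (p : ℝ) (⇑(h6 g c) ∣[(6 : ℤ)] (S * T ^ j))
      = C ((-((p : ℂ))⁻¹) ^ 3) * (rescale (ζ ^ j) (toC (Up p (PowerSeries.mk a)))) ^ 3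
        - C (c ^ 3) * expand p hp.ne_zero (E6s ℂ) := by
    intro j hj
    have hj' := Finset.mem_range.mp hj
    rw [h6_slash, qExp_shape6 (an_conj g hj') (an_nat_levelOne E₆ hp.pos), conjQ_toC hC ha hj',
      qExpansion_p_E6 hp.pos, mul_pow, ← map_pow]
  rw [h1, Finset.prod_congr rfl h2]

/-- `h = (G E₄ − c E₆) / 3`. -/
theorem norm6'_of_conjQ (hp : p.Prime) (g : ModularForm (Gamma0 p) 2) (a : ℕ → ℤ)
    (ha : IntQ g a) (ζ : ℂ) (hC : ConjQ p ζ g) :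
    ∃ n : ℂ⟦X⟧, SturmProp (6 * (p + 1)) n ∧
      expand p hp.ne_zero n =
        (C ((3 : ℂ))⁻¹ * expand p hp.ne_zero
            (toC (PowerSeries.mk a * E4s ℤ - C (a 0) * E6s ℤ))) *
          ∏ j ∈ Finset.range p,
            (C ((3 : ℂ))⁻¹ * (C (-((p : ℂ))⁻¹) * rescale (ζ ^ j) (toC (Up p (PowerSeries.mk a))) *
                expand p hp.ne_zero (E4s ℂ) - C ((a 0 : ℤ) : ℂ) * expand p hp.ne_zero (E6s ℂ))) := by
  have : Fact p.Prime := ⟨hp⟩
  have : NeZero p := ⟨hp.ne_zero⟩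
  set c : ℂ := ((a 0 : ℤ) : ℂ) with hc
  obtain ⟨n, hn, hprod⟩ := exists_norm_series (h6' g c) (6 * (p + 1)) (by push_cast; ring)
  refine ⟨n, hn, ?_⟩
  rw [hprod]
  have h1 : qExpansion 1 ⇑(h6' g c)
      = C ((3 : ℂ))⁻¹ * toC (PowerSeries.mk a * E4s ℤ - C (a 0) * E6s ℤ) := by
    rw [coe_h6', qExp_shape6' (an_one g) (an_one_levelOne E₄) (an_one_levelOne E₆),
      ← toC_mk_of_intQ ha, LevelOneQ19.qExpansion_E4, LevelOneQ19.qExpansion_E6, ← toC_E4s,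
      ← toC_E6s]
    simp [toC, hc]
  have h2 : ∀ j ∈ Finset.range p, qExpansion (p : ℝ) (⇑(h6' g c) ∣[(6 : ℤ)] (S * T ^ j))
      = C ((3 : ℂ))⁻¹ * (C (-((p : ℂ))⁻¹) * rescale (ζ ^ j) (toC (Up p (PowerSeries.mk a))) *
          expand p hp.ne_zero (E4s ℂ) - C c * expand p hp.ne_zero (E6s ℂ)) := by
    intro j hj
    have hj' := Finset.mem_range.mp hj
    rw [h6'_slash, qExp_shape6' (an_conj g hj') (an_nat_levelOne E₄ hp.pos)
      (an_nat_levelOne E₆ hp.pos), conjQ_toC hC ha hj', qExpansion_p_E4 hp.pos,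
      qExpansion_p_E6 hp.pos]
  rw [h1, Finset.prod_congr rfl h2, map_mul, expand_C]

/-! ### (C) in `q`-expansion form from `Fricke17` + `ConjSeries5` -/

theorem conjQ_zetaN (hp : p.Prime) (g : ModularForm (Gamma0 p) 2) :
    ConjQ p (ConjSeries5.zetaN p) g := by
  have : Fact p.Prime := ⟨hp⟩
  have : NeZero p := ⟨hp.ne_zero⟩
  intro j _
  have hfun : (⇑g ∣[(2 : ℤ)] (S * T ^ j))
      = fun τ : ℍ => (-(p : ℂ)⁻¹) * (Uform g) (heckeMatrix p j • τ) := by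
    funext z
    rw [Fricke17.slash_S_mul_T_pow_apply (N := p) g j z, coe_Uform]
  rw [hfun, ConjSeries5.qExpansion_const_mul_comp_heckeMatrix_Gamma0 (Uform g) hp.pos j,
    coe_Uform]

/-! ### the three literal exports -/

theorem export_norm4 : Export_norm4 := fun p hp g a ha =>
  let ⟨n, hn, h⟩ := norm4_of_conjQ hp g a ha (ConjSeries5.zetaN p) (conjQ_zetaN hp g)
  ⟨ConjSeries5.zetaN p, n, ConjSeries5.isPrimitiveRoot_zetaN hp.ne_zero, hn, h⟩

theorem export_norm6 : Export_norm6 := fun p hp g a ha =>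
  let ⟨n, hn, h⟩ := norm6_of_conjQ hp g a ha (ConjSeries5.zetaN p) (conjQ_zetaN hp g)
  ⟨ConjSeries5.zetaN p, n, ConjSeries5.isPrimitiveRoot_zetaN hp.ne_zero, hn, h⟩

theorem export_norm6' : Export_norm6' := fun p hp g a ha =>
  let ⟨n, hn, h⟩ := norm6'_of_conjQ hp g a ha (ConjSeries5.zetaN p) (conjQ_zetaN hp g)
  ⟨ConjSeries5.zetaN p, n, ConjSeries5.isPrimitiveRoot_zetaN hp.ne_zero, hn, h⟩

end Fermat.Agent.S16.NormExport29
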