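/-
S16, upper bound, chapter U6: (N_p) (helper14) — also a usability test of the interface `Formal14`.
-/
import Mathlib
import Fermat.Agent.S16.Formal14

set_option autoImplicit false

open PowerSeries

namespace Fermat.Agent.S16.Np14

open Fermat.Agent.S16.Formal14

theorem coeff_one_sig {A : Type*} [Semiring A] (r : ℕ) : coeff 1 (sig (A := A) r) = 1 := by
  simp [sig]

theorem coeff_one_E4s : coeff 1 (E4s ℤ) = 240 := by
  rw [E4s, map_add, coeff_one, if_neg one_ne_zero, zero_add, coeff_C_mul, coeff_one_sig, mul_one]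

/-- a series congruent to its constant term modulo `m`. -/
theorem exists_eq_C_add_C_mul (f : ℤ⟦X⟧) (m : ℤ) (h : ∀ k, 1 ≤ k → m ∣ coeff k f) :
    ∃ H : ℤ⟦X⟧, f = C (constantCoeff f) + C m * H := by
  choose g hg using h
  refine ⟨PowerSeries.mk fun k => if hk : 1 ≤ k then g k hk else 0, ?_⟩
  ext k
  rcases Nat.eq_zero_or_pos k with rfl | hk
  · simp
  · have hk' : 1 ≤ k := hk
    have hk0 : k ≠ 0 := Nat.pos_iff_ne_zero.mp hk
    rw [map_add, coeff_C, if_neg hk0, zero_add, coeff_C_mul, coeff_mk, dif_pos hk', ← hg k hk']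

theorem cong_G' {p : ℕ} (P : Pkg p) (hp : 1 ≤ p) (ℓ a : ℕ) (h : P.Cong ℓ a) :
    ∀ k, 1 ≤ k → ((ℓ : ℤ) ^ a) ∣ coeff k P.G' := by
  intro k hk
  rw [← P.Up_G, coeff_Up]
  exact h (p * k) (Nat.one_le_iff_ne_zero.mpr (Nat.mul_ne_zero (by omega) (by omega)))

theorem target_Np : Target_Np := by
  intro p hp h7 P hc hcong
  have hp1 : 1 ≤ p := hp.one_lt.le
  have hp0 : p ≠ 0 := hp.ne_zero
  have hpZ : Prime (p : ℤ) := Nat.prime_iff_prime_int.mp hp
  -- `G' = c + p H`
  obtain ⟨H, hH⟩ := exists_eq_C_add_C_mul P.G' (p : ℤ) (fun k hk => by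
    have := cong_G' P hp1 p 1 hcong k hk
    simpa using this)
  rw [P.constG'] at hH
  have hsq : P.G' ^ 2 = C (P.c ^ 2) + C (p : ℤ) * (C (2 * P.c) * H + C (p : ℤ) * H ^ 2) := by
    rw [hH]
    simp only [map_mul, map_pow, map_ofNat]
    ring
  have h1 := congrArg (coeff 1) P.I4
  rw [map_add, coeff_C_mul, coeff_Up, mul_one, hsq, map_add, coeff_C, if_neg hp0, zero_add,
    coeff_C_mul, coeff_C_mul, coeff_one_E4s] at h1
  have hdvd : (p : ℤ) ∣ ((p : ℤ) + 1) * P.c ^ 2 * 240 := by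
    rw [← h1]
    exact dvd_add (dvd_mul_right _ _) (dvd_mul_right _ _)
  rcases hpZ.dvd_or_dvd hdvd with h | h
  · rcases hpZ.dvd_or_dvd h with h | h
    · have : (p : ℤ) ∣ 1 := by
        have h2 := dvd_sub h (dvd_refl (p : ℤ))
        simpa using h2
      exact hpZ.not_dvd_one this
    · exact hc (hpZ.dvd_of_dvd_pow h)
  · have h240 : (p : ℕ) ∣ 240 := by exact_mod_cast h
    have : p ∣ 2 ^ 4 * 3 * 5 := by simpa using h240
    rcases (Nat.Prime.dvd_mul hp).mp this with h | h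
    · rcases (Nat.Prime.dvd_mul hp).mp h with h | h
      · have := Nat.le_of_dvd (by norm_num) (hp.dvd_of_dvd_pow h)
        omega
      · have := Nat.le_of_dvd (by norm_num) h
        omega
    · have := Nat.le_of_dvd (by norm_num) h
      omega

end Fermat.Agent.S16.Np14
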