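/-
S16, upper bound, chapter U6a (helper24): the case `ℓ = 2`, `p ≡ 1 mod 4` — `Target_N2b` of
`Formal14` (pure `q`-series arithmetic, `S16_UB_ELEM14.md` §4 (N_2b), Steps 1 and 2).

Also exported for (N_2a): `star_coeff` (the coefficientwise form of (★) for `G = c + M g`),
`exists_decomp` and the parity lemmas.
-/
import Fermat.Agent.S16.Formal14

set_option autoImplicit false

open PowerSeries Finset

namespace Fermat.Agent.S16.TwoB24

open Fermat.Agent.S16.Formal14

/-! ### `Up` is linear -/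

theorem Up_add {A : Type*} [Semiring A] (p : ℕ) (f g : A⟦X⟧) : Up p (f + g) = Up p f + Up p g := by
  ext k; simp

theorem Up_C_mul {A : Type*} [Semiring A] (p : ℕ) (a : A) (f : A⟦X⟧) :
    Up p (C a * f) = C a * Up p f := by
  ext k; simp

theorem Up_C {A : Type*} [Semiring A] (p : ℕ) (hp : p ≠ 0) (a : A) : Up p (C a : A⟦X⟧) = C a := by
  ext k
  simp only [coeff_Up, coeff_C]
  have : p * k = 0 ↔ k = 0 := by simp [hp]
  simp [this]

/-! ### squares modulo 2 -/

/-- `∑_{i+j=n} f i f j = [n even] f(n/2)² + 2 r`. -/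
theorem sum_antidiagonal_sq {A : Type*} [CommRing A] (f : ℕ → A) (n : ℕ) :
    ∃ r : A, ∑ ij ∈ antidiagonal n, f ij.1 * f ij.2 =
      (if Even n then f (n / 2) ^ 2 else 0) + 2 * r := by
  classical
  refine ⟨∑ ij ∈ (antidiagonal n).filter (fun ij => ij.1 < ij.2), f ij.1 * f ij.2, ?_⟩
  have hsplit : ∑ ij ∈ antidiagonal n, f ij.1 * f ij.2 =
      ∑ ij ∈ (antidiagonal n).filter (fun ij => ij.1 < ij.2), f ij.1 * f ij.2 +
      ∑ ij ∈ (antidiagonal n).filter (fun ij => ij.1 = ij.2), f ij.1 * f ij.2 +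
      ∑ ij ∈ (antidiagonal n).filter (fun ij => ij.2 < ij.1), f ij.1 * f ij.2 := by
    rw [← Finset.sum_filter_add_sum_filter_not (antidiagonal n) (fun ij => ij.1 < ij.2)]
    rw [add_assoc]
    congr 1
    rw [← Finset.sum_filter_add_sum_filter_not
      ((antidiagonal n).filter (fun ij => ¬ ij.1 < ij.2)) (fun ij => ij.1 = ij.2)]
    congr 1
    · apply Finset.sum_congr _ (fun _ _ => rfl)
      ext ij
      simp only [mem_filter, Finset.HasAntidiagonal.mem_antidiagonal]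
      constructor
      · rintro ⟨⟨h1, _⟩, h3⟩; exact ⟨h1, h3⟩
      · rintro ⟨h1, h3⟩; exact ⟨⟨h1, by omega⟩, h3⟩
    · apply Finset.sum_congr _ (fun _ _ => rfl)
      ext ij
      simp only [mem_filter, Finset.HasAntidiagonal.mem_antidiagonal]
      constructor
      · rintro ⟨⟨h1, h2⟩, h3⟩; exact ⟨h1, by omega⟩
      · rintro ⟨h1, h3⟩; exact ⟨⟨h1, by omega⟩, by omega⟩
  have hswap : ∑ ij ∈ (antidiagonal n).filter (fun ij => ij.2 < ij.1), f ij.1 * f ij.2 =
      ∑ ij ∈ (antidiagonal n).filter (fun ij => ij.1 < ij.2), f ij.1 * f ij.2 := by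
    apply Finset.sum_bij (fun ij _ => (ij.2, ij.1))
    · intro ij h
      simp only [mem_filter, Finset.HasAntidiagonal.mem_antidiagonal] at h ⊢
      exact ⟨by omega, h.2⟩
    · intro a _ b _ h
      simp only [Prod.mk.injEq] at h
      exact Prod.ext h.2 h.1
    · intro b h
      simp only [mem_filter, Finset.HasAntidiagonal.mem_antidiagonal] at h
      exact ⟨(b.2, b.1), by
        simp only [mem_filter, Finset.HasAntidiagonal.mem_antidiagonal]; exact ⟨by omega, h.2⟩, rfl⟩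
    · intro ij _; ring
  have hdiag : ∑ ij ∈ (antidiagonal n).filter (fun ij => ij.1 = ij.2), f ij.1 * f ij.2 =
      if Even n then f (n / 2) ^ 2 else 0 := by
    split_ifs with hn
    · obtain ⟨m, rfl⟩ := hn
      have : (antidiagonal (m + m)).filter (fun ij => ij.1 = ij.2) = {(m, m)} := by
        ext ij
        simp only [mem_filter, Finset.HasAntidiagonal.mem_antidiagonal, mem_singleton]
        constructor
        · rintro ⟨h1, h2⟩; exact Prod.ext (by simp; omega) (by simp; omega)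
        · rintro rfl; exact ⟨rfl, rfl⟩
      rw [this, Finset.sum_singleton]
      have : (m + m) / 2 = m := by omega
      rw [this]; ring
    · have : (antidiagonal n).filter (fun ij => ij.1 = ij.2) = ∅ := by
        ext ij
        simp only [mem_filter, Finset.HasAntidiagonal.mem_antidiagonal, Finset.notMem_empty,
          iff_false, not_and]
        intro h1 h2
        exact hn ⟨ij.1, by omega⟩
      rw [this, Finset.sum_empty]
  rw [hsplit, hswap, hdiag]; ring

/-- `coeff n (f²) = [n even] (coeff (n/2) f)² + 2 r`. -/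
theorem coeff_sq_mod_two {A : Type*} [CommRing A] (f : A⟦X⟧) (n : ℕ) :
    ∃ r : A, coeff n (f ^ 2) = (if Even n then (coeff (n / 2) f) ^ 2 else 0) + 2 * r := by
  obtain ⟨r, hr⟩ := sum_antidiagonal_sq (fun k => coeff k f) n
  exact ⟨r, by rw [pow_two, coeff_mul]; exact hr⟩

/-- Key parity lemma: if `Up p g' = g`, `p` odd, then `p (g²)_n + (g'²)_{pn}` is even. -/
theorem key_even {A : Type*} [CommRing A] (p : ℕ) (hp : Odd p) (g g' : A⟦X⟧)
    (hU' : Up p g' = g) (n : ℕ) :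
    ∃ r : A, (p : A) * coeff n (g ^ 2) + coeff (p * n) (g' ^ 2) = 2 * r := by
  have hU : ∀ m, coeff m g = coeff (p * m) g' := fun m => by rw [← hU', coeff_Up]
  obtain ⟨r1, h1⟩ := coeff_sq_mod_two g n
  obtain ⟨r2, h2⟩ := coeff_sq_mod_two g' (p * n)
  obtain ⟨t, ht⟩ := hp
  by_cases hn : Even n
  · have hpn : Even (p * n) := hn.mul_left p
    have hhalf : p * n / 2 = p * (n / 2) := by
      obtain ⟨m, rfl⟩ := hn
      have : (m + m) / 2 = m := by omega
      rw [this]
      have : p * (m + m) = 2 * (p * m) := by ring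
      rw [this]; simp
    rw [h1, h2, if_pos hn, if_pos hpn, hhalf, ← hU (n / 2)]
    refine ⟨(t + 1) * coeff (n / 2) g ^ 2 + (p : A) * r1 + r2, ?_⟩
    rw [ht]; push_cast; ring
  · have hpn : ¬ Even (p * n) := by
      rw [Nat.even_mul]
      rintro (h | h)
      · exact (Nat.not_even_iff_odd.mpr ⟨t, ht⟩) h
      · exact hn h
    rw [h1, h2, if_neg hn, if_neg hpn]
    exact ⟨(p : A) * r1 + r2, by ring⟩

/-! ### decomposition `G = c + M g` and the coefficientwise form of (★) -/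

/-- If all higher coefficients of `G` are divisible by `M`, then `G = c + M g`, `g(0) = 0`. -/
theorem exists_decomp (G : ℤ⟦X⟧) (c M : ℤ) (hc : constantCoeff G = c)
    (hdiv : ∀ k, 1 ≤ k → M ∣ coeff k G) :
    ∃ g : ℤ⟦X⟧, coeff 0 g = 0 ∧ G = C c + C M * g := by
  choose q hq using hdiv
  refine ⟨PowerSeries.mk fun k => if h : 1 ≤ k then q k h else 0, by simp, ?_⟩
  ext k
  rcases Nat.eq_zero_or_pos k with rfl | hk
  · simp [← hc]
  · have hk1 : 1 ≤ k := hk
    have hk0 : k ≠ 0 := by omega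
    simp only [map_add, coeff_C, if_neg hk0, zero_add, coeff_C_mul, coeff_mk, dif_pos hk1]
    exact hq k hk1

/-- (★) coefficientwise: `G = c + M g`, `G' = c + M g'`, `U_p g' = g`, `g(0) = g'(0) = 0` and (I4)
give `2 (p+1) c M g_n + M² (p (g²)_n + (g'²)_{pn}) = 240 (p+1) c² σ₃(n)`. -/
theorem star_coeff (p : ℕ) (hp0 : p ≠ 0) (c M : ℤ) (G G' g g' : ℤ⟦X⟧)
    (hG : G = C c + C M * g) (hG' : G' = C c + C M * g') (hg0 : coeff 0 g = 0)
    (hU' : Up p g' = g)
    (I4 : C (p : ℤ) * G ^ 2 + Up p (G' ^ 2) = C (((p : ℤ) + 1) * c ^ 2) * E4s ℤ) (n : ℕ) :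
    2 * ((p : ℤ) + 1) * c * M * coeff n g
      + M ^ 2 * ((p : ℤ) * coeff n (g ^ 2) + coeff (p * n) (g' ^ 2))
      = 240 * ((p : ℤ) + 1) * c ^ 2 * (ArithmeticFunction.sigma 3 n : ℕ) := by
  have hsqG : G ^ 2 = C (c ^ 2) + C (2 * c * M) * g + C (M ^ 2) * g ^ 2 := by
    rw [hG]; simp only [map_mul, map_pow, map_ofNat]; ring
  have hsqG' : G' ^ 2 = C (c ^ 2) + C (2 * c * M) * g' + C (M ^ 2) * g' ^ 2 := by
    rw [hG']; simp only [map_mul, map_pow, map_ofNat]; ring
  have hUn : coeff (p * n) g' = coeff n g := by rw [← hU', coeff_Up]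
  have h := congrArg (coeff n) I4
  rw [hsqG, hsqG'] at h
  simp only [map_add, coeff_C_mul, coeff_Up, coeff_C, E4s, sig, coeff_mk, mul_add, mul_one] at h
  have hpn : p * n = 0 ↔ n = 0 := by simp [hp0]
  rcases Nat.eq_zero_or_pos n with rfl | hn
  · -- n = 0: both sides vanish
    have h0' : coeff 0 g' = 0 := by
      have := hUn; simp only [mul_zero] at this; rw [this, hg0]
    have hsq0 : coeff 0 (g ^ 2) = 0 := by
      rw [coeff_zero_eq_constantCoeff_apply, map_pow, ← coeff_zero_eq_constantCoeff_apply, hg0]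
      norm_num
    have hsq0' : coeff 0 (g' ^ 2) = 0 := by
      rw [coeff_zero_eq_constantCoeff_apply, map_pow, ← coeff_zero_eq_constantCoeff_apply, h0']
      norm_num
    simp [hg0, hsq0, hsq0']
  · have hn0 : n ≠ 0 := by omega
    have hpn0 : p * n ≠ 0 := by rw [Ne, hpn]; exact hn0
    simp only [if_neg hn0, if_neg hpn0, hUn] at h
    linear_combination h

/-! ### the two steps of (N_2b) -/

/-- Step 1: `w g_n + (p (g²)_n + (g'²)_{pn}) = 2 s` with `w` odd forces `g_n` even. -/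
theorem step1 (p : ℕ) (hp : Odd p) (w : ℤ) (hw : Odd w) (g g' : ℤ⟦X⟧) (hU' : Up p g' = g) (n : ℕ)
    (s : ℤ) (h : w * coeff n g + ((p : ℤ) * coeff n (g ^ 2) + coeff (p * n) (g' ^ 2)) = 2 * s) :
    (2 : ℤ) ∣ coeff n g := by
  obtain ⟨r, hr⟩ := key_even (A := ℤ) p hp g g' hU' n
  obtain ⟨t, ht⟩ := hw
  have hr' : (p : ℤ) * coeff n (g ^ 2) + coeff (p * n) (g' ^ 2) = 2 * r := by exact_mod_cast hr
  rw [hr', ht] at h
  exact ⟨s - r - t * coeff n g, by linear_combination h⟩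

/-- Step 2: `w γ_n + 2 x = 15 w y` with `w` odd gives `γ_n ≡ y mod 2`. -/
theorem step2 (w : ℤ) (hw : Odd w) (γn x y : ℤ) (h : w * γn + 2 * x = 15 * w * y) :
    (2 : ℤ) ∣ γn - y := by
  obtain ⟨t, ht⟩ := hw
  rw [ht] at h
  exact ⟨7 * y + 15 * t * y - x - t * γn, by linear_combination h⟩

/-! ### (N_2b) -/

/-- the heart of (N_2b) and of the `p ≡ 1 mod 4`, `p ≡ 3 mod 8` parts of (N_2a):
if `G = c + 2^(v+3) γ`, `c = 2^v u`, `u` odd, `p + 1 = 2^a w` (`a ≥ 1`, `w` odd) with `a ≤ 2`,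
then (I4), (I4') are contradictory.  Here stated for `a = 1`. -/
theorem false_of_cong_v3 (p : ℕ) (hp : p.Prime) (hp4 : p % 4 = 1) (P : Pkg p) (v : ℕ) (u : ℤ)
    (hc : P.c = 2 ^ v * u) (hu : ¬ (2 : ℤ) ∣ u) (hcong : P.Cong 2 (v + 3)) : False := by
  have hp0 : p ≠ 0 := hp.ne_zero
  have hpodd : Odd p := by
    rw [Nat.odd_iff]; omega
  have huodd : Odd u := by
    rcases Int.even_or_odd u with h | h
    · exact absurd (even_iff_two_dvd.mp h) hu
    · exact h
  -- p + 1 = 2 w, w odd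
  obtain ⟨m, hm⟩ : ∃ m, p = 4 * m + 1 := ⟨p / 4, by omega⟩
  set w : ℤ := 2 * (m : ℤ) + 1 with hwdef
  have hw : Odd w := ⟨m, by rw [hwdef]⟩
  have hpw : (p : ℤ) + 1 = 2 * w := by rw [hm, hwdef]; push_cast; ring
  -- decompositions
  set M : ℤ := 2 ^ (v + 3) with hM
  have hMne : M ≠ 0 := by rw [hM]; positivity
  obtain ⟨γ, hγ0, hGγ⟩ := exists_decomp P.G P.c M P.constG (fun k hk => by
    have := hcong k hk; simpa [hM] using this)
  have hG'γ : P.G' = C P.c + C M * Up p γ := by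
    rw [← P.Up_G, hGγ, Up_add, Up_C p hp0, Up_C_mul]
  have hUU : Up p (Up p γ) = γ := by
    have h := P.Up_G'
    rw [hG'γ, Up_add, Up_C p hp0, Up_C_mul, hGγ] at h
    have h2 : C M * Up p (Up p γ) = C M * γ := add_left_cancel h
    ext k
    have := congrArg (coeff k) h2
    simp only [coeff_C_mul] at this
    exact mul_left_cancel₀ hMne this
  have hγ'0 : coeff 0 (Up p γ) = 0 := by simp [hγ0]
  -- (★) and (★')
  have hstar := star_coeff p hp0 P.c M P.G P.G' γ (Up p γ) hGγ hG'γ hγ0 hUU P.I4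
  have hstar' := star_coeff p hp0 P.c M P.G' P.G (Up p γ) γ hG'γ hGγ hγ'0 rfl P.I4'
  -- divide by 2^(2v+5)
  have hdiv : ∀ (a b x : ℤ) (s : ℕ), 2 * ((p : ℤ) + 1) * P.c * M * a + M ^ 2 * b
      = 240 * ((p : ℤ) + 1) * P.c ^ 2 * x → (w * u) * a + 2 * b = 15 * (w * u) * (u * x) := by
    intro a b x _ h
    rw [hpw, hc, hM] at h
    have h2 : (2 : ℤ) ^ (2 * v + 5) * ((w * u) * a + 2 * b)
        = (2 : ℤ) ^ (2 * v + 5) * (15 * (w * u) * (u * x)) := by
      have e1 : (2 : ℤ) ^ (v + 3) = 2 ^ v * 8 := by rw [pow_add]; norm_num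
      have e2 : (2 : ℤ) ^ (2 * v + 5) = (2 ^ v) ^ 2 * 32 := by
        rw [pow_add, pow_mul']; norm_num
      rw [e1] at h
      rw [e2]
      linear_combination h
    exact mul_left_cancel₀ (by positivity) h2
  have hwu : Odd (w * u) := hw.mul huodd
  have hγ : ∀ n, (2 : ℤ) ∣ coeff n γ - u * (ArithmeticFunction.sigma 3 n : ℕ) := fun n =>
    step2 (w * u) hwu _ _ _ (hdiv _ _ _ 0 (hstar n))
  have hγ' : ∀ n, (2 : ℤ) ∣ coeff n (Up p γ) - u * (ArithmeticFunction.sigma 3 n : ℕ) := fun n =>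
    step2 (w * u) hwu _ _ _ (hdiv _ _ _ 0 (hstar' n))
  -- clash at n = 1 (for γ') and n = p (for γ)
  have h1 := hγ' 1
  have hpp := hγ p
  rw [coeff_Up, mul_one] at h1
  have hs1 : (ArithmeticFunction.sigma 3 1 : ℕ) = 1 := by simp
  have hsp : (ArithmeticFunction.sigma 3 p : ℕ) = 1 + p ^ 3 := by
    rw [ArithmeticFunction.sigma_apply, hp.divisors, Finset.sum_pair hp.one_lt.ne]
    simp
  rw [hs1] at h1
  rw [hsp] at hpp
  -- u * 1 - u * (1 + p^3) = - u p^3 is odd
  have : (2 : ℤ) ∣ u * ((p : ℤ) ^ 3) := by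
    have h3 := dvd_sub hpp h1
    have : coeff p γ - u * ((1 + p ^ 3 : ℕ) : ℤ) - (coeff p γ - u * ((1 : ℕ) : ℤ))
        = -(u * (p : ℤ) ^ 3) := by push_cast; ring
    rw [this] at h3
    exact (dvd_neg.mp h3)
  have hodd : Odd (u * (p : ℤ) ^ 3) := huodd.mul ((by exact_mod_cast hpodd : Odd (p : ℤ)).pow)
  exact (Int.not_even_iff_odd.mpr hodd) (even_iff_two_dvd.mpr this)

/-- **(N_2b)** = `Formal14.Target_N2b`. -/
theorem target_N2b : Target_N2b := by
  intro p hp hp4 P v u hc hu hcong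
  have hp0 : p ≠ 0 := hp.ne_zero
  have hpodd : Odd p := by
    rw [Nat.odd_iff]; omega
  have huodd : Odd u := by
    rcases Int.even_or_odd u with h | h
    · exact absurd (even_iff_two_dvd.mp h) hu
    · exact h
  obtain ⟨m, hm⟩ : ∃ m, p = 4 * m + 1 := ⟨p / 4, by omega⟩
  set w : ℤ := 2 * (m : ℤ) + 1 with hwdef
  have hw : Odd w := ⟨m, by rw [hwdef]⟩
  have hpw : (p : ℤ) + 1 = 2 * w := by rw [hm, hwdef]; push_cast; ring
  -- Step 1: G = c + 2^(v+2) g, and g is even
  set M : ℤ := 2 ^ (v + 2) with hM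
  have hMne : M ≠ 0 := by rw [hM]; positivity
  obtain ⟨g, hg0, hGg⟩ := exists_decomp P.G P.c M P.constG (fun k hk => by
    have := hcong k hk; simpa [hM] using this)
  have hG'g : P.G' = C P.c + C M * Up p g := by
    rw [← P.Up_G, hGg, Up_add, Up_C p hp0, Up_C_mul]
  have hUU : Up p (Up p g) = g := by
    have h := P.Up_G'
    rw [hG'g, Up_add, Up_C p hp0, Up_C_mul, hGg] at h
    have h2 : C M * Up p (Up p g) = C M * g := add_left_cancel h
    ext k
    have := congrArg (coeff k) h2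
    simp only [coeff_C_mul] at this
    exact mul_left_cancel₀ hMne this
  have hstar := star_coeff p hp0 P.c M P.G P.G' g (Up p g) hGg hG'g hg0 hUU P.I4
  have hwu : Odd (w * u) := hw.mul huodd
  have hgeven : ∀ n, (2 : ℤ) ∣ coeff n g := by
    intro n
    have h := hstar n
    rw [hpw, hc, hM] at h
    have h2 : (2 : ℤ) ^ (2 * v + 4) * ((w * u) * coeff n g
        + ((p : ℤ) * coeff n (g ^ 2) + coeff (p * n) (Up p g ^ 2)))
        = (2 : ℤ) ^ (2 * v + 4) * (2 * (15 * w * u ^ 2 * (ArithmeticFunction.sigma 3 n : ℕ))) := by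
      have e1 : (2 : ℤ) ^ (v + 2) = 2 ^ v * 4 := by rw [pow_add]; norm_num
      have e2 : (2 : ℤ) ^ (2 * v + 4) = (2 ^ v) ^ 2 * 16 := by
        rw [pow_add, pow_mul']; norm_num
      rw [e1] at h
      rw [e2]
      linear_combination h
    exact step1 p hpodd (w * u) hwu g (Up p g) hUU n _ (mul_left_cancel₀ (by positivity) h2)
  -- hence G ≡ c mod 2^(v+3): contradiction by `false_of_cong_v3`
  refine false_of_cong_v3 p hp hp4 P v u hc hu (fun k hk => ?_)
  have hk0 : k ≠ 0 := by omega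
  have : coeff k P.G = M * coeff k g := by
    rw [hGg]; simp only [map_add, coeff_C, if_neg hk0, zero_add, coeff_C_mul]
  rw [this, hM]
  obtain ⟨r, hr⟩ := hgeven k
  rw [hr]
  exact ⟨r, by rw [pow_succ]; push_cast; ring⟩

end Fermat.Agent.S16.TwoB24
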