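/-
S16, chapter A: the contract `Top12.A1Statement p` from `A1Tk4.exists_heckePoly_lattice`.
-/
import Mathlib
import Fermat.Agent.S16.Top12
import Fermat.Agent.S16.A1Tk4

set_option autoImplicit false

namespace Fermat.Agent.S16.A1Adapter4

open Fermat.Agent.S16.Top12

/-- **(A1)** in the literal shape of the top contract. -/
theorem a1Statement (p : ℕ) [Fact p.Prime] : A1Statement p := by
  intro k hk
  obtain ⟨P, hP, hf⟩ := A1Tk4.exists_heckePoly_lattice p k hk
  exact ⟨P, hP, fun f => hf f⟩

end Fermat.Agent.S16.A1Adapter4
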