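/-
S16, upper bound, chapter U6 (helper4): `Formal14.Target_Nl_A` by helper25's (Δ★):
coefficient `p` of (I4) minus coefficient `1` of (I4') gives `M² Z = 240 (p+1) c² p³`.
-/
import Mathlib
import Fermat.Agent.S16.Formal14
import Fermat.Agent.S16.CaseN3aOne4

set_option autoImplicit false

open PowerSeries

namespace Fermat.Agent.S16.CaseNlA4

open Fermat.Agent.S16.Formal14 Fermat.Agent.S16.CaseN3aOne4

theorem coeff_E4s_prime {p : ℕ} (hp : p.Prime) :
    coeff p (E4s ℤ) = 240 * (1 + (p : ℤ) ^ 3) := by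
  rw [E4s, map_add, coeff_one, if_neg hp.ne_zero, coeff_C_mul, sig, coeff_mk, zero_add]
  rw [ArithmeticFunction.sigma_apply, hp.divisors]
  rw [Finset.sum_pair hp.one_lt.ne]
  push_cast
  ring

/-- (Δ★) in integer form. -/
theorem delta_star {p : ℕ} (hp : p.Prime) (P : Pkg p) (M : ℤ)
    (hcong : ∀ k, 1 ≤ k → M ∣ coeff k P.G) :
    ∃ Z : ℤ, M ^ 2 * Z = 240 * ((p : ℤ) + 1) * P.c ^ 2 * (p : ℤ) ^ 3 := by
  have hcongG' : ∀ k, 1 ≤ k → M ∣ coeff k P.G' := by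
    intro k hk
    rw [← P.Up_G, coeff_Up]
    exact hcong (p * k) (Nat.mul_pos hp.pos hk)
  obtain ⟨H, hH⟩ := exists_decomp P.G P.c M P.constG hcong
  obtain ⟨H', hH'⟩ := exists_decomp P.G' P.c M P.constG' hcongG'
  have hpp : p * p ≠ 0 := Nat.mul_ne_zero hp.ne_zero hp.ne_zero
  -- coefficient `p` of (I4)
  have hI := congrArg (coeff p) P.I4
  rw [map_add, coeff_C_mul, coeff_Up, coeff_C_mul, coeff_E4s_prime hp, hH, hH', sq_decomp,
    sq_decomp] at hI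
  simp only [map_add, coeff_C_mul, coeff_C, hpp, hp.ne_zero, if_false, zero_add] at hI
  -- coefficient `1` of (I4')
  have hI' := congrArg (coeff 1) P.I4'
  rw [map_add, coeff_C_mul, coeff_Up, coeff_C_mul, coeff_one_E4s, mul_one, hH, hH', sq_decomp,
    sq_decomp] at hI'
  simp only [map_add, coeff_C_mul, coeff_C, one_ne_zero, hp.ne_zero, if_false, zero_add] at hI'
  -- links `M H'_1 = M H_p`, `M H_p = M H'_{p²}`
  have e1 : M * coeff 1 H' = M * coeff p H := by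
    have h1 : coeff 1 (Up p P.G) = coeff 1 P.G' := by rw [P.Up_G]
    rw [coeff_Up, mul_one] at h1
    have a1 : coeff p P.G = M * coeff p H := by
      rw [hH, map_add, coeff_C, if_neg hp.ne_zero, coeff_C_mul, zero_add]
    have a2 : coeff 1 P.G' = M * coeff 1 H' := by
      rw [hH', map_add, coeff_C, if_neg one_ne_zero, coeff_C_mul, zero_add]
    rw [← a1, ← a2, h1]
  have e2 : M * coeff (p * p) H' = M * coeff p H := by
    have h1 : coeff p (Up p P.G') = coeff p P.G := by rw [P.Up_G']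
    rw [coeff_Up] at h1
    have a1 : coeff p P.G = M * coeff p H := by
      rw [hH, map_add, coeff_C, if_neg hp.ne_zero, coeff_C_mul, zero_add]
    have a2 : coeff (p * p) P.G' = M * coeff (p * p) H' := by
      rw [hH', map_add, coeff_C, if_neg hpp, coeff_C_mul, zero_add]
    rw [← a1, ← a2, h1]
  refine ⟨(p : ℤ) * coeff p (H ^ 2) + coeff (p * p) (H' ^ 2)
      - ((p : ℤ) * coeff 1 (H' ^ 2) + coeff p (H ^ 2)), ?_⟩
  linear_combination hI - hI' - 2 * P.c * e2 + 2 * P.c * (p : ℤ) * e1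

/-- **(N_l), `ℓ ∤ p + 1` (also (N_3b)).** -/
theorem target_Nl_A : Target_Nl_A := by
  intro p ℓ hp hℓ h3 hne hnd P v u hc hu hcong
  obtain ⟨Z, hZ⟩ := delta_star hp P ((ℓ : ℤ) ^ (v + 1)) hcong
  rw [hc] at hZ
  have hℓZ : Prime (ℓ : ℤ) := Nat.prime_iff_prime_int.mp hℓ
  have h3v : ((ℓ : ℤ) ^ v) ^ 2 ≠ 0 := pow_ne_zero _ (pow_ne_zero _ hℓZ.ne_zero)
  have key : (ℓ : ℤ) ^ 2 * Z = 240 * (((p : ℤ) + 1) * (u ^ 2 * (p : ℤ) ^ 3)) := by
    have : ((ℓ : ℤ) ^ v) ^ 2 * ((ℓ : ℤ) ^ 2 * Z - 240 * (((p : ℤ) + 1) * (u ^ 2 * (p : ℤ) ^ 3)))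
        = 0 := by
      linear_combination hZ
    rcases mul_eq_zero.mp this with h | h
    · exact absurd h h3v
    · linarith
  -- `ℓ` is prime to `(p+1) u² p³`
  have hcop : IsCoprime ((ℓ : ℤ) ^ 2) (((p : ℤ) + 1) * (u ^ 2 * (p : ℤ) ^ 3)) := by
    apply IsCoprime.pow_left
    rw [Prime.coprime_iff_not_dvd hℓZ]
    intro hd
    rcases hℓZ.dvd_mul.mp hd with h | h
    · exact hnd (by exact_mod_cast h)
    · rcases hℓZ.dvd_mul.mp h with h | h
      · exact hu (hℓZ.dvd_of_dvd_pow h)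
      · have := hℓZ.dvd_of_dvd_pow h
        have h' : ℓ ∣ p := by exact_mod_cast this
        exact hne ((Nat.prime_dvd_prime_iff_eq hℓ hp).mp h')
  have hdvd : (ℓ : ℤ) ^ 2 ∣ 240 := by
    have : (ℓ : ℤ) ^ 2 ∣ 240 * (((p : ℤ) + 1) * (u ^ 2 * (p : ℤ) ^ 3)) := ⟨Z, key.symm⟩
    exact hcop.dvd_of_dvd_mul_right this
  have hdvdN : ℓ ^ 2 ∣ 240 := by exact_mod_cast hdvd
  have hle : ℓ ^ 2 ≤ 240 := Nat.le_of_dvd (by norm_num) hdvdN
  have hlt : ℓ < 16 := by nlinarith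
  interval_cases ℓ <;> first | (revert hdvdN; decide) | (exfalso; revert hℓ; decide)

end Fermat.Agent.S16.CaseNlA4
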