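/-
S16 (Program M), upper bound, chapter U3c (explicit conjugate series), LEVEL-`N` corollary
(helper5).  From (C) (`Fricke17.slash_S_mul_T_pow_apply`) and `ConjSeries5`:

for `g : ModularForm (Gamma0 N) 2`, `N` prime, `ζ = zetaN N = exp (2πi/N)`:

* `qExpansion_slash_S_mul_T_pow g j :
    qExpansion N (⇑g ∣[2] (S * T ^ j)) = C (-(N:ℂ)⁻¹) * rescale (ζ ^ j) (qExpansion 1 (heckeU 2 N ⇑g))`;
* `qExpansion_slash_S_mul_T_pow_of_intQ g a ha j` : the same with
  `toC (Up N (PowerSeries.mk a))` on the right (the literal `hA` shape of the exports);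
* `qExpansion_mul_slash_S_mul_T_pow g j hM` : at period `M * N`, `C β * expand M (rescale …)`
  (the `A j` of the double family), and its `intQ` form;
* `qExpansion_natCast_self_of_intQ` : `qExpansion M ⇑g = expand M (toC (mk a))` (the `C_∞`/`Ainf`
  factors).
-/
import Mathlib
import Fermat.Agent.S16.ConjSeries5
import Fermat.Agent.S16.Fricke17
import Fermat.Agent.S16.TraceI4_23
import Fermat.Agent.S16.PkgOfForm23
import Fermat.Agent.S16.TraceAdapter23
import Fermat.Agent.S16.Export14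

set_option autoImplicit false

open UpperHalfPlane ModularForm CongruenceSubgroup Matrix.SpecialLinearGroup
open scoped MatrixGroups ModularForm Manifold
open ModularGroup (S T)
open Fermat.Agent.S16.ConjSeries5 Fermat.Agent.S16.TraceI4_23 Fermat.Agent.S16.Formal14
open Fermat.Agent.S16.Export14

noncomputable section

namespace Fermat.Agent.S16.ConjSlash5

variable {N : ℕ} [NeZero N] [Fact N.Prime]

/-- (C) as an equality of functions, with `U_N g` bundled. -/
theorem slash_S_mul_T_pow_eq (g : ModularForm (Gamma0 N) 2) (j : ℕ) :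
    (⇑g ∣[(2 : ℤ)] (S * T ^ j))
      = fun τ : ℍ => -(N : ℂ)⁻¹ * (Uform g) (heckeMatrix N j • τ) := by
  funext z
  rw [Fricke17.slash_S_mul_T_pow_apply g j z, coe_Uform]

/-- **the conjugate series at period `N`.** -/
theorem qExpansion_slash_S_mul_T_pow (g : ModularForm (Gamma0 N) 2) (j : ℕ) :
    qExpansion (N : ℝ) (⇑g ∣[(2 : ℤ)] (S * T ^ j))
      = PowerSeries.C (-(N : ℂ)⁻¹)
        * PowerSeries.rescale (zetaN N ^ j) (qExpansion 1 (heckeU 2 N ⇑g)) := by
  rw [slash_S_mul_T_pow_eq g j,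
    qExpansion_const_mul_comp_heckeMatrix_Gamma0 (Uform g) (NeZero.pos N) j, coe_Uform]

theorem analyticAt_cuspFunction_slash_S_mul_T_pow (g : ModularForm (Gamma0 N) 2) (j : ℕ) :
    AnalyticAt ℂ (cuspFunction (N : ℝ) (⇑g ∣[(2 : ℤ)] (S * T ^ j))) 0 := by
  rw [slash_S_mul_T_pow_eq g j]
  exact analyticAt_cuspFunction_const_mul_comp_heckeMatrix_Gamma0 (Uform g) (NeZero.pos N) j _

/-- **the conjugate series at period `M N`.** -/
theorem qExpansion_mul_slash_S_mul_T_pow (g : ModularForm (Gamma0 N) 2) (j : ℕ) {M : ℕ}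
    (hM : 0 < M) :
    qExpansion (((M * N : ℕ)) : ℝ) (⇑g ∣[(2 : ℤ)] (S * T ^ j))
      = PowerSeries.C (-(N : ℂ)⁻¹) * PowerSeries.expand M hM.ne'
          (PowerSeries.rescale (zetaN N ^ j) (qExpansion 1 (heckeU 2 N ⇑g))) := by
  rw [slash_S_mul_T_pow_eq g j,
    qExpansion_mul_const_mul_comp_heckeMatrix_Gamma0 (Uform g) (NeZero.pos N) j _ hM, coe_Uform]

theorem analyticAt_cuspFunction_mul_slash_S_mul_T_pow (g : ModularForm (Gamma0 N) 2) (j : ℕ)
    {M : ℕ} (hM : 0 < M) :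
    AnalyticAt ℂ (cuspFunction (((M * N : ℕ)) : ℝ) (⇑g ∣[(2 : ℤ)] (S * T ^ j))) 0 := by
  rw [slash_S_mul_T_pow_eq g j]
  exact analyticAt_cuspFunction_mul_const_mul_comp_heckeMatrix_Gamma0 (Uform g) (NeZero.pos N) j _
    hM

/-! ### the `IntQ` forms (literal shapes of `Export14`) -/

omit [Fact N.Prime] in
theorem qExpansion_heckeU_of_intQ (g : ModularForm (Gamma0 N) 2) (a : ℕ → ℤ) (ha : IntQ g a) :
    qExpansion 1 (heckeU 2 N ⇑g) = toC (Up N (PowerSeries.mk a)) := by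
  rw [PkgOfForm23.toC_Up g (PowerSeries.mk a) (TraceAdapter23.toC_mk_of_intQ g a ha), coe_Uform]

theorem qExpansion_slash_S_mul_T_pow_of_intQ (g : ModularForm (Gamma0 N) 2) (a : ℕ → ℤ)
    (ha : IntQ g a) (j : ℕ) :
    qExpansion (N : ℝ) (⇑g ∣[(2 : ℤ)] (S * T ^ j))
      = PowerSeries.C (-(N : ℂ)⁻¹)
        * PowerSeries.rescale (zetaN N ^ j) (toC (Up N (PowerSeries.mk a))) := by
  rw [qExpansion_slash_S_mul_T_pow g j, qExpansion_heckeU_of_intQ g a ha]

theorem qExpansion_mul_slash_S_mul_T_pow_of_intQ (g : ModularForm (Gamma0 N) 2) (a : ℕ → ℤ)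
    (ha : IntQ g a) (j : ℕ) {M : ℕ} (hM : 0 < M) :
    qExpansion (((M * N : ℕ)) : ℝ) (⇑g ∣[(2 : ℤ)] (S * T ^ j))
      = PowerSeries.C (-(N : ℂ)⁻¹) * PowerSeries.expand M hM.ne'
          (PowerSeries.rescale (zetaN N ^ j) (toC (Up N (PowerSeries.mk a)))) := by
  rw [qExpansion_mul_slash_S_mul_T_pow g j hM, qExpansion_heckeU_of_intQ g a ha]

omit [Fact N.Prime] [NeZero N] in
/-- `g` itself at any period `M`. -/
theorem qExpansion_natCast_self_of_intQ (g : ModularForm (Gamma0 N) 2) (a : ℕ → ℤ)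
    (ha : IntQ g a) {M : ℕ} (hM : 0 < M) :
    qExpansion (M : ℝ) ⇑g = PowerSeries.expand M hM.ne' (toC (PowerSeries.mk a)) := by
  rw [qExpansion_natCast_Gamma0 N g hM, TraceAdapter23.toC_mk_of_intQ g a ha]

end Fermat.Agent.S16.ConjSlash5
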