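/-
S16 (Program M), upper bound, chapter U3 (NORM), GENERIC part, complement (helper15).
Mathlib + Prelude + `NormQExp15` only.

Change of period for the conjugate series: if `M` is a uniform period of `𝒢` then for every `d ≥ 1`

  `qExpansion (d * M) (quotientFunc f q) = PowerSeries.expand d (qExpansion M (quotientFunc f q))`

(`qExpansion_mul_period_quotientFunc`), and more generally for every modular form `g` of level `Γ`
with strict period `h` (`qExpansion_natCast_mul_period`).  This is what turns the period-`p`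
conjugate series of `F ∈ M_2(Γ₀(p))` and the period-`3` conjugate series of `G₃ ∈ M_2(Γ₀(3))` into
period-`3p` series (`Target_N2a`: `expand 3 (rescale (ζ^j) …)`, `expand p (rescale (ω^i) …)`).
-/
import Mathlib
import Fermat.Prelude.Thm_UpperHalfPlane_qExpansion_coeff_nat_mul
import Fermat.Agent.S16.NormQExp15

set_option autoImplicit false
set_option linter.unusedSectionVars false

open UpperHalfPlane CongruenceSubgroup Matrix.SpecialLinearGroup ConjAct
open scoped MatrixGroups ModularForm Manifold Pointwise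

noncomputable section

namespace Fermat.Agent.S16.NormQExpMul15

open Fermat.Agent.S16.NormQExp15

/-- change of period for a modular form: `qExpansion (d * h) g = V_d (qExpansion h g)`. -/
theorem qExpansion_natCast_mul_period {Γ : Subgroup (GL (Fin 2) ℝ)} {k : ℤ} {G : Type*}
    [FunLike G ℍ ℂ] [ModularFormClass G Γ k] (g : G) {h : ℝ} (hh : 0 < h)
    (hΓ : h ∈ Γ.strictPeriods) {d : ℕ} (hd : 0 < d) :
    qExpansion ((d : ℝ) * h) ⇑g = PowerSeries.expand d hd.ne' (qExpansion h ⇑g) := by
  have : Fact (IsCusp OnePoint.infty Γ) := ⟨Γ.isCusp_of_mem_strictPeriods hh hΓ⟩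
  ext n
  rw [UpperHalfPlane.qExpansion_coeff_nat_mul hh
    (SlashInvariantFormClass.periodic_comp_ofComplex g hΓ)
    (ModularFormClass.holo g) (ModularFormClass.bdd_at_infty g) hd n, PowerSeries.coeff_expand]

variable {𝒢 : Subgroup (GL (Fin 2) ℝ)} {F : Type*} [FunLike F ℍ ℂ] {k : ℤ}
  [ModularFormClass F 𝒢 k] (f : F)

/-- change of period for the conjugate series. -/
theorem qExpansion_mul_period_quotientFunc {M d : ℕ} (hM : 0 < M) (hd : 0 < d)
    (hper : IsUniformPeriod 𝒢 M) (q : (𝒮ℒ) ⧸ (Subgroup.subgroupOf 𝒢 𝒮ℒ)) :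
    qExpansion ((d * M : ℕ) : ℝ) (SlashInvariantForm.quotientFunc f q)
      = PowerSeries.expand d hd.ne' (qExpansion (M : ℝ) (SlashInvariantForm.quotientFunc f q)) := by
  induction q using Quotient.inductionOn with
  | h r =>
    obtain ⟨γ, hγ⟩ := r.2
    have h1 : SlashInvariantForm.quotientFunc f
        (⟦r⟧ : (𝒮ℒ) ⧸ (Subgroup.subgroupOf 𝒢 𝒮ℒ)) = ⇑(ModularForm.translate f (r.val⁻¹)) := rfl
    rw [h1]
    have hmem : (M : ℝ) ∈ (toConjAct (r.val⁻¹)⁻¹ • 𝒢).strictPeriods := by
      have := hper γ
      rw [hγ] at this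
      simpa using this
    have := qExpansion_natCast_mul_period (ModularForm.translate f (r.val⁻¹))
      (h := (M : ℝ)) (by exact_mod_cast hM) hmem hd
    rw [← this]
    push_cast
    rfl

/-- a multiple of a uniform period is a uniform period. -/
theorem IsUniformPeriod.mul {M : ℕ} (hper : IsUniformPeriod 𝒢 M) (d : ℕ) :
    IsUniformPeriod 𝒢 (d * M) := by
  intro γ
  have := AddSubgroup.nsmul_mem _ (hper γ) d
  simpa [nsmul_eq_mul] using this

end Fermat.Agent.S16.NormQExpMul15
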