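/-
S16 (Program M), upper bound, chapter U3 (NORM), double family, REINDEXED (helper15).
Imports `NormQExp15`, `NormQExpMul15` (generic) and helper1's `CosetP1` (explicit cosets).

For `f₁ : ModularForm (Gamma0 p) k`, `f₂ : ModularForm (Gamma0 r) k` (`p`, `r` primes) the level-one
form `dnorm f₁ f₂ = ∏_{γ ∈ Γ₀(p)\SL₂ℤ} ∏_{δ ∈ Γ₀(r)\SL₂ℤ} (f₁|γ − f₂|δ)` has weight
`k * ((p + 1) * (r + 1))` and `V_{rp}` of its `q`-expansion is the four-block product

  `(A∞ − B∞) * ∏_{j<p} (A j − B∞) * ∏_{i<r} (A∞ − B i) * ∏_{j<p} ∏_{i<r} (A j − B i)`,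

`A∞ = V_{rp}(qExp₁ f₁)`, `A j = V_r (qExp_p (f₁ ∣[k] S T^j))`, `B∞ = V_{rp}(qExp₁ f₂)`,
`B i = V_p (qExp_r (f₂ ∣[k] S T^i))` — the literal shape of `Formal14.Target_N2a` (`r = 3`).
-/
import Mathlib
import Fermat.Agent.S16.NormQExp15
import Fermat.Agent.S16.NormQExpMul15
import Fermat.Agent.S16.CosetP1
import Fermat.Prelude.Thm_CongruenceSubgroup_one_mem_strictPeriods_Gamma0

set_option autoImplicit false
set_option linter.unusedSectionVars false

open UpperHalfPlane CongruenceSubgroup Matrix.SpecialLinearGroup ConjAct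
open scoped MatrixGroups ModularForm Manifold Pointwise

noncomputable section

namespace Fermat.Agent.S16.DNormBlocks15

open Fermat.Agent.S16.NormQExp15 Fermat.Agent.S16.NormQExpMul15 Fermat.Agent.S16.CosetP1
open ModularGroup (S T)

/-- pure reindexing: a product over `QQ p × QQ r` as four blocks. -/
theorem prod_QQ_prod (p r : ℕ) [Fact p.Prime] [Fact r.Prime] [Fintype (QQ p)] [Fintype (QQ r)]
    {M : Type*} [CommMonoid M] (Φ : QQ p → QQ r → M) :
    ∏ x : QQ p × QQ r, Φ x.1 x.2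
      = Φ (cosetMap p none) (cosetMap r none)
        * (∏ j ∈ Finset.range p, Φ (cosetMap p (some (j : ZMod p))) (cosetMap r none))
        * (∏ i ∈ Finset.range r, Φ (cosetMap p none) (cosetMap r (some (i : ZMod r))))
        * (∏ j ∈ Finset.range p, ∏ i ∈ Finset.range r,
            Φ (cosetMap p (some (j : ZMod p))) (cosetMap r (some (i : ZMod r)))) := by
  have hp0 : NeZero p := ⟨(Fact.out : p.Prime).ne_zero⟩
  have hr0 : NeZero r := ⟨(Fact.out : r.Prime).ne_zero⟩
  rw [Fintype.prod_prod_type, prod_QQ p (fun q₁ => ∏ q₂ : QQ r, Φ q₁ q₂)]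
  simp only [prod_QQ r]
  rw [Finset.prod_mul_distrib]
  ac_rfl

theorem card_QQ_prod (p r : ℕ) [Fact p.Prime] [Fact r.Prime] :
    Nat.card (QQ p × QQ r) = (p + 1) * (r + 1) := by
  rw [Nat.card_prod, card_QQ, card_QQ]

section blocks

variable (p r : ℕ) [hp : Fact p.Prime] [hr : Fact r.Prime] {k : ℤ}
  (f₁ : ModularForm (Gamma0 p) k) (f₂ : ModularForm (Gamma0 r) k)

/-- the period-`N` expansion of a form of level `Γ₀(p)` itself (`T ∈ Γ₀(p)`): `V_N` of its
`q`-expansion. -/
theorem qExpansion_natCast_self {N : ℕ} (hN : 0 < N) :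
    qExpansion ((N : ℕ) : ℝ) ⇑f₁ = PowerSeries.expand N hN.ne' (qExpansion 1 ⇑f₁) := by
  have := qExpansion_natCast_mul_period f₁ (h := 1) one_pos
    (CongruenceSubgroup.one_mem_strictPeriods_Gamma0 p) hN
  rwa [mul_one] at this

/-- **the double norm in four blocks** (literal shape of `Formal14.Target_N2a` for `r = 3`). -/
theorem expand_dnorm_blocks (hrp : r * p ≠ 0) :
    PowerSeries.expand (r * p) hrp (qExpansion 1 ⇑(dnorm f₁ f₂))
      = (PowerSeries.expand (r * p) hrp (qExpansion 1 ⇑f₁)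
          - PowerSeries.expand (r * p) hrp (qExpansion 1 ⇑f₂))
        * (∏ j ∈ Finset.range p,
            (PowerSeries.expand r hr.out.ne_zero (qExpansion (p : ℝ) ((f₁ : ℍ → ℂ) ∣[k] (S * T ^ j)))
              - PowerSeries.expand (r * p) hrp (qExpansion 1 ⇑f₂)))
        * (∏ i ∈ Finset.range r,
            (PowerSeries.expand (r * p) hrp (qExpansion 1 ⇑f₁)
              - PowerSeries.expand p hp.out.ne_zero
                  (qExpansion (r : ℝ) ((f₂ : ℍ → ℂ) ∣[k] (S * T ^ i)))))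
        * (∏ j ∈ Finset.range p, ∏ i ∈ Finset.range r,
            (PowerSeries.expand r hr.out.ne_zero (qExpansion (p : ℝ) ((f₁ : ℍ → ℂ) ∣[k] (S * T ^ j)))
              - PowerSeries.expand p hp.out.ne_zero
                  (qExpansion (r : ℝ) ((f₂ : ℍ → ℂ) ∣[k] (S * T ^ i))))) := by
  have hp0 : 0 < p := hp.out.pos
  have hr0 : 0 < r := hr.out.pos
  have hrp0 : 0 < r * p := Nat.pos_of_ne_zero hrp
  let _ : Fintype (QQ p) := Fintype.ofFinite _
  let _ : Fintype (QQ r) := Fintype.ofFinite _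
  have hper₁ : IsUniformPeriod (GG p) (r * p) := isUniformPeriod_Gamma0 (Dvd.intro_left r rfl)
  have hper₂ : IsUniformPeriod (GG r) (r * p) := isUniformPeriod_Gamma0 (Dvd.intro p rfl)
  have key := expand_qExpansion_dnorm f₁ f₂ hrp0 hper₁ hper₂
  rw [key, prod_QQ_prod p r (fun q₁ q₂ =>
    qExpansion ((r * p : ℕ) : ℝ) (SlashInvariantForm.quotientFunc f₁ q₁)
      - qExpansion ((r * p : ℕ) : ℝ) (SlashInvariantForm.quotientFunc f₂ q₂))]
  -- the four kinds of conjugate series
  have hAinf : qExpansion ((r * p : ℕ) : ℝ) (SlashInvariantForm.quotientFunc f₁ (cosetMap p none))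
      = PowerSeries.expand (r * p) hrp (qExpansion 1 ⇑f₁) := by
    rw [quotientFunc_cosetMap_none]
    exact qExpansion_natCast_self p f₁ hrp0
  have hBinf : qExpansion ((r * p : ℕ) : ℝ) (SlashInvariantForm.quotientFunc f₂ (cosetMap r none))
      = PowerSeries.expand (r * p) hrp (qExpansion 1 ⇑f₂) := by
    rw [quotientFunc_cosetMap_none]
    exact qExpansion_natCast_self r f₂ hrp0
  have hA : ∀ j ∈ Finset.range p,
      qExpansion ((r * p : ℕ) : ℝ)
        (SlashInvariantForm.quotientFunc f₁ (cosetMap p (some (j : ZMod p))))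
      = PowerSeries.expand r hr.out.ne_zero
          (qExpansion (p : ℝ) ((f₁ : ℍ → ℂ) ∣[k] (S * T ^ j))) := by
    intro j hj
    rw [qExpansion_mul_period_quotientFunc f₁ hp0 hr0 (isUniformPeriod_Gamma0 dvd_rfl),
      quotientFunc_cosetMap_natCast p f₁ (Finset.mem_range.mp hj)]
  have hB : ∀ i ∈ Finset.range r,
      qExpansion ((r * p : ℕ) : ℝ)
        (SlashInvariantForm.quotientFunc f₂ (cosetMap r (some (i : ZMod r))))
      = PowerSeries.expand p hp.out.ne_zero
          (qExpansion (r : ℝ) ((f₂ : ℍ → ℂ) ∣[k] (S * T ^ i))) := by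
    intro i hi
    rw [show r * p = p * r from Nat.mul_comm r p,
      qExpansion_mul_period_quotientFunc f₂ hr0 hp0 (isUniformPeriod_Gamma0 dvd_rfl),
      quotientFunc_cosetMap_natCast r f₂ (Finset.mem_range.mp hi)]
  rw [hAinf, hBinf]
  congr 1
  · congr 1
    · congr 1
      exact Finset.prod_congr rfl (fun j hj => by rw [hA j hj])
    · exact Finset.prod_congr rfl (fun i hi => by rw [hB i hi])
  · exact Finset.prod_congr rfl (fun j hj =>
      Finset.prod_congr rfl (fun i hi => by rw [hA j hj, hB i hi]))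

/-- the weight of the double norm, for (ST). -/
theorem weight_dnorm {K : ℕ} (hK : k * (((p : ℤ) + 1) * ((r : ℤ) + 1)) = K) :
    k * (Nat.card (QQ p × QQ r) : ℤ) = (K : ℤ) := by
  rw [card_QQ_prod, ← hK]
  push_cast
  ring

end blocks

end Fermat.Agent.S16.DNormBlocks15
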