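/-
S16, chapter U7 (glue), helper4: the export contracts of `Export14` (on main, `IntQ g a`,
`PowerSeries.mk a`) imply the export contracts of `Glue12` (`IsQExp p G Gs`).
-/
import Mathlib
import Fermat.Agent.S16.Glue12
import Fermat.Agent.S16.Export14

set_option autoImplicit false

noncomputable section

open PowerSeries UpperHalfPlane CongruenceSubgroup

namespace Fermat.Agent.S16.ExportAdapters4

open Fermat.Agent.S16.Formal14 Fermat.Agent.S16.Export14 Fermat.Agent.S16.Glue12

variable (p : ℕ) [hp : Fact p.Prime]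

omit hp in
/-- `IsQExp` gives `IntQ` for the coefficient function of the series. -/
theorem intQ_of_isQExp {G : ModularForm (Gamma0 p) 2} {Gs : ℤ⟦X⟧} (h : IsQExp p G Gs) :
    IntQ G (fun k => coeff k Gs) := by
  intro k
  have := congrArg (coeff k) h
  rw [PowerSeries.coeff_map] at this
  rw [← this]
  simp

theorem mk_coeff (Gs : ℤ⟦X⟧) : PowerSeries.mk (fun k => coeff k Gs) = Gs := by
  ext k
  rw [coeff_mk]

theorem exportU2_of (h : Export_Pkg) : ExportU2 p := by
  intro G Gs hq
  obtain ⟨P, hP⟩ := h p hp.out G _ (intQ_of_isQExp p hq)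
  exact ⟨P, by rw [hP, mk_coeff]⟩

theorem exportB7_of (h : Export_norm4) : ExportB7 p := by
  intro G Gs hq
  obtain ⟨ζ, n, hζ, hn, hprod⟩ := h p hp.out G _ (intQ_of_isQExp p hq)
  refine ⟨ζ, hζ, n, hn, ?_⟩
  simp only [mk_coeff, coeff_zero_eq_constantCoeff_apply] at hprod
  exact hprod

theorem exportB5_of (h : Export_norm6) : ExportB5 p := by
  intro G Gs hq
  obtain ⟨ζ, n, hζ, hn, hprod⟩ := h p hp.out G _ (intQ_of_isQExp p hq)
  refine ⟨ζ, hζ, n, hn, ?_⟩
  simp only [mk_coeff, coeff_zero_eq_constantCoeff_apply] at hprod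
  exact hprod

theorem exportN3_of (h : Export_norm6') : ExportN3 p := by
  intro G Gs hq
  obtain ⟨ζ, n, hζ, hn, hprod⟩ := h p hp.out G _ (intQ_of_isQExp p hq)
  refine ⟨ζ, hζ, n, hn, ?_⟩
  simp only [mk_coeff, coeff_zero_eq_constantCoeff_apply] at hprod
  exact hprod

theorem exportN2_of (h : Export_dnorm) : ExportN2 p := by
  intro hp3 G Gs hq
  obtain ⟨ζ, ω, n, hζ, hω, hn, hprod⟩ := h p hp.out hp3 G _ (intQ_of_isQExp p hq)
  refine ⟨ζ, ω, hζ, hω, n, hn, ?_⟩
  simp only [mk_coeff, coeff_zero_eq_constantCoeff_apply] at hprod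
  exact hprod

end Fermat.Agent.S16.ExportAdapters4
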