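/-
Program M (S16), brick U3 (helper1): **the generic single-family norm export for `Γ₀(p)`**.

For `h : ModularForm (Gamma0 p) k` and `K = k (p + 1)`:
`∃ n, SturmProp K n ∧ expand p n = qExpansion p h * ∏_{j < p} qExpansion p (h ∣[k] S T^j)`
(`n` = the `q`-expansion of the level-one norm of `h`; Sturm from `SturmProp3`), together with the
analyticity of the cusp functions (period `p`) of all `SL(2, ℤ)`-conjugates of `h`, and
`qExpansion p h = expand p (qExpansion 1 h)`.
-/
import Fermat.Agent.S16.CosetP1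
import Fermat.Agent.S16.NormQExp15
import Fermat.Agent.S16.SturmProp3
import Fermat.Prelude.Thm_CongruenceSubgroup_one_mem_strictPeriods_Gamma0
import Fermat.Prelude.Thm_UpperHalfPlane_qExpansion_coeff_nat_mul

set_option autoImplicit false

open scoped MatrixGroups ModularForm
open CongruenceSubgroup Matrix Matrix.SpecialLinearGroup ModularGroup UpperHalfPlane PowerSeries

noncomputable section

namespace Fermat.Agent.S16.NormExport1

open Fermat.Agent.S16.CosetP1 Fermat.Agent.S16.NormQExp15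

variable (p : ℕ) [hp : Fact p.Prime] {k : ℤ}

omit hp in
/-- every `SL(2, ℤ)`-conjugate of a form on `Γ₀(p)` is a `quotientFunc`. -/
theorem slash_eq_quotientFunc (h : ModularForm (Gamma0 p) k) (γ : SL(2, ℤ)) :
    (h : ℍ → ℂ) ∣[k] γ =
      SlashInvariantForm.quotientFunc (ℋ := 𝒮ℒ) h (QuotientGroup.mk (toSL γ⁻¹) : QQ p) := by
  show _ = SlashInvariantForm.quotientFunc h ⟦toSL γ⁻¹⟧
  rw [SlashInvariantForm.quotientFunc_mk]
  show _ = (h : ℍ → ℂ) ∣[k] (mapGL ℝ γ⁻¹)⁻¹
  rw [map_inv, inv_inv]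
  rfl

omit hp in
/-- **analyticity at the cusp (period `M`, `p ∣ M`) of every conjugate.** -/
theorem analyticAt_cuspFunction_slash (h : ModularForm (Gamma0 p) k) (γ : SL(2, ℤ)) {M : ℕ}
    (hM : 0 < M) (hpM : p ∣ M) :
    AnalyticAt ℂ (cuspFunction (M : ℝ) ((h : ℍ → ℂ) ∣[k] γ)) 0 := by
  rw [slash_eq_quotientFunc]
  exact analyticAt_cuspFunction_quotientFunc h hM (isUniformPeriod_Gamma0 hpM) _

omit hp in
/-- analyticity at the cusp (period `M`) of the form itself. -/
theorem analyticAt_cuspFunction_self (h : ModularForm (Gamma0 p) k) {M : ℕ}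
    (hM : 0 < M) (hpM : p ∣ M) :
    AnalyticAt ℂ (cuspFunction (M : ℝ) (h : ℍ → ℂ)) 0 := by
  have := analyticAt_cuspFunction_slash p h 1 hM hpM
  rwa [show ((h : ℍ → ℂ) ∣[k] (1 : SL(2, ℤ))) = (h : ℍ → ℂ) from SlashAction.slash_one k _] at this

/-- **period `M` versus period `1` for forms on `Γ₀(p)`**. -/
theorem qExpansion_natCast_eq_expand' (h : ModularForm (Gamma0 p) k) {M : ℕ} (hM : 0 < M) :
    qExpansion (M : ℝ) (h : ℍ → ℂ) = expand M hM.ne' (qExpansion 1 (h : ℍ → ℂ)) := by
  ext n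
  have := UpperHalfPlane.qExpansion_coeff_nat_mul (h := 1) one_pos (F := ⇑h)
    (SlashInvariantFormClass.periodic_comp_ofComplex h (one_mem_strictPeriods_Gamma0 p))
    (ModularFormClass.holo h) (ModularFormClass.bdd_at_infty h) hM n
  rw [mul_one] at this
  rw [this, PowerSeries.coeff_expand]

/-- **(NORM) for `Γ₀(p)` on explicit representatives.** -/
theorem expand_qExpansion_normP (h : ModularForm (Gamma0 p) k) (K : ℕ)
    (hK : k * ((p : ℤ) + 1) = K) :
    expand p hp.out.ne_zero (qExpansion 1 ⇑(normP p h K hK)) =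
      qExpansion (p : ℝ) (h : ℍ → ℂ) *
        ∏ j ∈ Finset.range p, qExpansion (p : ℝ) ((h : ℍ → ℂ) ∣[k] (S * T ^ j)) := by
  have : NeZero p := ⟨hp.out.ne_zero⟩
  let _ : Fintype (QQ p) := Fintype.ofFinite _
  rw [coe_normP_eq_norm]
  have h1 := expand_qExpansion_norm h (M := p) hp.out.pos (isUniformPeriod_Gamma0 dvd_rfl)
  rw [h1, prod_QQ, quotientFunc_cosetMap_none]
  congr 1
  refine Finset.prod_congr rfl fun j hj => ?_
  rw [quotientFunc_cosetMap_natCast p h (Finset.mem_range.1 hj)]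

/-- **the generic single-family export**: a series `n` with Sturm's property in weight
`K = k (p + 1)` whose `V_p` is the product of the period-`p` expansions of the `p + 1` conjugates. -/
theorem exists_norm_series (h : ModularForm (Gamma0 p) k) (K : ℕ) (hK : k * ((p : ℤ) + 1) = K) :
    ∃ n : ℂ⟦X⟧, Formal14.SturmProp K n ∧
      expand p hp.out.ne_zero n =
        qExpansion (p : ℝ) (h : ℍ → ℂ) *
          ∏ j ∈ Finset.range p, qExpansion (p : ℝ) ((h : ℍ → ℂ) ∣[k] (S * T ^ j)) :=
  have : NeZero p := ⟨hp.out.ne_zero⟩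
  ⟨qExpansion 1 ⇑(normP p h K hK), SturmProp3.sturmProp_qExpansion_nat K _,
    expand_qExpansion_normP p h K hK⟩

/-- the same with the first factor written as `V_p` of the period-`1` expansion of `h`. -/
theorem exists_norm_series' (h : ModularForm (Gamma0 p) k) (K : ℕ) (hK : k * ((p : ℤ) + 1) = K) :
    ∃ n : ℂ⟦X⟧, Formal14.SturmProp K n ∧
      expand p hp.out.ne_zero n =
        expand p hp.out.ne_zero (qExpansion 1 (h : ℍ → ℂ)) *
          ∏ j ∈ Finset.range p, qExpansion (p : ℝ) ((h : ℍ → ℂ) ∣[k] (S * T ^ j)) := by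
  obtain ⟨n, h1, h2⟩ := exists_norm_series p h K hK
  exact ⟨n, h1, by rw [h2, qExpansion_natCast_eq_expand' p h hp.out.pos]⟩

end Fermat.Agent.S16.NormExport1
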