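/-
S16 (Program M), upper bound, chapter U3e (double-family export), ASSEMBLY (helper15).

`export_dnorm_at` : for `g ∈ M_2(Γ0(p))` with integer `q`-expansion `a`, GIVEN the explicit conjugate
series of `g` (period `p`) and of `G_3` (period `3`), the level-one form
`n = 8^{-4(p+1)} ∏_γ ∏_δ (g|γ − a_0 G_3|δ)` satisfies `SturmProp (8 (p + 1))` and `V_{3p}` of its
`q`-expansion is the literal four-block product of `Export14.Export_dnorm`.
-/
import Mathlib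
import Fermat.Agent.S16.DNormBlocks15
import Fermat.Agent.S16.SturmProp3
import Fermat.Agent.S16.EisFormal16
import Fermat.Agent.S16.Export14
import Fermat.Agent.S16.TraceAdapter23
import Fermat.Agent.S16.NormExport1

set_option autoImplicit false
set_option linter.unusedSectionVars false

open UpperHalfPlane CongruenceSubgroup Matrix.SpecialLinearGroup PowerSeries
open scoped MatrixGroups ModularForm Manifold Pointwise

noncomputable section

namespace Fermat.Agent.S16.ExportDNorm15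

open Fermat.Agent.S16.NormQExp15 Fermat.Agent.S16.DNormBlocks15 Fermat.Agent.S16.CosetP1
open Fermat.Agent.S16.Formal14 Fermat.Agent.S16.Export14 Fermat.Agent.S16.EisLevel16
open ModularGroup (S T)

/-- the scaled second form `c • G_3`. -/
def cG3 (c : ℂ) : ModularForm (Gamma0 3) 2 := c • G3

theorem coe_cG3 (c : ℂ) : ⇑(cG3 c) = c • ⇑G3 := rfl

theorem qExpansion_cG3 (c : ℂ) : qExpansion 1 ⇑(cG3 c) = C c * G3s ℂ := by
  rw [coe_cG3, ModularForm.qExpansion_smul one_pos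
    (CongruenceSubgroup.one_mem_strictPeriods_Gamma0 3) c G3, EisFormal16.qExpansion_G3,
    PowerSeries.smul_eq_C_mul]

/-- the four scalars: pulling `C 8⁻¹` out of the four blocks. -/
theorem blocks_scalar (p : ℕ) (u : ℂ⟦X⟧) (X0 : ℂ⟦X⟧) (X1 : ℕ → ℂ⟦X⟧) (X2 : ℕ → ℂ⟦X⟧)
    (X3 : ℕ → ℕ → ℂ⟦X⟧) :
    (u * X0) * (∏ j ∈ Finset.range p, u * X1 j) * (∏ i ∈ Finset.range 3, u * X2 i)
      * (∏ j ∈ Finset.range p, ∏ i ∈ Finset.range 3, u * X3 j i)
    = u ^ (4 * (p + 1)) * (X0 * (∏ j ∈ Finset.range p, X1 j) * (∏ i ∈ Finset.range 3, X2 i)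
      * (∏ j ∈ Finset.range p, ∏ i ∈ Finset.range 3, X3 j i)) := by
  simp only [Finset.prod_mul_distrib, Finset.prod_const, Finset.card_range]
  ring

/-- **U3e assembly**: the double-family export at `p`, from the explicit conjugate series. -/
theorem export_dnorm_at (p : ℕ) (hp : p.Prime) (g : ModularForm (Gamma0 p) 2) (a : ℕ → ℤ)
    (ha : IntQ g a) (ζ ω : ℂ)
    (hA : ∀ j < p, qExpansion (p : ℝ) ((g : ℍ → ℂ) ∣[(2 : ℤ)] (S * T ^ j))
      = C (-((p : ℂ))⁻¹) * rescale (ζ ^ j) (toC (Up p (PowerSeries.mk a))))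
    (hB : ∀ i < 3, qExpansion (3 : ℝ) ((G3 : ℍ → ℂ) ∣[(2 : ℤ)] (S * T ^ i))
      = C (-((3 : ℂ))⁻¹) * rescale (ω ^ i) (G3s ℂ)) :
    ∃ n : ℂ⟦X⟧, SturmProp (8 * (p + 1)) n ∧
      (let h3 : (3 : ℕ) ≠ 0 := by norm_num
       let h3p : 3 * p ≠ 0 := Nat.mul_ne_zero h3 hp.ne_zero
       let Ainf : ℂ⟦X⟧ := expand (3 * p) h3p (toC (PowerSeries.mk a))
       let A : ℕ → ℂ⟦X⟧ := fun j =>
         C (-((p : ℂ))⁻¹) * expand 3 h3 (rescale (ζ ^ j) (toC (Up p (PowerSeries.mk a))))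
       let Binf : ℂ⟦X⟧ := C ((a 0 : ℤ) : ℂ) * expand (3 * p) h3p (G3s ℂ)
       let B : ℕ → ℂ⟦X⟧ := fun i =>
         C (((a 0 : ℤ) : ℂ) * (-((3 : ℂ))⁻¹)) * expand p hp.ne_zero (rescale (ω ^ i) (G3s ℂ))
       expand (3 * p) h3p n =
         (C ((8 : ℂ))⁻¹ * (Ainf - Binf)) *
         (∏ j ∈ Finset.range p, C ((8 : ℂ))⁻¹ * (A j - Binf)) *
         (∏ i ∈ Finset.range 3, C ((8 : ℂ))⁻¹ * (Ainf - B i)) *
         (∏ j ∈ Finset.range p, ∏ i ∈ Finset.range 3, C ((8 : ℂ))⁻¹ * (A j - B i))) := by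
  have : Fact p.Prime := ⟨hp⟩
  have : Fact (Nat.Prime 3) := ⟨Nat.prime_three⟩
  have hK : (2 : ℤ) * (((p : ℤ) + 1) * (((3 : ℕ) : ℤ) + 1)) = ((8 * (p + 1) : ℕ) : ℤ) := by
    push_cast; ring
  have hw := weight_dnorm p 3 (k := 2) hK
  set c₀ : ℂ := ((a 0 : ℤ) : ℂ) with hc₀
  let c : ℂ := ((8 : ℂ)⁻¹) ^ (4 * (p + 1))
  refine ⟨qExpansion 1 ⇑(c • dnorm g (cG3 c₀)),
    SturmProp3.sturmProp_qExpansion hw (c • dnorm g (cG3 c₀)), ?_⟩
  intro h3 h3p Ainf A Binf B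
  rw [blocks_scalar, FunLike.coe_smul,
    ModularForm.qExpansion_smul one_pos one_mem_strictPeriods_SL c (dnorm g (cG3 c₀)),
    PowerSeries.smul_eq_C_mul, map_mul, expand_C, map_pow,
    expand_dnorm_blocks p 3 g (cG3 c₀) h3p]
  have e1 : expand (3 * p) h3p (qExpansion 1 ⇑g) = Ainf := by
    rw [← TraceAdapter23.toC_mk_of_intQ g a ha]
  have e2 : expand (3 * p) h3p (qExpansion 1 ⇑(cG3 c₀)) = Binf := by
    rw [qExpansion_cG3, map_mul, expand_C]
  have e3 : ∀ j ∈ Finset.range p,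
      expand 3 (Fact.out : Nat.Prime 3).ne_zero (qExpansion (p : ℝ) ((g : ℍ → ℂ) ∣[(2 : ℤ)] (S * T ^ j)))
        = A j := by
    intro j hj
    rw [hA j (Finset.mem_range.mp hj), map_mul, expand_C]
  have e4 : ∀ i ∈ Finset.range 3,
      expand p (Fact.out : p.Prime).ne_zero
        (qExpansion ((3 : ℕ) : ℝ) ((cG3 c₀ : ℍ → ℂ) ∣[(2 : ℤ)] (S * T ^ i))) = B i := by
    intro i hi
    have han : AnalyticAt ℂ (cuspFunction ((3 : ℕ) : ℝ) ((G3 : ℍ → ℂ) ∣[(2 : ℤ)] (S * T ^ i))) 0 :=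
      NormExport1.analyticAt_cuspFunction_slash 3 G3 (S * T ^ i) (by norm_num) dvd_rfl
    rw [coe_cG3, ModularForm.SL_smul_slash, qExpansion_smul han, PowerSeries.smul_eq_C_mul,
      Nat.cast_ofNat, hB i (Finset.mem_range.mp hi), map_mul, map_mul, expand_C, expand_C,
      ← mul_assoc, ← map_mul]
  rw [e1, e2]
  congr 1
  congr 1
  · congr 1
    · congr 1
      exact Finset.prod_congr rfl (fun j hj => by rw [e3 j hj])
    · exact Finset.prod_congr rfl (fun i hi => by rw [e4 i hi])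
  · exact Finset.prod_congr rfl (fun j hj =>
      Finset.prod_congr rfl (fun i hi => by rw [e3 j hj, e4 i hi]))

/-- the hypothesis on `g`: explicit conjugate series at level `p` (chapter U3c). -/
def ConjSeriesP : Prop :=
  ∀ (p : ℕ), p.Prime → ∀ (g : ModularForm (Gamma0 p) 2) (a : ℕ → ℤ), IntQ g a →
    ∃ ζ : ℂ, IsPrimitiveRoot ζ p ∧ ∀ j < p,
      qExpansion (p : ℝ) ((g : ℍ → ℂ) ∣[(2 : ℤ)] (S * T ^ j))
        = C (-((p : ℂ))⁻¹) * rescale (ζ ^ j) (toC (Up p (PowerSeries.mk a)))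

/-- the hypothesis on `G_3`: explicit conjugate series at level `3`. -/
def ConjSeriesG3 : Prop :=
  ∃ ω : ℂ, IsPrimitiveRoot ω 3 ∧ ∀ i < 3,
    qExpansion (3 : ℝ) ((G3 : ℍ → ℂ) ∣[(2 : ℤ)] (S * T ^ i))
      = C (-((3 : ℂ))⁻¹) * rescale (ω ^ i) (G3s ℂ)

/-- **U3e**: `Export14.Export_dnorm` from the two conjugate-series statements. -/
theorem export_dnorm_of_conj (hP : ConjSeriesP) (h3 : ConjSeriesG3) : Export_dnorm := by
  intro p hp _ g a ha
  obtain ⟨ζ, hζ, hA⟩ := hP p hp g a ha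
  obtain ⟨ω, hω, hB⟩ := h3
  obtain ⟨n, hn, hprod⟩ := export_dnorm_at p hp g a ha ζ ω hA hB
  exact ⟨ζ, ω, n, hζ, hω, hn, hprod⟩

end Fermat.Agent.S16.ExportDNorm15
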