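/-
Program M (S16), chapter U3 — helper23.  The single-family norm export for
`h = (g·E₄ − c·E₆)/3` (weight 6):  `export_norm6' : Export14.Export_norm6'`.
-/
import Fermat.Agent.S16.NormExport1
import Fermat.Agent.S16.ConjSeries5
import Fermat.Agent.S16.Fricke17
import Fermat.Agent.S16.LevelOneQ19
import Fermat.Agent.S16.PkgOfForm23
import Fermat.Agent.S16.Export14

set_option autoImplicit false

open UpperHalfPlane ModularForm CongruenceSubgroup PowerSeries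
open scoped MatrixGroups ModularForm
open ModularGroup (S T)

noncomputable section

namespace Fermat.Agent.S16.ExportNorm6p23

open Fermat.Agent.S16.Formal14 Fermat.Agent.S16.Export14

/-- A level-one form viewed as a form of level `Γ₀(p)`. -/
def raise (p : ℕ) {k : ℤ} (L : ModularForm 𝒮ℒ k) : ModularForm (Gamma0 p) k where
  toFun := L
  slash_action_eq' γ hγ := by
    obtain ⟨g, -, rfl⟩ := hγ
    exact L.slash_action_eq' _ ⟨g, rfl⟩
  holo' := L.holo'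
  bdd_at_cusps' hc := L.bdd_at_cusps' (hc.mono (by
    rintro _ ⟨g, -, rfl⟩
    exact ⟨g, rfl⟩))

@[simp] lemma coe_raise (p : ℕ) {k : ℤ} (L : ModularForm 𝒮ℒ k) : ⇑(raise p L) = ⇑L := rfl

/-- level-one forms are invariant under the slash action of `SL(2,ℤ)`. -/
lemma slash_levelOne {k : ℤ} (L : ModularForm 𝒮ℒ k) (γ : SL(2, ℤ)) : (⇑L) ∣[k] γ = ⇑L :=
  L.slash_action_eq' _ ⟨γ, rfl⟩

variable (p : ℕ)

/-- the weight-6 form `h = (g·E₄ − c·E₆)/3` of level `p`. -/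
def h6 (g : ModularForm (Gamma0 p) 2) (c : ℂ) : ModularForm (Gamma0 p) 6 :=
  (3 : ℂ)⁻¹ • (ModularForm.mcast (by norm_num : (2 : ℤ) + 4 = 6) (g.mul (raise p E₄))
    - c • raise p E₆)

lemma coe_h6 (g : ModularForm (Gamma0 p) 2) (c : ℂ) :
    ⇑(h6 p g c) = (3 : ℂ)⁻¹ • (⇑g * ⇑E₄ - c • ⇑E₆) := by
  unfold h6
  rw [FunLike.coe_smul, FunLike.coe_sub, FunLike.coe_smul, ModularForm.coe_mcast,
    ModularForm.coe_mul, coe_raise, coe_raise]

/-- the conjugates of `h`. -/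
lemma h6_slash (g : ModularForm (Gamma0 p) 2) (c : ℂ) (γ : SL(2, ℤ)) :
    (⇑(h6 p g c)) ∣[(6 : ℤ)] γ = (3 : ℂ)⁻¹ • ((⇑g ∣[(2 : ℤ)] γ) * ⇑E₄ - c • ⇑E₆) := by
  have key : (⇑g * ⇑E₄) ∣[(6 : ℤ)] γ = (⇑g ∣[(2 : ℤ)] γ) * ⇑E₄ := by
    have := mul_slash_SL2 2 4 γ ⇑g ⇑E₄
    rw [slash_levelOne E₄ γ] at this
    exact this
  rw [coe_h6, SL_smul_slash, sub_eq_add_neg, SlashAction.add_slash, SlashAction.neg_slash,
    SL_smul_slash, slash_levelOne E₆ γ, key, ← sub_eq_add_neg]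

open Fermat.Agent.S16.ConjSeries5 Fermat.Agent.S16.TraceI4_23 in
/-- period-`p` expansion of the conjugate `g ∣ S T^j` of a weight-2 form. -/
lemma qExpansion_conj [hp : Fact p.Prime] (g : ModularForm (Gamma0 p) 2) (j : ℕ) :
    qExpansion (p : ℝ) (⇑g ∣[(2 : ℤ)] (S * T ^ j)) =
      C (-(p : ℂ)⁻¹) * rescale (zetaN p ^ j) (qExpansion 1 (heckeU 2 p ⇑g)) := by
  have : NeZero p := ⟨hp.out.ne_zero⟩
  have hfun : (⇑g ∣[(2 : ℤ)] (S * T ^ j))
      = fun τ : ℍ => -(p : ℂ)⁻¹ * (Uform g) (heckeMatrix p j • τ) := by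
    funext z
    exact Fricke17.slash_S_mul_T_pow_apply g j z
  rw [hfun]
  exact qExpansion_const_mul_comp_heckeMatrix_Gamma0 (Uform g) hp.out.pos j _

/-- period-`p` data of a level-one form. -/
lemma analyticAt_levelOne [hp : Fact p.Prime] {k : ℤ} (L : ModularForm 𝒮ℒ k) :
    AnalyticAt ℂ (cuspFunction (p : ℝ) ⇑L) 0 :=
  ConjSeries5.analyticAt_cuspFunction_natCast_Gamma0 p (raise p L) hp.out.pos

lemma qExpansion_levelOne [hp : Fact p.Prime] {k : ℤ} (L : ModularForm 𝒮ℒ k) :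
    qExpansion (p : ℝ) ⇑L = expand p hp.out.ne_zero (qExpansion 1 ⇑L) :=
  ConjSeries5.qExpansion_natCast_Gamma0 p (raise p L) hp.out.pos

/-- **the period-`p` expansion of the conjugates of `h = (g·E₄ − c·E₆)/3`.** -/
theorem qExpansion_h6_conj [hp : Fact p.Prime] (g : ModularForm (Gamma0 p) 2) (c : ℂ) (j : ℕ) :
    qExpansion (p : ℝ) ((⇑(h6 p g c)) ∣[(6 : ℤ)] (S * T ^ j)) =
      C ((3 : ℂ))⁻¹ * (C (-(p : ℂ)⁻¹) *
          rescale (ConjSeries5.zetaN p ^ j) (qExpansion 1 (heckeU 2 p ⇑g)) *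
            expand p hp.out.ne_zero (E4s ℂ) - C c * expand p hp.out.ne_zero (E6s ℂ)) := by
  have hA : AnalyticAt ℂ (cuspFunction (p : ℝ) (⇑g ∣[(2 : ℤ)] (S * T ^ j))) 0 :=
    NormExport1.analyticAt_cuspFunction_slash p g (S * T ^ j) hp.out.pos (dvd_refl p)
  have h4 := analyticAt_levelOne p E₄
  have h6 := analyticAt_levelOne p E₆
  have hA4 : AnalyticAt ℂ (cuspFunction (p : ℝ) ((⇑g ∣[(2 : ℤ)] (S * T ^ j)) * ⇑E₄)) 0 := by
    rw [cuspFunction_mul hA.continuousAt h4.continuousAt]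
    exact hA.mul h4
  have hc6 : AnalyticAt ℂ (cuspFunction (p : ℝ) (c • ⇑E₆)) 0 := by
    rw [cuspFunction_smul h6.continuousAt]
    exact h6.const_smul (c := c)
  have hsub : AnalyticAt ℂ
      (cuspFunction (p : ℝ) ((⇑g ∣[(2 : ℤ)] (S * T ^ j)) * ⇑E₄ - c • ⇑E₆)) 0 := by
    rw [cuspFunction_sub hA4.continuousAt hc6.continuousAt]
    exact hA4.sub hc6
  rw [h6_slash, qExpansion_smul hsub, qExpansion_sub hA4 hc6, qExpansion_mul hA h4,
    qExpansion_smul h6, qExpansion_conj, qExpansion_levelOne p E₄, qExpansion_levelOne p E₆,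
    LevelOneQ19.qExpansion_E4, LevelOneQ19.qExpansion_E6, PowerSeries.smul_eq_C_mul,
    PowerSeries.smul_eq_C_mul]

/-- period-`1` expansion of `h = (g·E₄ − c·E₆)/3`. -/
theorem qExpansion_h6 (g : ModularForm (Gamma0 p) 2) (c : ℂ) :
    qExpansion 1 ⇑(h6 p g c) =
      C ((3 : ℂ))⁻¹ * (qExpansion 1 ⇑g * E4s ℂ - C c * E6s ℂ) := by
  have hA : AnalyticAt ℂ (cuspFunction 1 ⇑g) 0 :=
    ModularFormClass.analyticAt_cuspFunction_zero g one_pos
      (CongruenceSubgroup.one_mem_strictPeriods_Gamma0 p)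
  have h4 : AnalyticAt ℂ (cuspFunction 1 ⇑E₄) 0 :=
    ModularFormClass.analyticAt_cuspFunction_zero E₄ one_pos one_mem_strictPeriods_SL
  have h6 : AnalyticAt ℂ (cuspFunction 1 ⇑E₆) 0 :=
    ModularFormClass.analyticAt_cuspFunction_zero E₆ one_pos one_mem_strictPeriods_SL
  have hA4 : AnalyticAt ℂ (cuspFunction 1 (⇑g * ⇑E₄)) 0 := by
    rw [cuspFunction_mul hA.continuousAt h4.continuousAt]
    exact hA.mul h4
  have hc6 : AnalyticAt ℂ (cuspFunction 1 (c • ⇑E₆)) 0 := by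
    rw [cuspFunction_smul h6.continuousAt]
    exact h6.const_smul (c := c)
  have hsub : AnalyticAt ℂ (cuspFunction 1 (⇑g * ⇑E₄ - c • ⇑E₆)) 0 := by
    rw [cuspFunction_sub hA4.continuousAt hc6.continuousAt]
    exact hA4.sub hc6
  rw [coe_h6, qExpansion_smul hsub, qExpansion_sub hA4 hc6, qExpansion_mul hA h4,
    qExpansion_smul h6, LevelOneQ19.qExpansion_E4, LevelOneQ19.qExpansion_E6,
    PowerSeries.smul_eq_C_mul, PowerSeries.smul_eq_C_mul]

/-- **U3 export, `h = (g·E₄ − c·E₆)/3`.** -/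
theorem export_norm6' : Export_norm6' := by
  intro p hp g a ha
  have : Fact p.Prime := ⟨hp⟩
  have : NeZero p := ⟨hp.ne_zero⟩
  set c : ℂ := ((a 0 : ℤ) : ℂ) with hc
  have hg : toC (PowerSeries.mk a) = qExpansion 1 ⇑g := by
    ext k
    rw [PkgOfForm23.coeff_toC, PowerSeries.coeff_mk, ha k]
  obtain ⟨n, hS, hn⟩ := NormExport1.exists_norm_series' p (h6 p g c) (6 * (p + 1))
    (by push_cast; ring)
  refine ⟨ConjSeries5.zetaN p, n, ConjSeries5.isPrimitiveRoot_zetaN hp.ne_zero, hS, ?_⟩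
  rw [hn]
  congr 1
  · rw [qExpansion_h6, ← hg, map_mul, PowerSeries.expand_C]
    congr 2
    have e4 : PowerSeries.map (Int.castRingHom ℂ) (E4s ℤ) = E4s ℂ := LevelOneQ19.toC_E4s
    have e6 : PowerSeries.map (Int.castRingHom ℂ) (E6s ℤ) = E6s ℂ := LevelOneQ19.toC_E6s
    symm
    show PowerSeries.map (Int.castRingHom ℂ) (PowerSeries.mk a * E4s ℤ - C (a 0) * E6s ℤ) = _
    rw [map_sub, map_mul, map_mul, PowerSeries.map_C, e4, e6]
    rfl
  · refine Finset.prod_congr rfl fun j _ => ?_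
    rw [qExpansion_h6_conj]
    have hU : qExpansion 1 (heckeU 2 p ⇑g) = toC (Up p (PowerSeries.mk a)) :=
      (PkgOfForm23.toC_Up g (PowerSeries.mk a) hg).symm
    rw [hU]

end Fermat.Agent.S16.ExportNorm6p23
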