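/-
S16, chapter U7 (glue), helper4: `Glue12.ExportU5 p` from helper16's `EisFormal16.exists_form_of_cusp`.
-/
import Mathlib
import Fermat.Agent.S16.Glue12
import Fermat.Agent.S16.EisFormal16

set_option autoImplicit false

namespace Fermat.Agent.S16.ExportU5Final4

open Fermat.Agent.S16.Top12 Fermat.Agent.S16.Glue12

/-- **Export of U5** in the literal shape of `Glue12`. -/
theorem exportU5 (p : ℕ) [Fact p.Prime] : ExportU5 p := by
  intro f af haf
  obtain ⟨G, Gs, h1, -, h3, h4⟩ :=
    Fermat.Agent.S16.EisFormal16.exists_form_of_cusp p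
      ((f : LL p) : CuspForm (CongruenceSubgroup.Gamma0 p) 2) af haf
  exact ⟨G, Gs, h1, h3, h4⟩

end Fermat.Agent.S16.ExportU5Final4
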