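/-
Program M (S16), brick U1c (helper17): the level-`N` Eisenstein series under the conjugates `S T^j`.
`U_N (Eis N) = Eis N` as FUNCTIONS (from helper16's coefficient statement and the q-expansion principle),
hence, by `Fricke17`:  `(Eis N ∣[2] S T^j)(z) = -(1/N) (Eis N)((z + j)/N)`, `Eis N ∣[2] W = - Eis N`;
the level-3 instance for `G3 = 12 Eis 3` in the literal shape `TraceI4_23.ConjFormula 3 ⇑G3`.
-/
import Mathlib
import Fermat.Prelude.Def_ModularForm_HeckeOperatorForms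
import Fermat.Prelude.Thm_ModularFormClass_qCoeff_heckeU
import Fermat.Prelude.Thm_CongruenceSubgroup_one_mem_strictPeriods_Gamma0
import Fermat.Agent.S16.Fricke17
import Fermat.Agent.S16.EisLevel16
import Fermat.Agent.S16.TraceI4_23

set_option autoImplicit false
set_option linter.unusedSectionVars false

namespace Fermat.Agent.S16.FrickeEis17

open UpperHalfPlane ModularForm CongruenceSubgroup Matrix.SpecialLinearGroup
open scoped MatrixGroups ModularForm
open ModularGroup (S T)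
open Fermat.Agent.S16.Fricke17 Fermat.Agent.S16.EisLevel16

noncomputable section

/-- the q-expansion principle at level `Γ₀(N)`, period `1`. -/
theorem eq_of_qExpansion_coeff_eq {N : ℕ} [NeZero N] {k : ℤ} (F G : ModularForm (Gamma0 N) k)
    (h : ∀ n, (qExpansion 1 F).coeff n = (qExpansion 1 G).coeff n) : F = G := by
  ext z
  have hF := ModularForm.hasSum_qExpansion (f := F) one_pos
    (CongruenceSubgroup.one_mem_strictPeriods_Gamma0 N) z
  have hG := ModularForm.hasSum_qExpansion (f := G) one_pos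
    (CongruenceSubgroup.one_mem_strictPeriods_Gamma0 N) z
  simp only [h] at hF
  exact hF.unique hG

variable {N : ℕ} [NeZero N]

/-- coefficients of `U_N F` in Mathlib's `qExpansion` notation. -/
theorem qExpansion_heckeU_coeff {k : ℤ} (F : ModularForm (Gamma0 N) k) (n : ℕ) :
    (qExpansion 1 (heckeU k N ⇑F)).coeff n = (qExpansion 1 F).coeff (n * N) :=
  ModularFormClass.qCoeff_heckeU F (CongruenceSubgroup.one_mem_strictPeriods_Gamma0 N)
    (NeZero.ne N) n

variable [Fact N.Prime]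

/-- `U_N (Eis N) = Eis N` as modular forms. -/
theorem heckeULin_Eis : heckeULin 2 (dvd_refl N) (Eis N) = Eis N := by
  refine eq_of_qExpansion_coeff_eq _ _ fun n => ?_
  rw [coe_heckeULin_apply, qExpansion_heckeU_coeff, qExpansion_Eis_coeff, qExpansion_Eis_coeff,
    mul_comm, eisCoeff_mul_prime (Fact.out : N.Prime)]

/-- `U_N (Eis N) = Eis N` as functions. -/
theorem heckeU_Eis : heckeU 2 N ⇑(Eis N) = ⇑(Eis N) := by
  rw [← coe_heckeULin_apply 2 (dvd_refl N) (Eis N), heckeULin_Eis]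

/-- `Eis N ∣ W = - Eis N`. -/
theorem Eis_slash_fricke : ⇑(Eis N) ∣[(2 : ℤ)] fricke N = -⇑(Eis N) := by
  rw [slash_fricke, heckeU_Eis]

/-- the conjugates of `Eis N`: `(Eis N ∣ S T^j)(z) = -(1/N) Eis N ((z + j)/N)`. -/
theorem Eis_slash_S_mul_T_pow_apply (j : ℕ) (z : ℍ) :
    (⇑(Eis N) ∣[(2 : ℤ)] (S * T ^ j)) z = -(N : ℂ)⁻¹ * Eis N (heckeMatrix N j • z) := by
  rw [slash_S_mul_T_pow_apply, heckeU_Eis]

end

noncomputable section


/-- `U_3 G3 = G3` as functions. -/
theorem heckeU_G3 : heckeU 2 3 ⇑G3 = ⇑G3 := by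
  have h : (⇑G3 : ℍ → ℂ) = (12 : ℂ) • ⇑(Eis 3) := rfl
  have h2 : heckeU 2 3 ⇑G3 = ⇑(heckeULin 2 (dvd_refl 3) G3) := rfl
  rw [h2]
  have : heckeULin 2 (dvd_refl 3) G3 = G3 := by
    show heckeULin 2 (dvd_refl 3) ((12 : ℂ) • Eis 3) = (12 : ℂ) • Eis 3
    rw [map_smul, heckeULin_Eis]
  rw [this]

/-- (C) at level 3 for `G3`, in helper23's literal shape. -/
theorem conjFormula_G3 : TraceI4_23.ConjFormula 3 ⇑G3 :=
  fun j z => slash_S_mul_T_pow_apply (N := 3) G3 j z

/-- the conjugates of `G3`: `(G3 ∣ S T^j)(z) = -(1/3) G3 ((z + j)/3)`. -/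
theorem G3_slash_S_mul_T_pow_apply (j : ℕ) (z : ℍ) :
    (⇑G3 ∣[(2 : ℤ)] (S * T ^ j)) z = -(3 : ℂ)⁻¹ * G3 (heckeMatrix 3 j • z) := by
  have := slash_S_mul_T_pow_apply (N := 3) G3 j z
  rw [heckeU_G3] at this
  simpa using this

/-- `G3 ∣ W_3 = - G3`. -/
theorem G3_slash_fricke : ⇑G3 ∣[(2 : ℤ)] fricke 3 = -⇑G3 := by
  rw [slash_fricke, heckeU_G3]

end

end Fermat.Agent.S16.FrickeEis17
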