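/-
Program M (S16), brick U3e, level-3 side (helper21).
`G₃ = 12 · Eis 3 ∈ M₂(Γ₀(3))` is fixed by `U₃`, hence its conjugates under the coset representatives
`S T^i` of `Γ₀(3)` are `G₃ ∣ S T^i (z) = -(1/3) G₃((z + i)/3)`.
-/
import Mathlib
import Fermat.Agent.S16.EisFormal16
import Fermat.Agent.S16.Fricke17
import Fermat.Agent.S16.TraceI4_23

set_option autoImplicit false

namespace Fermat.Agent.S16.G3Conj21

open UpperHalfPlane ModularForm CongruenceSubgroup
open scoped MatrixGroups ModularForm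
open ModularGroup (S T)
open Fermat.Agent.S16.EisLevel16 Fermat.Agent.S16.TraceI4_23

noncomputable section

/-- Two modular forms of level `Γ₀(N)` with the same `q`-expansion are equal. -/
theorem eq_of_qExpansion_eq {N : ℕ} {k : ℤ} (f g : ModularForm (Gamma0 N) k)
    (h : qExpansion 1 ⇑f = qExpansion 1 ⇑g) : f = g := by
  have hΓ := CongruenceSubgroup.one_mem_strictPeriods_Gamma0 N
  have : Fact (IsCusp OnePoint.infty (Subgroup.map (Matrix.SpecialLinearGroup.mapGL ℝ) (Gamma0 N))) :=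
    ⟨Subgroup.isCusp_of_mem_strictPeriods one_pos hΓ⟩
  ext z
  have hf := ModularForm.hasSum_qExpansion (f := f) one_pos hΓ z
  have hg := ModularForm.hasSum_qExpansion (f := g) one_pos hΓ z
  rw [h] at hf
  exact hf.unique hg

theorem g3Coeff_mul_three (n : ℕ) : g3Coeff (n * 3) = g3Coeff n := by
  rcases Nat.eq_zero_or_pos n with rfl | hn
  · rfl
  · rw [g3Coeff, g3Coeff, if_neg hn.ne', if_neg (by omega), mul_comm n 3,
      sigmaN_mul_prime Nat.prime_three]

/-- `U₃ G₃ = G₃` as modular forms. -/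
theorem Uform_G3 : Uform G3 = G3 := by
  apply eq_of_qExpansion_eq
  ext n
  rw [coeff_Uform, qExpansion_G3_coeff, qExpansion_G3_coeff, g3Coeff_mul_three]

/-- `U₃ G₃ = G₃` as functions on the upper half plane. -/
theorem heckeU_G3 : heckeU 2 3 ⇑G3 = ⇑G3 := by
  have h := congrArg (fun f : ModularForm (Gamma0 3) 2 => (⇑f : ℍ → ℂ)) Uform_G3
  simpa using h

/-- (C) at level three for `G₃`: `G₃ ∣ S T^i (z) = -(1/3) G₃((z + i)/3)`. -/
theorem slash_S_mul_T_pow_G3 (i : ℕ) (z : ℍ) :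
    (⇑G3 ∣[(2 : ℤ)] (S * T ^ i)) z = -((3 : ℕ) : ℂ)⁻¹ * G3 (heckeMatrix 3 i • z) := by
  have h := Fricke17.slash_S_mul_T_pow_apply (N := 3) G3 i z
  rw [heckeU_G3] at h
  exact h

theorem conjFormula_G3 : ConjFormula 3 ⇑G3 := fun i z => by
  rw [heckeU_G3]
  exact slash_S_mul_T_pow_G3 i z

end

end Fermat.Agent.S16.G3Conj21
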