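/-
Program M (S16), brick U3e, level-3 side, part 2 (helper21).
The period-`3` and period-`3p` `q`-expansions of the conjugates `G₃ ∣ S T^i` of
`G₃ = 12 · Eis 3 ∈ M₂(Γ₀(3))`:  `-(1/3) · G3s(ω^i q_3)`, `ω = exp(2πi/3)`.
-/
import Mathlib
import Fermat.Agent.S16.G3Conj21
import Fermat.Agent.S16.ConjSeries5

set_option autoImplicit false

namespace Fermat.Agent.S16.G3ConjSeries21

open UpperHalfPlane ModularForm CongruenceSubgroup PowerSeries
open scoped MatrixGroups ModularForm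
open ModularGroup (S T)
open Fermat.Agent.S16.EisLevel16 Fermat.Agent.S16.Formal14 Fermat.Agent.S16.ConjSeries5

noncomputable section

/-- the conjugate `G₃ ∣ S T^i` as a function: `z ↦ -(1/3) G₃((z + i)/3)`. -/
theorem G3_slash_eq (i : ℕ) :
    (⇑G3 ∣[(2 : ℤ)] (S * T ^ i)) = fun τ : ℍ => -(3 : ℂ)⁻¹ * G3 (heckeMatrix 3 i • τ) := by
  funext z
  have h := G3Conj21.slash_S_mul_T_pow_G3 i z
  rw [h]
  norm_num

/-- the primitive cube root of unity `ω = exp(2πi/3)`. -/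
theorem isPrimitiveRoot_omega : IsPrimitiveRoot (zetaN 3) 3 :=
  isPrimitiveRoot_zetaN (by norm_num)

/-- period-`3` expansion of `G₃ ∣ S T^i` (the cast `((3:ℕ):ℝ)` form of `DNormBlocks15`). -/
theorem qExpansion_G3_conj_natCast (i : ℕ) :
    qExpansion ((3 : ℕ) : ℝ) (⇑G3 ∣[(2 : ℤ)] (S * T ^ i))
      = C (-(3 : ℂ)⁻¹) * rescale (zetaN 3 ^ i) (G3s ℂ) := by
  rw [G3_slash_eq, qExpansion_const_mul_comp_heckeMatrix_Gamma0 (N := 3) G3 (by norm_num) i,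
    EisFormal16.qExpansion_G3]

/-- period-`3` expansion of `G₃ ∣ S T^i` (numeral `(3:ℝ)` form). -/
theorem qExpansion_G3_conj (i : ℕ) :
    qExpansion (3 : ℝ) (⇑G3 ∣[(2 : ℤ)] (S * T ^ i))
      = C (-(3 : ℂ)⁻¹) * rescale (zetaN 3 ^ i) (G3s ℂ) := by
  have h := qExpansion_G3_conj_natCast i
  rwa [Nat.cast_ofNat] at h

/-- analyticity of the cusp function (period `3`) of `G₃ ∣ S T^i`. -/
theorem analyticAt_cuspFunction_G3_conj (i : ℕ) :
    AnalyticAt ℂ (cuspFunction ((3 : ℕ) : ℝ) (⇑G3 ∣[(2 : ℤ)] (S * T ^ i))) 0 := by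
  rw [G3_slash_eq]
  exact analyticAt_cuspFunction_const_mul_comp_heckeMatrix_Gamma0 (N := 3) G3 (by norm_num) i _

/-- period-`M·3` expansion of `G₃ ∣ S T^i`:  `-(1/3) · G3s(ω^i q_3)` with `q_3 = q_{3M}^M`. -/
theorem qExpansion_G3_conj_mul (i : ℕ) {M : ℕ} (hM : 0 < M) :
    qExpansion ((M * 3 : ℕ) : ℝ) (⇑G3 ∣[(2 : ℤ)] (S * T ^ i))
      = C (-(3 : ℂ)⁻¹) * expand M hM.ne' (rescale (zetaN 3 ^ i) (G3s ℂ)) := by
  rw [G3_slash_eq,
    qExpansion_mul_const_mul_comp_heckeMatrix_Gamma0 (N := 3) G3 (by norm_num) i _ hM,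
    EisFormal16.qExpansion_G3]

/-- analyticity of the cusp function (period `M·3`) of `G₃ ∣ S T^i`. -/
theorem analyticAt_cuspFunction_G3_conj_mul (i : ℕ) {M : ℕ} (hM : 0 < M) :
    AnalyticAt ℂ (cuspFunction ((M * 3 : ℕ) : ℝ) (⇑G3 ∣[(2 : ℤ)] (S * T ^ i))) 0 := by
  rw [G3_slash_eq]
  exact analyticAt_cuspFunction_mul_const_mul_comp_heckeMatrix_Gamma0 (N := 3) G3 (by norm_num) i _ hM

/-- period-`M` expansion of `G₃` itself: `G3s(q_M^M)`. -/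
theorem qExpansion_G3_natCast {M : ℕ} (hM : 0 < M) :
    qExpansion (M : ℝ) ⇑G3 = expand M hM.ne' (G3s ℂ) := by
  rw [qExpansion_natCast_Gamma0 3 G3 hM, EisFormal16.qExpansion_G3]

/-- the statement in the shape of helper15's `export_dnorm_at` (hypothesis `hB`). -/
theorem hB_G3 : ∀ i < 3, qExpansion (3 : ℝ) (⇑G3 ∣[(2 : ℤ)] (S * T ^ i))
    = C (-(3 : ℂ)⁻¹) * rescale (zetaN 3 ^ i) (G3s ℂ) := fun i _ => qExpansion_G3_conj i

end

end Fermat.Agent.S16.G3ConjSeries21
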