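/-
S16, upper bound, mini-bricks for the formal series of `Formal14` (helper26), Mathlib + Formal14 only.

* `sigma3'` : `sigma3'_zero`, `sigma3'_one`, `sigma3'_two`, `sigma3'_three`, `sigma3'_mul_three`,
  `sigma3'_three_pow_mul`, `sigma3'_eq_sigma_of_not_dvd`, `sigma3'_pos`.
* coefficients: `coeff_phi3`, `coeff_G3s`, `constantCoeff_phi3`, `constantCoeff_G3s`, `coeff_one_phi3`,
  `coeff_one_G3s`; `phi3_eq_X_mul` (`phi3 = X * (series with constant coefficient 1)`).
* `Up 3` : `Up_phi3`, `Up_G3s : Up 3 (G3s A) = G3s A`; general `Up` calculus: `Up_one`, `Up_add`,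
  `Up_sub`, `Up_C_mul`, `Up_C`, `Up_expand`, `Up_map`, `Up_Up`.
* base change: `map_sig`, `map_phi3`, `map_E4s`, `map_E6s`, `map_G3s` for any ring homomorphism, and
  the `toC` versions `toC_sig`, `toC_phi3`, `toC_E4s`, `toC_E6s`, `toC_G3s`, plus the algebra of `toC`
  (`toC_mul`, `toC_pow`, `toC_sub`, `toC_add`, `toC_C`, `toC_one`, `toC_Up`, `coeff_toC`, `toC_mk`).
* twists: `coeff_rescale_G3s`, `coeff_rescale_phi3`, `coeff_expand_rescale_G3s`.
-/
import Mathlib
import Fermat.Agent.S16.Formal14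

set_option autoImplicit false

open PowerSeries

namespace Fermat.Agent.S16.G3Formal26

open Fermat.Agent.S16.Formal14

noncomputable section

/-! ### `σ^{(3)}` -/

@[simp] theorem sigma3'_zero : sigma3' 0 = 0 := by
  simp [sigma3']

@[simp] theorem sigma3'_one : sigma3' 1 = 1 := by
  decide

theorem sigma3'_two : sigma3' 2 = 3 := by
  decide

theorem sigma3'_three : sigma3' 3 = 1 := by
  decide

/-- the divisors of `3 k` prime to `3` are the divisors of `k` prime to `3`. -/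
theorem filter_divisors_mul_three (k : ℕ) :
    (3 * k).divisors.filter (fun d => ¬ 3 ∣ d) = k.divisors.filter (fun d => ¬ 3 ∣ d) := by
  rcases Nat.eq_zero_or_pos k with rfl | hk
  · simp
  ext d
  simp only [Finset.mem_filter, Nat.mem_divisors]
  constructor
  · rintro ⟨⟨hd, _⟩, h3⟩
    refine ⟨⟨?_, hk.ne'⟩, h3⟩
    have hcop : Nat.Coprime d 3 :=
      ((Nat.Prime.coprime_iff_not_dvd Nat.prime_three).mpr h3).symm
    exact hcop.dvd_of_dvd_mul_left hd
  · rintro ⟨⟨hd, _⟩, h3⟩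
    exact ⟨⟨Dvd.dvd.mul_left hd 3, by positivity⟩, h3⟩

/-- `σ^{(3)}(3k) = σ^{(3)}(k)`. -/
theorem sigma3'_mul_three (k : ℕ) : sigma3' (3 * k) = sigma3' k := by
  unfold sigma3'
  rw [filter_divisors_mul_three]

theorem sigma3'_three_pow_mul (a k : ℕ) : sigma3' (3 ^ a * k) = sigma3' k := by
  induction a with
  | zero => simp
  | succ a ih => rw [pow_succ, mul_comm (3 ^ a) 3, mul_assoc, sigma3'_mul_three, ih]

/-- for `3 ∤ m`, `σ^{(3)}(m) = σ_1(m)`. -/
theorem sigma3'_eq_sigma_of_not_dvd {m : ℕ} (h : ¬ 3 ∣ m) :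
    sigma3' m = ArithmeticFunction.sigma 1 m := by
  unfold sigma3'
  rw [ArithmeticFunction.sigma_one_apply, Finset.filter_true_of_mem]
  intro d hd h3
  exact h (Dvd.dvd.trans h3 (Nat.dvd_of_mem_divisors hd))

theorem sigma3'_pos {m : ℕ} (hm : 0 < m) : 0 < sigma3' m := by
  unfold sigma3'
  have h1 : 1 ∈ m.divisors.filter (fun d => ¬ 3 ∣ d) := by
    simp [hm.ne']
  calc 0 < 1 := one_pos
    _ ≤ ∑ d ∈ m.divisors.filter (fun d => ¬ 3 ∣ d), d :=
        Finset.single_le_sum (f := fun d => d) (fun _ _ => Nat.zero_le _) h1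

/-! ### coefficients -/

section coeff

variable (A : Type*)

@[simp] theorem coeff_phi3 [Semiring A] (m : ℕ) :
    coeff m (phi3 (A := A)) = ((sigma3' m : ℕ) : A) := by
  simp [phi3]

theorem coeff_G3s [CommRing A] (m : ℕ) :
    coeff m (G3s A) = if m = 0 then 1 else 12 * ((sigma3' m : ℕ) : A) := by
  rw [G3s, map_add, coeff_C_mul, coeff_phi3, coeff_one]
  split_ifs with h
  · subst h; simp
  · simp

@[simp] theorem constantCoeff_phi3 [Semiring A] : constantCoeff (phi3 (A := A)) = 0 := by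
  rw [← coeff_zero_eq_constantCoeff_apply, coeff_phi3]
  simp

@[simp] theorem constantCoeff_G3s [CommRing A] : constantCoeff (G3s A) = 1 := by
  rw [← coeff_zero_eq_constantCoeff_apply, coeff_G3s]
  simp

@[simp] theorem coeff_one_phi3 [Semiring A] : coeff 1 (phi3 (A := A)) = 1 := by
  simp

theorem coeff_one_G3s [CommRing A] : coeff 1 (G3s A) = 12 := by
  rw [coeff_G3s]
  simp

theorem coeff_G3s_of_pos [CommRing A] {m : ℕ} (hm : 0 < m) :
    coeff m (G3s A) = 12 * ((sigma3' m : ℕ) : A) := by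
  rw [coeff_G3s, if_neg hm.ne']

/-- `φ_3 = q · (1 + 3 q + …)`. -/
theorem phi3_eq_X_mul [Semiring A] :
    phi3 (A := A) = X * PowerSeries.mk fun m => ((sigma3' (m + 1) : ℕ) : A) := by
  ext m
  rcases m with _ | m
  · simp
  · rw [coeff_phi3, coeff_succ_X_mul, coeff_mk]

theorem G3s_eq [CommRing A] : G3s A = 1 + C (12 : A) * phi3 := rfl

end coeff

/-! ### the operator `Up` -/

section Up

variable {A : Type*}

@[simp] theorem Up_zero [Semiring A] (p : ℕ) : Up p (0 : A⟦X⟧) = 0 := by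
  ext k; simp

@[simp] theorem Up_one [Semiring A] (p : ℕ) (hp : p ≠ 0) : Up p (1 : A⟦X⟧) = 1 := by
  ext k
  rw [coeff_Up, coeff_one, coeff_one]
  simp [hp]

theorem Up_add [Semiring A] (p : ℕ) (f g : A⟦X⟧) : Up p (f + g) = Up p f + Up p g := by
  ext k; simp

theorem Up_sub [Ring A] (p : ℕ) (f g : A⟦X⟧) : Up p (f - g) = Up p f - Up p g := by
  ext k; simp

theorem Up_neg [Ring A] (p : ℕ) (f : A⟦X⟧) : Up p (-f) = -Up p f := by
  ext k; simp

theorem Up_C_mul [Semiring A] (p : ℕ) (a : A) (f : A⟦X⟧) : Up p (C a * f) = C a * Up p f := by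
  ext k; simp

theorem Up_C [Semiring A] (p : ℕ) (hp : p ≠ 0) (a : A) : Up p (C a : A⟦X⟧) = C a := by
  ext k
  rw [coeff_Up, coeff_C, coeff_C]
  simp [hp]

theorem Up_sum [Semiring A] (p : ℕ) {ι : Type*} (s : Finset ι) (f : ι → A⟦X⟧) :
    Up p (∑ i ∈ s, f i) = ∑ i ∈ s, Up p (f i) := by
  ext k; simp

/-- `U_p V_p = id`. -/
theorem Up_expand [CommRing A] (p : ℕ) (hp : p ≠ 0) (f : A⟦X⟧) :
    Up p (expand p hp f) = f := by
  ext k
  rw [coeff_Up, coeff_expand_mul]

/-- `U_p (V_p f · g) = f · U_p g`. -/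
theorem Up_expand_mul [CommRing A] (p : ℕ) (hp : p ≠ 0) (f g : A⟦X⟧) :
    Up p (expand p hp f * g) = f * Up p g := by
  ext k
  rw [coeff_Up, coeff_mul, coeff_mul]
  -- only the pairs `(p i, p j)` contribute
  have hinj : Function.Injective fun x : ℕ × ℕ => (p * x.1, p * x.2) := by
    intro x y h
    simp only [Prod.mk.injEq] at h
    exact Prod.ext (Nat.eq_of_mul_eq_mul_left (Nat.pos_of_ne_zero hp) h.1)
      (Nat.eq_of_mul_eq_mul_left (Nat.pos_of_ne_zero hp) h.2)
  rw [← Finset.sum_subset (s₁ := (Finset.HasAntidiagonal.antidiagonal k).map ⟨_, hinj⟩)]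
  · rw [Finset.sum_map]
    refine Finset.sum_congr rfl fun x _ => ?_
    simp only [Function.Embedding.coeFn_mk, coeff_expand_mul, coeff_Up]
  · intro x hx
    simp only [Finset.mem_map, Finset.HasAntidiagonal.mem_antidiagonal, Function.Embedding.coeFn_mk] at hx ⊢
    obtain ⟨y, hy, rfl⟩ := hx
    rw [← hy, mul_add]
  · intro x hx hx'
    simp only [Finset.mem_map, Finset.HasAntidiagonal.mem_antidiagonal, Function.Embedding.coeFn_mk,
      not_exists, not_and] at hx hx'
    by_cases hdvd : p ∣ x.1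
    · exfalso
      obtain ⟨i, hi⟩ := hdvd
      have h2 : p ∣ x.2 := by
        have : p ∣ x.1 + x.2 := hx ▸ Dvd.intro _ rfl
        exact (Nat.dvd_add_right ⟨i, hi⟩).mp this
      obtain ⟨j, hj⟩ := h2
      refine hx' (i, j) ?_ (by rw [Prod.ext_iff]; exact ⟨hi.symm, hj.symm⟩)
      have : p * (i + j) = p * k := by rw [mul_add, ← hi, ← hj, hx]
      exact Nat.eq_of_mul_eq_mul_left (Nat.pos_of_ne_zero hp) this
    · rw [coeff_expand, if_neg hdvd, zero_mul]

theorem Up_map {B : Type*} [Semiring A] [Semiring B] (φ : A →+* B) (p : ℕ) (f : A⟦X⟧) :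
    PowerSeries.map φ (Up p f) = Up p (PowerSeries.map φ f) := by
  ext k; simp

theorem Up_Up [Semiring A] (p q : ℕ) (f : A⟦X⟧) : Up p (Up q f) = Up (q * p) f := by
  ext k; simp [mul_assoc]

theorem Up_mk [Semiring A] (p : ℕ) (a : ℕ → A) :
    Up p (PowerSeries.mk a) = PowerSeries.mk fun k => a (p * k) := by
  ext k; simp

/-- `U_3 φ_3 = φ_3`. -/
theorem Up_phi3 [Semiring A] : Up 3 (phi3 (A := A)) = phi3 := by
  ext k
  rw [coeff_Up, coeff_phi3, coeff_phi3, sigma3'_mul_three]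

/-- `U_3 G_3 = G_3`. -/
theorem Up_G3s (A : Type*) [CommRing A] : Up 3 (G3s A) = G3s A := by
  rw [G3s, Up_add, Up_one 3 (by norm_num), Up_C_mul, Up_phi3]

end Up

/-! ### base change -/

section map

variable {A B : Type*}

theorem map_sig [Semiring A] [Semiring B] (φ : A →+* B) (r : ℕ) :
    PowerSeries.map φ (sig (A := A) r) = sig r := by
  ext m; simp [sig]

theorem map_phi3 [Semiring A] [Semiring B] (φ : A →+* B) :
    PowerSeries.map φ (phi3 (A := A)) = phi3 := by
  ext m; simp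

theorem map_E4s [CommRing A] [CommRing B] (φ : A →+* B) :
    PowerSeries.map φ (E4s A) = E4s B := by
  rw [E4s, E4s, map_add, map_one, map_mul, map_sig, map_C, map_ofNat]

theorem map_E6s [CommRing A] [CommRing B] (φ : A →+* B) :
    PowerSeries.map φ (E6s A) = E6s B := by
  rw [E6s, E6s, map_sub, map_one, map_mul, map_sig, map_C, map_ofNat]

theorem map_G3s [CommRing A] [CommRing B] (φ : A →+* B) :
    PowerSeries.map φ (G3s A) = G3s B := by
  rw [G3s, G3s, map_add, map_one, map_mul, map_phi3, map_C, map_ofNat]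

theorem toC_sig (r : ℕ) : toC (sig r) = sig r := map_sig _ r

theorem toC_phi3 : toC phi3 = phi3 := map_phi3 _

theorem toC_E4s : toC (E4s ℤ) = E4s ℂ := map_E4s _

theorem toC_E6s : toC (E6s ℤ) = E6s ℂ := map_E6s _

theorem toC_G3s : toC (G3s ℤ) = G3s ℂ := map_G3s _

/-! the algebra of `toC` (it is `PowerSeries.map (Int.castRingHom ℂ)`, a ring homomorphism; these are
stated for `rw`). -/

theorem coeff_toC (f : ℤ⟦X⟧) (k : ℕ) : coeff k (toC f) = ((coeff k f : ℤ) : ℂ) := by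
  simp [toC]

theorem toC_mk (a : ℕ → ℤ) : toC (PowerSeries.mk a) = PowerSeries.mk fun k => ((a k : ℤ) : ℂ) := by
  ext k; simp [toC]

theorem toC_zero : toC 0 = 0 := map_zero _

theorem toC_one : toC 1 = 1 := map_one _

theorem toC_add (f g : ℤ⟦X⟧) : toC (f + g) = toC f + toC g := map_add _ f g

theorem toC_sub (f g : ℤ⟦X⟧) : toC (f - g) = toC f - toC g := map_sub _ f g

theorem toC_neg (f : ℤ⟦X⟧) : toC (-f) = -toC f := map_neg _ f

theorem toC_mul (f g : ℤ⟦X⟧) : toC (f * g) = toC f * toC g := map_mul _ f g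

theorem toC_pow (f : ℤ⟦X⟧) (n : ℕ) : toC (f ^ n) = toC f ^ n := map_pow _ f n

theorem toC_C (a : ℤ) : toC (C a) = C ((a : ℤ) : ℂ) := by
  simp [toC]

theorem toC_Up (p : ℕ) (f : ℤ⟦X⟧) : toC (Up p f) = Up p (toC f) := Up_map _ p f

theorem toC_expand (p : ℕ) (hp : p ≠ 0) (f : ℤ⟦X⟧) :
    toC (expand p hp f) = expand p hp (toC f) := map_expand p hp _ f

theorem toC_injective : Function.Injective toC := by
  intro f g h
  ext k
  have := congrArg (coeff k) h
  simpa [toC] using this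

/-- all coefficients of `toC f` are integers. -/
theorem coeff_toC_mem_range (f : ℤ⟦X⟧) (k : ℕ) : ∃ a : ℤ, coeff k (toC f) = (a : ℂ) :=
  ⟨coeff k f, coeff_toC f k⟩

end map

/-! ### twists -/

section twist

theorem coeff_rescale_phi3 (a : ℂ) (m : ℕ) :
    coeff m (rescale a (phi3 (A := ℂ))) = a ^ m * ((sigma3' m : ℕ) : ℂ) := by
  rw [coeff_rescale, coeff_phi3]

theorem coeff_rescale_G3s (a : ℂ) (m : ℕ) :
    coeff m (rescale a (G3s ℂ)) = if m = 0 then 1 else 12 * (a ^ m * ((sigma3' m : ℕ) : ℂ)) := by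
  rw [coeff_rescale, coeff_G3s]
  split_ifs with h
  · subst h; simp
  · ring

/-- `rescale a G_3 = 1 + 12 · rescale a φ_3`. -/
theorem rescale_G3s (a : ℂ) : rescale a (G3s ℂ) = 1 + C (12 : ℂ) * rescale a phi3 := by
  have hC : rescale a (C (12 : ℂ)) = C (12 : ℂ) := by
    ext k
    rw [coeff_rescale, coeff_C]
    split_ifs with h
    · subst h; simp
    · simp
  rw [G3s, map_add, map_one, map_mul, hC]

theorem coeff_expand_rescale_G3s (p : ℕ) (hp : p ≠ 0) (a : ℂ) (m : ℕ) :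
    coeff (p * m) (expand p hp (rescale a (G3s ℂ))) =
      if m = 0 then 1 else 12 * (a ^ m * ((sigma3' m : ℕ) : ℂ)) := by
  rw [coeff_expand_mul, coeff_rescale_G3s]

end twist

end

end Fermat.Agent.S16.G3Formal26
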