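/-
S16, upper bound, chapter U6, `Target_N2a` (helper14): the EXACT simplified forms of the four
factor types of the double family, in the integer normalisation `G = c + 16 H`, `G' = c + 16 H'`,
`c = 2u`, `G_3 = 1 + 12 φ_3`, `p + 1 = 4 w`, `p - 3 = 4 w'`:

  T1 (∞,∞): (Ainf - Binf)/8 = 2 e_{3p}H - 3u e_{3p}φ_3
  T2 (j,∞): (A j - Binf)/8  = -(u w/p) - (2/p) e_3(H'(ζ^j q)) - 3u e_{3p}φ_3
  T3 (∞,i): (Ainf - B i)/8  = u/3 + 2 e_{3p}H + u e_p(φ_3(ω^i q))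
  T4 (j,i): (A j - B i)/8   = u w'/(3p) - (2/p) e_3(H'(ζ^j q)) + u e_p(φ_3(ω^i q))

(`e_n = PowerSeries.expand n`).  Pure algebra in `ℂ⟦X⟧`.
-/
import Mathlib
import Fermat.Agent.S16.Formal14

set_option autoImplicit false

open PowerSeries

namespace Fermat.Agent.S16.N2aAlg14

open Fermat.Agent.S16.Formal14

theorem rescale_C (a b : ℂ) : rescale a (C b : ℂ⟦X⟧) = C b := by
  ext n
  rw [coeff_rescale, coeff_C]
  split_ifs with h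
  · subst h; simp
  · simp

theorem toC_C (c : ℤ) : toC (C c) = C (c : ℂ) := by
  ext n
  simp [toC]

theorem toC_decomp (c : ℤ) (H : ℤ⟦X⟧) :
    toC (C c + C 16 * H) = C (c : ℂ) + C (16 : ℂ) * toC H := by
  have h16 : toC (C (16 : ℤ)) = C (16 : ℂ) := by
    rw [toC_C]; norm_num
  rw [toC, map_add, map_mul]
  change toC (C c) + toC (C 16) * toC H = _
  rw [toC_C, h16]

theorem G3s_eq : G3s ℂ = 1 + C (12 : ℂ) * (phi3 : ℂ⟦X⟧) := rfl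

/-- `e_n (c + 16 H)`. -/
theorem expand_decomp (n : ℕ) (hn : n ≠ 0) (c : ℤ) (H : ℤ⟦X⟧) :
    expand n hn (toC (C c + C 16 * H)) = C (c : ℂ) + C (16 : ℂ) * expand n hn (toC H) := by
  rw [toC_decomp, map_add, map_mul, expand_C, expand_C]

/-- `e_3 ((c + 16 H')(ζ q))`. -/
theorem expand_rescale_decomp (n : ℕ) (hn : n ≠ 0) (z : ℂ) (c : ℤ) (H : ℤ⟦X⟧) :
    expand n hn (rescale z (toC (C c + C 16 * H))) =
      C (c : ℂ) + C (16 : ℂ) * expand n hn (rescale z (toC H)) := by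
  rw [toC_decomp, map_add, map_mul, rescale_C, rescale_C, map_add, map_mul, expand_C, expand_C]

/-- `e_n G_3`. -/
theorem expand_G3s (n : ℕ) (hn : n ≠ 0) :
    expand n hn (G3s ℂ) = 1 + C (12 : ℂ) * expand n hn (phi3 : ℂ⟦X⟧) := by
  rw [G3s_eq, map_add, map_mul, map_one, expand_C]

/-- `e_n (G_3(ω q))`. -/
theorem expand_rescale_G3s (n : ℕ) (hn : n ≠ 0) (z : ℂ) :
    expand n hn (rescale z (G3s ℂ)) =
      1 + C (12 : ℂ) * expand n hn (rescale z (phi3 : ℂ⟦X⟧)) := by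
  rw [G3s_eq, map_add, map_mul, map_one, rescale_C, map_add, map_mul, map_one, expand_C]

variable {p : ℕ} (hp : p ≠ 0)

/-- T1, type `(∞,∞)`. -/
theorem T1 (n : ℕ) (hn : n ≠ 0) (c u : ℤ) (hc : c = 2 * u) (H : ℤ⟦X⟧) :
    C ((8 : ℂ))⁻¹ * (expand n hn (toC (C c + C 16 * H)) - C (c : ℂ) * expand n hn (G3s ℂ)) =
      C (2 : ℂ) * expand n hn (toC H) - C (3 * (u : ℂ)) * expand n hn (phi3 : ℂ⟦X⟧) := by
  rw [expand_decomp, expand_G3s]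
  subst hc
  set X1 := expand n hn (toC H)
  set Y1 := expand n hn (phi3 : ℂ⟦X⟧)
  have h1 : (C (8 : ℂ)⁻¹ * C (16 : ℂ) : ℂ⟦X⟧) = C 2 := by rw [← map_mul]; norm_num
  have h2 : (C (8 : ℂ)⁻¹ * C (((2 * u : ℤ)) : ℂ) * C (12 : ℂ) : ℂ⟦X⟧) = C (3 * (u : ℂ)) := by
    rw [← map_mul, ← map_mul]; congr 1; push_cast; ring
  linear_combination X1 * h1 - Y1 * h2

include hp in
/-- T2, type `(j,∞)`. -/
theorem T2 (n : ℕ) (hn : n ≠ 0) (z : ℂ) (c u w : ℤ) (hc : c = 2 * u)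
    (hw : (p : ℤ) + 1 = 4 * w) (H' : ℤ⟦X⟧) :
    C ((8 : ℂ))⁻¹ * (C (-((p : ℂ))⁻¹) * expand 3 (by norm_num) (rescale z (toC (C c + C 16 * H')))
        - C (c : ℂ) * expand n hn (G3s ℂ)) =
      -C ((u : ℂ) * (w : ℂ) / (p : ℂ)) - C (2 / (p : ℂ)) * expand 3 (by norm_num) (rescale z (toC H'))
        - C (3 * (u : ℂ)) * expand n hn (phi3 : ℂ⟦X⟧) := by
  rw [expand_rescale_decomp, expand_G3s]
  subst hc
  have hpC : (p : ℂ) ≠ 0 := by exact_mod_cast hp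
  have hwC : (p : ℂ) + 1 = 4 * (w : ℂ) := by exact_mod_cast hw
  set X1 := expand 3 (by norm_num) (rescale z (toC H'))
  set Y1 := expand n hn (phi3 : ℂ⟦X⟧)
  have h0 : (C (8 : ℂ)⁻¹ * (C (-((p : ℂ))⁻¹) * C (((2 * u : ℤ)) : ℂ) - C (((2 * u : ℤ)) : ℂ)) :
      ℂ⟦X⟧) = -C ((u : ℂ) * (w : ℂ) / (p : ℂ)) := by
    rw [← map_mul, ← map_sub, ← map_mul, ← map_neg]; congr 1; push_cast
    field_simp
    linear_combination (-2 * (u : ℂ)) * hwC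
  have h1 : (C (8 : ℂ)⁻¹ * C (-((p : ℂ))⁻¹) * C (16 : ℂ) : ℂ⟦X⟧) = -C (2 / (p : ℂ)) := by
    rw [← map_mul, ← map_mul, ← map_neg]; congr 1; field_simp; ring
  have h2 : (C (8 : ℂ)⁻¹ * C (((2 * u : ℤ)) : ℂ) * C (12 : ℂ) : ℂ⟦X⟧) = C (3 * (u : ℂ)) := by
    rw [← map_mul, ← map_mul]; congr 1; push_cast; ring
  linear_combination h0 + X1 * h1 - Y1 * h2

/-- T3, type `(∞,i)`. -/
theorem T3 (n m : ℕ) (hn : n ≠ 0) (hm : m ≠ 0) (z : ℂ) (c u : ℤ) (hc : c = 2 * u) (H : ℤ⟦X⟧) :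
    C ((8 : ℂ))⁻¹ * (expand n hn (toC (C c + C 16 * H))
        - C ((c : ℂ) * (-((3 : ℂ))⁻¹)) * expand m hm (rescale z (G3s ℂ))) =
      C ((u : ℂ) / 3) + C (2 : ℂ) * expand n hn (toC H)
        + C (u : ℂ) * expand m hm (rescale z (phi3 : ℂ⟦X⟧)) := by
  rw [expand_decomp, expand_rescale_G3s]
  subst hc
  set X1 := expand n hn (toC H)
  set Y1 := expand m hm (rescale z (phi3 : ℂ⟦X⟧))
  have h0 : (C (8 : ℂ)⁻¹ * (C (((2 * u : ℤ)) : ℂ) - C ((((2 * u : ℤ)) : ℂ) * (-((3 : ℂ))⁻¹))) :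
      ℂ⟦X⟧) = C ((u : ℂ) / 3) := by
    rw [← map_sub, ← map_mul]; congr 1; push_cast; ring
  have h1 : (C (8 : ℂ)⁻¹ * C (16 : ℂ) : ℂ⟦X⟧) = C 2 := by rw [← map_mul]; norm_num
  have h2 : (C (8 : ℂ)⁻¹ * C ((((2 * u : ℤ)) : ℂ) * (-((3 : ℂ))⁻¹)) * C (12 : ℂ) : ℂ⟦X⟧) =
      -C (u : ℂ) := by
    rw [← map_mul, ← map_mul, ← map_neg]; congr 1; push_cast; ring
  linear_combination h0 + X1 * h1 - Y1 * h2

include hp in
/-- T4, type `(j,i)`. -/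
theorem T4 (m : ℕ) (hm : m ≠ 0) (z y : ℂ) (c u w' : ℤ) (hc : c = 2 * u)
    (hw : (p : ℤ) - 3 = 4 * w') (H' : ℤ⟦X⟧) :
    C ((8 : ℂ))⁻¹ * (C (-((p : ℂ))⁻¹) * expand 3 (by norm_num) (rescale z (toC (C c + C 16 * H')))
        - C ((c : ℂ) * (-((3 : ℂ))⁻¹)) * expand m hm (rescale y (G3s ℂ))) =
      C ((u : ℂ) * (w' : ℂ) / (3 * (p : ℂ)))
        - C (2 / (p : ℂ)) * expand 3 (by norm_num) (rescale z (toC H'))
        + C (u : ℂ) * expand m hm (rescale y (phi3 : ℂ⟦X⟧)) := by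
  rw [expand_rescale_decomp, expand_rescale_G3s]
  subst hc
  have hpC : (p : ℂ) ≠ 0 := by exact_mod_cast hp
  have hwC : (p : ℂ) - 3 = 4 * (w' : ℂ) := by exact_mod_cast hw
  set X1 := expand 3 (by norm_num) (rescale z (toC H'))
  set Y1 := expand m hm (rescale y (phi3 : ℂ⟦X⟧))
  have h0 : (C (8 : ℂ)⁻¹ * (C (-((p : ℂ))⁻¹) * C (((2 * u : ℤ)) : ℂ)
      - C ((((2 * u : ℤ)) : ℂ) * (-((3 : ℂ))⁻¹))) : ℂ⟦X⟧) =
      C ((u : ℂ) * (w' : ℂ) / (3 * (p : ℂ))) := by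
    rw [← map_mul, ← map_sub, ← map_mul]; congr 1; push_cast
    field_simp
    linear_combination (2 * (u : ℂ)) * hwC
  have h1 : (C (8 : ℂ)⁻¹ * C (-((p : ℂ))⁻¹) * C (16 : ℂ) : ℂ⟦X⟧) = -C (2 / (p : ℂ)) := by
    rw [← map_mul, ← map_mul, ← map_neg]; congr 1; field_simp; ring
  have h2 : (C (8 : ℂ)⁻¹ * C ((((2 * u : ℤ)) : ℂ) * (-((3 : ℂ))⁻¹)) * C (12 : ℂ) : ℂ⟦X⟧) =
      -C (u : ℂ) := by
    rw [← map_mul, ← map_mul, ← map_neg]; congr 1; push_cast; ring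
  linear_combination h0 + X1 * h1 - Y1 * h2

end Fermat.Agent.S16.N2aAlg14
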