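/-
S16 (Program M), brick U6 (helper25): more producers of `HasOrd` (for the norm cases B7/B5):
`hasOrd_toC` (integer series), `hasOrd_sig` (`s_r = q + …` has order `1`),
`hasOrd_C_mul_expand_sig` (`u · s_r(q^p)` has order `p` for a unit `u`).
-/
import Mathlib
import Fermat.Agent.S16.Formal14
import Fermat.Agent.S16.NormContra25
import Fermat.Agent.S16.RSeries25

set_option autoImplicit false

open PowerSeries

namespace Fermat.Agent.S16.RSeriesMore25

open Fermat.Agent.S16.Formal14 Fermat.Agent.S16.NormContra25 Fermat.Agent.S16.RSeries25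

variable {ℓ : ℕ} (L : LocalData ℓ)

/-- `𝔪`-order of an integer series, read off from divisibility by `ℓ`. -/
theorem hasOrd_toC (f : ℤ⟦X⟧) (o : ℕ) (hlow : ∀ k, k < o → (ℓ : ℤ) ∣ coeff k f)
    (htop : ¬ (ℓ : ℤ) ∣ coeff o f) : HasOrd L (toC f) o where
  mem := InR_toC f
  low k hk := by
    rw [coeff_map]
    exact InM_intCast_of_dvd (hlow k hk)
  top := by
    rw [coeff_map]
    exact not_InM_intCast htop

/-- `s_r = q + …` has `𝔪`-order `1`. -/
theorem hasOrd_sig (r : ℕ) : HasOrd L (sig r : ℂ⟦X⟧) 1 where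
  mem := InR_sig r
  low k hk := by
    have : k = 0 := by omega
    subst this
    rw [coeff_sig]
    simpa using InM_zero
  top := by
    rw [coeff_sig]
    simpa using not_InM_one (L := L)

/-- `u · s_r(q^p)` has `𝔪`-order `p` for `u ∈ R ∖ 𝔪`. -/
theorem hasOrd_C_mul_expand_sig {u : ℂ} (hu : u ∈ L.R) (hnu : ¬ L.InM u) (r p : ℕ)
    (hp : p ≠ 0) : HasOrd L (C u * PowerSeries.expand p hp (sig r : ℂ⟦X⟧)) p := by
  have := ((hasOrd_sig L r).expand p hp).const_mul hu hnu
  rwa [mul_one] at this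

/-- integers prime to `ℓ` are units modulo `𝔪`; products. -/
theorem not_InM_mul {x y : ℂ} (hx : x ∈ L.R) (hy : y ∈ L.R) (hnx : ¬ L.InM x)
    (hny : ¬ L.InM y) : ¬ L.InM (x * y) := by
  intro h
  have hp := L.isMaximal.isPrime
  have hxy : (⟨x, hx⟩ * ⟨y, hy⟩ : L.R) ∈ L.m := by
    have := (InM_iff L (L.R.mul_mem hx hy)).mp h
    exact this
  rcases hp.mem_or_mem hxy with h1 | h1
  · exact hnx ((InM_iff L hx).mpr h1)
  · exact hny ((InM_iff L hy).mpr h1)

theorem not_InM_pow {x : ℂ} (hx : x ∈ L.R) (hnx : ¬ L.InM x) (n : ℕ) : ¬ L.InM (x ^ n) := by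
  induction n with
  | zero => rw [pow_zero]; exact not_InM_one
  | succ n ih => rw [pow_succ]; exact not_InM_mul L (L.R.pow_mem hx n) hx ih hnx

end Fermat.Agent.S16.RSeriesMore25
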