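/-
S16 (Program M), brick U6 (helper25): `Formal14.Target_Nl_B5`, i.e. (N_l) for `ℓ = 5 ∣ p + 1`.

Every one of the `p + 1` conjugates of `h = G³ - c³ E6` (evaluated at `pz`) is
`≡ 504 c³ · s_5(q^p)` modulo `5 R⟦q⟧` (`β = -1/p ≡ 1`, `G ≡ G' ≡ c` mod `5`), hence has `𝔪`-order
exactly `p`; the generic norm contradiction gives `12 p (p+1) ≤ p · 6 (p+1)`: absurd.
-/
import Mathlib
import Fermat.Agent.S16.Formal14
import Fermat.Agent.S16.NormContra25
import Fermat.Agent.S16.RSeries25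
import Fermat.Agent.S16.RSeriesMore25

set_option autoImplicit false

open PowerSeries

namespace Fermat.Agent.S16.NormCaseBFive25

open Fermat.Agent.S16.Formal14 Fermat.Agent.S16.NormContra25 Fermat.Agent.S16.RSeries25
  Fermat.Agent.S16.RSeriesMore25

/-! ### two ring identities -/

theorem cube_identity {A : Type*} [CommRing A] (T B S c ρ m S5 : A) (hβ : B = 1 + T * S) :
    B ^ 3 * (c + T * ρ) ^ 3 - c ^ 3 * (1 - m * S5) =
      c ^ 3 * m * S5 + T * ((S * c + B * ρ) *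
        ((B * (c + T * ρ)) ^ 2 + B * (c + T * ρ) * c + c ^ 2)) := by
  subst hβ
  ring

theorem cube_identity_inf {A : Type*} [CommRing A] (T c γ m S5 : A) :
    (c + T * γ) ^ 3 - c ^ 3 * (1 - m * S5) =
      c ^ 3 * m * S5 + T * (3 * c ^ 2 * γ + 3 * c * T * γ ^ 2 + T ^ 2 * γ ^ 3) := by
  ring

/-! ### `G = c + m γ` -/

theorem exists_gamma (m : ℤ) (G : ℤ⟦X⟧) (c : ℤ) (hc : constantCoeff G = c)
    (hm : ∀ k, 1 ≤ k → m ∣ coeff k G) : ∃ γ : ℤ⟦X⟧, G = C c + C m * γ := by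
  refine ⟨PowerSeries.mk fun k => if k = 0 then 0 else coeff k G / m, ?_⟩
  ext k
  rw [map_add, coeff_C, coeff_C_mul, coeff_mk]
  by_cases hk : k = 0
  · subst hk
    rw [if_pos rfl, if_pos rfl, mul_zero, add_zero, coeff_zero_eq_constantCoeff_apply, hc]
  · rw [if_neg hk, if_neg hk, zero_add]
    exact (Int.mul_ediv_cancel' (hm k (Nat.one_le_iff_ne_zero.mpr hk))).symm

/-! ### the target -/

theorem target_Nl_B5 : Target_Nl_B5 := by
  intro p hp h5 L P hc hcong ζ hζ n hS hprod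
  have hp0 : p ≠ 0 := hp.ne_zero
  have hp5 : ¬ 5 ∣ p := by omega
  obtain ⟨t, ht⟩ := h5
  have hpC : (p : ℂ) ≠ 0 := by exact_mod_cast hp0
  have hT : (C (5 : ℂ) : ℂ⟦X⟧) = C ((5 : ℕ) : ℂ) := by norm_num
  have hcR : (P.c : ℂ) ∈ L.R := L.int_mem P.c
  have hcM : ¬ L.InM (P.c : ℂ) := not_InM_intCast (by exact_mod_cast hc)
  have h504R : (504 : ℂ) ∈ L.R := by simp
  have h504M : ¬ L.InM (504 : ℂ) := by
    have : ¬ L.InM (((504 : ℤ)) : ℂ) := not_InM_intCast (by norm_num)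
    simpa using this
  have huR : (P.c : ℂ) ^ 3 * 504 ∈ L.R := L.R.mul_mem (L.R.pow_mem hcR 3) h504R
  have huM : ¬ L.InM ((P.c : ℂ) ^ 3 * 504) :=
    not_InM_mul L (L.R.pow_mem hcR 3) h504R (not_InM_pow L hcR hcM 3) h504M
  have hpinv : ((p : ℂ))⁻¹ ∈ L.R := by
    have := L.inv_mem (p : ℤ) (by exact_mod_cast hp5)
    rwa [Int.cast_natCast] at this
  -- `G = c + 5 γ`, `G' = c + 5 γ'`
  have hcong5 : ∀ k, 1 ≤ k → (5 : ℤ) ∣ coeff k P.G := by
    intro k hk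
    have := hcong k hk
    norm_num at this
    exact this
  have hcong5' : ∀ k, 1 ≤ k → (5 : ℤ) ∣ coeff k P.G' := by
    intro k hk
    rw [← P.Up_G, coeff_Up]
    exact hcong5 _ (Nat.one_le_iff_ne_zero.mpr (Nat.mul_ne_zero hp0 (by omega)))
  obtain ⟨γ, hγ⟩ := exists_gamma 5 P.G P.c P.constG hcong5
  obtain ⟨γ', hγ'⟩ := exists_gamma 5 P.G' P.c P.constG' hcong5'
  have hGC : toC P.G = C (P.c : ℂ) + C 5 * toC γ := by
    rw [hγ, toC, map_add, map_mul, map_C, map_C]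
    simp
  have hGC' : toC P.G' = C (P.c : ℂ) + C 5 * toC γ' := by
    rw [hγ', toC, map_add, map_mul, map_C, map_C]
    simp
  -- the base series
  have hbase : HasOrd L (C ((P.c : ℂ) ^ 3 * 504) * PowerSeries.expand p hp0 (sig 5 : ℂ⟦X⟧)) p :=
    hasOrd_C_mul_expand_sig L huR huM 5 p hp0
  have hbase_eq : (C ((P.c : ℂ) ^ 3 * 504) : ℂ⟦X⟧) = C (P.c : ℂ) ^ 3 * C 504 := by
    rw [map_mul, map_pow]
  have hE6 : E6s ℂ = 1 - C 504 * sig 5 := rfl
  have hE6p : PowerSeries.expand p hp0 (E6s ℂ) =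
      1 - C 504 * PowerSeries.expand p hp0 (sig 5 : ℂ⟦X⟧) := by
    rw [hE6, map_sub, map_one, map_mul, expand_C]
  -- the factor at infinity
  have hinf : HasOrd L (PowerSeries.expand p hp0 (toC (P.G ^ 3 - C (P.c ^ 3) * E6s ℤ))) p := by
    have e1 : toC (P.G ^ 3 - C (P.c ^ 3) * E6s ℤ) =
        (C (P.c : ℂ) + C 5 * toC γ) ^ 3 - C (P.c : ℂ) ^ 3 * (1 - C 504 * sig 5) := by
      rw [← hGC, ← hE6, toC, map_sub, map_mul, map_pow, map_C]
      rw [show PowerSeries.map (Int.castRingHom ℂ) (E6s ℤ) = toC (E6s ℤ) from rfl, toC_E6s]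
      simp
    have e2 : PowerSeries.expand p hp0 (toC (P.G ^ 3 - C (P.c ^ 3) * E6s ℤ)) =
        C ((P.c : ℂ) ^ 3 * 504) * PowerSeries.expand p hp0 (sig 5 : ℂ⟦X⟧) +
          C 5 * PowerSeries.expand p hp0 (3 * C (P.c : ℂ) ^ 2 * toC γ +
            3 * C (P.c : ℂ) * C 5 * toC γ ^ 2 + C 5 ^ 2 * toC γ ^ 3) := by
      rw [e1, cube_identity_inf, hbase_eq, map_add, map_mul, map_mul, map_mul, map_pow, expand_C,
        expand_C, expand_C]
    refine hasOrd_of_eq_add' hbase (InR_expand ?_ p hp0) hT e2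
    have h3 : InR L (3 : ℂ⟦X⟧) := by
      have : (3 : ℂ⟦X⟧) = C (3 : ℂ) := (map_ofNat (C (R := ℂ)) 3).symm
      rw [this]
      exact InR_C (by simp)
    have h5 : InR L (C (5 : ℂ)) := InR_C (by simp)
    have hc' : InR L (C (P.c : ℂ)) := InR_C hcR
    have hg : InR L (toC γ) := InR_toC γ
    exact InR_add (InR_add (InR_mul (InR_mul h3 (InR_pow hc' 2)) hg)
      (InR_mul (InR_mul (InR_mul h3 hc') h5) (InR_pow hg 2))) (InR_mul (InR_pow h5 2) (InR_pow hg 3))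
  -- the other factors
  have hfac : ∀ j, j < p → HasOrd L (C ((-((p : ℂ))⁻¹) ^ 3) *
      (rescale (ζ ^ j) (toC P.G')) ^ 3 -
        C ((P.c : ℂ) ^ 3) * PowerSeries.expand p hp0 (E6s ℂ)) p := by
    intro j _
    set ρ : ℂ⟦X⟧ := rescale (ζ ^ j) (toC γ') with hρ
    have hρR : InR L ρ := by
      refine InR_rescale (InR_toC γ') hp.one_le ?_
      rw [← pow_mul, mul_comm, pow_mul, hζ.pow_eq_one, one_pow]
    have e1 : rescale (ζ ^ j) (toC P.G') = C (P.c : ℂ) + C 5 * ρ := by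
      rw [hGC', map_add, map_mul, rescale_C', rescale_C']
    set s : ℂ := -(t : ℂ) * ((p : ℂ))⁻¹ with hs
    have hβ : (C (-((p : ℂ))⁻¹) : ℂ⟦X⟧) = 1 + C 5 * C s := by
      rw [← map_mul, ← map_one (C (R := ℂ)), ← map_add]
      congr 1
      have htC : (p : ℂ) + 1 = 5 * (t : ℂ) := by exact_mod_cast congrArg (Nat.cast : ℕ → ℂ) ht
      rw [hs]
      field_simp
      linear_combination -htC
    have e2 := cube_identity (C (5 : ℂ) : ℂ⟦X⟧) (C (-((p : ℂ))⁻¹)) (C s) (C (P.c : ℂ)) ρ (C 504)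
      (PowerSeries.expand p hp0 (sig 5 : ℂ⟦X⟧)) hβ
    have e3 : C ((-((p : ℂ))⁻¹) ^ 3) * (rescale (ζ ^ j) (toC P.G')) ^ 3 -
        C ((P.c : ℂ) ^ 3) * PowerSeries.expand p hp0 (E6s ℂ) =
        C ((P.c : ℂ) ^ 3 * 504) * PowerSeries.expand p hp0 (sig 5 : ℂ⟦X⟧) +
          C 5 * ((C s * C (P.c : ℂ) + C (-((p : ℂ))⁻¹) * ρ) *
            ((C (-((p : ℂ))⁻¹) * (C (P.c : ℂ) + C 5 * ρ)) ^ 2 +
              C (-((p : ℂ))⁻¹) * (C (P.c : ℂ) + C 5 * ρ) * C (P.c : ℂ) + C (P.c : ℂ) ^ 2)) := by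
      rw [map_pow, map_pow, e1, hE6p, hbase_eq]
      exact e2
    have hsR : s ∈ L.R := by
      rw [hs]
      exact L.R.mul_mem (L.R.neg_mem (natCast_mem t)) hpinv
    have hβR : -((p : ℂ))⁻¹ ∈ L.R := L.R.neg_mem hpinv
    refine hasOrd_of_eq_add' hbase ?_ hT e3
    have hB : InR L (C (-((p : ℂ))⁻¹)) := InR_C hβR
    have hc' : InR L (C (P.c : ℂ)) := InR_C hcR
    have hG' : InR L (C (P.c : ℂ) + C 5 * ρ) := InR_add hc' (InR_mul (InR_C (by simp)) hρR)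
    have hX : InR L (C (-((p : ℂ))⁻¹) * (C (P.c : ℂ) + C 5 * ρ)) := InR_mul hB hG'
    exact InR_mul (InR_add (InR_mul (InR_C hsR) hc') (InR_mul hB hρR))
      (InR_add (InR_add (InR_pow hX 2) (InR_mul hX hc')) (InR_pow hc' 2))
  -- the contradiction
  refine norm_contra_range L hp0 hS p _ _ p (fun _ => p) hprod hinf hfac ?_
  rw [Finset.sum_const, Finset.card_range, smul_eq_mul]
  have := hp.pos
  nlinarith

end Fermat.Agent.S16.NormCaseBFive25
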