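/-
Program M (S16), chapter U4/U6 support (helper20): REDUCTION MODULO `𝔪` of complex power series
with coefficients in a subring `S ⊆ ℂ`, as a map `redC I : ℂ⟦X⟧ → (S ⧸ I)⟦X⟧`, so that the
congruences of the norm cases become EQUALITIES in `(R ⧸ 𝔪)⟦X⟧` (a domain of characteristic `ℓ`):

* `redC I f := map (Ideal.Quotient.mk I) (toS S f)`, `ordC I f = (redC I f).order` (by `rfl`);
* on `intSeries S` it is a ring homomorphism: `redC_mul/add/sub/neg/one/zero/pow/prod`,
  `redC_C`, `redC_smul`, `redC_expand`, `redC_rescale`, `coeff_redC`, `redC_eq_zero_iff`,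
  `redC_eq_iff`;
* for integer series: `redC_toC : redC I (toC f) = map (Int.castRingHom (S ⧸ I)) f`;
* for `L : LocalData ℓ`: `intCast_eq_zero_iff`, `natCast_eq_zero_iff` in `L.R ⧸ L.m`,
  `map_int_eq_C_of_cong` (a series `≡ c mod ℓ` reduces to the constant `c`);
* bridge to `NormSturm3.HasOrd`: `hasOrd_iff_ordC`, `hasOrd_of_redC`.
-/
import Fermat.Agent.S16.LocalData20
import Fermat.Agent.S16.NormSturm3

set_option autoImplicit false

namespace Fermat.Agent.S16.OrdMore20

open Fermat.Agent.S16 Fermat.Agent.S16.Formal14 Fermat.Agent.S16.IntClosure20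
  Fermat.Agent.S16.LocalData20

section General

variable {S : Subring ℂ} (I : Ideal S)

/-- reduction modulo `I` of a complex power series with coefficients in `S`
(coefficients outside `S` are read as `0`). -/
noncomputable def redC (f : PowerSeries ℂ) : PowerSeries (S ⧸ I) :=
  PowerSeries.map (Ideal.Quotient.mk I) (toS S f)

theorem ordC_eq_order_redC (f : PowerSeries ℂ) : ordC I f = (redC I f).order := rfl

variable {I}

theorem redC_map (g : PowerSeries S) :
    redC I (PowerSeries.map S.subtype g) = PowerSeries.map (Ideal.Quotient.mk I) g := by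
  unfold redC
  rw [toS_map]

theorem redC_mul {f g : PowerSeries ℂ} (hf : f ∈ intSeries S) (hg : g ∈ intSeries S) :
    redC I (f * g) = redC I f * redC I g := by
  unfold redC
  rw [toS_mul hf hg, map_mul]

theorem redC_add {f g : PowerSeries ℂ} (hf : f ∈ intSeries S) (hg : g ∈ intSeries S) :
    redC I (f + g) = redC I f + redC I g := by
  unfold redC
  rw [toS_add hf hg, map_add]

theorem redC_one : redC I (1 : PowerSeries ℂ) = 1 := by
  unfold redC
  rw [toS_one, map_one]

theorem redC_zero : redC I (0 : PowerSeries ℂ) = 0 := by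
  unfold redC
  rw [toS_zero, map_zero]

theorem redC_neg {f : PowerSeries ℂ} (hf : f ∈ intSeries S) : redC I (-f) = -redC I f := by
  obtain ⟨f', rfl⟩ := hf
  rw [← map_neg, redC_map, redC_map, map_neg]

theorem redC_sub {f g : PowerSeries ℂ} (hf : f ∈ intSeries S) (hg : g ∈ intSeries S) :
    redC I (f - g) = redC I f - redC I g := by
  rw [sub_eq_add_neg, redC_add hf ((intSeries S).neg_mem hg), redC_neg hg, sub_eq_add_neg]

theorem redC_pow {f : PowerSeries ℂ} (hf : f ∈ intSeries S) (n : ℕ) :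
    redC I (f ^ n) = redC I f ^ n := by
  induction n with
  | zero => simp [redC_one]
  | succ n ih => rw [pow_succ, pow_succ, redC_mul ((intSeries S).pow_mem hf n) hf, ih]

theorem redC_prod {ι : Type*} (s : Finset ι) {f : ι → PowerSeries ℂ}
    (hf : ∀ i ∈ s, f i ∈ intSeries S) : redC I (∏ i ∈ s, f i) = ∏ i ∈ s, redC I (f i) := by
  unfold redC
  rw [toS_prod s hf, map_prod]

theorem redC_sum {ι : Type*} (s : Finset ι) {f : ι → PowerSeries ℂ}
    (hf : ∀ i ∈ s, f i ∈ intSeries S) : redC I (∑ i ∈ s, f i) = ∑ i ∈ s, redC I (f i) := by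
  classical
  induction s using Finset.induction_on with
  | empty => simp [redC_zero]
  | insert a s ha ih =>
    rw [Finset.sum_insert ha, Finset.sum_insert ha,
      redC_add (hf a (Finset.mem_insert_self a s))
        ((intSeries S).sum_mem fun i hi => hf i (Finset.mem_insert_of_mem hi)),
      ih fun i hi => hf i (Finset.mem_insert_of_mem hi)]

theorem coeff_redC {f : PowerSeries ℂ} (hf : f ∈ intSeries S) (k : ℕ) :
    PowerSeries.coeff k (redC I f) =
      Ideal.Quotient.mk I ⟨PowerSeries.coeff k f, mem_intSeries.1 hf k⟩ := by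
  unfold redC
  rw [PowerSeries.coeff_map, coeff_toS (mem_intSeries.1 hf k)]

theorem coeff_redC_eq_zero_iff {f : PowerSeries ℂ} (hf : f ∈ intSeries S) (k : ℕ) :
    PowerSeries.coeff k (redC I f) = 0 ↔ PowerSeries.coeff k f ∈ idealC I :=
  coeff_map_toS_eq_zero_iff hf k

theorem redC_eq_zero_iff {f : PowerSeries ℂ} (hf : f ∈ intSeries S) :
    redC I f = 0 ↔ ∀ k, PowerSeries.coeff k f ∈ idealC I := by
  rw [← ordC_eq_top_iff hf, ordC_eq_order_redC, PowerSeries.order_eq_top]

/-- two series over `S` have the same reduction iff they are congruent coefficientwise. -/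
theorem redC_eq_iff {f g : PowerSeries ℂ} (hf : f ∈ intSeries S) (hg : g ∈ intSeries S) :
    redC I f = redC I g ↔
      ∀ k, PowerSeries.coeff k f - PowerSeries.coeff k g ∈ idealC I := by
  rw [← sub_eq_zero, ← redC_sub hf hg, redC_eq_zero_iff ((intSeries S).sub_mem hf hg)]
  simp only [map_sub]

theorem redC_C {c : ℂ} (hc : c ∈ S) :
    redC I (PowerSeries.C c) = PowerSeries.C (Ideal.Quotient.mk I ⟨c, hc⟩) := by
  have h : PowerSeries.C c = PowerSeries.map S.subtype (PowerSeries.C (⟨c, hc⟩ : S)) := by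
    rw [PowerSeries.map_C]; rfl
  rw [h, redC_map, PowerSeries.map_C]

/-- the reduction of a constant in `I` is `0`. -/
theorem redC_C_of_mem {c : ℂ} (hc : c ∈ idealC I) : redC I (PowerSeries.C c) = 0 := by
  obtain ⟨h, hc'⟩ := mem_idealC.1 hc
  rw [redC_C h, Ideal.Quotient.eq_zero_iff_mem.2 hc', map_zero]

/-- constants congruent modulo `I` have the same reduction. -/
theorem redC_C_congr {c d : ℂ} (hc : c ∈ S) (hd : d ∈ S) (h : c - d ∈ idealC I) :
    redC I (PowerSeries.C c) = redC I (PowerSeries.C d) := by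
  rw [redC_eq_iff (C_mem_intSeries hc) (C_mem_intSeries hd)]
  intro k
  rw [← map_sub, ← map_sub, PowerSeries.coeff_C]
  split_ifs
  · exact h
  · exact (idealC I).zero_mem

theorem redC_smul {c : ℂ} (hc : c ∈ S) {f : PowerSeries ℂ} (hf : f ∈ intSeries S) :
    redC I (c • f) = Ideal.Quotient.mk I ⟨c, hc⟩ • redC I f := by
  have h1 : c • f = PowerSeries.C c * f := by
    ext k; simp
  rw [h1, redC_mul (C_mem_intSeries hc) hf, redC_C hc]
  ext k
  simp

theorem redC_expand {N : ℕ} (hN : N ≠ 0) {f : PowerSeries ℂ} (hf : f ∈ intSeries S) :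
    redC I (PowerSeries.expand N hN f) = PowerSeries.expand N hN (redC I f) := by
  unfold redC
  rw [toS_expand hN hf, PowerSeries.map_expand]

theorem redC_rescale {a : ℂ} (ha : a ∈ S) {f : PowerSeries ℂ} (hf : f ∈ intSeries S) :
    redC I (PowerSeries.rescale a f) =
      PowerSeries.rescale (Ideal.Quotient.mk I ⟨a, ha⟩) (redC I f) := by
  obtain ⟨f', rfl⟩ := hf
  have h : PowerSeries.rescale a (PowerSeries.map S.subtype f') =
      PowerSeries.map S.subtype (PowerSeries.rescale (⟨a, ha⟩ : S) f') := by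
    ext k
    simp [PowerSeries.coeff_rescale, PowerSeries.coeff_map]
  rw [h, redC_map, redC_map]
  ext k
  rw [PowerSeries.coeff_map, PowerSeries.coeff_rescale, PowerSeries.coeff_rescale,
    PowerSeries.coeff_map, map_mul, map_pow]

/-- the reduction of an integer series is its image under `ℤ → S ⧸ I`. -/
theorem redC_toC (f : PowerSeries ℤ) :
    redC I (toC f) = PowerSeries.map (Int.castRingHom (S ⧸ I)) f := by
  have h : toC f = PowerSeries.map S.subtype (PowerSeries.map (Int.castRingHom S) f) := by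
    ext k
    simp [PowerSeries.coeff_map]
  rw [h, redC_map]
  ext k
  simp [PowerSeries.coeff_map]

end General

section LD

variable {ℓ : ℕ} (L : LocalData ℓ)

/-- the reduction of an integer series modulo `𝔪`. -/
theorem redC_toC_L (f : PowerSeries ℤ) :
    redC L.m (toC f) = PowerSeries.map (Int.castRingHom (L.R ⧸ L.m)) f :=
  redC_toC f

variable (hℓ : ℓ.Prime)

include hℓ

/-- in the residue field `R ⧸ 𝔪`, an integer vanishes iff it is divisible by `ℓ`. -/
theorem intCast_eq_zero_iff (a : ℤ) : ((a : ℤ) : L.R ⧸ L.m) = 0 ↔ (ℓ : ℤ) ∣ a := by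
  rw [← intCast_mem_m_iff L hℓ a]
  have : ((a : ℤ) : L.R ⧸ L.m) = Ideal.Quotient.mk L.m ((a : ℤ) : L.R) := by simp
  rw [this, Ideal.Quotient.eq_zero_iff_mem, ← coe_mem_idealC]
  simp

theorem natCast_eq_zero_iff (a : ℕ) : ((a : ℕ) : L.R ⧸ L.m) = 0 ↔ ℓ ∣ a := by
  have := intCast_eq_zero_iff L hℓ (a : ℤ)
  rw [Int.natCast_dvd_natCast] at this
  simpa using this

/-- `R ⧸ 𝔪` has characteristic `ℓ`. -/
theorem charP_residue : CharP (L.R ⧸ L.m) ℓ :=
  ⟨fun a => natCast_eq_zero_iff L hℓ a⟩

/-- integers congruent modulo `ℓ` are equal in `R ⧸ 𝔪`. -/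
theorem intCast_eq_intCast_iff (a b : ℤ) :
    ((a : ℤ) : L.R ⧸ L.m) = ((b : ℤ) : L.R ⧸ L.m) ↔ (ℓ : ℤ) ∣ a - b := by
  rw [← sub_eq_zero, ← Int.cast_sub, intCast_eq_zero_iff L hℓ]

/-- an integer series all of whose higher coefficients are divisible by `ℓ` reduces to its
constant term. -/
theorem map_int_eq_C_of_cong {f : PowerSeries ℤ} {e : ℕ} (he : 1 ≤ e)
    (h : ∀ k, 1 ≤ k → ((ℓ : ℤ) ^ e) ∣ PowerSeries.coeff k f) :
    PowerSeries.map (Int.castRingHom (L.R ⧸ L.m)) f =
      PowerSeries.C (((PowerSeries.constantCoeff f : ℤ)) : L.R ⧸ L.m) := by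
  ext k
  rw [PowerSeries.coeff_map, PowerSeries.coeff_C]
  split_ifs with hk
  · subst hk
    simp
  · have h1 : (ℓ : ℤ) ∣ PowerSeries.coeff k f :=
      (dvd_pow_self (ℓ : ℤ) (by omega)).trans (h k (Nat.one_le_iff_ne_zero.2 hk))
    exact (intCast_eq_zero_iff L hℓ _).2 h1

end LD

/-! ### bridge to helper3's relational `NormSturm3.HasOrd` -/

section HasOrdBridge

open Fermat.Agent.S16.NormSturm3

variable {ℓ : ℕ} (L : LocalData ℓ)

/-- `HasOrd L f o` is `f ∈ intSeries L.R ∧ ordC L.m f = o`. -/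
theorem hasOrd_iff_ordC (f : PowerSeries ℂ) (o : ℕ) :
    HasOrd L f o ↔ f ∈ intSeries L.R ∧ ordC L.m f = o := by
  constructor
  · intro H
    have hf : f ∈ intSeries L.R := mem_intSeries.2 H.mem
    refine ⟨hf, ordC_eq hf (fun i hi => (inM_iff L).1 (H.lt i hi)) fun h => H.ne ((inM_iff L).2 h)⟩
  · rintro ⟨hf, ho⟩
    obtain ⟨k, hk, hk1, hk2⟩ := exists_coeff_not_mem_of_ordC_ne_top hf
      (by rw [ho]; exact ENat.natCast_ne_top o)
    have hko : k = o := by
      rw [ho] at hk
      exact_mod_cast hk.symm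
    subst hko
    exact ⟨mem_intSeries.1 hf, fun i hi => (inM_iff L).2 (hk2 i hi),
      fun h => hk1 ((inM_iff L).1 h)⟩

/-- to prove `HasOrd L f o`: compute the reduction of `f` in `(R ⧸ 𝔪)⟦X⟧` and its order. -/
theorem hasOrd_of_redC {f : PowerSeries ℂ} (hf : f ∈ intSeries L.R)
    {g : PowerSeries (L.R ⧸ L.m)} (h : redC L.m f = g) {o : ℕ} (hg : g.order = o) :
    HasOrd L f o := by
  rw [hasOrd_iff_ordC]
  exact ⟨hf, by rw [ordC_eq_order_redC, h, hg]⟩

end HasOrdBridge

end Fermat.Agent.S16.OrdMore20
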