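/-
S16, chapter A, helper12: arithmetic of `σ'(k)` (sum of the divisors of `k` prime to `p`):
`σ'(k) = σ(k₀)` (`k₀` the prime-to-`p` part of `k`) and the Hecke recursions
`σ'(ℓk) = (1+ℓ)σ'(k) - [ℓ ∣ k] ℓ σ'(k/ℓ)` (`ℓ ≠ p`), `σ'(pk) = σ'(k)`.
-/
import Fermat.Agent.S16.Top12

set_option autoImplicit false

open ArithmeticFunction

namespace Fermat.Agent.S16.SigmaPrime12

open Fermat.Agent.S16.Top12

/-- geometric sums -/
theorem geom_rec (l n : ℕ) :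
    (∑ k ∈ Finset.range (n + 3), (l : ℤ) ^ k) =
      (1 + (l : ℤ)) * (∑ k ∈ Finset.range (n + 2), (l : ℤ) ^ k)
        - (l : ℤ) * ∑ k ∈ Finset.range (n + 1), (l : ℤ) ^ k := by
  rw [Finset.sum_range_succ _ (n + 2), Finset.sum_range_succ _ (n + 1)]
  ring

/-- `σ(ℓ m) = (1+ℓ) σ(m) - [ℓ ∣ m] ℓ σ(m/ℓ)`. -/
theorem sigma_prime_mul {l : ℕ} (hl : l.Prime) {m : ℕ} (hm : m ≠ 0) :
    ((sigma 1 (l * m) : ℕ) : ℤ) =
      (1 + (l : ℤ)) * ((sigma 1 m : ℕ) : ℤ) -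
        if l ∣ m then (l : ℤ) * ((sigma 1 (m / l) : ℕ) : ℤ) else 0 := by
  obtain ⟨a, m', hnd, rfl⟩ := Nat.exists_eq_pow_mul_and_not_dvd hm l hl.ne_one
  have hcop : ∀ k : ℕ, Nat.Coprime (l ^ k) m' := fun k =>
    Nat.Coprime.pow_left k ((Nat.Prime.coprime_iff_not_dvd hl).mpr hnd)
  have hmul : ∀ k : ℕ, sigma 1 (l ^ k * m') = sigma 1 (l ^ k) * sigma 1 m' := fun k =>
    isMultiplicative_sigma.map_mul_of_coprime (hcop k)
  have hpow : ∀ k : ℕ, ((sigma 1 (l ^ k) : ℕ) : ℤ) = ∑ i ∈ Finset.range (k + 1), (l : ℤ) ^ i := by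
    intro k
    rw [sigma_one_apply_prime_pow hl]; push_cast; rfl
  have hlm : l * (l ^ a * m') = l ^ (a + 1) * m' := by rw [pow_succ]; ring
  rw [hlm, hmul, hmul]
  push_cast
  rw [hpow, hpow]
  rcases a with _ | a
  · have : ¬ l ∣ l ^ 0 * m' := by simpa using hnd
    rw [if_neg this]
    simp [Finset.sum_range_succ]
  · have hd : l ∣ l ^ (a + 1) * m' := Dvd.dvd.mul_right (dvd_pow_self l (by omega)) m'
    rw [if_pos hd]
    have hdiv : l ^ (a + 1) * m' / l = l ^ a * m' := by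
      rw [pow_succ, mul_assoc, mul_comm l m', ← mul_assoc]
      exact Nat.mul_div_cancel _ hl.pos
    rw [hdiv, hmul]
    push_cast
    rw [hpow, geom_rec]
    ring

variable (p : ℕ) [Fact p.Prime]

/-- `σ'(p^a k₀) = σ(k₀)` for `p ∤ k₀`. -/
theorem sigmaPrime_pow_mul (a : ℕ) {k₀ : ℕ} (hk₀ : k₀ ≠ 0) (hnd : ¬ p ∣ k₀) :
    sigmaPrime p (p ^ a * k₀) = ((sigma 1 k₀ : ℕ) : ℤ) := by
  have hp : p.Prime := Fact.out
  unfold sigmaPrime
  rw [sigma_one_apply]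
  push_cast
  apply Finset.sum_congr _ (fun _ _ => rfl)
  ext d
  simp only [Finset.mem_filter, Nat.mem_divisors]
  constructor
  · rintro ⟨⟨hd, -⟩, hpd⟩
    refine ⟨?_, hk₀⟩
    have hc : Nat.Coprime d (p ^ a) :=
      Nat.Coprime.pow_right a ((Nat.Prime.coprime_iff_not_dvd hp).mpr hpd).symm
    exact hc.dvd_of_dvd_mul_left hd
  · rintro ⟨hd, -⟩
    refine ⟨⟨Dvd.dvd.mul_left hd _, mul_ne_zero (pow_ne_zero _ hp.ne_zero) hk₀⟩, ?_⟩
    exact fun hpd => hnd (dvd_trans hpd hd)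

/-- `σ'(pk) = σ'(k)`. -/
theorem sigmaPrime_p_mul {k : ℕ} (hk : k ≠ 0) : sigmaPrime p (p * k) = sigmaPrime p k := by
  have hp : p.Prime := Fact.out
  obtain ⟨a, k₀, hnd, rfl⟩ := Nat.exists_eq_pow_mul_and_not_dvd hk p hp.ne_one
  have hk₀ : k₀ ≠ 0 := fun h => hk (by rw [h, mul_zero])
  have : p * (p ^ a * k₀) = p ^ (a + 1) * k₀ := by rw [pow_succ]; ring
  rw [this, sigmaPrime_pow_mul p _ hk₀ hnd, sigmaPrime_pow_mul p _ hk₀ hnd]

/-- `σ'(ℓk) = (1+ℓ)σ'(k) - [ℓ ∣ k] ℓ σ'(k/ℓ)` for a prime `ℓ ≠ p`. -/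
theorem sigmaPrime_l_mul {l : ℕ} (hl : l.Prime) (hlp : l ≠ p) {k : ℕ} (hk : k ≠ 0) :
    sigmaPrime p (l * k) =
      (1 + (l : ℤ)) * sigmaPrime p k - if l ∣ k then (l : ℤ) * sigmaPrime p (k / l) else 0 := by
  have hp : p.Prime := Fact.out
  obtain ⟨a, k₀, hnd, rfl⟩ := Nat.exists_eq_pow_mul_and_not_dvd hk p hp.ne_one
  have hk₀ : k₀ ≠ 0 := fun h => hk (by rw [h, mul_zero])
  have hpl : ¬ p ∣ l := fun h => hlp ((Nat.prime_dvd_prime_iff_eq hp hl).mp h).symm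
  have hlpa : Nat.Coprime l (p ^ a) :=
    Nat.Coprime.pow_right a ((Nat.coprime_primes hl hp).mpr hlp)
  have h1 : l * (p ^ a * k₀) = p ^ a * (l * k₀) := by ring
  have hnd' : ¬ p ∣ l * k₀ := fun h => by
    rcases (Nat.Prime.dvd_mul hp).mp h with h | h
    · exact hpl h
    · exact hnd h
  rw [h1, sigmaPrime_pow_mul p _ (mul_ne_zero hl.ne_zero hk₀) hnd',
    sigmaPrime_pow_mul p _ hk₀ hnd, sigma_prime_mul hl hk₀]
  have hiff : l ∣ p ^ a * k₀ ↔ l ∣ k₀ :=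
    ⟨fun h => hlpa.dvd_of_dvd_mul_left h, fun h => Dvd.dvd.mul_left h _⟩
  by_cases hd : l ∣ k₀
  · rw [if_pos hd, if_pos (hiff.mpr hd)]
    obtain ⟨c, rfl⟩ := hd
    have hc0 : c ≠ 0 := fun h => hk₀ (by rw [h, mul_zero])
    have hndc : ¬ p ∣ c := fun h => hnd (Dvd.dvd.mul_left h _)
    have e1 : p ^ a * (l * c) / l = p ^ a * c := by
      rw [show p ^ a * (l * c) = p ^ a * c * l by ring]
      exact Nat.mul_div_cancel _ hl.pos
    have e2 : l * c / l = c := Nat.mul_div_cancel_left _ hl.pos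
    rw [e1, e2, sigmaPrime_pow_mul p _ hc0 hndc]
  · rw [if_neg hd, if_neg (fun h => hd (hiff.mp h))]

/-- `σ'(k) = σ(k) - [p ∣ k] p σ(k/p)`: the coefficient of `(p E₂(pz) - E₂(z))/24` in the usual form. -/
theorem sigmaPrime_eq_sigma_sub {k : ℕ} (hk : k ≠ 0) :
    sigmaPrime p k =
      ((sigma 1 k : ℕ) : ℤ) - if p ∣ k then (p : ℤ) * ((sigma 1 (k / p) : ℕ) : ℤ) else 0 := by
  have hp : p.Prime := Fact.out
  by_cases hd : p ∣ k
  · obtain ⟨c, rfl⟩ := hd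
    have hc : c ≠ 0 := fun h => hk (by rw [h, mul_zero])
    rw [if_pos (dvd_mul_right p c), Nat.mul_div_cancel_left _ hp.pos, sigmaPrime_p_mul p hc,
      sigma_prime_mul hp hc]
    -- σ'(c) = (1+p)σ(c) - [p∣c] p σ(c/p) - p σ(c): induction-free via the decomposition of c
    obtain ⟨a, c₀, hnd, rfl⟩ := Nat.exists_eq_pow_mul_and_not_dvd hc p hp.ne_one
    have hc₀ : c₀ ≠ 0 := fun h => hc (by rw [h, mul_zero])
    rw [sigmaPrime_pow_mul p a hc₀ hnd]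
    have hcop : ∀ j : ℕ, Nat.Coprime (p ^ j) c₀ := fun j =>
      Nat.Coprime.pow_left j ((Nat.Prime.coprime_iff_not_dvd hp).mpr hnd)
    have hmul : ∀ j : ℕ, sigma 1 (p ^ j * c₀) = sigma 1 (p ^ j) * sigma 1 c₀ := fun j =>
      isMultiplicative_sigma.map_mul_of_coprime (hcop j)
    have hpow : ∀ j : ℕ, ((sigma 1 (p ^ j) : ℕ) : ℤ) = ∑ i ∈ Finset.range (j + 1), (p : ℤ) ^ i := by
      intro j
      rw [sigma_one_apply_prime_pow hp]; push_cast; rfl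
    rcases a with _ | a
    · have : ¬ p ∣ p ^ 0 * c₀ := by simpa using hnd
      rw [if_neg this, hmul]
      push_cast
      rw [hpow]
      simp only [zero_add, Finset.range_one, Finset.sum_singleton, pow_zero, one_mul, sub_zero]
      ring
    · have hd : p ∣ p ^ (a + 1) * c₀ := Dvd.dvd.mul_right (dvd_pow_self p (by omega)) c₀
      have hdiv : p ^ (a + 1) * c₀ / p = p ^ a * c₀ := by
        rw [pow_succ, mul_assoc, mul_comm p c₀, ← mul_assoc]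
        exact Nat.mul_div_cancel _ hp.pos
      rw [if_pos hd, hdiv, hmul, hmul]
      push_cast
      rw [hpow, hpow, Finset.sum_range_succ _ (a + 1)]
      have hgeo : (p : ℤ) * ∑ i ∈ Finset.range (a + 1), (p : ℤ) ^ i
          = (∑ i ∈ Finset.range (a + 1), (p : ℤ) ^ i) + (p : ℤ) ^ (a + 1) - 1 := by
        rw [Finset.mul_sum]
        have : ∑ i ∈ Finset.range (a + 1), (p : ℤ) * (p : ℤ) ^ i
            = ∑ i ∈ Finset.range (a + 1), (p : ℤ) ^ (i + 1) :=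
          Finset.sum_congr rfl fun i _ => by ring
        rw [this, ← Finset.sum_range_succ (fun i => (p : ℤ) ^ i) (a + 1),
          Finset.sum_range_succ' (fun i => (p : ℤ) ^ i) (a + 1)]
        simp
      linear_combination ((sigma 1 c₀ : ℕ) : ℤ) * hgeo
  · rw [if_neg hd, sub_zero]
    have := sigmaPrime_pow_mul p 0 hk hd
    simpa using this

end Fermat.Agent.S16.SigmaPrime12
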