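/-
S16, upper bound, chapter U6 (helper24): the abstract END of every norm argument, in the `ordC`
language of `IntClosure20`:  if `V_N n = F` with `F ∈ S⟦q⟧` of exact `I`-order `N * O`, `n` satisfies
the Sturm property of weight `K` and `K < 12 * O`, we have a contradiction.
Also the bridge between `Formal14.LocalData.InM` and `IntClosure20.idealC`.
-/
import Fermat.Agent.S16.Formal14
import Fermat.Agent.S16.IntClosure20

set_option autoImplicit false

open PowerSeries

namespace Fermat.Agent.S16.SturmEnd24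

open Fermat.Agent.S16.Formal14 Fermat.Agent.S16.IntClosure20

/-- `Formal14.LocalData.InM` is membership in `idealC L.m`. -/
theorem inM_iff {ℓ : ℕ} (L : LocalData ℓ) (x : ℂ) : L.InM x ↔ x ∈ idealC L.m := by
  rw [mem_idealC]
  constructor
  · rintro ⟨r, hr, rfl⟩
    exact ⟨r.2, hr⟩
  · rintro ⟨h, hx⟩
    exact ⟨⟨x, h⟩, hx, rfl⟩

/-- coefficients of `n` are coefficients of `V_N n`. -/
theorem coeff_of_expand {N : ℕ} (hN : N ≠ 0) (n : ℂ⟦X⟧) (k : ℕ) :
    coeff k n = coeff (N * k) (expand N hN n) := by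
  rw [PowerSeries.coeff_expand_mul]

/-- if `V_N n ∈ S⟦q⟧` then `n ∈ S⟦q⟧`. -/
theorem mem_intSeries_of_expand {S : Subring ℂ} {N : ℕ} (hN : N ≠ 0) {n : ℂ⟦X⟧}
    (h : expand N hN n ∈ intSeries S) : n ∈ intSeries S := by
  rw [mem_intSeries] at h ⊢
  intro k
  rw [coeff_of_expand hN n k]
  exact h _

/-- **The abstract end of a norm argument.** -/
theorem sturm_end {S : Subring ℂ} {I : Ideal S} {N K : ℕ} (hN : N ≠ 0) {n : ℂ⟦X⟧}
    (hS : SturmProp K n) {F : ℂ⟦X⟧} (hF : F ∈ intSeries S) (hexp : expand N hN n = F)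
    (O : ℕ) (hord : ordC I F = ((N * O : ℕ) : ℕ∞)) (hbig : K < 12 * O) : False := by
  have hn : n ∈ intSeries S := mem_intSeries_of_expand hN (hexp ▸ hF)
  -- `ord n = O`
  have h1 : N • ordC I n = ((N * O : ℕ) : ℕ∞) := by
    rw [← ordC_expand hN hn, hexp, hord]
  have hO : ordC I n = (O : ℕ∞) := by
    by_cases hx : ordC I n = ⊤
    · exfalso
      rw [hx] at h1
      have : N • (⊤ : ℕ∞) = ⊤ := by
        rw [nsmul_eq_mul]
        exact ENat.mul_top (by exact_mod_cast hN)
      rw [this] at h1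
      exact ENat.top_ne_natCast _ h1
    · obtain ⟨m, hm⟩ := ENat.ne_top_iff_exists.1 hx
      rw [← hm] at h1 ⊢
      have h2 : ((N * m : ℕ) : ℕ∞) = ((N * O : ℕ) : ℕ∞) := by
        rw [← h1, nsmul_eq_mul]; push_cast; rfl
      have h3 : N * m = N * O := by exact_mod_cast h2
      have : m = O := Nat.eq_of_mul_eq_mul_left (Nat.pos_of_ne_zero hN) h3
      rw [this]
  -- the low coefficients are in `I`
  have hlow : ∀ k, 12 * k ≤ K → ∃ r : S, r ∈ I ∧ (r : ℂ) = coeff k n := by
    intro k hk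
    have hkO : k < O := by omega
    have := coeff_mem_of_lt_ordC (I := I) hn (k := k) (by rw [hO]; exact_mod_cast hkO)
    obtain ⟨h, hx⟩ := mem_idealC.1 this
    exact ⟨⟨_, h⟩, hx, rfl⟩
  have hall := hS S I (mem_intSeries.1 hn) hlow
  have htop : ordC I n = ⊤ := by
    rw [ordC_eq_top_iff hn]
    intro k
    obtain ⟨r, hr, hrk⟩ := hall k
    rw [← hrk]
    exact coe_mem_idealC.2 hr
  rw [htop] at hO
  exact ENat.top_ne_natCast _ hO

end Fermat.Agent.S16.SturmEnd24
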